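import Fermat.Agent.TW.Coh.CoverExt

/-!
# The pairing of `Ext¹_G(N, C)` with crossed homomorphisms into `N`

For an extension `0 → C → W → I_G → 0` with `W` cohomologically trivial at `p`, a class of
`Ext¹_G(N, C)` becomes the trace of some `k : Rel → W`; the lattice part of `k` modulo `p` is a
vector `ψ : G → Hom(N, 𝔽_p)` and `∑ x, ψ x (q x)` depends on the class and on the crossed
homomorphism `q` only.  The left kernel consists of the traces from `C`, the right kernel of the
coboundaries.
-/

set_option autoImplicit false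
set_option linter.unusedSectionVars false
set_option linter.style.haveILetI false

noncomputable section

namespace FLTAgent.PoitouTate

open FLTAgent.TW FLTAgent.TW.Coh

variable {G : Type} [Group G] [Fintype G] {p n : ℕ} [Fact p.Prime]
variable {B : Type} [AddCommGroup B] [DistribMulAction G B] (D : CoverData G p n B)
variable {N : Type} [AddCommGroup N] [DistribMulAction G N] (hN : ∀ m : N, p • m = 0)

/-- The pairing of a vector of functionals with a function into `N`. -/
def vecPair (ψ : G → (N →+ ZMod p)) (q : G → N) : ZMod p := ∑ x : G, ψ x (q x)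

theorem vecPair_add_left (ψ ψ' : G → (N →+ ZMod p)) (q : G → N) :
    vecPair (ψ + ψ') q = vecPair ψ q + vecPair ψ' q := by
  simp only [vecPair, Pi.add_apply, AddMonoidHom.add_apply, Finset.sum_add_distrib]

theorem vecPair_sub_left (ψ ψ' : G → (N →+ ZMod p)) (q : G → N) :
    vecPair (ψ - ψ') q = vecPair ψ q - vecPair ψ' q := by
  simp only [vecPair, Pi.sub_apply, AddMonoidHom.sub_apply, Finset.sum_sub_distrib]

theorem vecPair_add_right (ψ : G → (N →+ ZMod p)) (q q' : G → N) :
    vecPair ψ (q + q') = vecPair ψ q + vecPair ψ q' := by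
  simp only [vecPair, Pi.add_apply, map_add, Finset.sum_add_distrib]

/-- The vector of a map on relations. -/
def latVec (k : Coh.Rel G N →+ D.cover) : G → (N →+ ZMod p) :=
  fun x => (coordFp x).comp (modPHom hN (D.latt.comp k))

theorem latVec_add (k k' : Coh.Rel G N →+ D.cover) :
    latVec D hN (k + k') = latVec D hN k + latVec D hN k' := funext fun x => by
  show (coordFp x).comp (modPHom hN (D.latt.comp (k + k'))) = _
  rw [AddMonoidHom.comp_add, map_add, AddMonoidHom.comp_add]
  rfl

theorem latVec_sub (k k' : Coh.Rel G N →+ D.cover) :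
    latVec D hN (k - k') = latVec D hN k - latVec D hN k' := by
  have h := latVec_add D hN (k - k') k'
  rw [sub_add_cancel] at h
  rw [h, add_sub_cancel_right]

theorem latVec_zero : latVec D hN (0 : Coh.Rel G N →+ D.cover) = 0 := funext fun x => by
  show (coordFp x).comp (modPHom hN (D.latt.comp (0 : Coh.Rel G N →+ D.cover))) = _
  rw [AddMonoidHom.comp_zero, map_zero, AddMonoidHom.comp_zero]
  rfl

theorem latVec_hconj (σ : G) (k : Coh.Rel G N →+ D.cover) :
    latVec D hN (hconj σ k) = dualShift σ (latVec D hN k) := funext fun x =>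
  AddMonoidHom.ext fun m => by
    show coordFp x (modPHom hN (D.latt.comp (hconj σ k)) m) =
      coordFp (σ⁻¹ * x) (modPHom hN (D.latt.comp k) (σ⁻¹ • m))
    rw [show D.latt.comp (hconj σ k) = hconj σ (D.latt.comp k) from
      AddMonoidHom.ext fun y => D.latt_mem σ _, modPHom_hconj, hconj_apply, coordFp_smul]

theorem latVec_sum (k : Coh.Rel G N →+ D.cover) : ∑ x : G, latVec D hN k x = 0 :=
  AddMonoidHom.ext fun m => by
    obtain ⟨y, rfl⟩ := proj_surjective (G := G) m
    rw [AddMonoidHom.finsetSum_apply, AddMonoidHom.zero_apply]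
    show (∑ x : G, coordFp x (modPHom hN (D.latt.comp k) (proj G N y)) : ZMod p) = 0
    rw [← augP_eq_sum, modPHom_apply]
    show ((aug (D.latt (k _)) : ℤ) : ZMod p) = 0
    rw [show aug (D.latt (k _)) = 0 from (k _).2.1, Int.cast_zero]

/-- The vector at `x` of an element, as a coordinate. -/
theorem latVec_apply (k : Coh.Rel G N →+ D.cover) (x : G) (m : N) :
    latVec D hN k x m = ((D.latt (k (pRel G p hN (Free.of 1 m))) x : ℤ) : ZMod p) := rfl

/-! ### The pairing does not depend on the trace -/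

/-- The relation of a crossed homomorphism at two elements. -/
def crossRel {q : G → N} (hq : IsCrossed G q) (g h : G) : Coh.Rel G N :=
  ⟨Free.of 1 (q g) + Free.of g (q h) - Free.of 1 (q (g * h)), by
    rw [mem_rel_iff, map_sub, map_add, proj_of, proj_of, proj_of, one_smul, one_smul, hq g h,
      sub_self]⟩

theorem crossRel_shift {q : G → N} (hq : IsCrossed G q) (τ g h : G) :
    τ • crossRel hq g h = crossRel hq (τ * g) h - crossRel hq τ (g * h) + crossRel hq τ g := by
  refine Subtype.ext ?_
  rw [Rel.coe_smul]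
  simp only [crossRel, AddSubgroup.coe_add, AddSubgroup.coe_sub, smul_add, smul_sub, Free.smul_of,
    mul_one, mul_assoc]
  abel

/-- A sum of a function which is constant on the cosets `P x` is a multiple of `#P`. -/
theorem card_dvd_sum_of_invariant (P : Subgroup G) [Fintype P] (e : G → ℤ)
    (he : ∀ h ∈ P, ∀ x, e (h * x) = e x) :
    ∃ s : ℤ, ∑ x : G, e x = (Fintype.card P : ℤ) * s := by
  classical
  refine ⟨∑ c : G ⧸ P, e (Quotient.out c)⁻¹, ?_⟩
  have h1 : ∑ x : G, e x = ∑ x : G, e x⁻¹ := (Fintype.sum_equiv (Equiv.inv G) _ _ fun x => rfl).symm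
  rw [h1, ← Fintype.sum_equiv (P.groupEquivQuotientProdSubgroup).symm
    (fun cx : (G ⧸ P) × P => e ((P.groupEquivQuotientProdSubgroup).symm cx)⁻¹) _ fun cx => rfl,
    Fintype.sum_prod_type, Finset.mul_sum]
  refine Finset.sum_congr rfl fun c _ => ?_
  rw [← smul_eq_mul, ← Finset.card_univ, Nat.cast_smul_eq_nsmul, ← Finset.sum_const]
  refine Finset.sum_congr rfl fun h _ => ?_
  set x := (P.groupEquivQuotientProdSubgroup).symm (c, h) with hx
  have hc : (Quotient.out c)⁻¹ * x ∈ P := by
    have h2 : ((P.groupEquivQuotientProdSubgroup) x).1 = c := by rw [hx, Equiv.apply_symm_apply]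
    have h3 : (x : G ⧸ P) = c := h2
    rw [← h3]
    exact QuotientGroup.eq.mp (QuotientGroup.out_eq' (x : G ⧸ P))
  rw [show x⁻¹ = ((Quotient.out c)⁻¹ * x)⁻¹ * (Quotient.out c)⁻¹ by group]
  exact he _ (inv_mem hc) _

variable {P : Subgroup G} [Fintype P]

/-- If the trace of `k` extends to the free module, its vector kills the crossed
homomorphisms. -/
theorem vecPair_eq_zero_of_extend (hW : IsCT p P D.cover) (k : Coh.Rel G N →+ D.cover)
    (E : eqHom G (Free G N) D.cover) (hE : ∀ y : Coh.Rel G N, E.1 y = htrace G k y) {q : G → N}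
    (hq : IsCrossed G q) : vecPair (latVec D hN k) q = 0 := by
  classical
  -- two cochains with the same coboundary
  let X : G → D.cover := fun g => E.1 (Free.of 1 (q g))
  let Y : G → D.cover := fun g => ∑ σ : G, σ • k (crossRel hq σ⁻¹ g)
  have hEg : ∀ g m, E.1 (Free.of g m) = g • E.1 (Free.of 1 m) := fun g m => by
    rw [← E.2, Free.smul_of, mul_one]
  have htr : ∀ y, htrace G k y = ∑ σ : G, σ • k (σ⁻¹ • y) := fun y => by
    rw [htrace_apply, AddMonoidHom.finsetSum_apply]
    exact Finset.sum_congr rfl fun σ _ => hconj_apply σ k y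
  have hdX : ∀ g h, htrace G k (crossRel hq g h) = X g + g • X h - X (g * h) := fun g h => by
    rw [← hE]
    show E.1 (Free.of 1 (q g) + Free.of g (q h) - Free.of 1 (q (g * h))) = _
    rw [map_sub, map_add, hEg g]
  have hdY : ∀ g h, htrace G k (crossRel hq g h) = Y g + g • Y h - Y (g * h) := fun g h => by
    rw [htr]
    simp only [crossRel_shift, map_add, map_sub, smul_add, smul_sub, Finset.sum_add_distrib,
      Finset.sum_sub_distrib]
    have h1 : ∑ σ : G, σ • k (crossRel hq (σ⁻¹ * g) h) = g • Y h := by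
      rw [Finset.smul_sum]
      refine (Fintype.sum_equiv (Equiv.mulLeft g) _ _ fun σ => ?_).symm
      simp [mul_smul]
    rw [h1]
    abel
  have hcr : IsCrossed P fun g : P => X g - Y g := fun g h => by
    have h1 := (hdX g h).symm.trans (hdY g h)
    show X ((g : G) * h) - Y ((g : G) * h) = X g - Y g + (g : G) • (X h - Y h)
    rw [smul_sub, ← sub_eq_zero]
    have h2 := sub_eq_zero.mpr h1
    rw [← neg_eq_zero, ← h2]
    abel
  obtain ⟨w, hw⟩ := hW.h1 _ hcr
  -- the lattice parts
  let a : G → TrivMod G := fun τ => D.latt (k (pRel G p hN (Free.of 1 (q τ))))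
  let l : TrivMod G := ∑ σ : G, σ • a σ⁻¹
  have hl : ∀ g : G, p • D.latt (X g - Y g) = g • l - l := fun g => by
    have e1 : p • D.latt (X g) = ∑ σ : G, σ • D.latt (k (pRel G p hN (Free.of σ⁻¹ (q g)))) := by
      rw [← map_nsmul, show p • X g = E.1 (pRel G p hN (Free.of 1 (q g))) from (map_nsmul E.1 p _).symm,
        hE, htr, map_sum]
      refine Finset.sum_congr rfl fun σ _ => ?_
      rw [D.latt_mem, ← pRel_smul, Free.smul_of, mul_one]
    have e2 : ∀ τ, p • crossRel hq τ g = pRel G p hN (Free.of 1 (q τ)) +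
        pRel G p hN (Free.of τ (q g)) - pRel G p hN (Free.of 1 (q (τ * g))) := fun τ =>
      Subtype.ext (by
        simp only [crossRel, pRel, AddSubgroup.coe_add, AddSubgroup.coe_sub,
          AddSubmonoidClass.coe_nsmul, nsmul_add, nsmul_sub])
    have e3 : p • D.latt (Y g) = ∑ σ : G, (σ • a σ⁻¹ +
        σ • D.latt (k (pRel G p hN (Free.of σ⁻¹ (q g)))) - σ • a (σ⁻¹ * g)) := by
      rw [← map_nsmul, Finset.smul_sum, map_sum]
      refine Finset.sum_congr rfl fun σ _ => ?_
      rw [smul_comm, ← map_nsmul, e2, map_sub, map_add, D.latt_mem, map_sub, map_add, smul_sub,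
        smul_add]
    have e4 : g • l = ∑ σ : G, σ • a (σ⁻¹ * g) := by
      show g • (∑ σ : G, σ • a σ⁻¹) = _
      rw [Finset.smul_sum]
      refine Fintype.sum_equiv (Equiv.mulLeft g) _ _ fun σ => ?_
      simp [mul_smul]
    rw [map_sub, nsmul_sub, e1, e3, e4, Finset.sum_sub_distrib, Finset.sum_add_distrib]
    show _ = _ - ∑ σ : G, σ • a σ⁻¹
    abel
  -- `l` is congruent to a constant
  have hl1 : ∀ g, ((l g : ℤ) : ZMod p) = ((l 1 : ℤ) : ZMod p) := fun g => by
    have h1 := congrFun (hl g) g
    rw [TrivMod.nsmul_apply] at h1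
    change _ = l (g⁻¹ • g) - l g at h1
    rw [smul_eq_mul, inv_mul_cancel] at h1
    have h2 := congrArg (fun z : ℤ => (z : ZMod p)) h1
    simp only [Int.cast_mul, Int.cast_natCast, ZMod.natCast_self, zero_mul, Int.cast_sub] at h2
    exact (sub_eq_zero.mp h2.symm).symm
  -- on `P` the difference with `p` times the lattice part of `w` is invariant
  let d : TrivMod G := l - p • D.latt w
  have hd : ∀ h ∈ P, ∀ x, d (h * x) = d x := fun h hh x => by
    have h1 := hl h
    rw [show X h - Y h = h • w - w from hw ⟨h, hh⟩, map_sub, D.latt_mem] at h1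
    have h2 := congrFun h1 (h * x)
    rw [TrivMod.nsmul_apply] at h2
    change (p : ℤ) * (D.latt w (h⁻¹ • (h * x)) - D.latt w (h * x)) =
      l (h⁻¹ • (h * x)) - l (h * x) at h2
    rw [smul_eq_mul, inv_mul_cancel_left] at h2
    show l (h * x) - (p • D.latt w) (h * x) = l x - (p • D.latt w) x
    rw [TrivMod.nsmul_apply, TrivMod.nsmul_apply]
    linear_combination h2
  have haug : ∑ x, d x = 0 := by
    have h1 : aug d = 0 := by
      have h2 : aug l = 0 := by
        show aug (∑ σ : G, σ • a σ⁻¹) = 0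
        rw [map_sum]
        exact Finset.sum_eq_zero fun σ _ => by rw [aug_smul]; exact (k _).2.1
      show aug (l - p • D.latt w) = 0
      rw [map_sub, map_nsmul, h2, show aug (D.latt w) = 0 from w.2.1, nsmul_zero, sub_zero]
    exact (aug_apply d).symm.trans h1
  -- divide by the order of `P`
  have hdvd : ∀ x, (p : ℤ) ∣ d x - d 1 := fun x => by
    rw [← ZMod.intCast_zmod_eq_zero_iff_dvd]
    show ((l x - (p • D.latt w) x - (l 1 - (p • D.latt w) 1) : ℤ) : ZMod p) = 0
    rw [TrivMod.nsmul_apply, TrivMod.nsmul_apply]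
    simp [hl1 x]
  choose e he using hdvd
  obtain ⟨s, hs⟩ := card_dvd_sum_of_invariant P e fun h hh x => by
    have := he (h * x)
    rw [hd h hh x, he x] at this
    exact (mul_left_cancel₀ (by exact_mod_cast (Fact.out : p.Prime).ne_zero) this).symm
  have hsum : (Fintype.card P : ℤ) * ((P.index : ℤ) * d 1 + p * s) = 0 := by
    have hcard : ((Fintype.card P * P.index : ℕ) : ℤ) = Fintype.card G := by
      rw [← Nat.card_eq_fintype_card, P.card_mul_index, Nat.card_eq_fintype_card]
    have h1 : ∑ x, d x = ∑ x, (d 1 + p * e x) :=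
      Finset.sum_congr rfl fun x _ => by rw [← he x]; ring
    rw [haug, Finset.sum_add_distrib, ← Finset.mul_sum, hs, Finset.sum_const, Finset.card_univ,
      nsmul_eq_mul, ← hcard] at h1
    push_cast at h1
    linear_combination -h1
  have hd1 : ((d 1 : ℤ) : ZMod p) = 0 := by
    have h2 := congrArg (fun z : ℤ => (z : ZMod p))
      ((mul_eq_zero.mp hsum).resolve_left (by exact_mod_cast Fintype.card_ne_zero))
    simp only [Int.cast_add, Int.cast_mul, Int.cast_natCast, ZMod.natCast_self, zero_mul, add_zero,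
      Int.cast_zero] at h2
    refine (mul_eq_zero.mp h2).resolve_left ?_
    rw [ZMod.natCast_eq_zero_iff]
    exact fun h => (Fact.out : p.Prime).ne_one
      (Nat.dvd_one.mp (hW.coprime ▸ Nat.dvd_gcd h dvd_rfl))
  -- identify the pairing
  have hfin : vecPair (latVec D hN k) q = ((l 1 : ℤ) : ZMod p) := by
    have h1 : l 1 = ∑ σ : G, a σ⁻¹ (σ⁻¹ • (1 : G)) := by
      show (∑ σ : G, σ • a σ⁻¹) 1 = _
      exact (Finset.sum_apply 1 Finset.univ fun σ : G => σ • a σ⁻¹)
    rw [h1, Int.cast_sum]
    refine Fintype.sum_equiv (Equiv.inv G) _ _ fun x => ?_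
    simp only [Equiv.inv_apply, inv_inv, smul_eq_mul, mul_one]
    exact latVec_apply D hN k x _
  rw [hfin, ← hd1]
  show _ = ((l 1 - (p • D.latt w) 1 : ℤ) : ZMod p)
  rw [TrivMod.nsmul_apply]
  simp

/-! ### The pairing with a class -/

theorem latVec_neg (k : Coh.Rel G N →+ D.cover) : latVec D hN (-k) = -latVec D hN k := by
  rw [← zero_sub, latVec_sub, latVec_zero, zero_sub]

theorem latVec_sum_index {ι : Type} (s : Finset ι) (k : ι → (Coh.Rel G N →+ D.cover)) :
    latVec D hN (∑ i ∈ s, k i) = ∑ i ∈ s, latVec D hN (k i) :=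
  map_sum (AddMonoidHom.mk' (latVec D hN) (latVec_add D hN)) k s

include hN in
theorem exists_repr [Finite N] (hW : IsCT p P D.cover) (e : Ext1 G N D.classes) :
    ∃ k : Coh.Rel G N →+ D.cover,
      Ext1.map D.inclA D.inclA_mem e = Ext1.mk ⟨htrace G k, htrace_mem k⟩ :=
  Ext1.exists_trace P hW.isPGroup hW.coprime hW.h1 hW.h0 hN _

/-- The value of a class on a function into `N`. -/
def pairing [Finite N] (hW : IsCT p P D.cover) (e : Ext1 G N D.classes) (q : G → N) : ZMod p :=
  vecPair (latVec D hN (exists_repr D hN hW e).choose) q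

theorem pairing_eq [Finite N] (hW : IsCT p P D.cover) {e : Ext1 G N D.classes}
    {k : Coh.Rel G N →+ D.cover}
    (hk : Ext1.map D.inclA D.inclA_mem e = Ext1.mk ⟨htrace G k, htrace_mem k⟩) {q : G → N}
    (hq : IsCrossed G q) : pairing D hN hW e q = vecPair (latVec D hN k) q := by
  have h1 := (exists_repr D hN hW e).choose_spec.symm.trans hk
  rw [← sub_eq_zero, ← map_sub, Ext1.mk_eq_zero_iff] at h1
  obtain ⟨E, hE⟩ := h1
  have h2 := vecPair_eq_zero_of_extend D hN hW ((exists_repr D hN hW e).choose - k) E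
    (fun y => by
      rw [hE, map_sub]
      rfl) hq
  rw [latVec_sub, vecPair_sub_left, sub_eq_zero] at h2
  exact h2

theorem pairing_add [Finite N] (hW : IsCT p P D.cover) (e e' : Ext1 G N D.classes) {q : G → N}
    (hq : IsCrossed G q) :
    pairing D hN hW (e + e') q = pairing D hN hW e q + pairing D hN hW e' q := by
  rw [pairing_eq D hN hW (e := e + e')
    (k := (exists_repr D hN hW e).choose + (exists_repr D hN hW e').choose) ?_ hq,
    latVec_add, vecPair_add_left]
  · rfl
  refine (map_add _ e e').trans ((congrArg₂ (· + ·) (exists_repr D hN hW e).choose_spec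
    (exists_repr D hN hW e').choose_spec).trans ?_)
  exact (map_add Ext1.mk _ _).symm.trans
    (congrArg Ext1.mk (Subtype.ext (map_add (htrace G) _ _).symm))

theorem pairing_add_right [Finite N] (hW : IsCT p P D.cover) (e : Ext1 G N D.classes)
    (q q' : G → N) :
    pairing D hN hW e (q + q') = pairing D hN hW e q + pairing D hN hW e q' :=
  vecPair_add_right _ q q'

/-- A trace from the classes pairs to zero. -/
theorem pairing_trace_classes [Finite N] (hW : IsCT p P D.cover)
    (g : Coh.Rel G N →+ D.classes) {q : G → N} (hq : IsCrossed G q) :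
    pairing D hN hW (Ext1.mk ⟨htrace G g, htrace_mem g⟩) q = 0 := by
  rw [pairing_eq D hN hW (k := D.inclA.comp g) ?_ hq]
  · have h0 : latVec D hN (D.inclA.comp g) = 0 := funext fun x => AddMonoidHom.ext fun m => by
      rw [latVec_apply]
      show ((((0 : TrivMod G)) x : ℤ) : ZMod p) = _
      exact Int.cast_zero
    rw [h0]
    exact Finset.sum_eq_zero fun x _ => rfl
  rw [Ext1.map_mk]
  exact congrArg Ext1.mk (Subtype.ext (htrace_comp_left D.inclA_mem g).symm)

/-! ### The vectors of classes -/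

theorem latVec_htrace (k : Coh.Rel G N →+ D.cover) (x : G) (m : N) :
    latVec D hN (htrace G k) x m = ∑ σ : G, latVec D hN k σ (σ • x⁻¹ • m) := by
  rw [htrace_apply, latVec_sum_index, Finset.sum_apply, AddMonoidHom.finsetSum_apply]
  refine Fintype.sum_equiv ((Equiv.inv G).trans (Equiv.mulRight x)) _ _ fun σ => ?_
  rw [latVec_hconj]
  show latVec D hN k (σ⁻¹ * x) (σ⁻¹ • m) = latVec D hN k (σ⁻¹ * x) ((σ⁻¹ * x) • x⁻¹ • m)
  rw [mul_smul, smul_inv_smul]

/-- The vector of a class has trace zero. -/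
theorem sum_latVec_smul [Finite N] {e : Ext1 G N D.classes} {k : Coh.Rel G N →+ D.cover}
    (hk : Ext1.map D.inclA D.inclA_mem e = Ext1.mk ⟨htrace G k, htrace_mem k⟩) (m : N) :
    ∑ σ : G, latVec D hN k σ (σ • m) = 0 := by
  obtain ⟨f, hf⟩ := Ext1.mk_surjective e
  rw [← hf, Ext1.map_mk, ← sub_eq_zero, ← map_sub, Ext1.mk_eq_zero_iff] at hk
  obtain ⟨E, hE⟩ := hk
  have h0 : latVec D hN (htrace G k) 1 = 0 := by
    have : D.latt.comp (htrace G k) = -((D.latt.comp E.1).comp (Coh.Rel G N).subtype) :=
      AddMonoidHom.ext fun y => by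
        show D.latt (htrace G k y) = -D.latt (E.1 y)
        rw [hE y]
        show _ = -D.latt (D.inclA (f.1 y) - htrace G k y)
        rw [map_sub, show D.latt (D.inclA (f.1 y)) = 0 from rfl, zero_sub, neg_neg]
    show (coordFp 1).comp (modPHom hN (D.latt.comp (htrace G k))) = 0
    rw [this, map_neg, modPHom_restrict, neg_zero, AddMonoidHom.comp_zero]
  have h1 := DFunLike.congr_fun h0 m
  rw [latVec_htrace] at h1
  simpa only [inv_one, one_smul, AddMonoidHom.zero_apply] using h1

/-- Every vector of sum zero comes from the relations. -/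
theorem exists_latVec_eq (ψ : G → (N →+ ZMod p)) (hsum : ∑ x : G, ψ x = 0) :
    ∃ k : Coh.Rel G N →+ D.cover, latVec D hN k = ψ := by
  choose z hz using fun m : N => exists_coordFp (p := p) fun x => ψ x m
  have hzI : ∀ m, z m ∈ (augIdeal G p).sub := fun m => by
    show augP (z m) = 0
    rw [augP_eq_sum]
    simp only [hz]
    rw [← AddMonoidHom.finsetSum_apply, hsum]; rfl
  let Z : N →+ (augIdeal G p).sub := AddMonoidHom.mk' (fun m => ⟨z m, hzI m⟩) fun m m' =>
    Subtype.ext (coordFp_ext fun x => by simp [hz])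
  obtain ⟨Z', hZ'⟩ := exists_lift_hom hN (fun b => nsmul_modP b) D.lattP D.lattP_surjective Z
  obtain ⟨k, hk⟩ := modPHom_surjective (G := G) hN Z'
  refine ⟨k, funext fun x => AddMonoidHom.ext fun m => ?_⟩
  rw [← hz m x]
  show coordFp x (modPHom hN (D.latt.comp k) m) = _
  refine congrArg (coordFp x) ?_
  have h2 := congrArg Subtype.val (DFunLike.congr_fun hZ' m)
  change ((D.lattP (Z' m)) : ModP p (TrivMod G)) = z m at h2
  rw [← hk] at h2
  exact h2

/-- A map on relations whose vector has trace zero gives a class. -/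
theorem exists_class_of_vec [Finite N] (k : Coh.Rel G N →+ D.cover)
    (htr : ∀ m : N, ∑ σ : G, latVec D hN k σ (σ • m) = 0) :
    ∃ e : Ext1 G N D.classes,
      Ext1.map D.inclA D.inclA_mem e = Ext1.mk ⟨htrace G k, htrace_mem k⟩ := by
  have h : modPHom hN (D.latt.comp (htrace G k)) = 0 := AddMonoidHom.ext fun m =>
    coordFp_ext fun x => by
      show latVec D hN (htrace G k) x m = _
      rw [latVec_htrace, htr, AddMonoidHom.zero_apply, map_zero]
  obtain ⟨E, hE⟩ := exists_extend_of_modPHom hN _ h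
  obtain ⟨f', hf'⟩ := D.exists_sub_restrict hN ⟨htrace G k, htrace_mem k⟩ E hE
  exact ⟨_, hf'⟩

/-! ### The right kernel -/

/-- A function killed by all vectors of sum and trace zero is a coboundary. -/
theorem exists_coboundary_of_vecPair [Finite N] (hN : ∀ m : N, p • m = 0) (q : G → N)
    (hq : IsCrossed G q)
    (h : ∀ ψ : G → (N →+ ZMod p), ∑ x : G, ψ x = 0 → (∀ m, ∑ σ : G, ψ σ (σ • m) = 0) →
      vecPair ψ q = 0) :
    ∃ b : N, ∀ x, q x = x • b - b := by
  classical
  letI := AddCommGroup.zmodModule (n := p) hN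
  haveI : Module.Finite (ZMod p) N := Module.Finite.of_finite
  let V := G → Module.Dual (ZMod p) N
  let evq : V →ₗ[ZMod p] ZMod p :=
    { toFun := fun ψ => ∑ x : G, ψ x (q x)
      map_add' := fun ψ ψ' => by
        rw [← Finset.sum_add_distrib]; exact Finset.sum_congr rfl fun x _ => rfl
      map_smul' := fun c ψ => by
        rw [RingHom.id_apply, smul_eq_mul, Finset.mul_sum]
        exact Finset.sum_congr rfl fun x _ => rfl }
  let tr : V →ₗ[ZMod p] Module.Dual (ZMod p) N :=
    ∑ σ : G, (LinearMap.lcomp (ZMod p) (ZMod p)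
      ((DistribSMul.toAddMonoidHom N σ).toZModLinearMap p)).comp (LinearMap.proj σ)
  let sm : V →ₗ[ZMod p] Module.Dual (ZMod p) N := ∑ σ : G, LinearMap.proj σ
  have htr : ∀ (ψ : V) m, tr ψ m = ∑ σ : G, ψ σ (σ • m) := fun ψ m => by
    simp only [tr, LinearMap.sum_apply]
    exact Finset.sum_congr rfl fun σ _ => rfl
  have hsm : ∀ (ψ : V) m, sm ψ m = ∑ σ : G, ψ σ m := fun ψ m => by
    simp only [sm, LinearMap.sum_apply]
    exact Finset.sum_congr rfl fun σ _ => rfl
  have hker : LinearMap.ker (sm.prod tr) ≤ LinearMap.ker evq := fun ψ hψ => by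
    obtain ⟨h1, h2⟩ := Prod.mk.injEq .. ▸ (LinearMap.mem_ker.mp hψ)
    refine LinearMap.mem_ker.mpr (h (fun x => (ψ x).toAddMonoidHom) (AddMonoidHom.ext fun m => ?_)
      fun m => ?_)
    · rw [AddMonoidHom.finsetSum_apply]
      exact (hsm ψ m).symm.trans (DFunLike.congr_fun h1 m)
    · exact (htr ψ m).symm.trans (DFunLike.congr_fun h2 m)
  obtain ⟨Λ, hΛ⟩ : ∃ Λ : Module.Dual (ZMod p) N × Module.Dual (ZMod p) N →ₗ[ZMod p] ZMod p,
      evq = Λ.comp (sm.prod tr) := by
    have hrange := LinearMap.range_dualMap_eq_dualAnnihilator_ker (sm.prod tr)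
    have hmem : evq ∈ LinearMap.range (sm.prod tr).dualMap := by
      rw [hrange]
      exact (Submodule.mem_dualAnnihilator _).mpr fun ψ hψ => LinearMap.mem_ker.mp (hker hψ)
    obtain ⟨Λ, hΛ⟩ := hmem
    exact ⟨Λ, hΛ.symm⟩
  let c := (Module.evalEquiv (ZMod p) N).symm (Λ.comp (LinearMap.inl _ _ _))
  let b := (Module.evalEquiv (ZMod p) N).symm (Λ.comp (LinearMap.inr _ _ _))
  have key : ∀ x : G, q x = c + x • b := fun x =>
    (Module.evalEquiv (ZMod p) N).injective (LinearMap.ext fun a => by
      show a (q x) = a (c + x • b)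
      have h1 : evq (Pi.single x a) = a (q x) :=
        (Finset.sum_eq_single x (fun z _ hz => by simp [Pi.single_eq_of_ne hz]) (by simp)).trans
          (by simp)
      have h2 : sm (Pi.single x a) = a := LinearMap.ext fun m =>
        (hsm _ m).trans ((Finset.sum_eq_single x (fun z _ hz => by simp [Pi.single_eq_of_ne hz])
          (by simp)).trans (by simp))
      have h3 : tr (Pi.single x a) =
          a.comp ((DistribSMul.toAddMonoidHom N x).toZModLinearMap p) := LinearMap.ext fun m =>
        (htr _ m).trans ((Finset.sum_eq_single x (fun z _ hz => by simp [Pi.single_eq_of_ne hz])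
          (by simp)).trans (by simp))
      have hp : (sm.prod tr) (Pi.single x a) =
          (a, a.comp ((DistribSMul.toAddMonoidHom N x).toZModLinearMap p)) := Prod.ext h2 h3
      rw [← h1, hΛ, LinearMap.comp_apply, hp, map_add]
      have e1 : a c = Λ (a, 0) :=
        Module.apply_evalEquiv_symm_apply (R := ZMod p) (M := N) a _
      have e2 : a (x • b) =
          Λ (0, a.comp ((DistribSMul.toAddMonoidHom N x).toZModLinearMap p)) :=
        Module.apply_evalEquiv_symm_apply (R := ZMod p) (M := N)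
          (a.comp ((DistribSMul.toAddMonoidHom N x).toZModLinearMap p)) _
      rw [e1, e2, ← map_add, Prod.mk_add_mk, add_zero, zero_add])
  have hc : c = -b := by
    have h1 := key 1
    have h0 : q 1 = 0 := by
      have := hq 1 1
      rw [one_smul, one_mul] at this
      exact left_eq_add.mp this
    rw [h0, one_smul] at h1
    exact eq_neg_of_add_eq_zero_left h1.symm
  exact ⟨b, fun x => by rw [key x, hc]; abel⟩

/-- The right kernel of the pairing consists of the coboundaries. -/
theorem exists_coboundary_of_pairing [Finite N] (hW : IsCT p P D.cover) (q : G → N)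
    (hq : IsCrossed G q) (h : ∀ e : Ext1 G N D.classes, pairing D hN hW e q = 0) :
    ∃ b : N, ∀ x, q x = x • b - b := by
  refine exists_coboundary_of_vecPair hN q hq fun ψ hsum htr => ?_
  obtain ⟨k, rfl⟩ := exists_latVec_eq D hN ψ hsum
  obtain ⟨e, he⟩ := exists_class_of_vec D hN k htr
  rw [← pairing_eq D hN hW he hq]
  exact h e

/-! ### The left kernel -/

/-- A vector of sum and trace zero killing all crossed homomorphisms is a boundary. -/
theorem mem_dualBd_of_vecPair [Finite N] (hN : ∀ n : N, p • n = 0) (ψ : G → (N →+ ZMod p))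
    (hsum : ∑ x : G, ψ x = 0) (htr : ∀ n : N, ∑ σ : G, ψ σ (σ • n) = 0)
    (hq : ∀ q : G → N, IsCrossed G q → vecPair ψ q = 0) : ψ ∈ dualBd G p N := by
  classical
  by_contra hmem
  letI := AddCommGroup.zmodModule (n := p) hN
  haveI : Module.Finite (ZMod p) N := Module.Finite.of_finite
  haveI : Module.Finite (ZMod p) (G → N) := Module.Finite.of_finite
  let U : Submodule (ZMod p) (G → (N →+ ZMod p)) := AddSubgroup.toZModSubmodule p (dualBd G p N)
  obtain ⟨Φ, hΦ0, hΦU⟩ := Submodule.exists_dual_map_eq_bot_of_notMem (p := U) (x := ψ) hmem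
    inferInstance
  let toDual : (N →ₗ[ZMod p] ZMod p) → (N →+ ZMod p) := fun a => a.toAddMonoidHom
  have hv : ∀ x : G, ∃ v : N, ∀ a : N →+ ZMod p, Φ (Pi.single x a) = a v := fun x => by
    let φ : Module.Dual (ZMod p) (Module.Dual (ZMod p) N) :=
      (AddMonoidHom.mk' (fun a : Module.Dual (ZMod p) N => Φ (Pi.single x (toDual a))) fun a b => by
        rw [← map_add, ← Pi.single_add]; rfl).toZModLinearMap p
    refine ⟨(Module.evalEquiv (ZMod p) N).symm φ, fun a => ?_⟩
    have := Module.apply_evalEquiv_symm_apply (R := ZMod p) (M := N) (a.toZModLinearMap p) φ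
    exact this.symm
  choose v hv using hv
  have hΦ : ∀ u : G → (N →+ ZMod p), Φ u = ∑ x : G, u x (v x) := fun u => by
    conv_lhs => rw [← Finset.univ_sum_single u]
    rw [map_sum]
    exact Finset.sum_congr rfl fun x _ => hv x (u x)
  have hbd : ∀ u ∈ dualBd G p N, Φ u = 0 := fun u hu =>
    (Submodule.mem_bot _).mp (hΦU.le ⟨u, hu, rfl⟩)
  have hkey : ∀ (σ x : G) (a : N →+ ZMod p),
      a (σ⁻¹ • v (σ * x)) - a (v x) = a (σ⁻¹ • v σ) - a (v 1) := fun σ x a => by
    let u : G → (N →+ ZMod p) := Pi.single x a - Pi.single 1 a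
    have h0 : ∑ z : G, u z = 0 := by simp [u]
    have h2 := hbd _ (AddSubgroup.subset_closure ⟨σ, u, h0, rfl⟩)
    rw [map_sub, hΦ, hΦ, sub_eq_zero] at h2
    have h3 : ∀ w : G → (N →+ ZMod p), ∑ z : G, dualShift σ w z (v z) =
        ∑ z : G, w z (σ⁻¹ • v (σ * z)) := fun w => by
      refine (Fintype.sum_equiv (Equiv.mulLeft σ) _ _ fun z => ?_).symm
      show _ = w (σ⁻¹ * (σ * z)) (σ⁻¹ • v (σ * z))
      rw [inv_mul_cancel_left]
    rw [h3] at h2
    have h4 : ∀ (x : G) (y : G → N),
        ∑ z : G, (Pi.single x a : G → (N →+ ZMod p)) z (y z) = a (y x) := fun x y =>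
      (Finset.sum_eq_single x (fun z _ hz => by simp [hz]) (by simp)).trans (by simp)
    simp only [u, Pi.sub_apply, AddMonoidHom.sub_apply, Finset.sum_sub_distrib, h4,
      mul_one] at h2
    exact sub_eq_sub_iff_sub_eq_sub.mp h2
  have hcr : IsCrossed G fun σ => v σ - σ • v 1 := fun σ x => by
    have h2 : σ⁻¹ • v (σ * x) - v x = σ⁻¹ • v σ - v 1 :=
      (Module.evalEquiv (ZMod p) N).injective (LinearMap.ext fun a => by
        show a (σ⁻¹ • v (σ * x) - v x) = a (σ⁻¹ • v σ - v 1)
        rw [map_sub, map_sub]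
        exact hkey σ x a.toAddMonoidHom)
    have h3 := congrArg (σ • ·) h2
    simp only [smul_sub, smul_inv_smul] at h3
    rw [sub_eq_iff_eq_add] at h3
    show v (σ * x) - (σ * x) • v 1 = (v σ - σ • v 1) + σ • (v x - x • v 1)
    rw [h3, mul_smul, smul_sub]
    abel
  refine hΦ0 ?_
  rw [hΦ]
  calc ∑ x : G, ψ x (v x)
      = vecPair ψ (fun σ => v σ - σ • v 1) + ∑ x : G, ψ x (x • v 1) := by
        rw [vecPair, ← Finset.sum_add_distrib]
        exact Finset.sum_congr rfl fun x _ => by rw [← map_add, sub_add_cancel]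
    _ = 0 := by rw [hq _ hcr, htr, add_zero]

include hN in
/-- A class killing all crossed homomorphisms is a trace from the classes. -/
theorem exists_trace_of_pairing [Finite N] (hW : IsCT p P D.cover) (e : Ext1 G N D.classes)
    (h : ∀ q : G → N, IsCrossed G q → pairing D hN hW e q = 0) :
    ∃ g : Coh.Rel G N →+ D.classes, e = Ext1.mk ⟨htrace G g, htrace_mem g⟩ := by
  obtain ⟨g, hg⟩ := exists_repr D hN hW e
  have hmem := mem_dualBd_of_vecPair hN (latVec D hN g) (latVec_sum D hN g)
    (sum_latVec_smul D hN hg) fun q hq => (pairing_eq D hN hW hg hq).symm.trans (h q hq)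
  have hlift : ∀ ψ ∈ dualBd G p N, ∃ k, htrace G k = 0 ∧ latVec D hN k = ψ := by
    intro ψ hψ
    induction hψ using AddSubgroup.closure_induction with
    | mem ψ hψ =>
      obtain ⟨σ, u, hu, rfl⟩ := hψ
      obtain ⟨k, hku⟩ := exists_latVec_eq D hN u hu
      refine ⟨hconj σ k - k, ?_, ?_⟩
      · rw [map_sub (htrace G), sub_eq_zero, htrace_apply, htrace_apply]
        simp only [← hconj_mul]
        exact Fintype.sum_equiv (Equiv.mulRight σ) _ _ fun _ => rfl
      · rw [latVec_sub, latVec_hconj, hku]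
    | zero => exact ⟨0, map_zero _, latVec_zero D hN⟩
    | add ψ ψ' _ _ h h' =>
      obtain ⟨k, hk, rfl⟩ := h; obtain ⟨k', hk', rfl⟩ := h'
      exact ⟨k + k', by rw [map_add, hk, hk', add_zero], latVec_add D hN k k'⟩
    | neg ψ _ h =>
      obtain ⟨k, hk, rfl⟩ := h
      exact ⟨-k, by rw [map_neg, hk, neg_zero], latVec_neg D hN k⟩
  obtain ⟨k, hk, hkg⟩ := hlift _ hmem
  have hred : modPHom hN (D.latt.comp (g - k)) = 0 := AddMonoidHom.ext fun m => coordFp_ext fun x => by
    show latVec D hN (g - k) x m = coordFp x 0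
    rw [latVec_sub, hkg, sub_self, map_zero]
    rfl
  obtain ⟨E₁, hE₁⟩ := exists_extend_of_modPHom hN _ hred
  have haug : ∀ x, aug (E₁ x) = 0 := fun x => by
    have h2 : p • aug (E₁ x) = 0 := by
      rw [← map_nsmul, ← map_nsmul]
      exact (congrArg aug (hE₁ (pRel G p hN x))).trans ((g - k) _).2.1
    simpa [(Fact.out : p.Prime).ne_zero] using h2
  choose l hl using fun gm : G × N => D.exists_lift (E₁ (Free.of gm.1 gm.2)) (haug _)
  let F : Free G N →+ D.cover := Free.lift fun s m => ⟨_, hl (s, m)⟩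
  have hF : ∀ x, D.latt (F x) = E₁ x := fun x =>
    DFunLike.congr_fun (Free.hom_ext (f := D.latt.comp F) (f' := E₁) fun s m => by
      rw [AddMonoidHom.comp_apply, Free.lift_of]; rfl) x
  choose a ha using fun y : Coh.Rel G N => D.exists_inclA_of_latt (w := (g - k) y - F y) (by
    rw [map_sub, hF, hE₁]; exact sub_self _)
  let g₂ : Coh.Rel G N →+ D.classes := AddMonoidHom.mk' a fun y y' => D.inclA_injective (by
    rw [map_add, ha, ha, ha, map_add, AddSubgroup.coe_add, map_add]; abel)
  refine ⟨g₂, D.map_inclA_injective hN ?_⟩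
  rw [hg, Ext1.map_mk, ← sub_eq_zero, ← map_sub, Ext1.mk_eq_zero_iff]
  refine ⟨⟨htrace G F, htrace_mem F⟩, fun y => ?_⟩
  have e : D.inclA.comp (htrace G g₂) = htrace G g - (htrace G F).comp (Coh.Rel G N).subtype := by
    rw [← htrace_comp_left D.inclA_mem,
      show D.inclA.comp g₂ = (g - k) - F.comp (Coh.Rel G N).subtype from AddMonoidHom.ext ha,
      map_sub, map_sub, hk, sub_zero, htrace_comp_right F subtype_mem_eqHom]
  show htrace G F y = htrace G g y - D.inclA.comp (htrace G g₂) y
  rw [e]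
  exact (sub_sub_cancel (htrace G g y) (htrace G F y)).symm

/-- The pairing kills coboundaries. -/
theorem pairing_coboundary [Finite N] (hW : IsCT p P D.cover) (e : Ext1 G N D.classes) (b : N) :
    pairing D hN hW e (fun x => x • b - b) = 0 := by
  unfold pairing vecPair
  simp only [map_sub, Finset.sum_sub_distrib, ← AddMonoidHom.finsetSum_apply, latVec_sum,
    sum_latVec_smul D hN (exists_repr D hN hW e).choose_spec, AddMonoidHom.zero_apply, sub_zero]

/-- Every vector of sum and trace zero is the vector of a class. -/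
theorem exists_class_pairing [Finite N] (hW : IsCT p P D.cover) (ψ : G → (N →+ ZMod p))
    (hsum : ∑ x : G, ψ x = 0) (htr : ∀ m : N, ∑ σ : G, ψ σ (σ • m) = 0) :
    ∃ e : Ext1 G N D.classes, ∀ q : G → N, IsCrossed G q →
      pairing D hN hW e q = vecPair ψ q := by
  obtain ⟨k, rfl⟩ := exists_latVec_eq D hN ψ hsum
  obtain ⟨e, he⟩ := exists_class_of_vec D hN k htr
  exact ⟨e, fun q hq => pairing_eq D hN hW he hq⟩

end FLTAgent.PoitouTate
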