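import Fermat.Agent.TW.Idele.ClassField.Artin

/-!
# The Artin map of a cyclotomic layer at the primes prime to the conductor

`exists_artin_map_conductor`: for a cyclic field `E ≤ L` of degree `p ^ k` inside `ℚ(ζ_m)` there is
a surjection of the ideles of `ℚ` onto `Gal(E/ℚ)` which kills `classKer T ⊥`, sends the idele of a
prime `q ∤ m` to its Frobenius, and cuts out, for fields `F` containing `μ_p` with `E ⊓ F = ⊥`, the
norms from `F ⊔ E`.  It comes from the cyclotomic reciprocity map `omega m`; the last property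
combines surjectivity (Frobenius elements in every coset) with the index bound `relIndex_norm_dvd`.
-/

set_option autoImplicit false
set_option maxHeartbeats 1000000
set_option linter.style.haveILetI false

noncomputable section

open scoped Pointwise Classical

namespace FLTAgent.PoitouTate

open FLTAgent.TW

local notation "ℚ̄" => AlgebraicClosure ℚ
local notation "Γ" => (AlgebraicClosure ℚ ≃ₐ[ℚ] AlgebraicClosure ℚ)

variable {T : Finset ℕ} {p : ℕ} {L : IntermediateField ℚ (AlgebraicClosure ℚ)}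

/-- The Artin map of a cyclotomic `p`-extension, with its reciprocity law. -/
theorem exists_artin_map_conductor [Fact p.Prime] (hL : IdeleSetting T p L)
    (E : IntermediateField ℚ ℚ̄) [Normal ℚ E] (hEL : E ≤ L) (hcyc : IsCyclic (E ≃ₐ[ℚ] E)) {k : ℕ}
    (hdeg : Module.finrank ℚ E = p ^ k) (m : ℕ) (hm : 0 < m)
    (hmT : ∀ q : ℕ, q.Prime → q ∣ m → q ∈ T)
    (hEm : E ≤ IntermediateField.adjoin ℚ {ζ : ℚ̄ | ζ ^ m = 1}) :
    ∃ ω : ideles ⊥ →* (E ≃ₐ[ℚ] E), Function.Surjective ω ∧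
      (∀ φ : ideles ⊥, φ.1 ∈ classKer T ⊥ → ω φ = 1) ∧
      (∀ (q : ℕ) (hq : q.Prime) (A : Place), ¬ q ∣ m → A.1.LiesOverPrime q →
        ∀ σ : Γ, A.1.IsFrobeniusAt σ q → ∀ h : placeIdele ⊥ q hq.ne_zero A ∈ ideles ⊥,
          ω ⟨_, h⟩ = AlgEquiv.restrictNormalHom E σ) ∧
      ∀ F : IntermediateField ℚ ℚ̄, F ≤ L → ContainsMuP p F → E ⊓ F = ⊥ →
        ∀ φ ∈ ideles F, ∀ h : normIdele ⊥ F φ ∈ ideles ⊥,
          ω ⟨_, h⟩ = 1 ↔ φ ∈ classKer T F ⊔ normSubgroup F (F ⊔ E) := by
  haveI : NeZero m := ⟨hm.ne'⟩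
  haveI := hL.finite
  haveI : FiniteDimensional ℚ E := finite_of_le (L := L) hEL
  haveI : IsGalois ℚ E := ⟨⟩
  haveI := GalCommon.normal_Qbar
  set res : Γ →* (E ≃ₐ[ℚ] E) := AlgEquiv.restrictNormalHom E
  have hkerE : ∀ g : Γ, chi m g = 1 → res g = 1 := fun g hg => by
    refine AlgEquiv.ext fun z => Subtype.ext ?_
    rw [AlgEquiv.one_apply]
    refine (AlgEquiv.restrictNormal_commutes g E z).trans ?_
    have hle : IntermediateField.adjoin ℚ {ζ : ℚ̄ | ζ ^ m = 1} ≤
        IntermediateField.fixedField (Subgroup.zpowers g) := by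
      rw [IntermediateField.adjoin_le_iff]
      rintro x hx ⟨j, hj⟩
      have h' : g ∈ MulAction.stabilizer Γ x := (chi_eq_one_iff g).mp hg x hx
      exact Subgroup.zpowers_le.mpr h' hj
    exact hle (hEm z.2) ⟨g, Subgroup.mem_zpowers g⟩
  have hwd : ∀ g g' : Γ, chi m g = chi m g' → res g = res g' := fun g g' h => by
    rw [← mul_inv_eq_one, ← map_inv, ← map_mul]
    exact hkerE _ (by rw [map_mul, map_inv, h, mul_inv_cancel])
  have hex : ∀ φ : ideles (⊥ : IntermediateField ℚ ℚ̄), ∃ g : Γ, chi m g = omega m φ := fun φ => by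
    haveI : FiniteDimensional ℚ (⊥ : IntermediateField ℚ ℚ̄) := finite_of_le (L := L) bot_le
    obtain ⟨g, -, he⟩ := omegaNorm_mem (m := m) φ
    refine ⟨g, he.trans ?_⟩
    rw [omegaNorm_apply _ (normIdele_mem' φ.2)]
    congr 1
    refine Subtype.ext ((normIdele_of_mem' (L := ⊥) φ.2).trans ?_)
    rw [Subgroup.relIndex_self, pow_one]
  choose gE hgE using hex
  let ω : ideles (⊥ : IntermediateField ℚ ℚ̄) →* (E ≃ₐ[ℚ] E) :=
    MonoidHom.mk' (fun φ => res (gE φ)) fun a b => by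
      rw [← map_mul]
      exact hwd _ _ (by rw [map_mul, hgE, hgE, hgE, map_mul])
  have hω : ∀ φ g, chi m g = omega m φ → ω φ = res g := fun φ g h =>
    hwd _ _ ((hgE φ).trans h.symm)
  have hplace : ∀ (q : ℕ) (hq : q.Prime) (A : Place), ¬ q ∣ m → A.1.LiesOverPrime q →
      ∀ σ : Γ, A.1.IsFrobeniusAt σ q → ∀ h : placeIdele ⊥ q hq.ne_zero A ∈ ideles ⊥,
        ω ⟨_, h⟩ = res σ := fun q hq A hqm hA σ hσ h =>
    hω _ σ ((chi_frobenius hq hqm hA hσ).trans
      (omega_placeIdele hq hqm hA h).symm)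
  have hcard : Nat.card (E ≃ₐ[ℚ] E) = p ^ k := by rw [IsGalois.card_aut_eq_finrank, hdeg]
  -- the image of `Gal(ℚ̄/F)` in `Gal(E/ℚ)` is everything, and is reached by places
  have hsurj : ∀ F : IntermediateField ℚ ℚ̄, ∀ hFL : F ≤ L, E ⊓ F = ⊥ →
      (∀ x : E ≃ₐ[ℚ] E, ∃ g ∈ F.fixingSubgroup, res g = x) ∧
      ∀ x : E ≃ₐ[ℚ] E, ∃ φ : ideles F, ∀ h : normIdele ⊥ F φ.1 ∈ ideles ⊥, ω ⟨_, h⟩ = x := by
    intro F hFL hEF
    haveI := finite_of_le (L := L) hFL
    have himg : F.fixingSubgroup.map res = ⊤ := by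
      rw [← IntermediateField.fixingSubgroup_fixedField (F.fixingSubgroup.map res)]
      have hbot : IntermediateField.fixedField (F.fixingSubgroup.map res) = ⊥ := by
        rw [eq_bot_iff]
        intro z hz
        have hzF : (z : ℚ̄) ∈ F := mem_of_forall_fixed fun g hg => by
          have h1 : res g z = z := hz ⟨res g, Subgroup.mem_map_of_mem _ hg⟩
          have h2 := congrArg Subtype.val h1
          exact (AlgEquiv.restrictNormal_commutes g E z).symm.trans h2
        have h3 : (z : ℚ̄) ∈ (⊥ : IntermediateField ℚ ℚ̄) := hEF ▸ ⟨z.2, hzF⟩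
        obtain ⟨r, hr⟩ := IntermediateField.mem_bot.mp h3
        exact IntermediateField.mem_bot.mpr ⟨r, Subtype.ext hr⟩
      rw [hbot, IntermediateField.fixingSubgroup_bot]
    have hall : ∀ x : E ≃ₐ[ℚ] E, ∃ g ∈ F.fixingSubgroup, res g = x := fun x => by
      have hx : x ∈ F.fixingSubgroup.map res := himg ▸ Subgroup.mem_top x
      exact hx
    refine ⟨hall, fun x => ?_⟩
    obtain ⟨σ₀, hσ₀⟩ := hcyc.exists_zpow_surjective
    obtain ⟨g, hg, hgσ⟩ := hall σ₀
    haveI : FiniteDimensional ℚ (F ⊔ E : IntermediateField ℚ ℚ̄) := inferInstance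
    obtain ⟨ℓ, hℓ, hℓT, hI, B, hB, τ, hτ, i, j, hi, hj⟩ :=
      Density.exists_isFrobeniusAt_pow_coset (F ⊔ E : IntermediateField ℚ ℚ̄).fixingSubgroup
        (IntermediateField.fixingSubgroup_isOpen _) g T
    have hle : (F ⊔ E : IntermediateField ℚ ℚ̄).fixingSubgroup ≤ F.fixingSubgroup :=
      IntermediateField.fixingSubgroup_le le_sup_left
    have hτF : τ ∈ F.fixingSubgroup := by
      have h := mul_mem (pow_mem hg i) (hle hi)
      rwa [mul_inv_cancel_left] at h
    have hresU : ∀ u ∈ (F ⊔ E : IntermediateField ℚ ℚ̄).fixingSubgroup, res u = 1 := fun u hu => by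
      refine AlgEquiv.ext fun z => Subtype.ext ?_
      rw [AlgEquiv.one_apply]
      exact (AlgEquiv.restrictNormal_commutes u E z).trans
        ((IntermediateField.mem_fixingSubgroup_iff _ _).mp hu _ (le_sup_right (a := F) z.2))
    have hgen : res τ ^ j = σ₀ := by
      have h := hresU _ hj
      rw [map_mul, map_inv, map_pow, inv_mul_eq_one, hgσ] at h
      exact h
    obtain ⟨n, hn⟩ := hσ₀ x
    set A : Place := ⟨B, ℓ, hℓ, hB⟩
    have hmem : placeIdele F ℓ hℓ.ne_zero A ∈ ideles F := placeIdele_mem_ideles hℓ hB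
    have hN : normIdele ⊥ F (placeIdele F ℓ hℓ.ne_zero A) = placeIdele ⊥ ℓ hℓ.ne_zero A := by
      have h := normIdele_placeIdele (F := ⊥) (F' := F) bot_le hℓ (A := A) hB hτ
        (fun ι hι => hle (hI B hB hι)) (f := 1) (d := 1) one_pos (mem_fixingSubgroup_bot _)
        (fun a ha ha' => absurd ha' (by omega)) one_pos (by rwa [pow_one, pow_one])
        (fun a ha ha' => absurd ha' (by omega))
      rwa [pow_one] at h
    refine ⟨(⟨_, hmem⟩ : ideles F) ^ ((j : ℤ) * n), fun h => ?_⟩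
    have hA₀ := placeIdele_mem_ideles (F := ⊥) hℓ (A := A) hB
    have e : (⟨_, h⟩ : ideles (⊥ : IntermediateField ℚ ℚ̄)) =
        (⟨_, hA₀⟩ : ideles (⊥ : IntermediateField ℚ ℚ̄)) ^ ((j : ℤ) * n) := by
      refine Subtype.ext ?_
      show normHomIdele ⊥ F (((⟨_, hmem⟩ : ideles F) ^ ((j : ℤ) * n) : ideles F) : PreIdele) = _
      rw [SubgroupClass.coe_zpow, map_zpow, normHomIdele_apply, hN, SubgroupClass.coe_zpow]
    rw [e, map_zpow, hplace ℓ hℓ A (fun hd => hℓT (hmT ℓ hℓ hd)) hB τ hτ hA₀, zpow_mul, zpow_natCast, hgen]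
    exact hn
  refine ⟨ω, fun x => ?_, fun φ h => ?_, hplace, fun F hFL hμ hEF φ hφ h => ?_⟩
  · obtain ⟨φ, hφ⟩ := (hsurj ⊥ bot_le (inf_bot_eq E)).2 x
    haveI : FiniteDimensional ℚ (⊥ : IntermediateField ℚ ℚ̄) := finite_of_le (L := L) bot_le
    exact ⟨⟨_, normIdele_mem' φ.2⟩, hφ _⟩
  · exact (hω φ 1 (by rw [map_one, omega_classKer hmT h])).trans (map_one res)
  haveI := finite_of_le (L := L) hFL
  set FE := F ⊔ E with hFE
  haveI : FiniteDimensional ℚ FE := finite_of_le (L := L) (sup_le hFL hEL)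
  obtain ⟨hall, hsur⟩ := hsurj F hFL hEF
  let Ω : ideles F →* (E ≃ₐ[ℚ] E) := ω.comp (((normHomIdele ⊥ F).comp (ideles F).subtype).codRestrict
    _ fun ψ => normIdele_mem' ψ.2)
  have hΩ : Function.Surjective Ω := fun x => by
    obtain ⟨ψ, hψ⟩ := hsur x
    exact ⟨ψ, hψ _⟩
  -- the degree of `FE / F`
  set r : F.fixingSubgroup →* (E ≃ₐ[ℚ] E) := res.comp F.fixingSubgroup.subtype
  have hker : FE.fixingSubgroup.subgroupOf F.fixingSubgroup = r.ker := by
    ext g
    rw [Subgroup.mem_subgroupOf, hFE, IntermediateField.fixingSubgroup_sup, Subgroup.mem_inf,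
      MonoidHom.mem_ker]
    refine ⟨fun hg => AlgEquiv.ext fun z => Subtype.ext ?_, fun hg => ⟨g.2, ?_⟩⟩
    · rw [AlgEquiv.one_apply]
      exact (AlgEquiv.restrictNormal_commutes g.1 E z).trans
        ((IntermediateField.mem_fixingSubgroup_iff _ _).mp hg.2 _ z.2)
    · exact Density.mem_fixingSubgroup_of_restrict_eq_one hg
  have hr : Function.Surjective r := fun x => by
    obtain ⟨g, hg, hgx⟩ := hall x
    exact ⟨⟨g, hg⟩, hgx⟩
  have hrel : FE.fixingSubgroup.relIndex F.fixingSubgroup = p ^ k := by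
    rw [Subgroup.relIndex, hker, Subgroup.index_ker, MonoidHom.range_eq_top.mpr hr, Subgroup.card_top,
      hcard]
  have hdvd := relIndex_norm_dvd hL k F FE le_sup_left (sup_le hFL hEL) hμ
    (hker ▸ inferInstance) hrel
  set N := (classKer T F ⊔ normSubgroup F FE).subgroupOf (ideles F) with hN
  have hNker : N ≤ Ω.ker := fun ψ hψ => by
    obtain ⟨a, ha, b, hb, he⟩ := Subgroup.mem_sup.mp (Subgroup.mem_subgroupOf.mp hψ)
    rw [MonoidHom.mem_ker, show ψ = (⟨a, classKer_le_ideles' ha⟩ : ideles F) *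
      ⟨b, normSubgroup_le_ideles hb⟩ from Subtype.ext he.symm, map_mul]
    have h1 : Ω ⟨a, classKer_le_ideles' ha⟩ = 1 := by
      refine (hω _ 1 ?_).trans (map_one res)
      rw [map_one]
      exact (omega_classKer hmT (normIdele_mem_classKer' ha)).symm
    have h2 : Ω ⟨b, normSubgroup_le_ideles hb⟩ = 1 := by
      rw [normSubgroup_eq_map] at hb
      obtain ⟨χ, hχ, rfl⟩ := hb
      obtain ⟨g, hg, hge⟩ := omegaNorm_mem (m := m) (⟨χ, hχ⟩ : ideles FE)
      refine (hω _ g ?_).trans ?_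
      · rw [hge, omegaNorm_apply _ (normIdele_mem' hχ)]
        congr 1
        exact Subtype.ext (normIdele_trans' bot_le le_sup_left hχ).symm
      · refine AlgEquiv.ext fun z => Subtype.ext ?_
        rw [AlgEquiv.one_apply]
        exact (AlgEquiv.restrictNormal_commutes g E z).trans
          ((IntermediateField.mem_fixingSubgroup_iff _ _).mp hg _ (le_sup_right (a := F) z.2))
    rw [h1, h2, one_mul]
  have hkerN : Ω.ker = N := by
    refine le_antisymm ?_ hNker
    have hi : Ω.ker.index = p ^ k := by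
      rw [Subgroup.index_ker, MonoidHom.range_eq_top.mpr hΩ, Subgroup.card_top, hcard]
    have hmul := Subgroup.relIndex_mul_index hNker
    rw [hi] at hmul
    have hd : N.index ∣ p ^ k := hdvd
    rw [← hmul] at hd
    have hpos : 0 < p ^ k := pow_pos (Fact.out : p.Prime).pos k
    refine Subgroup.relIndex_eq_one.mp (Nat.dvd_one.mp ?_)
    exact (Nat.mul_dvd_mul_iff_right hpos).mp (by rwa [one_mul])
  show Ω ⟨φ, hφ⟩ = 1 ↔ _
  rw [← MonoidHom.mem_ker, hkerN, hN, Subgroup.mem_subgroupOf]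

end FLTAgent.PoitouTate
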