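import Fermat.Agent.TW.Idele.Arith
import Fermat.Agent.TW.Idele.LocalQ
import Fermat.Agent.TW.Idele.ClassField.IdeleAux
import Fermat.Agent.TW.Idele.ClassField.NormGeneral
import Fermat.Agent.TW.Coh.Basic
import Fermat.Agent.TW.Global.CoverField

/-!
# A finite level of the maximal extension unramified outside `S`

A level is a finite quotient `q : Γ → G` unramified outside `S` whose field contains `μ_{p²}`;
`Cl` is the module `C_T` of its field, `LocMod` the components at `T ∪ ∞`, and `crossed` the group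
of crossed homomorphisms.
-/

set_option autoImplicit false
set_option linter.style.haveILetI false
set_option linter.unusedSectionVars false

noncomputable section

open scoped Pointwise

namespace FLTAgent.PoitouTate

open FLTAgent.TW

local notation "ℚ̄" => AlgebraicClosure ℚ
local notation "Γ" => (AlgebraicClosure ℚ ≃ₐ[ℚ] AlgebraicClosure ℚ)

/-- Crossed homomorphisms. -/
def crossed (G N : Type) [Group G] [AddCommGroup N] [DistribMulAction G N] :
    AddSubgroup (G → N) where
  carrier := {a | Coh.IsCrossed G a}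
  zero_mem' g h := by simp
  add_mem' {a b} ha hb g h := by
    show a (g * h) + b (g * h) = a g + b g + g • (a h + b h)
    rw [ha g h, hb g h, smul_add]; abel
  neg_mem' {a} ha g h := by
    show -a (g * h) = -a g + g • -a h
    rw [ha g h, smul_neg]; abel

/-- The restriction to a subgroup is a coboundary. -/
def TrivialOn {G N : Type} [Group G] [AddCommGroup N] [DistribMulAction G N] (V : Subgroup G)
    (a : G → N) : Prop :=
  ∃ m : N, ∀ g ∈ V, a g = g • m - m

/-- A finite level unramified outside `S` containing the roots of unity of order `p ^ 2`. -/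
structure Level (S : Finset ℕ) (p : ℕ) (G : Type) [Group G] where
  /-- The quotient map. -/
  q : Γ →* G
  surj : Function.Surjective q
  isOpen_ker : IsOpen (q.ker : Set Γ)
  mem : p ∈ S
  prime : ∀ r ∈ S, r.Prime
  unramified : ∀ A : Place, ¬ A.Over S → ∀ σ ∈ A.1.inertiaSubgroupIn ℚ, q σ = 1
  zeta : ∀ σ, q σ = 1 → ∀ ζ : ℚ̄, ζ ^ (p ^ 2) = 1 → σ ζ = ζ

namespace Level

variable {S T : Finset ℕ} {p : ℕ} {G : Type} [Group G] (lv : Level S p G)

/-- The field of the level. -/
def field : IntermediateField ℚ ℚ̄ := IntermediateField.fixedField lv.q.ker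

theorem fix_field : lv.field.fixingSubgroup = lv.q.ker := fixingSubgroup_fixed lv.isOpen_ker

theorem mem_fix_field {σ : Γ} : σ ∈ lv.field.fixingSubgroup ↔ lv.q σ = 1 := by
  rw [lv.fix_field]; exact MonoidHom.mem_ker

instance normal : Normal ℚ lv.field := normal_fixed (MonoidHom.normal_ker _)

theorem finite_field : FiniteDimensional ℚ lv.field := finite_fixed lv.isOpen_ker

theorem containsMuP : ContainsMuP p lv.field := fun ζ hζ σ =>
  lv.zeta σ.1 (MonoidHom.mem_ker.mp σ.2) ζ (by rw [pow_two, pow_mul, hζ, one_pow])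

theorem setting : IdeleSetting S p lv.field := by
  haveI := lv.finite_field
  haveI := lv.normal
  exact ⟨inferInstance, ⟨⟩, lv.mem, lv.prime, fun A hA σ hσ =>
    lv.mem_fix_field.mpr (lv.unramified A hA σ hσ)⟩

theorem setting_mono (h : S ⊆ T) (hT : ∀ r ∈ T, r.Prime) : IdeleSetting T p lv.field :=
  lv.setting.mono_T h hT

/-- A chosen lift. -/
def lift (g : G) : Γ := Function.surjInv lv.surj g

theorem q_lift (g : G) : lv.q (lv.lift g) = g := Function.surjInv_eq lv.surj g

theorem finite_group (lv : Level S p G) : Finite G := by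
  haveI := lv.finite_field
  haveI := finite_fixing_quotient (⊤ : Subgroup Γ) lv.field
  refine Finite.of_surjective
    (fun c : (⊤ : Subgroup Γ) ⧸ lv.field.fixingSubgroup.subgroupOf ⊤ => lv.q (Quotient.out c).1)
    fun g => ⟨QuotientGroup.mk ⟨lv.lift g, Subgroup.mem_top _⟩, ?_⟩
  have h := mem_of_mk_eq (QuotientGroup.out_eq'
    (QuotientGroup.mk (⟨lv.lift g, Subgroup.mem_top _⟩ : (⊤ : Subgroup Γ)) :
      (⊤ : Subgroup Γ) ⧸ lv.field.fixingSubgroup.subgroupOf ⊤))
  rw [lv.mem_fix_field, Subgroup.coe_mul, InvMemClass.coe_inv, map_mul, map_inv,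
    _root_.inv_mul_eq_one] at h
  exact h.trans (lv.q_lift g)

theorem smul_eq_of_q_eq {σ τ : Γ} (h : lv.q σ = lv.q τ) {φ : PreIdele}
    (hφ : φ ∈ ideles lv.field) : σ • φ = τ • φ := by
  have h1 := hφ.1 _ (lv.mem_fix_field.mpr (show lv.q (τ⁻¹ * σ) = 1 by
    rw [map_mul, map_inv, h, inv_mul_cancel]))
  conv_lhs => rw [← mul_inv_cancel_left τ σ, mul_smul, h1]

/-! ### Class modules -/

/-- A quotient of the ideles of the level by a subgroup, written additively. -/
def IdMod (U : Subgroup PreIdele) : Type :=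
  Additive (ideles lv.field ⧸ U.subgroupOf (ideles lv.field))

instance (U : Subgroup PreIdele) : AddCommGroup (lv.IdMod U) :=
  inferInstanceAs (AddCommGroup (Additive (ideles lv.field ⧸ U.subgroupOf _)))

/-- The class of an idele. -/
def classOf (U : Subgroup PreIdele) (φ : ideles lv.field) : lv.IdMod U :=
  Additive.ofMul (QuotientGroup.mk φ)

theorem classOf_surjective (U : Subgroup PreIdele) : Function.Surjective (lv.classOf U) :=
  fun c => by
  obtain ⟨φ, hφ⟩ := QuotientGroup.mk_surjective (Additive.toMul c)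
  exact ⟨φ, congrArg Additive.ofMul hφ⟩

theorem classOf_mul (U : Subgroup PreIdele) (φ ψ : ideles lv.field) :
    lv.classOf U (φ * ψ) = lv.classOf U φ + lv.classOf U ψ := rfl

theorem classOf_one (U : Subgroup PreIdele) : lv.classOf U 1 = 0 := rfl

theorem classOf_eq_zero_iff (U : Subgroup PreIdele) (φ : ideles lv.field) :
    lv.classOf U φ = 0 ↔ φ.1 ∈ U :=
  (QuotientGroup.eq_one_iff φ).trans Subgroup.mem_subgroupOf

theorem classOf_eq_iff (U : Subgroup PreIdele) (φ ψ : ideles lv.field) :
    lv.classOf U φ = lv.classOf U ψ ↔ φ.1 / ψ.1 ∈ U := by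
  refine (Additive.ofMul.injective.eq_iff).trans (QuotientGroup.eq_iff_div_mem.trans ?_)
  rw [Subgroup.mem_subgroupOf]; rfl

instance galStable_classKer : GalStable (classKer T lv.field) where
  smul_mem σ _ h := smul_mem_classKer σ h

/-- The action of a Galois element on a quotient. -/
def idSMul (U : Subgroup PreIdele) [GalStable U] (σ : Γ) : lv.IdMod U →+ lv.IdMod U :=
  (QuotientGroup.map (U.subgroupOf (ideles lv.field)) (U.subgroupOf (ideles lv.field))
    (((MulDistribMulAction.toMonoidHom PreIdele σ).comp (ideles lv.field).subtype).codRestrict _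
      fun φ => smul_mem_ideles σ φ.2) fun _ hφ => GalStable.smul_mem σ _ hφ).toAdditive

theorem idSMul_classOf (U : Subgroup PreIdele) [GalStable U] (σ : Γ) (φ : ideles lv.field) :
    lv.idSMul U σ (lv.classOf U φ) = lv.classOf U ⟨σ • φ.1, smul_mem_ideles σ φ.2⟩ := rfl

theorem idSMul_congr (U : Subgroup PreIdele) [GalStable U] {σ τ : Γ} (h : lv.q σ = lv.q τ)
    (c : lv.IdMod U) : lv.idSMul U σ c = lv.idSMul U τ c := by
  obtain ⟨φ, rfl⟩ := lv.classOf_surjective U c
  rw [idSMul_classOf, idSMul_classOf]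
  exact congrArg (lv.classOf U) (Subtype.ext (lv.smul_eq_of_q_eq h φ.2))

instance idModAction (U : Subgroup PreIdele) [GalStable U] :
    DistribMulAction G (lv.IdMod U) where
  smul g c := lv.idSMul U (lv.lift g) c
  one_smul c := by
    show lv.idSMul U (lv.lift 1) c = c
    rw [lv.idSMul_congr U (τ := 1) (by rw [q_lift, map_one])]
    obtain ⟨φ, rfl⟩ := lv.classOf_surjective U c
    exact congrArg (lv.classOf U) (Subtype.ext (one_smul Γ φ.1))
  mul_smul g h c := by
    show lv.idSMul U (lv.lift (g * h)) c = lv.idSMul U (lv.lift g) (lv.idSMul U (lv.lift h) c)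
    rw [lv.idSMul_congr U (τ := lv.lift g * lv.lift h) (by rw [map_mul, q_lift, q_lift, q_lift])]
    obtain ⟨φ, rfl⟩ := lv.classOf_surjective U c
    exact congrArg (lv.classOf U) (Subtype.ext (mul_smul (lv.lift g) (lv.lift h) φ.1))
  smul_zero g := map_zero _
  smul_add g := map_add _

theorem smul_classOf (U : Subgroup PreIdele) [GalStable U] {g : G} {σ : Γ} (h : lv.q σ = g)
    (φ : ideles lv.field) :
    g • lv.classOf U φ = lv.classOf U ⟨σ • φ.1, smul_mem_ideles σ φ.2⟩ :=
  (lv.idSMul_congr U (by rw [q_lift, h]) _).trans (lv.idSMul_classOf U σ φ)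

/-- `C_T` of the level. -/
abbrev Cl (T : Finset ℕ) : Type := lv.IdMod (classKer T lv.field)

/-- The map `C_{T'} → C_T` for `T ⊆ T'`. -/
def changeT {T' : Finset ℕ} (h : T ⊆ T') : lv.Cl T' →+ lv.Cl T :=
  (QuotientGroup.map ((classKer T' lv.field).subgroupOf (ideles lv.field))
    ((classKer T lv.field).subgroupOf (ideles lv.field)) (MonoidHom.id _) fun _ hφ =>
      Subgroup.mem_subgroupOf.mpr (classKer_anti h (Subgroup.mem_subgroupOf.mp hφ))).toAdditive

theorem changeT_classOf {T' : Finset ℕ} (h : T ⊆ T') (φ : ideles lv.field) :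
    lv.changeT h (lv.classOf _ φ) = lv.classOf _ φ := rfl

theorem changeT_surjective {T' : Finset ℕ} (h : T ⊆ T') :
    Function.Surjective (lv.changeT h) := fun c => by
  obtain ⟨φ, rfl⟩ := lv.classOf_surjective _ c
  exact ⟨lv.classOf _ φ, rfl⟩

theorem changeT_mem {T' : Finset ℕ} (h : T ⊆ T') :
    lv.changeT h ∈ Coh.eqHom G (lv.Cl T') (lv.Cl T) := fun g c => by
  obtain ⟨φ, rfl⟩ := lv.classOf_surjective _ c
  rw [lv.smul_classOf _ (lv.q_lift g), changeT_classOf, changeT_classOf,
    lv.smul_classOf _ (lv.q_lift g)]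

/-! ### Local components -/

/-- The components at `T ∪ ∞` of the level, written additively. -/
def LocMod (T : Finset ℕ) : Type := Additive (locIdeles T lv.field)

instance : AddCommGroup (lv.LocMod T) :=
  inferInstanceAs (AddCommGroup (Additive (locIdeles T lv.field)))

/-- An element of `LocMod` from an idele. -/
def locOf (φ : locIdeles T lv.field) : lv.LocMod T := Additive.ofMul φ

/-- The idele of an element of `LocMod`. -/
def locVal (x : lv.LocMod T) : PreIdele := (Additive.toMul x : locIdeles T lv.field).1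

theorem locVal_mem (x : lv.LocMod T) : lv.locVal x ∈ locIdeles T lv.field :=
  (Additive.toMul x : locIdeles T lv.field).2

theorem locVal_injective : Function.Injective (lv.locVal : lv.LocMod T → PreIdele) :=
  fun _ _ h => Additive.toMul.injective (Subtype.ext h)

theorem locVal_add (x y : lv.LocMod T) : lv.locVal (x + y) = lv.locVal x * lv.locVal y := rfl

theorem locVal_zero : lv.locVal (0 : lv.LocMod T) = 1 := rfl

theorem smul_locVal_congr {σ τ : Γ} (h : lv.q σ = lv.q τ) (x : lv.LocMod T) :
    σ • lv.locVal x = τ • lv.locVal x :=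
  lv.smul_eq_of_q_eq h (lv.locVal_mem x).1

instance locModAction : DistribMulAction G (lv.LocMod T) where
  smul g x := lv.locOf ⟨lv.lift g • lv.locVal x, smul_mem_locIdeles _ (lv.locVal_mem x)⟩
  one_smul x := lv.locVal_injective (by
    show lv.lift 1 • lv.locVal x = _
    rw [lv.smul_locVal_congr (τ := 1) (by rw [q_lift, map_one]), one_smul])
  mul_smul g h x := lv.locVal_injective (by
    show lv.lift (g * h) • lv.locVal x = lv.lift g • lv.lift h • lv.locVal x
    rw [lv.smul_locVal_congr (τ := lv.lift g * lv.lift h) (by rw [map_mul, q_lift, q_lift, q_lift]),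
      mul_smul])
  smul_zero g := lv.locVal_injective (smul_one _)
  smul_add g x y := lv.locVal_injective (smul_mul' _ _ _)

theorem locVal_smul {g : G} {σ : Γ} (h : lv.q σ = g) (x : lv.LocMod T) :
    lv.locVal (g • x) = σ • lv.locVal x :=
  lv.smul_locVal_congr (by rw [q_lift, h]) x

/-- Local components as classes. -/
def toCl (T U : Finset ℕ) : lv.LocMod T →+ lv.Cl U :=
  AddMonoidHom.mk' (fun x => lv.classOf _ ⟨lv.locVal x, (lv.locVal_mem x).1⟩) fun _ _ => rfl

theorem toCl_apply (T U : Finset ℕ) (x : lv.LocMod T) :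
    lv.toCl T U x = lv.classOf _ ⟨lv.locVal x, (lv.locVal_mem x).1⟩ := rfl

theorem toCl_mem (T U : Finset ℕ) :
    lv.toCl T U ∈ Coh.eqHom G (lv.LocMod T) (lv.Cl U) := fun g x => by
  rw [toCl_apply, toCl_apply, lv.smul_classOf _ (lv.q_lift g)]
  exact congrArg _ (Subtype.ext (lv.locVal_smul (lv.q_lift g) x))

theorem changeT_toCl {U U' : Finset ℕ} (h : U ⊆ U') (x : lv.LocMod T) :
    lv.changeT h (lv.toCl T U' x) = lv.toCl T U x := rfl

/-- The image of a decomposition group. -/
def decGroup (A : Place) : Subgroup G := (MulAction.stabilizer Γ A).map lv.q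

theorem mem_decGroup {A : Place} {g : G} :
    g ∈ lv.decGroup A ↔ ∃ σ : Γ, σ • A = A ∧ lv.q σ = g := Iff.rfl

/-- The places of the level over a place. -/
def inOrbit (A B : Place) : Prop := ∃ σ ∈ lv.field.fixingSubgroup, σ • A = B

theorem inOrbit_smul {A : Place} {σ : Γ} (hσ : σ ∈ lv.field.fixingSubgroup) (B : Place) :
    lv.inOrbit A (σ • B) ↔ lv.inOrbit A B :=
  ⟨fun ⟨τ, hτ, h⟩ => ⟨σ⁻¹ * τ, mul_mem (inv_mem hσ) hτ, by rw [mul_smul, h, inv_smul_smul]⟩,
    fun ⟨τ, hτ, h⟩ => ⟨σ * τ, mul_mem hσ hτ, by rw [mul_smul, h]⟩⟩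

/-- Keep the components in the orbit of a place. -/
def orbitRestr (A : Place) (φ : PreIdele) : PreIdele :=
  restrIdele (lv.inOrbit A) (fun _ => False) φ

theorem orbitRestr_mem (A : Place) {φ : PreIdele} (hφ : φ ∈ locIdeles T lv.field) :
    lv.orbitRestr A φ ∈ locIdeles T lv.field := by
  refine ⟨restr_mem_ideles hφ.1 (fun σ hσ B => lv.inOrbit_smul hσ B) (fun _ _ _ => Iff.rfl)
    (fun _ => Iff.rfl), fun B hB => ?_⟩
  by_cases h : lv.inOrbit A B
  · exact (restr_fin_of_pos (W := fun _ => False) (φ := φ) h).trans (hφ.2 B hB)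
  · exact restr_fin_of_neg (W := fun _ => False) h

theorem orbitRestr_mul (A : Place) (φ ψ : PreIdele) :
    lv.orbitRestr A (φ * ψ) = lv.orbitRestr A φ * lv.orbitRestr A ψ := by
  refine PreIdele.ext (funext fun B => ?_) (funext fun ι => ?_)
  · show _ = (lv.orbitRestr A φ).fin B * (lv.orbitRestr A ψ).fin B
    simp only [orbitRestr]
    by_cases h : lv.inOrbit A B
    · rw [restr_fin_of_pos h, restr_fin_of_pos h, restr_fin_of_pos h]; rfl
    · rw [restr_fin_of_neg h, restr_fin_of_neg h, restr_fin_of_neg h, one_mul]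
  · show _ = (lv.orbitRestr A φ).inf ι * (lv.orbitRestr A ψ).inf ι
    simp only [orbitRestr]
    rw [restr_inf_of_neg not_false, restr_inf_of_neg not_false, restr_inf_of_neg not_false, one_mul]

/-- The component at the orbit of a place. -/
def placeProj (A : Place) : lv.LocMod T →+ lv.LocMod T :=
  AddMonoidHom.mk' (fun x => lv.locOf ⟨_, lv.orbitRestr_mem A (lv.locVal_mem x)⟩)
    fun _ _ => lv.locVal_injective (lv.orbitRestr_mul A _ _)

theorem locVal_placeProj (A : Place) (x : lv.LocMod T) :
    lv.locVal (lv.placeProj A x) = lv.orbitRestr A (lv.locVal x) := rfl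

end Level

end FLTAgent.PoitouTate
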