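import Fermat.Agent.TW.Idele.ClassField.Cohomology
import Fermat.Agent.TW.Idele.ClassField.NormGeneral
import Fermat.Agent.PoitouTate.Base

/-!
# Vanishing of `H¹` of the idele classes without hypothesis on the class group

`cohomology_one_prime_general` treats an extension of degree `p`, `cohomology_one_general` deduces
`H¹(Gal(L/F), C_T(L)) = 0` for all `p`-extensions by induction on the degree, and `h1Zero_cl`
restates it for the module `Cl` of a level and the `p`-subgroups `P` of its group, whose fixed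
fields `subField P` contain `μ_p`.
-/

set_option autoImplicit false
set_option synthInstance.maxHeartbeats 200000
set_option maxHeartbeats 1000000
set_option linter.style.haveILetI false
set_option linter.unusedSimpArgs false
set_option linter.unusedSectionVars false

noncomputable section

open scoped Pointwise

namespace FLTAgent.PoitouTate

open FLTAgent.TW PreIdele

local notation "ℚ̄" => AlgebraicClosure ℚ
local notation "Γ" => (AlgebraicClosure ℚ ≃ₐ[ℚ] AlgebraicClosure ℚ)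

variable {T : Finset ℕ} {p : ℕ} {L F F' : IntermediateField ℚ (AlgebraicClosure ℚ)}

/-- `H¹ = 0` in degree `p`. -/
theorem cohomology_one_prime_general [hp : Fact p.Prime] (hL : IdeleSetting T p L)
    (hFF' : F ≤ F') (hF'L : F' ≤ L) (hμ : ContainsMuP p F)
    (hnormal : (F'.fixingSubgroup.subgroupOf F.fixingSubgroup).Normal)
    (hdeg : F'.fixingSubgroup.relIndex F.fixingSubgroup = p) (a : Γ → PreIdele)
    (ha : ∀ σ ∈ F.fixingSubgroup, a σ ∈ ideles F')
    (hcoc : ∀ σ ∈ F.fixingSubgroup, ∀ τ ∈ F.fixingSubgroup,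
      a (σ * τ) / (a σ * σ • a τ) ∈ classKer T F')
    (h1 : ∀ σ ∈ F'.fixingSubgroup, a σ ∈ classKer T F') :
    ∃ b ∈ ideles F', ∀ σ ∈ F.fixingSubgroup, a σ / (σ • b / b) ∈ classKer T F' := by
  haveI := hL.finite
  haveI := finite_of_le (L := L) hF'L
  set C := classKer T F' with hC
  have hle : F'.fixingSubgroup ≤ F.fixingSubgroup := IntermediateField.fixingSubgroup_le hFF'
  obtain ⟨σ₀, hσ₀, hσ₀'⟩ : ∃ σ₀ ∈ F.fixingSubgroup, σ₀ ∉ F'.fixingSubgroup := by
    by_contra h
    push Not at h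
    rw [Subgroup.relIndex_eq_one.mpr h] at hdeg
    exact hp.out.ne_one hdeg.symm
  obtain ⟨hσp, hrep, hinj⟩ := exists_pow_mem hnormal hdeg hσ₀ hσ₀'
  have hsmul : ∀ σ ∈ F.fixingSubgroup, ∀ φ ∈ C, σ • φ ∈ C := fun σ hσ φ hφ =>
    smul_mem_classKer_rel hFF' hnormal hσ hφ
  have hprodC : ∀ m : ℕ, (∏ i ∈ Finset.range m, (σ₀ ^ i) • a σ₀) / a (σ₀ ^ m) ∈ C := by
    intro m
    induction m with
    | zero => simpa using inv_mem (h1 1 (one_mem _))
    | succ m ih =>
      have h := hcoc _ (pow_mem hσ₀ m) _ hσ₀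
      rw [← pow_succ] at h
      have h2 := div_mem ih h
      rw [Finset.prod_range_succ]
      set P := ∏ i ∈ Finset.range m, (σ₀ ^ i) • a σ₀
      convert h2 using 1
      apply Additive.ofMul.injective
      simp only [ofMul_mul, ofMul_div, ofMul_inv]
      abel
  -- the norm of `a σ₀`
  haveI := finite_fixing_quotient F.fixingSubgroup F'
  haveI := Fintype.ofFinite (F.fixingSubgroup ⧸ F'.fixingSubgroup.subgroupOf F.fixingSubgroup)
  have hnorm : normIdele F F' (a σ₀) = ∏ i ∈ Finset.range p, (σ₀ ^ i) • a σ₀ := by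
    unfold normIdele
    rw [finprod_eq_prod_of_fintype, ← Fin.prod_univ_eq_prod_range (fun i => (σ₀ ^ i) • a σ₀) p]
    let e : Fin p → F.fixingSubgroup ⧸ F'.fixingSubgroup.subgroupOf F.fixingSubgroup := fun i =>
      QuotientGroup.mk ⟨σ₀ ^ (i : ℕ), pow_mem hσ₀ _⟩
    have he : Function.Bijective e := by
      refine ⟨fun i j h => Fin.ext (hinj i i.2 j j.2 (mem_of_mk_eq h)), fun c => ?_⟩
      obtain ⟨i, hi, hi'⟩ := hrep _ (Quotient.out c).2
      refine ⟨⟨i, hi⟩, ?_⟩
      conv_rhs => rw [← QuotientGroup.out_eq' c]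
      exact QuotientGroup.eq.mpr (Subgroup.mem_subgroupOf.mpr hi')
    exact (Fintype.prod_bijective e he _ _ fun i =>
      (out_smul (fun k hk => (ha σ₀ hσ₀).1 k hk) ⟨σ₀ ^ (i : ℕ), pow_mem hσ₀ _⟩).symm).symm
  have hN : normIdele F F' (a σ₀) ∈ C := by
    rw [hnorm]
    have := mul_mem (hprodC p) (h1 _ hσp)
    rwa [div_mul_cancel] at this
  -- index `p` and Herbrand quotient `p`
  obtain ⟨-, hh⟩ := herbrand_quotient hL hFF' hF'L hμ σ₀ hσ₀ hσ₀' hnormal hdeg
  rw [relIndex_norm_general hL hFF' hF'L hμ hnormal hdeg] at hh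
  have hone := (mul_eq_left₀ hp.out.ne_zero).mp hh.symm
  have hmem := Subgroup.relIndex_eq_one.mp hone
    (Subgroup.subset_closure (show a σ₀ ∈ _ from ⟨ha σ₀ hσ₀, hN⟩))
  obtain ⟨c, hc, d, hd, hcd⟩ := Subgroup.mem_sup.mp hmem
  let D : PreIdele →* PreIdele :=
    { toFun := fun b => σ₀ • b / b
      map_one' := by simp
      map_mul' := fun x y => by rw [smul_mul', mul_div_mul_comm] }
  obtain ⟨b, hb, rfl⟩ : ∃ b ∈ ideles F', σ₀ • b / b = d := by
    have h : d ∈ (ideles F').map D := by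
      refine ((Subgroup.closure_le _).mpr ?_) hd
      rintro _ ⟨x, hx, rfl⟩
      exact ⟨x, hx, rfl⟩
    obtain ⟨b, hb, h'⟩ := h
    exact ⟨b, hb, h'⟩
  refine ⟨b, hb, ?_⟩
  set a' : Γ → PreIdele := fun σ => a σ / (σ • b / b) with ha'
  have hcoc' : ∀ σ ∈ F.fixingSubgroup, ∀ τ ∈ F.fixingSubgroup,
      a' (σ * τ) / (a' σ * σ • a' τ) ∈ C := fun σ hσ τ hτ => by
    simp only [ha', twist_coboundary]
    exact hcoc σ hσ τ hτ
  have hF' : ∀ σ ∈ F'.fixingSubgroup, a' σ ∈ C := fun σ hσ => by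
    simp only [ha', hb.1 σ hσ, div_self', div_one]
    exact h1 σ hσ
  have hmul : ∀ σ ∈ F.fixingSubgroup, ∀ τ ∈ F.fixingSubgroup, a' σ ∈ C → a' τ ∈ C →
      a' (σ * τ) ∈ C := fun σ hσ τ hτ h h' => by
    have := mul_mem (hcoc' σ hσ τ hτ) (mul_mem h (hsmul σ hσ _ h'))
    rwa [div_mul_cancel] at this
  have hgen : a' σ₀ ∈ C := by
    simp only [ha', ← hcd, mul_div_cancel_right]
    exact hc
  have hpow : ∀ i : ℕ, a' (σ₀ ^ i) ∈ C := fun i => by
    induction i with
    | zero => simpa using hF' 1 (one_mem _)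
    | succ i ih => rw [pow_succ]; exact hmul _ (pow_mem hσ₀ i) _ hσ₀ ih hgen
  intro σ hσ
  obtain ⟨i, -, hi⟩ := hrep σ hσ
  have := hmul _ (pow_mem hσ₀ i) _ (hle hi) (hpow i) (hF' _ hi)
  rwa [mul_inv_cancel_left] at this


/-- `H¹(Gal(L/F), C_T(L)) = 0` for `p`-extensions. -/
theorem cohomology_one_general [hp : Fact p.Prime] (hL : IdeleSetting T p L)
    (k : ℕ) :
    ∀ F : IntermediateField ℚ (AlgebraicClosure ℚ), F ≤ L → ContainsMuP p F →
    L.fixingSubgroup.relIndex F.fixingSubgroup = p ^ k → ∀ a : Γ → PreIdele,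
    (∀ σ ∈ F.fixingSubgroup, a σ ∈ ideles L) →
    (∀ σ ∈ F.fixingSubgroup, ∀ τ ∈ F.fixingSubgroup,
      a (σ * τ) / (a σ * σ • a τ) ∈ classKer T L) →
    (∀ σ ∈ L.fixingSubgroup, a σ ∈ classKer T L) →
    ∃ b ∈ ideles L, ∀ σ ∈ F.fixingSubgroup, a σ / (σ • b / b) ∈ classKer T L := by
  haveI := hL.finite
  haveI := hL.isGalois
  haveI : Normal ℚ L := IsGalois.to_normal
  induction k with
  | zero =>
    intro F _ _ hdeg a _ _ hL1
    rw [pow_zero, Subgroup.relIndex_eq_one] at hdeg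
    exact ⟨1, one_mem _, fun σ hσ => by simpa using hL1 σ (hdeg hσ)⟩
  | succ k ih =>
    intro F hFL hμ hdeg a ha hcoc hL1
    obtain ⟨F₁, hFF₁, hF₁L, hnormal, hdeg₁, hdegk⟩ := exists_layer hL hFL hdeg
    have hle := IntermediateField.fixingSubgroup_le hFF₁
    obtain ⟨b₁, hb₁, hb₁'⟩ := ih F₁ hF₁L (fun ζ h => hFF₁ (hμ ζ h)) hdegk a
      (fun σ hσ => ha σ (hle hσ)) (fun σ hσ τ hτ => hcoc σ (hle hσ) τ (hle hτ)) hL1
    set a' : Γ → PreIdele := fun σ => a σ / (σ • b₁ / b₁) with ha'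
    have hmem : ∀ σ ∈ F.fixingSubgroup, a' σ ∈ ideles L := fun σ hσ =>
      div_mem (ha σ hσ) (div_mem (smul_mem_ideles σ hb₁) hb₁)
    have hcoc' : ∀ σ ∈ F.fixingSubgroup, ∀ τ ∈ F.fixingSubgroup,
        a' (σ * τ) / (a' σ * σ • a' τ) ∈ classKer T L := fun σ hσ τ hτ => by
      simp only [ha', twist_coboundary]
      exact hcoc σ hσ τ hτ
    -- invariance of the classes
    have hinv : ∀ σ ∈ F.fixingSubgroup, ∀ τ ∈ F₁.fixingSubgroup,
        τ • a' σ / a' σ ∈ classKer T L := by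
      intro σ hσ τ hτ
      have hτ' : σ⁻¹ * τ * σ ∈ F₁.fixingSubgroup := by
        have h := hnormal.conj_mem ⟨τ, hle hτ⟩ (Subgroup.mem_subgroupOf.mpr hτ)
          ⟨σ⁻¹, inv_mem hσ⟩
        simpa [Subgroup.mem_subgroupOf] using h
      have h1 := hcoc' τ (hle hτ) σ hσ
      have h2 := hcoc' σ hσ _ (hle hτ')
      rw [show σ * (σ⁻¹ * τ * σ) = τ * σ by rw [← mul_assoc, ← mul_assoc, mul_inv_cancel, one_mul]]
        at h2
      have h3 := hb₁' τ hτ
      have h4 := smul_mem_classKer (T := T) σ (hb₁' _ hτ')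
      have h5 := mul_mem (div_mem h2 h1) (div_mem h4 h3)
      convert h5 using 1
      simp only [ha', smul_mul', smul_div']
      apply Additive.ofMul.injective
      simp only [ofMul_mul, ofMul_div, ofMul_inv]
      abel
    have hnormL : (L.fixingSubgroup.subgroupOf F₁.fixingSubgroup).Normal := by
      haveI : L.fixingSubgroup.Normal := normal_fixingSubgroup
      infer_instance
    have hψ : ∀ σ : Γ, ∃ ψ : PreIdele, σ ∈ F.fixingSubgroup →
        ψ ∈ ideles F₁ ∧ a' σ / ψ ∈ classKer T L := fun σ => by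
      by_cases hσ : σ ∈ F.fixingSubgroup
      · obtain ⟨ψ, h1, h2⟩ := exists_fixed' hL hF₁L le_rfl hnormL (hmem σ hσ) (hinv σ hσ)
        exact ⟨ψ, fun _ => ⟨h1, h2⟩⟩
      · exact ⟨1, fun h => absurd h hσ⟩
    choose ψ hψ using hψ
    obtain ⟨b₂, hb₂, hb₂'⟩ := cohomology_one_prime_general hL hFF₁ hF₁L hμ hnormal hdeg₁ ψ
      (fun σ hσ => (hψ σ hσ).1) (fun σ hσ τ hτ => by
        refine classKer_inter' (div_mem (hψ _ (mul_mem hσ hτ)).1 (mul_mem (hψ σ hσ).1
          (smul_mem_ideles_rel hFF₁ hnormal hσ (hψ τ hτ).1))) (L := L) ?_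
        have h1 := hcoc' σ hσ τ hτ
        have h2 := div_mem (mul_mem (hψ σ hσ).2 (smul_mem_classKer (T := T) σ (hψ τ hτ).2))
          (hψ _ (mul_mem hσ hτ)).2
        have h3 := mul_mem h1 h2
        convert h3 using 1
        simp only [smul_mul', smul_div']
        apply Additive.ofMul.injective
        simp only [ofMul_mul, ofMul_div, ofMul_inv]
        abel)
      (fun σ hσ => by
        refine classKer_inter' (hψ σ (hle hσ)).1 (L := L) ?_
        have h := div_mem (hb₁' σ hσ) (hψ σ (hle hσ)).2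
        simpa [ha'] using h)
    refine ⟨b₁ * b₂, mul_mem hb₁ (ideles_le_of_le hF₁L hb₂), fun σ hσ => ?_⟩
    have h := mul_mem (hψ σ hσ).2 (classKer_mono' hF₁L (hb₂' σ hσ))
    convert h using 1
    simp only [ha', smul_mul']
    apply Additive.ofMul.injective
    simp only [ofMul_mul, ofMul_div, ofMul_inv]
    abel

namespace Level

variable {S : Finset ℕ} {G : Type} [Group G] (lv : Level S p G)

/-! ### Fixed fields of subgroups -/

/-- The fixed field of a subgroup of the group of a level. -/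
def subField (U : Subgroup G) : IntermediateField ℚ ℚ̄ :=
  IntermediateField.fixedField (U.comap lv.q)

theorem isOpen_comap (U : Subgroup G) : IsOpen ((U.comap lv.q : Subgroup Γ) : Set Γ) :=
  Subgroup.isOpen_mono (H₁ := lv.q.ker) (fun _ hσ => Subgroup.mem_comap.mpr
    ((MonoidHom.mem_ker.mp hσ).symm ▸ one_mem U)) lv.isOpen_ker

theorem fix_subField (U : Subgroup G) : (lv.subField U).fixingSubgroup = U.comap lv.q :=
  fixingSubgroup_fixed (lv.isOpen_comap U)

theorem mem_fix_subField {U : Subgroup G} {σ : Γ} :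
    σ ∈ (lv.subField U).fixingSubgroup ↔ lv.q σ ∈ U := by
  rw [lv.fix_subField]; exact Subgroup.mem_comap

theorem subField_antitone {U V : Subgroup G} (h : U ≤ V) : lv.subField V ≤ lv.subField U :=
  TW.Layer.le_of_fix (by rw [lv.fix_subField, lv.fix_subField]; exact Subgroup.comap_mono h)

theorem subField_le (U : Subgroup G) : lv.subField U ≤ lv.field :=
  TW.Layer.le_of_fix (by
    rw [lv.fix_subField, lv.fix_field]
    exact fun σ hσ => Subgroup.mem_comap.mpr ((MonoidHom.mem_ker.mp hσ).symm ▸ one_mem U))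

theorem finite_subField (U : Subgroup G) : FiniteDimensional ℚ (lv.subField U) :=
  haveI := lv.finite_field
  finite_of_le (lv.subField_le U)

theorem normal_field_subgroupOf (V : Subgroup Γ) :
    (lv.field.fixingSubgroup.subgroupOf V).Normal := by
  rw [lv.fix_field]
  infer_instance

theorem relIndex_field (U : Subgroup G) :
    lv.field.fixingSubgroup.relIndex (lv.subField U).fixingSubgroup = Nat.card U := by
  rw [lv.fix_field, lv.fix_subField, Subgroup.relIndex_ker,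
    Subgroup.map_comap_eq_self_of_surjective lv.surj]

theorem containsMuP_subField [hp : Fact p.Prime] {P : Subgroup G} (hP : IsPGroup p P) :
    ContainsMuP p (lv.subField P) := by
  intro ζ hζ
  rintro ⟨σ, hσ⟩
  show σ ζ = ζ
  by_cases h1 : ζ = 1
  · rw [h1, map_one]
  haveI : NeZero p := ⟨hp.out.ne_zero⟩
  have hprim : IsPrimitiveRoot ζ p := IsPrimitiveRoot.iff_orderOf.mpr (orderOf_eq_prime hζ h1)
  obtain ⟨a, -, ha⟩ := hprim.eq_pow_of_pow_eq_one
    (show (σ ζ) ^ p = 1 by rw [← map_pow, hζ, map_one])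
  have hiter : ∀ m : ℕ, (σ ^ m) ζ = ζ ^ a ^ m := fun m => by
    induction m with
    | zero => rw [pow_zero, pow_zero, pow_one]; rfl
    | succ m ih => rw [pow_succ', AlgEquiv.mul_apply, ih, map_pow, ← ha, ← pow_mul, ← pow_succ']
  obtain ⟨j, hj⟩ := hP ⟨lv.q σ, hσ⟩
  have hq : lv.q (σ ^ p ^ j) = 1 := by rw [map_pow]; exact congrArg Subtype.val hj
  have h2 := lv.zeta _ hq ζ (by rw [pow_two, pow_mul, hζ, one_pow])
  rw [hiter] at h2
  conv_rhs at h2 => rw [← pow_one ζ]
  have hfin := hprim.isOfFinOrder hp.out.ne_zero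
  rw [hfin.pow_eq_pow_iff_modEq, ← hprim.eq_orderOf, ← ZMod.natCast_eq_natCast_iff, Nat.cast_pow,
    ZMod.pow_card_pow, Nat.cast_one] at h2
  rw [← ha]
  conv_rhs => rw [← pow_one ζ]
  rw [hfin.pow_eq_pow_iff_modEq, ← hprim.eq_orderOf, ← ZMod.natCast_eq_natCast_iff, Nat.cast_one]
  exact h2

/-! ### Classes of ideles of subfields -/

theorem classOf_zpow (U : Subgroup PreIdele) (φ : ideles lv.field) (j : ℤ) :
    lv.classOf U (φ ^ j) = j • lv.classOf U φ := rfl

theorem classOf_prod (U : Subgroup PreIdele) (n : ℕ) (f : ℕ → ideles lv.field) :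
    lv.classOf U (∏ i ∈ Finset.range n, f i) = ∑ i ∈ Finset.range n, lv.classOf U (f i) := by
  induction n with
  | zero => exact lv.classOf_one U
  | succ n ih => rw [Finset.prod_range_succ, Finset.sum_range_succ, classOf_mul, ih]

theorem smul_classOf_of_mem (U : Subgroup G) {φ : ideles lv.field}
    (hφ : φ.1 ∈ ideles (lv.subField U)) {g : G} (hg : g ∈ U) :
    g • lv.classOf (classKer T lv.field) φ = lv.classOf (classKer T lv.field) φ := by
  rw [lv.smul_classOf _ (lv.q_lift g)]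
  exact congrArg _ (Subtype.ext (hφ.1 _ (lv.mem_fix_subField.mpr (by rwa [lv.q_lift]))))

variable (hST : S ⊆ T) (hT : ∀ r ∈ T, r.Prime)
include hST hT

/-- A class fixed by a subgroup comes from an idele of its fixed field. -/
theorem exists_idele_of_fixed [Fact p.Prime] (U : Subgroup G) (c : lv.Cl T)
    (hc : ∀ h ∈ U, h • c = c) :
    ∃ φ : ideles lv.field, φ.1 ∈ ideles (lv.subField U) ∧ lv.classOf _ φ = c := by
  obtain ⟨φ, rfl⟩ := lv.classOf_surjective _ c
  obtain ⟨ψ, hψ, h⟩ := exists_fixed' (lv.setting_mono hST hT) (lv.subField_le U) le_rfl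
    (lv.normal_field_subgroupOf _) φ.2 fun σ hσ =>
      (lv.classOf_eq_iff _ ⟨σ • φ.1, smul_mem_ideles σ φ.2⟩ φ).mp
        ((lv.smul_classOf _ (σ := σ) rfl φ).symm.trans (hc _ (lv.mem_fix_subField.mp hσ)))
  exact ⟨⟨ψ, ideles_mono (lv.subField_le U) hψ⟩, hψ,
    ((lv.classOf_eq_iff _ φ ⟨ψ, ideles_mono (lv.subField_le U) hψ⟩).mpr h).symm⟩

/-- `H¹(P, C_T) = 0` for `p`-subgroups. -/
theorem h1Zero_cl [Fact p.Prime] (P : Subgroup G) (hP : IsPGroup p P) :
    Coh.H1Zero P (lv.Cl T) := by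
  classical
  intro a ha
  haveI := lv.finite_group
  have ha1 : a 1 = 0 := by
    have := ha 1 1
    rwa [one_mul, one_smul, left_eq_add] at this
  let A : Γ → lv.Cl T := fun σ => if h : lv.q σ ∈ P then a ⟨_, h⟩ else 0
  choose φ hφ using fun σ => lv.classOf_surjective _ (A σ)
  obtain ⟨j, hj⟩ := IsPGroup.iff_card.mp hP
  obtain ⟨b, hb, h⟩ := cohomology_one_general (lv.setting_mono hST hT) j (lv.subField P)
    (lv.subField_le P) (lv.containsMuP_subField hP) ((lv.relIndex_field P).trans hj)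
    (fun σ => (φ σ).1) (fun σ _ => (φ σ).2)
    (fun σ hσ τ hτ => by
      rw [mem_fix_subField] at hσ hτ
      have hστ : lv.q (σ * τ) ∈ P := by rw [map_mul]; exact mul_mem hσ hτ
      refine (lv.classOf_eq_iff _ (φ (σ * τ)) (φ σ * ⟨σ • (φ τ).1, smul_mem_ideles σ (φ τ).2⟩)).mp ?_
      rw [classOf_mul, ← lv.smul_classOf _ (g := lv.q σ) rfl, hφ, hφ, hφ]
      show dite _ _ _ = dite _ _ _ + lv.q σ • dite _ _ _
      rw [dif_pos hστ, dif_pos hσ, dif_pos hτ,
        show (⟨lv.q (σ * τ), hστ⟩ : P) = ⟨_, hσ⟩ * ⟨_, hτ⟩ from Subtype.ext (map_mul _ _ _)]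
      exact ha ⟨_, hσ⟩ ⟨_, hτ⟩)
    fun σ hσ => by
      rw [lv.mem_fix_field] at hσ
      refine (lv.classOf_eq_zero_iff _ (φ σ)).mp ?_
      rw [hφ]
      show dite _ _ _ = _
      rw [dif_pos (hσ.symm ▸ one_mem P)]
      exact (congrArg a (Subtype.ext hσ)).trans ha1
  refine ⟨lv.classOf _ ⟨b, hb⟩, fun g => ?_⟩
  have h1 : lv.q (lv.lift g) = g := lv.q_lift g
  have h2 := h (lv.lift g) (lv.mem_fix_subField.mpr (by rw [h1]; exact g.2))
  show a g = (g : G) • _ - _
  rw [lv.smul_classOf _ h1, eq_sub_iff_add_eq]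
  have hA : a g = lv.classOf (classKer T lv.field) (φ (lv.lift g)) := by
    rw [hφ]
    show _ = dite _ _ _
    rw [dif_pos (h1.symm ▸ g.2)]
    exact (congrArg a (Subtype.ext h1)).symm
  rw [hA, ← classOf_mul, classOf_eq_iff]
  have h3 := h2
  rw [div_div_eq_mul_div] at h3
  exact h3

end Level

end FLTAgent.PoitouTate
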