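import Fermat.Agent.PoitouTate.Cohomology
import Fermat.Agent.TW.Idele.ClassField.PlaceNorm

/-!
# Norms of the ideles of places without unramifiedness

The idele of a place over a field containing the decomposition field of the place has norm equal
to the idele of the place below.
-/

set_option autoImplicit false
set_option linter.style.haveILetI false
set_option linter.unusedSectionVars false

noncomputable section

open scoped Pointwise

namespace FLTAgent.PoitouTate

open FLTAgent.TW

local notation "ℚ̄" => AlgebraicClosure ℚ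
local notation "Γ" => (AlgebraicClosure ℚ ≃ₐ[ℚ] AlgebraicClosure ℚ)

variable {F F' : IntermediateField ℚ (AlgebraicClosure ℚ)}

/-- Two fields with the same orbit of the place give the same idele. -/
theorem placeIdele_congr_orbit {r : ℕ} (hr : r ≠ 0) {A : Place}
    (h : ∀ B : Place, (∃ σ ∈ F.fixingSubgroup, σ • A = B) ↔ ∃ σ ∈ F'.fixingSubgroup, σ • A = B) :
    placeIdele F r hr A = placeIdele F' r hr A := by
  classical
  refine PreIdele.ext (funext fun B => ?_) rfl
  show (if _ then _ else _) = (if _ then _ else _)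
  exact if_congr (h B) rfl rfl

/-- The norm from a field containing the decomposition field. -/
theorem normIdele_placeIdele_of_stab [FiniteDimensional ℚ F'] (hFF' : F ≤ F') {r : ℕ}
    (hr : r.Prime) {A : Place} (hA : A.1.LiesOverPrime r)
    (hstab : ∀ γ ∈ F.fixingSubgroup, γ • A = A → γ ∈ F'.fixingSubgroup) :
    normIdele F F' (placeIdele F' r hr.ne_zero A) = placeIdele F r hr.ne_zero A := by
  classical
  haveI := finite_fixing_quotient F.fixingSubgroup F'
  haveI := Fintype.ofFinite (F.fixingSubgroup ⧸ F'.fixingSubgroup.subgroupOf F.fixingSubgroup)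
  set H := F.fixingSubgroup with hH
  set H' := F'.fixingSubgroup with hH'
  have hle : H' ≤ H := IntermediateField.fixingSubgroup_le hFF'
  have hN : normIdele F F' (placeIdele F' r hr.ne_zero A) ∈ ideles F :=
    normIdele_mem' (placeIdele_mem_ideles hr hA)
  have hR : placeIdele F r hr.ne_zero A ∈ ideles F := placeIdele_mem_ideles hr hA
  refine PreIdele.ext (funext fun B => Units.ext ?_) (funext fun ι => ?_)
  swap
  · rw [inf_normIdele]
    exact Finset.prod_eq_one fun c _ => rfl
  by_cases hB : ∃ γ ∈ H, γ • A = B
  · obtain ⟨γ, hγ, rfl⟩ := hB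
    rw [coe_smul_fin hN hγ, coe_smul_fin hR hγ]
    congr 1
    rw [coe_fin_normIdele, placeIdele_fin_self,
      Finset.prod_eq_single (QuotientGroup.mk (1 : H))]
    · set o : Γ := ((Quotient.out (QuotientGroup.mk (1 : H) : H ⧸ H'.subgroupOf H) : H) : Γ)
      have ho : o ∈ H' := by
        have h := mem_of_mk_eq (QuotientGroup.out_eq'
          (QuotientGroup.mk (1 : H) : H ⧸ H'.subgroupOf H))
        rw [Subgroup.coe_mul, InvMemClass.coe_inv, Subgroup.coe_one, mul_one] at h
        exact inv_mem_iff.mp h
      rw [coe_smul_fin (placeIdele_mem_ideles hr hA) (inv_mem ho), placeIdele_fin_self,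
        map_natCast, map_natCast]
    · intro c _ hc
      set o : Γ := ((Quotient.out c : H) : Γ)
      rw [placeIdele_fin_of_not, Units.val_one, map_one]
      rintro ⟨τ, hτ, hτA⟩
      refine hc ?_
      have h1 : o * τ ∈ H' := hstab _ (mul_mem (Quotient.out c).2 (hle hτ))
        (by rw [mul_smul, hτA, smul_inv_smul])
      rw [← QuotientGroup.out_eq' c]
      refine QuotientGroup.eq.mpr ?_
      rw [Subgroup.mem_subgroupOf, Subgroup.coe_mul, InvMemClass.coe_inv, Subgroup.coe_one,
        mul_one]
      exact inv_mem ((H'.mul_mem_cancel_right hτ).mp h1)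
    · exact fun h => absurd (Finset.mem_univ _) h
  · rw [placeIdele_fin_of_not r _ hB, Units.val_one, coe_fin_normIdele]
    refine Finset.prod_eq_one fun c _ => ?_
    rw [placeIdele_fin_of_not, Units.val_one, map_one]
    rintro ⟨τ, hτ, hτA⟩
    exact hB ⟨((Quotient.out c : H) : Γ) * τ, mul_mem (Quotient.out c).2 (hle hτ),
      by rw [mul_smul, hτA, smul_inv_smul]⟩

namespace Level

variable {S : Finset ℕ} {p : ℕ} {G : Type} [Group G] (lv : Level S p G)

/-- Below the decomposition group the orbits of the place are those of the level. -/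
theorem inOrbit_iff {A : Place} {V : Subgroup G} (hV : V ≤ lv.decGroup A) (B : Place) :
    lv.inOrbit A B ↔ ∃ σ ∈ (lv.subField V).fixingSubgroup, σ • A = B := by
  constructor
  · rintro ⟨σ, hσ, h⟩
    exact ⟨σ, lv.mem_fix_subField.mpr ((lv.mem_fix_field.mp hσ).symm ▸ one_mem V), h⟩
  · rintro ⟨σ, hσ, h⟩
    obtain ⟨d, hd, hdq⟩ := lv.mem_decGroup.mp (hV (lv.mem_fix_subField.mp hσ))
    refine ⟨σ * d⁻¹, lv.mem_fix_field.mpr (by rw [map_mul, map_inv, hdq, mul_inv_cancel]), ?_⟩
    rw [mul_smul, inv_smul_eq_iff.mpr hd.symm, h]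

/-- The norm to `ℚ` of the idele of a place over a field below the decomposition field. -/
theorem normIdele_placeIdele_subField (A : Place) {r : ℕ} (hr : r.Prime)
    (hA : A.1.LiesOverPrime r) {V : Subgroup G} (hV : V ≤ lv.decGroup A) :
    normIdele ⊥ (lv.subField V) (placeIdele (lv.subField V) r hr.ne_zero A) =
      placeIdele ⊥ r hr.ne_zero A ^ V.relIndex (lv.decGroup A) := by
  haveI := lv.finite_subField (lv.decGroup A)
  haveI := lv.finite_subField V
  have hle : lv.subField (lv.decGroup A) ≤ lv.subField V := lv.subField_antitone hV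
  have e : placeIdele (lv.subField V) r hr.ne_zero A =
      placeIdele (lv.subField (lv.decGroup A)) r hr.ne_zero A :=
    placeIdele_congr_orbit hr.ne_zero fun B =>
      (lv.inOrbit_iff hV B).symm.trans (lv.inOrbit_iff le_rfl B)
  rw [← normIdele_trans' bot_le hle (placeIdele_mem_ideles hr hA), e,
    normIdele_of_mem hle (placeIdele_mem_ideles hr hA), lv.fix_subField, lv.fix_subField,
    Subgroup.relIndex_comap, Subgroup.map_comap_eq_self_of_surjective lv.surj,
    ← normHomIdele_apply, map_pow, normHomIdele_apply,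
    normIdele_placeIdele_of_stab bot_le hr hA fun γ _ hγ =>
      lv.mem_fix_subField.mpr (lv.mem_decGroup.mpr ⟨γ, hγ, rfl⟩)]

end Level

end FLTAgent.PoitouTate
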