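import Fermat.Agent.PoitouTate.CoverData
import Fermat.Agent.PoitouTate.PlaceNormBase

/-!
# The cover of a layer

`exists_coverOn`: every layer has class field theoretic data `CoverOn`.  The generating class is
the idele class which the Artin map of the cyclotomic layer sends to a generator; the norm
criterion of `exists_artin_map_conductor` and the lemmas of `CoverData` give its properties.
`finite_cl` shows that the classes of a level have finite `p`-torsion and finite reduction
modulo `p`, and `exists_classesEquiv` identifies them with the invariant classes of the cover.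
-/

set_option autoImplicit false
set_option maxHeartbeats 1000000
set_option linter.style.haveILetI false
set_option linter.unusedSectionVars false

noncomputable section

open scoped Pointwise

namespace FLTAgent.PoitouTate

open FLTAgent.TW

local notation "ℚ̄" => AlgebraicClosure ℚ
local notation "Γ" => (AlgebraicClosure ℚ ≃ₐ[ℚ] AlgebraicClosure ℚ)

variable {S : Finset ℕ} {p : ℕ} [Fact p.Prime] {G : Type} [Group G] (lv : Level S p G)

namespace Level

variable {T : Finset ℕ}

/-- The classes of a level have finite torsion and finite reduction modulo `p`, whatever the class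
group. -/
theorem finite_cl (hST : S ⊆ T) (hT : ∀ r ∈ T, r.Prime) :
    Finite {c : lv.Cl T // p • c = 0} ∧ Finite (Coh.ModP p (lv.Cl T)) := by
  have hL := lv.setting_mono hST hT
  haveI := lv.finite_field
  obtain ⟨h0, h1⟩ := card_classes' (F := lv.field) hT (hST lv.mem) lv.containsMuP
  constructor
  · have h2 : 0 < Nat.card {c : IdeleClass T lv.field // c ^ p = 1} :=
      Nat.pos_of_ne_zero fun h => by rw [h1, h, mul_zero] at h0; exact lt_irrefl _ h0
    haveI := Nat.finite_of_card_ne_zero h2.ne'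
    exact Finite.of_injective (fun c : {c : lv.Cl T // p • c = 0} =>
      (⟨Additive.toMul c.1, c.2⟩ : {c : IdeleClass T lv.field // c ^ p = 1}))
      fun c d h => Subtype.ext (Additive.toMul.injective (congrArg Subtype.val h))
  · haveI : Finite (IdeleClassModP T p lv.field) := Nat.finite_of_card_ne_zero h0.ne'
    let f : lv.Cl T →+ Additive (IdeleClassModP T p lv.field) :=
      (QuotientGroup.map ((classKer T lv.field).subgroupOf (ideles lv.field))
        ((classKer T lv.field ⊔ powIdeles p lv.field).subgroupOf (ideles lv.field))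
        (MonoidHom.id _) fun φ hφ => Subgroup.mem_subgroupOf.mpr
          (Subgroup.mem_sup_left (Subgroup.mem_subgroupOf.mp hφ))).toAdditive
    have hf : ∀ c, f c = 0 → ∃ y, p • y = c := fun c hc => by
      obtain ⟨φ, rfl⟩ := lv.classOf_surjective _ c
      obtain ⟨u, hu, v, ⟨w, hw, rfl⟩, he⟩ := Subgroup.mem_sup.mp
        (Subgroup.mem_subgroupOf.mp ((QuotientGroup.eq_one_iff φ).mp hc))
      refine ⟨lv.classOf _ ⟨w, hw⟩, ?_⟩
      refine (show p • lv.classOf (classKer T lv.field) ⟨w, hw⟩ = lv.classOf _ (⟨w, hw⟩ ^ p) from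
        rfl).trans ((lv.classOf_eq_iff _ _ _).mpr ?_)
      show w ^ p / φ.1 ∈ _
      rw [← he, powMonoidHom_apply, div_mul_cancel_right]
      exact inv_mem hu
    let g : Coh.ModP p (lv.Cl T) →+ Additive (IdeleClassModP T p lv.field) :=
      QuotientAddGroup.lift _ f (by
        rintro _ ⟨y, rfl⟩
        rw [AddMonoidHom.mem_ker]
        obtain ⟨φ, rfl⟩ := lv.classOf_surjective _ y
        show f (lv.classOf _ (φ ^ p)) = 0
        exact congrArg Additive.ofMul ((QuotientGroup.eq_one_iff _).mpr (Subgroup.mem_subgroupOf.mpr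
          (Subgroup.mem_sup_right ⟨φ.1, φ.2, rfl⟩))))
    refine Finite.of_injective g ((injective_iff_map_eq_zero g).mpr fun x hx => ?_)
    obtain ⟨c, rfl⟩ := Coh.toModP_surjective x
    exact Coh.toModP_eq_zero_iff.mpr (hf c hx)

end Level

namespace Layer

variable {lv} (ly : Layer lv)

/-- The classes of the level in those of the layer. -/
def incl : lv.Cl ly.places →+ ly.Classes :=
  (QuotientGroup.map ((classKer ly.places lv.field).subgroupOf (ideles lv.field))
    ((classKer ly.places ly.field).subgroupOf (ideles ly.field))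
    (Subgroup.inclusion (ideles_mono ly.level_le)) fun _ hφ => Subgroup.mem_subgroupOf.mpr
      ((haveI := ly.finite_field; classKer_mono ly.level_le)
        (Subgroup.mem_subgroupOf.mp hφ))).toAdditive

theorem incl_classOf (φ : ideles lv.field) :
    ly.incl (lv.classOf _ φ) = ly.cls (ly.up φ) := rfl

theorem exists_classesEquiv [Fintype G] {n : ℕ} (C : Coh.CoverData G p n ly.Classes)
    (hC : C.τ = ly.tau) :
    ∃ e : lv.Cl ly.places ≃+ C.classes, (∀ (g : G) a, e (g • a) = g • e a) ∧
      ∀ φ : ideles lv.field, (e (lv.classOf _ φ)).1 = ly.cls (ly.up φ) := by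
  haveI := ly.finite_field
  have hfix : ∀ c, ly.incl c ∈ C.classes := fun c => by
    obtain ⟨φ, rfl⟩ := lv.classOf_surjective _ c
    rw [C.mem_classes, hC, incl_classOf]
    show ly.galSMul ly.t _ = _
    rw [galSMul_cls]
    exact congrArg _ (Subtype.ext (φ.2.1 _ (lv.mem_fix_field.mpr ly.q_t)))
  let f : lv.Cl ly.places →+ C.classes := ly.incl.codRestrict C.classes hfix
  have hbij : Function.Bijective f := by
    refine ⟨(injective_iff_map_eq_zero f).mpr fun c hc => ?_, fun x => ?_⟩
    · obtain ⟨φ, rfl⟩ := lv.classOf_surjective _ c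
      exact (lv.classOf_eq_zero_iff _ φ).mpr (classKer_inter ly.level_le φ.2
        ((ly.cls_eq_zero_iff (φ := ly.up φ)).mp (congrArg Subtype.val hc)))
    · obtain ⟨φ, hφ, he⟩ := ly.exists_idele_subField ⊥ x.1
        (fun h hh => by rw [Subgroup.mem_bot.mp hh, one_smul]) (hC ▸ C.mem_classes.mp x.2)
      exact ⟨lv.classOf _ ⟨φ.1, ideles_mono (lv.subField_le ⊥) hφ⟩, Subtype.ext he⟩
  refine ⟨AddEquiv.ofBijective f hbij, fun g a => Subtype.ext ?_, fun φ => rfl⟩
  show ly.incl (g • a) = g • ly.incl a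
  obtain ⟨φ, rfl⟩ := lv.classOf_surjective _ a
  rw [lv.smul_classOf _ (ly.q_lift g), incl_classOf, incl_classOf,
    ly.smul_eq_galSMul (ly.q_lift g) (ly.psi_lift g), galSMul_cls]
  rfl

theorem localPower_eq (A : Place) (m : ℕ) {V : Subgroup G} (hV : V ≤ lv.decGroup A) :
    localPower (lv := lv) A m = placeIdele (lv.subField V) A.char A.prime_char.ne_zero A ^ m := by
  classical
  let R : PreIdele →* PreIdele := MonoidHom.mk' (lv.orbitRestr A) (lv.orbitRestr_mul A)
  show R (PreIdele.principalHom (Units.mk0 (A.char : ℚ̄) _ ^ m)) = _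
  rw [map_pow, map_pow]
  congr 1
  show lv.orbitRestr A _ = _
  refine PreIdele.ext (funext fun B => ?_) (funext fun ι => ?_)
  · show (if lv.inOrbit A B then _ else _) = (if _ then _ else _)
    exact if_congr (lv.inOrbit_iff hV B) rfl rfl
  · exact restr_inf_of_neg not_false

end Layer

variable {lv}

/-- The cover of a layer. -/
theorem exists_coverOn [Fintype G] (ly : Layer lv) : Nonempty (CoverOn ly) := by
  classical
  haveI := ly.normal_cycField
  haveI := ly.finite_field
  set T := ly.places with hTdef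
  set n := sylowDeg p G with hn
  obtain ⟨ω, hω, -, hplace, hrec⟩ := exists_artin_map_conductor ly.setting ly.cycField ly.cycField_le
    ly.isCyclic_cycField (k := (Nat.card G).factorization p) ly.finrank_cycField
    ly.ell ly.prime.pos
    (fun r hr hrd => (Nat.prime_dvd_prime_iff_eq hr ly.prime).mp hrd ▸ ly.ell_mem)
    ly.cycField_le_adjoin
  haveI := ly.isCyclic_cycField
  haveI : FiniteDimensional ℚ ly.cycField := finite_of_le ly.cycField_le
  obtain ⟨γ, hγ⟩ := IsCyclic.exists_ofOrder_eq_natCard (α := ly.cycField ≃ₐ[ℚ] ly.cycField)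
  obtain ⟨α, hα⟩ := hω γ
  haveI : IsGalois ℚ ly.cycField := ⟨⟩
  have hγn : orderOf γ = n := by
    rw [hγ, IsGalois.card_aut_eq_finrank, ly.finrank_cycField]
  have hαL : α.1 ∈ ideles ly.field := ideles_mono bot_le α.2
  let a : ly.Classes := ly.cls ⟨α.1, hαL⟩
  have hafix : ∀ σ, ly.galSMul σ a = a := fun σ => by
    rw [Layer.galSMul_cls]
    exact congrArg _ (Subtype.ext (α.2.1 σ (by
      rw [IntermediateField.fixingSubgroup_bot]; exact Subgroup.mem_top σ)))
  have hNα : ∀ (Q : Subgroup G) (j : ℤ), normIdele ⊥ (lv.subField Q) (α.1 ^ j) =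
      ((α ^ (j * Q.index : ℤ) : ideles (⊥ : IntermediateField ℚ ℚ̄)) : PreIdele) := fun Q j => by
    haveI := lv.finite_subField Q
    rw [normIdele_of_mem bot_le (zpow_mem α.2 j), SubgroupClass.coe_zpow,
      IntermediateField.fixingSubgroup_bot, Subgroup.relIndex_top_right, lv.fix_subField,
      Subgroup.index_comap_of_surjective _ lv.surj, _root_.zpow_mul, zpow_natCast]
  -- the norm criterion in the layer
  have hcrit : ∀ (Q : Subgroup G), IsPGroup p Q → ∀ φ ∈ ideles (lv.subField Q),
      ∀ h : normIdele ⊥ (lv.subField Q) φ ∈ ideles ⊥,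
        ω ⟨_, h⟩ = 1 ↔ φ ∈ classKer T (lv.subField Q) ⊔
          normSubgroup (lv.subField Q) (ly.subLayer Q) := fun Q hQ φ hφ h => by
    rw [← ly.sup_cycField Q]
    exact hrec (lv.subField Q) (ly.subField_le_field Q) (lv.containsMuP_subField hQ)
      (ly.inf_cycField Q) φ hφ h
  -- powers of `α` as norms from the layer
  have hiff : ∀ (Q : Subgroup G), IsPGroup p Q → ∀ j : ℤ,
      (α.1 ^ j ∈ classKer T (lv.subField Q) ⊔ normSubgroup (lv.subField Q) (ly.subLayer Q) ↔
        (n : ℤ) ∣ j * Q.index) := fun Q hQ j => by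
    have hNm : normIdele ⊥ (lv.subField Q) (α.1 ^ j) ∈
        ideles (⊥ : IntermediateField ℚ ℚ̄) := by rw [hNα]; exact SetLike.coe_mem _
    rw [← hcrit Q hQ _ (ideles_mono bot_le (zpow_mem α.2 j)) hNm,
      show (⟨_, hNm⟩ : ideles (⊥ : IntermediateField ℚ ℚ̄)) = α ^ (j * Q.index : ℤ) from
        Subtype.ext (hNα Q j), map_zpow, hα, ← orderOf_dvd_iff_zpow_eq_one, hγn]
  obtain ⟨b, hb⟩ : ∃ b : ly.Classes, ∑ i ∈ Finset.range n, Coh.addPow ly.tau i b = a := by
    have h1 := (hiff ⊥ IsPGroup.of_bot 1).mpr (by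
      rw [Subgroup.index_bot, one_mul]
      exact Int.natCast_dvd_natCast.mpr (Nat.ordProj_dvd _ p))
    rw [zpow_one] at h1
    obtain ⟨d, -, hd⟩ := ly.exists_fixed_norm ⊥ h1 hαL
    exact ⟨d, hd.symm⟩
  have norm_eq : ∀ Q : Subgroup G, IsPGroup p Q → ∀ (d : ly.Classes), (∀ h ∈ Q, h • d = d) →
      ∀ j : ℤ, ∑ i ∈ Finset.range n, Coh.addPow ly.tau i d = j • a → (n : ℤ) ∣ j * Q.index := by
    intro Q hQ d hd j hj
    obtain ⟨φ, hφ, rfl⟩ := ly.exists_idele_subLayer Q d hd
    obtain ⟨hN, hN'⟩ := ly.sum_addPow_cls Q φ hφ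
    rw [← hN'] at hj
    change _ = j • ly.cls _ at hj
    rw [← Layer.cls_zpow, Layer.cls_eq_iff] at hj
    refine (hiff Q hQ j).mp ?_
    have hF : lv.subField Q ≤ ly.subLayer Q := ly.subField_le_subLayer Q
    haveI : FiniteDimensional ℚ (ly.subLayer Q) := finite_of_le (ly.subLayer_le Q)
    have hNF : normIdele (lv.subField Q) (ly.subLayer Q) φ.1 ∈ ideles (lv.subField Q) :=
      normIdele_mem hF hφ
    have h1 : normIdele (lv.subField Q) (ly.subLayer Q) φ.1 / α.1 ^ j ∈
        classKer T (lv.subField Q) :=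
      classKer_inter (ly.subField_le_field Q)
        (div_mem hNF (zpow_mem (ideles_mono bot_le α.2) j)) (by simpa using hj)
    have h2 : α.1 ^ j = (normIdele (lv.subField Q) (ly.subLayer Q) φ.1 / α.1 ^ j)⁻¹ *
        normIdele (lv.subField Q) (ly.subLayer Q) φ.1 := by rw [inv_div, div_mul_cancel]
    rw [h2]
    exact Subgroup.mul_mem_sup (inv_mem h1) (Subgroup.subset_closure ⟨_, hφ, rfl⟩)
  let D : Coh.CoverData G p n ly.Classes :=
    { τ := ly.tau, a := a, b := b, comm := ly.tau_smul, pow_eq := ly.addPow_tau_deg,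
      fix_a := fun g => hafix _, fix_a' := hafix _, norm_b := hb, h1 := ly.h1Zero_classes,
      h1τ := ly.exists_eq_tau_sub, norm_eq := norm_eq,
      index_le := fun Q₁ Q hQ hle hrel g hg hg₁ x y =>
        ly.exists_eq_nsmul_add Q₁ Q hQ hle hrel g hg hg₁ x y }
  obtain ⟨e, he, he'⟩ := ly.exists_classesEquiv D rfl
  obtain ⟨htor, hmod⟩ := lv.finite_cl ly.subset_places ly.prime_places
  have htor' : Finite {c : D.classes // p • c = 0} := Finite.of_injective
    (fun c => (⟨e.symm c.1, by rw [← map_nsmul, c.2, map_zero]⟩ :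
      {c : lv.Cl ly.places // p • c = 0}))
    fun c d h => Subtype.ext (e.symm.injective (congrArg Subtype.val h))
  have hmod' : Finite (Coh.ModP p D.classes) :=
    Finite.of_surjective _ (Coh.bijective_modPMap (p := p) e).surjective
  obtain ⟨P⟩ := (inferInstance : Nonempty (Sylow p G))
  have hCT : letI : Fintype (P : Subgroup G) := Fintype.ofFinite _
      Coh.IsCT p (P : Subgroup G) D.cover := by
    letI : Fintype (P : Subgroup G) := Fintype.ofFinite _
    refine D.isCT_cover P.isPGroup' ?_ ?_ htor' hmod'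
    · rw [← Nat.card_eq_fintype_card]; exact P.card_eq_multiplicity
    · rw [hn, sylowDeg, Nat.card_eq_fintype_card]
  refine ⟨⟨D, rfl, P, hCT, e, he, he', fun A hA V m hV hVD hcop hm => ?_⟩⟩
  -- the class at `A`
  have hp : p.Prime := Fact.out
  set r := A.char with hr
  have hrS : r ∈ S := A.over_iff.mp hA
  have hrp : r.Prime := A.prime_char
  obtain ⟨σ, hσ⟩ := GalCommon.exists_isFrobeniusAt hrp A.liesOver_char
  have hP₀ : placeIdele ⊥ r hrp.ne_zero A ∈ ideles (⊥ : IntermediateField ℚ ℚ̄) :=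
    placeIdele_mem_ideles hrp A.liesOver_char
  set γr := ω ⟨_, hP₀⟩ with hγrdef
  have hγr : orderOf γr = n := by
    rw [hn, ← ly.psi_frob r A hrS A.liesOver_char σ hσ, hγrdef,
      hplace r hrp A (fun hd => ly.not_mem ((Nat.prime_dvd_prime_iff_eq hrp ly.prime).mp hd ▸ hrS))
        A.liesOver_char σ hσ hP₀]
    refine orderOf_eq_orderOf_iff.mpr fun i => ?_
    rw [← map_pow, ← map_pow, ← MonoidHom.mem_ker (f := ly.ψ), ← ly.fix_cycField]
    refine ⟨Density.mem_fixingSubgroup_of_restrict_eq_one, fun h => ?_⟩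
    refine AlgEquiv.ext fun z => Subtype.ext ?_
    rw [AlgEquiv.one_apply]
    exact (AlgEquiv.restrictNormal_commutes _ ly.cycField z).trans
      ((IntermediateField.mem_fixingSubgroup_iff _ _).mp h _ z.2)
  obtain ⟨w, hw⟩ : ∃ w : ℕ, γ ^ w = γr := by
    have h := Subgroup.eq_top_of_card_eq (Subgroup.zpowers γ) (by rw [Nat.card_zpowers, hγ])
    obtain ⟨w, -, hw⟩ := Finset.mem_image.mp
      ((isOfFinOrder_of_finite γ).mem_zpowers_iff_mem_range_orderOf.mp
        (h ▸ Subgroup.mem_top γr : γr ∈ Subgroup.zpowers γ))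
    exact ⟨w, hw⟩
  set c₀ := V.relIndex (lv.decGroup A) with hc₀
  set g' := Nat.card G / n with hg'
  have hn0 : 0 < n := pow_pos hp.pos _
  have hVpos : 0 < Nat.card V := Nat.card_pos
  have hc₀' : Nat.card (lv.decGroup A) / Nat.card V = c₀ := by
    have h : Nat.card V * c₀ = Nat.card (lv.decGroup A) := by
      rw [hc₀, ← Subgroup.relIndex_bot_left, ← Subgroup.relIndex_bot_left,
        Subgroup.relIndex_mul_relIndex _ _ _ bot_le hVD]
    rw [← h, Nat.mul_div_cancel_left _ hVpos]
  have hidx : V.index = m * g' := by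
    have h1 : n * g' = Nat.card G := Nat.mul_div_cancel' (Nat.ordProj_dvd _ p)
    refine Nat.eq_of_mul_eq_mul_left hVpos ?_
    rw [V.card_mul_index, ← h1, show n = m * Nat.card V from hm.symm]; ring
  obtain ⟨u, hpu, hu⟩ : ∃ u : ℕ, ¬ p ∣ u ∧ γr ^ (c₀ * m) = γ ^ (u * V.index) := by
    rcases Nat.eq_zero_or_pos ((Nat.card G).factorization p) with h0 | h0
    · have hn1 : n = 1 := by rw [hn, sylowDeg, h0, pow_zero]
      have hγ1 : γ = 1 := orderOf_eq_one_iff.mp (hγn.trans hn1)
      have hγr1 : γr = 1 := orderOf_eq_one_iff.mp (hγr.trans hn1)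
      exact ⟨1, hp.not_dvd_one, by rw [hγ1, hγr1, one_pow, one_pow]⟩
    · have hpn : p ∣ n := dvd_pow_self p h0.ne'
      have hg'n : g'.Coprime n := Nat.Coprime.pow_right _
        (Nat.coprime_ordCompl hp Nat.card_pos.ne').symm
      haveI : NeZero n := ⟨hn0.ne'⟩
      obtain ⟨u, hu⟩ : ∃ u : ℕ, (u : ZMod n) * g' = (w : ZMod n) * c₀ := by
        refine ⟨((w : ZMod n) * c₀ * ↑(ZMod.unitOfCoprime g' hg'n)⁻¹).val, ?_⟩
        rw [ZMod.natCast_zmod_val, mul_assoc, ← ZMod.coe_unitOfCoprime g' hg'n, Units.inv_mul,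
          mul_one]
      have hmod : u * g' ≡ w * c₀ [MOD n] := by
        rw [← ZMod.natCast_eq_natCast_iff, Nat.cast_mul, Nat.cast_mul]; exact hu
      refine ⟨u, fun hd => ?_, ?_⟩
      · have h2 : p ∣ w * c₀ :=
          ((hmod.of_dvd hpn).dvd_iff dvd_rfl).mp (dvd_mul_of_dvd_left hd _)
        rcases hp.dvd_mul.mp h2 with h3 | h3
        · have h4 : n.gcd w = 1 := by
            have h5 := orderOf_pow (n := w) γ
            rw [hw, hγr, hγn] at h5
            rcases Nat.div_eq_self.mp h5.symm with h6 | h6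
            · exact absurd h6 hn0.ne'
            · exact h6
          exact hp.ne_one (Nat.eq_one_of_dvd_coprimes h4 hpn h3)
        · rw [hc₀'] at hcop
          exact hp.ne_one (Nat.eq_one_of_dvd_coprimes hcop h3 dvd_rfl)
      · rw [← hw, ← pow_mul, pow_eq_pow_iff_modEq, hγn, hidx, ← mul_assoc w, mul_comm m g',
          ← mul_assoc u]
        exact (hmod.mul_right m).symm
  have hPF : placeIdele (lv.subField V) r hrp.ne_zero A ^ m ∈ ideles (lv.subField V) :=
    pow_mem (placeIdele_mem_ideles hrp A.liesOver_char) m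
  have hz : placeIdele (lv.subField V) r hrp.ne_zero A ^ m / α.1 ^ (u : ℤ) ∈
      classKer T (lv.subField V) ⊔ normSubgroup (lv.subField V) (ly.subLayer V) := by
    haveI := lv.finite_subField V
    have hmem : placeIdele (lv.subField V) r hrp.ne_zero A ^ m / α.1 ^ (u : ℤ) ∈
        ideles (lv.subField V) := div_mem hPF (ideles_mono bot_le (zpow_mem α.2 _))
    have hN : normIdele ⊥ (lv.subField V)
        (placeIdele (lv.subField V) r hrp.ne_zero A ^ m / α.1 ^ (u : ℤ)) =
        (((⟨_, hP₀⟩ : ideles (⊥ : IntermediateField ℚ ℚ̄)) ^ (c₀ * m) /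
          α ^ ((u : ℤ) * V.index) : ideles (⊥ : IntermediateField ℚ ℚ̄)) : PreIdele) := by
      rw [← normHomIdele_apply, map_div, map_pow, normHomIdele_apply, normHomIdele_apply, hNα,
        lv.normIdele_placeIdele_subField A hrp A.liesOver_char hVD, ← pow_mul]
      rfl
    have hNm : normIdele ⊥ (lv.subField V)
        (placeIdele (lv.subField V) r hrp.ne_zero A ^ m / α.1 ^ (u : ℤ)) ∈
        ideles (⊥ : IntermediateField ℚ ℚ̄) := by rw [hN]; exact SetLike.coe_mem _
    rw [← hcrit V hV _ hmem hNm, show (⟨_, hNm⟩ : ideles (⊥ : IntermediateField ℚ ℚ̄)) = _ from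
      Subtype.ext hN, map_div, map_pow, map_zpow, hα, div_eq_one, ← hγrdef, hu, ← Nat.cast_mul,
      zpow_natCast]
  have hzL : placeIdele (lv.subField V) r hrp.ne_zero A ^ m / α.1 ^ (u : ℤ) ∈ ideles ly.field :=
    div_mem (ideles_mono (ly.subField_le_field V) hPF) (zpow_mem hαL _)
  obtain ⟨d, hd, hd'⟩ := ly.exists_fixed_norm V hz hzL
  refine ⟨u, d, fun h => hpu (Int.natCast_dvd_natCast.mp h), hd, ?_⟩
  show _ = (u : ℤ) • a + ∑ i ∈ Finset.range n, Coh.addPow ly.tau i d
  rw [← hd', ← Layer.cls_zpow, ← Layer.cls_mul]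
  refine congrArg ly.cls (Subtype.ext ?_)
  show Layer.localPower (lv := lv) A m = α.1 ^ (u : ℤ) * _
  rw [mul_div_cancel, Layer.localPower_eq A m hVD]

end FLTAgent.PoitouTate
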