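import Fermat.Agent.PoitouTate.LayerFields
import Fermat.Agent.PoitouTate.Artin
import Fermat.Agent.TW.Global.Classes

/-!
# The class field data on the classes of a layer

The properties of the classes of a layer which make them a `Coh.CoverData`: vanishing of `H¹` for
`p`-subgroups (`h1Zero_classes`), Hilbert 90 for the generator `tau` on the classes fixed by such a
subgroup (`exists_eq_tau_sub`), the step from a subgroup to one of index `p`
(`exists_eq_nsmul_add`), and norms from `subLayer Q` as trace sums of fixed classes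
(`sum_addPow_cls`, `exists_fixed_norm`).
-/

set_option autoImplicit false
set_option maxHeartbeats 1000000
set_option linter.style.haveILetI false
set_option linter.unusedSectionVars false

noncomputable section

open scoped Pointwise

namespace FLTAgent.PoitouTate

open FLTAgent.TW

local notation "ℚ̄" => AlgebraicClosure ℚ
local notation "Γ" => (AlgebraicClosure ℚ ≃ₐ[ℚ] AlgebraicClosure ℚ)

variable {S : Finset ℕ} {p : ℕ} [Fact p.Prime] {G : Type} [Group G] {lv : Level S p G}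

namespace Layer

variable (ly : Layer lv)

theorem sum_addPow_cls (Q : Subgroup G) (φ : ideles ly.field)
    (hφ : φ.1 ∈ ideles (ly.subLayer Q)) :
    ∃ hN : normIdele (lv.subField Q) (ly.subLayer Q) φ.1 ∈ ideles ly.field,
      ly.cls ⟨_, hN⟩ = ∑ i ∈ Finset.range (sylowDeg p G), Coh.addPow ly.tau i (ly.cls φ) := by
  haveI := ly.finite_field
  have e : normIdele (lv.subField Q) (ly.subLayer Q) φ.1 =
      ∏ i ∈ Finset.range (sylowDeg p G), ly.t ^ i • φ.1 := by
    refine normIdele_eq_prod_reps hφ (fun i => ly.t ^ i) (fun i => ?_) (fun i hi j hj h => ?_)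
      fun σ hσ => ?_
    · rw [lv.mem_fix_subField, map_pow, ly.q_t, one_pow]; exact one_mem Q
    · rw [ly.mem_fix_subLayer, map_mul (ly.ψ), map_inv, map_pow, map_pow, _root_.inv_mul_eq_one] at h
      exact pow_injOn_Iio_orderOf (by rw [ly.ord]; exact hi) (by rw [ly.ord]; exact hj) h.2
    · rw [lv.mem_fix_subField] at hσ
      obtain ⟨i, hi, hi'⟩ := ly.gen σ
      refine ⟨i, hi, ?_⟩
      rw [ly.mem_fix_subLayer, map_mul, map_inv, map_pow, ly.q_t, one_pow, inv_one, one_mul]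
      exact ⟨hσ, ly.mem_psiKer_mul hi'⟩
  let f : ℕ → ideles ly.field := fun i => ⟨ly.t ^ i • φ.1, smul_mem_ideles _ φ.2⟩
  have e' : normIdele (lv.subField Q) (ly.subLayer Q) φ.1 =
      (∏ i ∈ Finset.range (sylowDeg p G), f i : ideles ly.field).1 := by
    rw [e, SubmonoidClass.coe_finsetProd]
  have hm : normIdele (lv.subField Q) (ly.subLayer Q) φ.1 ∈ ideles ly.field := by
    rw [e']; exact SetLike.coe_mem _
  refine ⟨hm, ?_⟩
  rw [show (⟨_, hm⟩ : ideles ly.field) = ∏ i ∈ Finset.range _, f i from Subtype.ext e', cls_prod]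
  exact Finset.sum_congr rfl fun i _ => by rw [addPow_tau, galSMul_cls]

theorem exists_of_cocycle {F : IntermediateField ℚ ℚ̄} (hF : F ≤ ly.field) (hμ : ContainsMuP p F)
    {j : ℕ} (hdeg : ly.field.fixingSubgroup.relIndex F.fixingSubgroup = p ^ j) (A : Γ → ly.Classes)
    (hA : ∀ σ ∈ F.fixingSubgroup, ∀ τ ∈ F.fixingSubgroup, A (σ * τ) = A σ + ly.galSMul σ (A τ))
    (hA1 : ∀ σ ∈ ly.field.fixingSubgroup, A σ = 0) :
    ∃ y : ly.Classes, ∀ σ ∈ F.fixingSubgroup, A σ = ly.galSMul σ y - y := by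
  choose φ hφ using fun σ => ly.cls_surjective (A σ)
  obtain ⟨b, hb, h⟩ := cohomology_one_general ly.setting j F hF hμ hdeg (fun σ => (φ σ).1)
    (fun σ _ => (φ σ).2)
    (fun σ hσ τ hτ => by
      refine (ly.cls_eq_iff (φ := φ (σ * τ))
        (ψ := φ σ * ⟨σ • (φ τ).1, smul_mem_ideles σ (φ τ).2⟩)).mp ?_
      rw [cls_mul, ← galSMul_cls, hφ, hφ, hφ, hA σ hσ τ hτ])
    fun σ hσ => ly.cls_eq_zero_iff.mp (by rw [hφ, hA1 σ hσ])
  refine ⟨ly.cls ⟨b, hb⟩, fun σ hσ => ?_⟩
  rw [← hφ σ, galSMul_cls, eq_sub_iff_add_eq, ← cls_mul, cls_eq_iff]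
  have h' := h σ hσ
  rwa [div_div_eq_mul_div] at h'

theorem h1Zero_classes (Q : Subgroup G) (hQ : IsPGroup p Q) : Coh.H1Zero Q ly.Classes := by
  classical
  haveI := lv.finite_group
  intro a ha
  let A : Γ → ly.Classes := fun σ => if h : lv.q σ ∈ Q then a ⟨_, h⟩ else 0
  have ha1 : a 1 = 0 := by
    have := ha 1 1
    rwa [one_mul, one_smul, left_eq_add] at this
  obtain ⟨j, hj⟩ := IsPGroup.iff_card.mp hQ
  obtain ⟨y, hy⟩ := ly.exists_of_cocycle (ly.subLayer_le Q)
    ((lv.containsMuP_subField hQ).mono (ly.subField_le_subLayer Q))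
    ((ly.relIndex_field_subLayer Q).trans hj) A
    (fun σ hσ τ hτ => by
      rw [mem_fix_subLayer] at hσ hτ
      have hστ : lv.q (σ * τ) ∈ Q := by rw [map_mul]; exact mul_mem hσ.1 hτ.1
      show dite _ _ _ = dite _ _ _ + ly.galSMul σ (dite _ _ _)
      rw [dif_pos hστ, dif_pos hσ.1, dif_pos hτ.1, ← ly.smul_eq_galSMul rfl hσ.2,
        show (⟨lv.q (σ * τ), hστ⟩ : Q) = ⟨_, hσ.1⟩ * ⟨_, hτ.1⟩ from Subtype.ext (map_mul _ _ _)]
      exact ha ⟨_, hσ.1⟩ ⟨_, hτ.1⟩)
    fun σ hσ => by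
      rw [ly.mem_fix_field] at hσ
      show dite _ _ _ = _
      rw [dif_pos (hσ.1.symm ▸ one_mem Q)]
      exact (congrArg a (Subtype.ext hσ.1)).trans ha1
  refine ⟨y, fun g => ?_⟩
  have h1 : lv.q (ly.lift g) = g := ly.q_lift g
  have h2 := hy (ly.lift g) (by rw [mem_fix_subLayer, h1]; exact ⟨g.2, ly.psi_lift _⟩)
  change dite _ _ _ = _ at h2
  rw [dif_pos (h1.symm ▸ g.2), ← ly.smul_eq_galSMul h1 (ly.psi_lift _)] at h2
  exact (congrArg a (Subtype.ext h1.symm)).trans h2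

/-- Hilbert 90 for the generator on the classes fixed by a `p`-subgroup. -/
theorem exists_eq_tau_sub (Q : Subgroup G) (hQ : IsPGroup p Q) (x : ly.Classes)
    (hx : ∀ h ∈ Q, h • x = x)
    (hN : ∑ i ∈ Finset.range (sylowDeg p G), Coh.addPow ly.tau i x = 0) :
    ∃ y : ly.Classes, (∀ h ∈ Q, h • y = y) ∧ x = ly.tau y - y := by
  classical
  haveI := lv.finite_group
  set n := sylowDeg p G with hn
  let S' : ℕ → ly.Classes := fun i => ∑ j ∈ Finset.range i, Coh.addPow ly.tau j x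
  have hSadd : ∀ i j, S' (i + j) = S' i + Coh.addPow ly.tau i (S' j) := fun i j => by
    simp only [S', Finset.sum_range_add, map_sum, Coh.addPow_add_apply]
  have hSmod : ∀ i, S' (i % n) = S' i := fun i => by
    have h0 : ∀ q, S' (n * q) = 0 := fun q => by
      induction q with
      | zero => simp [S']
      | succ q ih => rw [Nat.mul_succ, hSadd, ih, show S' n = 0 from hN, map_zero, add_zero]
    conv_rhs => rw [← Nat.mod_add_div i n]
    rw [hSadd, h0, map_zero, add_zero]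
  choose idx hlt hidx using ly.gen
  have hidx1 : ∀ σ, ly.ψ σ = 1 → idx σ = 0 := fun σ h => by
    refine pow_injOn_Iio_orderOf (x := ly.ψ ly.t) (by rw [ly.ord]; exact hlt σ)
      (by rw [ly.ord]; exact pow_pos (Fact.out : p.Prime).pos _) ?_
    show ly.ψ ly.t ^ idx σ = ly.ψ ly.t ^ 0
    rw [← hidx σ, h, pow_zero]
  obtain ⟨j, hj⟩ := IsPGroup.iff_card.mp hQ
  obtain ⟨y, hy⟩ := ly.exists_of_cocycle (ly.subField_le_field Q) (lv.containsMuP_subField hQ)
    (j := j + (Nat.card G).factorization p) (by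
      rw [ly.relIndex_field_subField, hj, pow_add]; rfl) (fun σ => S' (idx σ))
    (fun σ hσ τ _ => by
      rw [lv.mem_fix_subField] at hσ
      have hmod : idx (σ * τ) = (idx σ + idx τ) % n := by
        have h1 : ly.ψ ly.t ^ idx (σ * τ) = ly.ψ ly.t ^ (idx σ + idx τ) := by
          rw [← hidx, map_mul, pow_add, ← hidx, ← hidx]
        rw [pow_eq_pow_iff_modEq, ly.ord] at h1
        exact (Nat.mod_eq_of_lt (hlt _)).symm.trans h1
      show S' (idx (σ * τ)) = S' (idx σ) + ly.galSMul σ (S' (idx τ))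
      rw [hmod, hSmod, hSadd, ly.galSMul_fixed Q (c := S' (idx τ)) (fun h hh => by
        simp only [S', Finset.smul_sum]
        exact Finset.sum_congr rfl fun i _ => by rw [← addPow_tau_smul, hx h hh]) hσ (hidx σ)])
    fun σ hσ => by
      show S' (idx σ) = 0
      rw [hidx1 σ (ly.mem_fix_field.mp hσ).2]
      simp [S']
  refine ⟨y, fun h hh => ?_, ?_⟩
  · have h1 := hy (ly.lift h) (by rw [lv.mem_fix_subField, ly.q_lift]; exact hh)
    change S' (idx (ly.lift h)) = _ at h1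
    rw [hidx1 _ (ly.psi_lift h), show S' 0 = 0 from Finset.sum_range_zero _] at h1
    exact sub_eq_zero.mp h1.symm
  · have h1 := hy ly.t (by rw [lv.mem_fix_subField, ly.q_t]; exact one_mem Q)
    change S' (idx ly.t) = _ at h1
    have hmod : idx ly.t = 1 % n := by
      have h2 : ly.ψ ly.t ^ idx ly.t = ly.ψ ly.t ^ 1 := by rw [← hidx, pow_one]
      rw [pow_eq_pow_iff_modEq, ly.ord] at h2
      exact (Nat.mod_eq_of_lt (hlt _)).symm.trans h2
    rw [hmod, hSmod] at h1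
    simpa [S', tau, Coh.addPow] using h1

theorem exists_eq_nsmul_add (Q₁ Q : Subgroup G) (hQ : IsPGroup p Q) (hle : Q₁ ≤ Q)
    (hrel : Q₁.relIndex Q = p) (g : G) (hgQ : g ∈ Q) (hgQ₁ : g ∉ Q₁) (x y : ly.Classes)
    (hx : ∀ h ∈ Q, h • x = x) (hxτ : ly.tau x = x) (hy : ∀ h ∈ Q, h • y = y) (hyτ : ly.tau y = y)
    (hne : ¬ ∃ u, (∀ h ∈ Q₁, h • u = u) ∧ ly.tau u = u ∧
      ∑ i ∈ Finset.range p, g ^ i • u = y) :
    ∃ (m : ℕ) (u : ly.Classes), (∀ h ∈ Q₁, h • u = u) ∧ ly.tau u = u ∧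
      x = m • y + ∑ i ∈ Finset.range p, g ^ i • u := by
  classical
  haveI := ly.finite_field
  haveI := lv.finite_group
  obtain ⟨j, hj⟩ := IsPGroup.iff_card.mp hQ
  have hR : (Q₁.subgroupOf Q).index = p := hrel
  haveI hRn : (Q₁.subgroupOf Q).Normal := Subgroup.normal_of_index_eq_minFac_card (by
    rcases j with _ | i
    · exfalso
      have h1 := (Q₁.subgroupOf Q).index_dvd_card
      rw [hR, hj, pow_zero, Nat.dvd_one] at h1
      exact (Fact.out : p.Prime).ne_one h1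
    · rw [hR, hj, Nat.Prime.pow_minFac (Fact.out : p.Prime) (Nat.succ_ne_zero i)])
  obtain ⟨hinj, hsurj⟩ := injOn_pow_of_index_prime hR hRn (g := (⟨g, hgQ⟩ : Q)) hgQ₁
  set F := lv.subField Q
  set F' := lv.subField Q₁
  have hFF' : F ≤ F' := lv.subField_antitone hle
  have hF' : F' ≤ ly.field := ly.subField_le_field Q₁
  have hnormal : (F'.fixingSubgroup.subgroupOf F.fixingSubgroup).Normal := by
    rw [lv.fix_subField, lv.fix_subField]
    refine ⟨fun n hn m => ?_⟩
    exact hRn.conj_mem ⟨lv.q n.1, n.2⟩ hn ⟨lv.q m.1, m.2⟩ |> fun h => by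
      simpa [Subgroup.mem_subgroupOf] using h
  have hdeg : F'.fixingSubgroup.relIndex F.fixingSubgroup = p := by
    rw [lv.fix_subField, lv.fix_subField, Subgroup.relIndex_comap,
      Subgroup.map_comap_eq_self_of_surjective lv.surj, hrel]
  have hidx := relIndex_norm_general ly.setting hFF' hF' (lv.containsMuP_subField hQ) hnormal hdeg
  -- sums over the powers of `g` are norms
  have hnorm : ∀ v ∈ ideles F', ∀ (hv : v ∈ ideles ly.field)
      (hN : normIdele F F' v ∈ ideles ly.field),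
      (∀ h ∈ Q₁, h • ly.cls ⟨v, hv⟩ = ly.cls ⟨v, hv⟩) ∧
      ly.tau (ly.cls ⟨v, hv⟩) = ly.cls ⟨v, hv⟩ ∧
      ly.cls ⟨_, hN⟩ = ∑ i ∈ Finset.range p, g ^ i • ly.cls ⟨v, hv⟩ := fun v hv' hv hN => by
    have hfix : ∀ σ : Γ, lv.q σ ∈ Q₁ → ly.galSMul σ (ly.cls ⟨v, hv⟩) = ly.cls ⟨v, hv⟩ :=
      fun σ hσ => by
        rw [galSMul_cls]
        exact congrArg _ (Subtype.ext (hv'.1 σ (lv.mem_fix_subField.mpr hσ)))
    refine ⟨fun h hh => hfix _ (by rwa [ly.q_lift]), hfix _ (by rw [ly.q_t]; exact one_mem _), ?_⟩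
    let f : ℕ → ideles ly.field := fun i => ⟨ly.lift g ^ i • v, smul_mem_ideles _ hv⟩
    have e : normIdele F F' v = (∏ i ∈ Finset.range p, f i : ideles ly.field).1 := by
      rw [SubmonoidClass.coe_finsetProd]
      refine normIdele_eq_prod_reps hv' (fun i => ly.lift g ^ i) (fun i => ?_)
        (fun i hi l hl h => hinj i hi l hl ?_) fun σ hσ => ?_
      · rw [lv.mem_fix_subField, map_pow, ly.q_lift]; exact pow_mem hgQ i
      · rw [lv.mem_fix_subField, map_mul, map_inv, map_pow, map_pow, ly.q_lift] at h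
        simpa [Subgroup.mem_subgroupOf] using h
      · rw [lv.mem_fix_subField] at hσ
        obtain ⟨i, hi, h⟩ := hsurj ⟨lv.q σ, hσ⟩
        refine ⟨i, hi, ?_⟩
        rw [lv.mem_fix_subField, map_mul, map_inv, map_pow, ly.q_lift]
        simpa [Subgroup.mem_subgroupOf] using h
    rw [show (⟨_, hN⟩ : ideles ly.field) = ∏ i ∈ Finset.range p, f i from Subtype.ext e, cls_prod]
    exact Finset.sum_congr rfl fun i _ => by
      rw [ly.smul_eq_galSMul (σ := ly.lift g ^ i) (by rw [map_pow, ly.q_lift])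
        (by rw [map_pow, ly.psi_lift, one_pow]), galSMul_cls]
  obtain ⟨X, hXF, rfl⟩ := ly.exists_idele_subField Q x hx hxτ
  obtain ⟨Y, hYF, rfl⟩ := ly.exists_idele_subField Q y hy hyτ
  have hcls : ∀ z ∈ classKer ly.places F ⊔ normSubgroup F F', ∀ hz : z ∈ ideles ly.field,
      ∃ u : ly.Classes, (∀ h ∈ Q₁, h • u = u) ∧ ly.tau u = u ∧
        ly.cls ⟨z, hz⟩ = ∑ i ∈ Finset.range p, g ^ i • u := by
    intro z hz hzL
    obtain ⟨c, hc, w, hw, rfl⟩ := Subgroup.mem_sup.mp hz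
    obtain ⟨v, hv, rfl⟩ := exists_eq_norm hFF' hF' hw
    haveI : FiniteDimensional ℚ F' := finite_of_le hF'
    have hNv : normIdele F F' v ∈ ideles ly.field :=
      ideles_mono (hFF'.trans hF') (normIdele_mem hFF' hv)
    obtain ⟨h1, h2, h3⟩ := hnorm v hv (ideles_mono hF' hv) hNv
    refine ⟨_, h1, h2, h3 ▸ (ly.cls_eq_iff.mpr ?_)⟩
    rw [mul_div_cancel_right]
    exact classKer_mono (hFF'.trans hF') hc
  let H := (classKer ly.places F ⊔ normSubgroup F F').subgroupOf (ideles F)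
  have hY : QuotientGroup.mk (⟨Y.1, hYF⟩ : ideles F) ≠ (1 : ideles F ⧸ H) := fun h => hne (by
    obtain ⟨u, h1, h2, h3⟩ := hcls Y.1
      ((QuotientGroup.eq_one_iff (N := H) (⟨Y.1, hYF⟩ : ideles F)).mp h) Y.2
    exact ⟨u, h1, h2, h3.symm⟩)
  have hcard : Nat.card (ideles F ⧸ H) = p := hidx
  haveI : Finite (ideles F ⧸ H) :=
    Nat.finite_of_card_ne_zero (hcard ▸ (Fact.out : p.Prime).ne_zero)
  have hX : (QuotientGroup.mk (⟨X.1, hXF⟩ : ideles F) : ideles F ⧸ H) ∈
      Subgroup.zpowers (QuotientGroup.mk ⟨Y.1, hYF⟩) :=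
    zpowers_eq_top_of_prime_card hcard hY ▸ Subgroup.mem_top _
  obtain ⟨m, -, hm⟩ :=
    Finset.mem_image.mp ((isOfFinOrder_of_finite _).mem_zpowers_iff_mem_range_orderOf.mp hX)
  have hm' : X.1 / Y.1 ^ m ∈ classKer ly.places F ⊔ normSubgroup F F' := by
    have h0 := QuotientGroup.eq_iff_div_mem.mp (hm.symm.trans (QuotientGroup.mk_pow H _ m).symm)
    simpa [H, Subgroup.mem_subgroupOf] using h0
  obtain ⟨u, h1, h2, h3⟩ := hcls _ hm' (div_mem X.2 (pow_mem Y.2 m))
  refine ⟨m, u, h1, h2, ?_⟩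
  rw [← h3, ← sub_eq_iff_eq_add']
  rfl

/-- A class killing the classes of a base field is a norm from the layer. -/
theorem exists_fixed_norm (Q : Subgroup G) {z : PreIdele}
    (hz : z ∈ classKer ly.places (lv.subField Q) ⊔ normSubgroup (lv.subField Q) (ly.subLayer Q))
    (hzL : z ∈ ideles ly.field) :
    ∃ d : ly.Classes, (∀ h ∈ Q, h • d = d) ∧
      ly.cls ⟨z, hzL⟩ = ∑ i ∈ Finset.range (sylowDeg p G), Coh.addPow ly.tau i d := by
  haveI := ly.finite_field
  obtain ⟨c, hc, w, hw, rfl⟩ := Subgroup.mem_sup.mp hz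
  obtain ⟨v, hv, rfl⟩ := exists_eq_norm (ly.subField_le_subLayer Q) (ly.subLayer_le Q) hw
  obtain ⟨hN, hN'⟩ := ly.sum_addPow_cls Q ⟨v, ideles_mono (ly.subLayer_le Q) hv⟩ hv
  refine ⟨_, fun h hh => ?_, Eq.trans ?_ hN'⟩
  · rw [ly.smul_eq_galSMul (ly.q_lift h) (ly.psi_lift h), galSMul_cls]
    exact congrArg _ (Subtype.ext (hv.1 _ (ly.mem_fix_subLayer.mpr
      ⟨by rw [ly.q_lift]; exact hh, ly.psi_lift h⟩)))
  · rw [cls_eq_iff, mul_div_cancel_right]
    exact classKer_mono (ly.subField_le_field Q) hc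

end Layer

end FLTAgent.PoitouTate
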