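import Fermat.Agent.PoitouTate.Subgroup
import Fermat.Agent.TW.Global.ExtPair

/-!
# Traces vanish when the norms to a subgroup fixing `N` are divisible by `p`; a separation lemma

`mk_htrace_eq_zero_of_divisible`: every trace class in `Ext¹_G(N, A)` is zero if all norms to a
subgroup acting trivially on `N` are `p`-th multiples; one reduces to a basis of the relations.
`exists_mem_pairing_eq`: a functional on a finite group killed by `p` which vanishes on the common
zeros of a subgroup of functionals belongs to that subgroup.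
-/

set_option autoImplicit false
set_option linter.unusedSectionVars false
set_option linter.style.haveILetI false

noncomputable section

namespace FLTAgent.PoitouTate

open FLTAgent.TW FLTAgent.TW.Coh

variable {G : Type} [Group G] [Fintype G] {p : ℕ} [Fact p.Prime]
variable {N A : Type} [AddCommGroup N] [DistribMulAction G N] [AddCommGroup A]
  [DistribMulAction G A]

theorem liftFn_smul {H : Subgroup G} (hH : ∀ h ∈ H, ∀ m : N, h • m = m) (u : N →+ ZMod p) {h : G}
    (hh : h ∈ H) (x : Free G N) : liftFn G u (h • x) = liftFn G u x :=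
  DFunLike.congr_fun (Free.hom_ext (f := (liftFn G u).comp (DistribSMul.toAddMonoidHom (Free G N) h))
    (f' := liftFn G u) fun g m => by simp [liftFn, mul_smul, hH h hh]) x

variable (hN : ∀ m : N, p • m = 0)
include hN

/-- The class of a single trace vanishes. -/
theorem traceClass_eq_zero_of_divisible {H : Subgroup G} [Fintype H]
    (hH : ∀ h ∈ H, ∀ m : N, h • m = m) (u : N →+ ZMod p) (a d : A)
    (hd : ∀ h ∈ H, h • d = d) (hsum : ∑ h : H, (h : G) • a = p • d) :
    traceClass (phiOf (G := G) u) a = 0 := by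
  classical
  let F : Free G N →+ A := (zmultiplesHom A d).comp (liftFn G u)
  have hF : F ∈ eqHom H (Free G N) A := fun h x => by
    show liftFn G u ((h : G) • x) • d = (h : G) • (liftFn G u x • d)
    rw [liftFn_smul hH u h.2]
    exact (((DistribSMul.toAddMonoidHom A (h : G)).map_zsmul (liftFn G u x) d).trans
      (congrArg _ (hd _ h.2))).symm
  rw [traceClass, Ext1.mk_eq_zero_iff]
  refine ⟨⟨cotrace H F, cotrace_mem H hF⟩, fun y => ?_⟩
  have e1 : F.comp (Coh.Rel G N).subtype =
      htrace H ((zmultiplesHom A a).comp (phiOf u)) := by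
    refine AddMonoidHom.ext fun z => ?_
    rw [htrace_apply, AddMonoidHom.finsetSum_apply]
    have hterm : ∀ h : H, hconj h ((zmultiplesHom A a).comp (phiOf u)) z =
        phiOf u z • ((h : G) • a) := fun h => by
      show (h : G) • (phiOf u ((h : G)⁻¹ • z) • a) = _
      rw [show phiOf u ((h : G)⁻¹ • z) = phiOf u z from
        congrArg (fun w : ℤ => w / (p : ℤ)) (liftFn_smul hH u (inv_mem h.2) _)]
      exact (DistribSMul.toAddMonoidHom A (h : G)).map_zsmul (phiOf u z) a
    simp only [hterm, ← Finset.smul_sum, hsum]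
    show liftFn G u z • d = (liftFn G u z / (p : ℤ)) • (p • d)
    rw [← natCast_zsmul d p, smul_smul, Int.ediv_mul_cancel (dvd_liftFn u z)]
  show cotrace H F y.1 = htrace G _ y
  rw [← cotrace_htrace H ((zmultiplesHom A a).comp (phiOf u)), ← e1]
  haveI : Fintype (G ⧸ H) := Fintype.ofFinite _
  rw [cotrace_apply, cotrace_apply, AddMonoidHom.finsetSum_apply, AddMonoidHom.finsetSum_apply]
  rfl

/-- Every trace class vanishes if all norms to `H` are divisible by `p`. -/
theorem mk_htrace_eq_zero_of_divisible [Finite N] {H : Subgroup G} [Fintype H]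
    (hH : ∀ h ∈ H, ∀ m : N, h • m = m)
    (hdiv : ∀ a : A, ∃ d : A, (∀ h ∈ H, h • d = d) ∧ ∑ h : H, (h : G) • a = p • d)
    (g : Coh.Rel G N →+ A) :
    Ext1.mk (⟨htrace G g, htrace_mem g⟩ : eqHom G (Coh.Rel G N) A) = 0 := by
  classical
  haveI : Module.Free ℤ (Coh.Rel G N) := free_addSubgroup _
  haveI : Module.Finite ℤ (Coh.Rel G N) :=
    Module.Finite.equiv (M := AddSubgroup.toIntSubmodule (Coh.Rel G N)) (N := Coh.Rel G N)
      (AddEquiv.refl (Coh.Rel G N) :
        (AddSubgroup.toIntSubmodule (Coh.Rel G N)) ≃+ Coh.Rel G N).toIntLinearEquiv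
  let b := Module.Free.chooseBasis ℤ (Coh.Rel G N)
  have hg : g = ∑ j, (zmultiplesHom A (g (b j))).comp (b.coord j).toAddMonoidHom :=
    AddMonoidHom.ext fun y => by
      rw [AddMonoidHom.finsetSum_apply]
      conv_lhs => rw [← b.sum_repr y]
      rw [map_sum]
      exact Finset.sum_congr rfl fun j _ => map_zsmul g _ _
  have e : Ext1.mk ⟨htrace G g, htrace_mem g⟩ =
      ∑ j, traceClass (b.coord j).toAddMonoidHom (g (b j)) := by
    simp only [traceClass, ← map_sum]
    refine congrArg Ext1.mk (Subtype.ext ?_)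
    rw [AddSubgroup.val_finsetSum, ← map_sum, ← hg]
  rw [e]
  refine Finset.sum_eq_zero fun j _ => ?_
  rw [traceClass_congr hN (φ' := phiOf (residueFn hN (b.coord j).toAddMonoidHom))
    (residueFn_phiOf hN _).symm]
  obtain ⟨d, hd, hd'⟩ := hdiv (g (b j))
  exact traceClass_eq_zero_of_divisible hN hH _ _ d hd hd'

omit hN in
/-- A functional killed by the common zeros of a subgroup of functionals belongs to it. -/
theorem exists_mem_pairing_eq {X Z : Type} [AddCommGroup X] [AddCommGroup Z] [Finite Z]
    (hZ : ∀ z : Z, p • z = 0) (β : X →+ Z →+ ZMod p) (K : AddSubgroup X) (l : Z →+ ZMod p)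
    (h : ∀ z, (∀ x ∈ K, β x z = 0) → l z = 0) : ∃ x ∈ K, β x = l := by
  letI := AddCommGroup.zmodModule (n := p) hZ
  haveI : Module.Finite (ZMod p) Z := Module.Finite.of_finite
  let t : (Z →+ ZMod p) →+ Module.Dual (ZMod p) Z :=
    AddMonoidHom.mk' (fun f => f.toZModLinearMap p) fun _ _ => rfl
  let U : Submodule (ZMod p) (Module.Dual (ZMod p) Z) :=
    AddSubgroup.toZModSubmodule p (K.map (t.comp β))
  by_contra hne
  have hl : t l ∉ U := fun hmem => by
    obtain ⟨x, hx, hx'⟩ := hmem
    exact hne ⟨x, hx, AddMonoidHom.ext fun z => LinearMap.congr_fun hx' z⟩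
  obtain ⟨Λ, hΛl, hΛU⟩ := Submodule.exists_dual_map_eq_bot_of_notMem (p := U) (x := t l) hl
    inferInstance
  let z := (Module.evalEquiv (ZMod p) Z).symm Λ
  have hev : ∀ f : Z →+ ZMod p, f z = Λ (t f) := fun f =>
    Module.apply_evalEquiv_symm_apply (R := ZMod p) (M := Z) (t f) Λ
  refine hΛl ?_
  rw [← hev]
  refine h z fun x hx => ?_
  rw [hev]
  exact (Submodule.mem_bot _).mp (hΛU.le ⟨t (β x), ⟨x, hx, rfl⟩, rfl⟩)

end FLTAgent.PoitouTate
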