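import Fermat.Agent.PoitouTate.Base
import Fermat.Agent.TW.Coh.CoverExt

/-!
# The layer, the cover and the subgroups which the pairing compares

`Layer` is a cyclic cyclotomic layer of conductor `ell ∉ S` in which every prime of `S` generates,
`CoverOn` the class field theoretic data on its classes, `shaCrossed` the crossed homomorphisms
trivial on the decomposition groups above `S`, `localClasses` the subgroup of `Ext¹_G(N, C_T)`
which corresponds to the classes vanishing on `Ш¹`, and `NormsDivisible` the property of a level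
containing the Kummer extensions of a lower one.
-/

set_option autoImplicit false
set_option linter.style.haveILetI false
set_option linter.unusedSectionVars false

noncomputable section

open scoped Pointwise

namespace FLTAgent.PoitouTate

open FLTAgent.TW

local notation "ℚ̄" => AlgebraicClosure ℚ
local notation "Γ" => (AlgebraicClosure ℚ ≃ₐ[ℚ] AlgebraicClosure ℚ)

variable {S : Finset ℕ} {p : ℕ} {G : Type} [Group G]

/-- The degree of the layer: the order of a Sylow `p`-subgroup. -/
def sylowDeg (p : ℕ) (G : Type) : ℕ := p ^ (Nat.card G).factorization p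

/-- A cyclic cyclotomic layer in which the primes of `S` generate. -/
structure Layer (lv : Level S p G) where
  /-- The auxiliary prime. -/
  ell : ℕ
  prime : ell.Prime
  not_mem : ell ∉ S
  modEq : sylowDeg p G ∣ ell - 1
  /-- The generator. -/
  t : Γ
  q_t : lv.q t = 1
  /-- Lifts which fix the layer. -/
  lift : G → Γ
  q_lift : ∀ g, lv.q (lift g) = g
  /-- The layer character. -/
  ψ : Γ →* (ZMod ell)ˣ
  psi_lift : ∀ g, ψ (lift g) = 1
  gen : ∀ σ, ∃ i < sylowDeg p G, ψ σ = ψ t ^ i
  ord : orderOf (ψ t) = sylowDeg p G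
  psi_eq : ∀ σ : Γ, (∀ ζ : ℚ̄, ζ ^ ell = 1 → σ ζ = ζ) → ψ σ = 1
  psi_frob : ∀ (r : ℕ) (A : Place), r ∈ S → A.1.LiesOverPrime r →
    ∀ σ : Γ, A.1.IsFrobeniusAt σ r → orderOf (ψ σ) = sylowDeg p G

namespace Layer

variable {lv : Level S p G} (ly : Layer lv)

/-- The primes of the class module. -/
def places : Finset ℕ := insert ly.ell S

theorem subset_places : S ⊆ ly.places := Finset.subset_insert _ _

theorem ell_mem : ly.ell ∈ ly.places := Finset.mem_insert_self _ _

theorem prime_places : ∀ r ∈ ly.places, r.Prime := fun r hr =>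
  (Finset.mem_insert.mp hr).elim (fun h => h ▸ ly.prime) (lv.prime r)

/-- The field of the layer over the level. -/
def field : IntermediateField ℚ ℚ̄ := IntermediateField.fixedField (lv.q.ker ⊓ ly.ψ.ker)

instance layerNormal : Normal ℚ ly.field :=
  normal_fixed (Subgroup.normal_inf_normal _ _)

theorem level_le : lv.field ≤ ly.field := fun _ hx g => hx ⟨g.1, g.2.1⟩

theorem mem_fix_of_eq {σ : Γ} (h1 : lv.q σ = 1) (h2 : ly.ψ σ = 1) :
    σ ∈ ly.field.fixingSubgroup := by
  rw [IntermediateField.mem_fixingSubgroup_iff]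
  exact fun x hx => hx ⟨σ, h1, h2⟩

/-- The classes of the layer. -/
def Classes : Type := Additive (IdeleClass ly.places ly.field)

instance classesGroup : AddCommGroup ly.Classes :=
  inferInstanceAs (AddCommGroup (Additive (IdeleClass ly.places ly.field)))

/-- The class of an idele of the layer. -/
def cls (φ : ideles ly.field) : ly.Classes := Additive.ofMul (QuotientGroup.mk φ)

theorem cls_surjective : Function.Surjective ly.cls := fun c => by
  obtain ⟨φ, hφ⟩ := QuotientGroup.mk_surjective (Additive.toMul c)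
  exact ⟨φ, congrArg Additive.ofMul hφ⟩

theorem cls_eq_iff {φ ψ : ideles ly.field} :
    ly.cls φ = ly.cls ψ ↔ φ.1 / ψ.1 ∈ classKer ly.places ly.field := by
  refine (Additive.ofMul.injective.eq_iff).trans (QuotientGroup.eq_iff_div_mem.trans ?_)
  rw [Subgroup.mem_subgroupOf]; rfl

/-- The Galois action on the classes. -/
def galSMul (σ : Γ) : ly.Classes →+ ly.Classes :=
  (MulDistribMulAction.toMonoidHom (IdeleClass ly.places ly.field) σ).toAdditive

theorem galSMul_cls (σ : Γ) (φ : ideles ly.field) :
    ly.galSMul σ (ly.cls φ) = ly.cls ⟨σ • φ.1, smul_mem_ideles σ φ.2⟩ := rfl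

theorem galSMul_mul (σ τ : Γ) (c : ly.Classes) :
    ly.galSMul (σ * τ) c = ly.galSMul σ (ly.galSMul τ c) :=
  congrArg Additive.ofMul (mul_smul σ τ (Additive.toMul c))

theorem galSMul_congr {σ τ : Γ} (h1 : lv.q σ = lv.q τ) (h2 : ly.ψ σ = ly.ψ τ) (c : ly.Classes) :
    ly.galSMul σ c = ly.galSMul τ c := by
  obtain ⟨φ, rfl⟩ := ly.cls_surjective c
  rw [galSMul_cls, galSMul_cls]
  refine congrArg _ (Subtype.ext ?_)
  have h := φ.2.1 _ (ly.mem_fix_of_eq (σ := τ⁻¹ * σ) (by rw [map_mul, map_inv, h1, inv_mul_cancel])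
    (by rw [map_mul, map_inv, h2, inv_mul_cancel]))
  show σ • φ.1 = τ • φ.1
  calc σ • φ.1 = (τ * (τ⁻¹ * σ)) • φ.1 := by rw [mul_inv_cancel_left]
    _ = τ • φ.1 := by rw [mul_smul, h]

theorem galSMul_one (c : ly.Classes) : ly.galSMul 1 c = c :=
  congrArg Additive.ofMul (one_smul Γ (Additive.toMul c))

instance classesAction : DistribMulAction G ly.Classes where
  smul g c := ly.galSMul (ly.lift g) c
  one_smul c := by
    show ly.galSMul (ly.lift 1) c = c
    rw [ly.galSMul_congr (τ := 1) (by rw [q_lift, map_one]) (by rw [psi_lift, map_one]),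
      galSMul_one]
  mul_smul g h c := by
    show ly.galSMul (ly.lift (g * h)) c = ly.galSMul (ly.lift g) (ly.galSMul (ly.lift h) c)
    rw [← galSMul_mul]
    exact ly.galSMul_congr (by rw [map_mul, q_lift, q_lift, q_lift])
      (by rw [map_mul, psi_lift, psi_lift, psi_lift, one_mul]) c
  smul_zero g := map_zero _
  smul_add g := map_add _

theorem smul_eq_galSMul {g : G} {σ : Γ} (h1 : lv.q σ = g) (h2 : ly.ψ σ = 1) (c : ly.Classes) :
    g • c = ly.galSMul σ c :=
  ly.galSMul_congr ((ly.q_lift g).trans h1.symm) ((ly.psi_lift g).trans h2.symm) c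

/-- The generator of the layer acting on the classes. -/
def tau : ly.Classes →+ ly.Classes := ly.galSMul ly.t

/-- Ideles of the level as ideles of the layer. -/
def up (φ : ideles lv.field) : ideles ly.field := ⟨φ.1, ideles_mono ly.level_le φ.2⟩

/-- `r ^ m` at the places of the level over the class of `A`, for `r` the characteristic of
`A`. -/
def localPower (A : Place) (m : ℕ) : PreIdele :=
  lv.orbitRestr A
    (PreIdele.principalHom (Units.mk0 (A.char : ℚ̄) (Nat.cast_ne_zero.mpr A.prime_char.ne_zero) ^ m))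

theorem localPower_mem (A : Place) (m : ℕ) : localPower (lv := lv) A m ∈ ideles ly.field :=
  ideles_mono ly.level_le (restr_mem_ideles (principalHom_mem_ideles (by
      rw [Units.val_pow_eq_pow_val, Units.val_mk0]
      exact pow_mem (natCast_mem lv.field _) _))
    (fun _ hσ B => lv.inOrbit_smul hσ B) (fun _ _ _ => Iff.rfl) (fun _ => Iff.rfl))

end Layer

/-- The class field theoretic data of a layer. -/
structure CoverOn [Fintype G] {lv : Level S p G} (ly : Layer lv) where
  /-- The data. -/
  D : Coh.CoverData G p (sylowDeg p G) ly.Classes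
  tau_eq : D.τ = ly.tau
  /-- A Sylow subgroup. -/
  P : Subgroup G
  isCT : letI : Fintype P := Fintype.ofFinite _; Coh.IsCT p P D.cover
  /-- The classes of the level are the invariant classes. -/
  e : lv.Cl ly.places ≃+ D.classes
  e_smul : ∀ (g : G) c, e (g • c) = g • e c
  e_classOf : ∀ φ : ideles lv.field, (e (lv.classOf _ φ)).1 = ly.cls (ly.up φ)
  /-- Locally at `S` the generating class is a power of the residue characteristic. -/
  local_class : ∀ (A : Place), A.Over S → ∀ (V : Subgroup G) (m : ℕ),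
    IsPGroup p V → V ≤ lv.decGroup A → (Nat.card (lv.decGroup A) / Nat.card V).Coprime p →
    m * Nat.card V = sylowDeg p G →
      ∃ (u : ℤ) (d : ly.Classes), ¬ (p : ℤ) ∣ u ∧ (∀ h ∈ V, h • d = d) ∧
        ly.cls ⟨_, ly.localPower_mem A m⟩ =
          u • D.a + ∑ i ∈ Finset.range (sylowDeg p G), Coh.addPow D.τ i d

/-! ### Locally trivial crossed homomorphisms and local classes -/

section Top

variable (N : Type) [AddCommGroup N] [DistribMulAction G N]

/-- The crossed homomorphisms trivial on all decomposition groups above `S`. -/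
def shaCrossed (lv : Level S p G) : AddSubgroup (G → N) where
  carrier := {a | a ∈ crossed G N ∧ ∀ A : Place, A.Over S → TrivialOn (lv.decGroup A) a}
  zero_mem' := ⟨zero_mem _, fun A _ => ⟨0, fun g _ => by simp⟩⟩
  add_mem' := by
    rintro a b ⟨ha, ha'⟩ ⟨hb, hb'⟩
    refine ⟨add_mem ha hb, fun A hA => ?_⟩
    obtain ⟨m, hm⟩ := ha' A hA
    obtain ⟨m', hm'⟩ := hb' A hA
    exact ⟨m + m', fun g hg => by rw [Pi.add_apply, hm g hg, hm' g hg, smul_add]; abel⟩
  neg_mem' := by
    rintro a ⟨ha, ha'⟩
    refine ⟨neg_mem ha, fun A hA => ?_⟩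
    obtain ⟨m, hm⟩ := ha' A hA
    exact ⟨-m, fun g hg => by rw [Pi.neg_apply, hm g hg, smul_neg]; abel⟩

/-- The subgroup of `Ext¹_G(N, C_T)` generated by the local classes at `S` and by the classes
which die in `C_S`. -/
def localClasses (lv : Level S p G) {T : Finset ℕ} (h : S ⊆ T) :
    AddSubgroup (Coh.Ext1 G N (lv.Cl T)) :=
  (Coh.Ext1.map (lv.toCl S T) (lv.toCl_mem S T)).range ⊔
    (Coh.Ext1.map (lv.changeT h) (lv.changeT_mem h)).ker

/-- The norms to a subgroup fixing `N` are `p`-th powers in `C_S`. -/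
def NormsDivisible [Fintype G] (lv : Level S p G) : Prop :=
  ∃ H : Subgroup G, (∀ h ∈ H, ∀ m : N, h • m = m) ∧ ∀ c : lv.Cl S,
    ∃ d : lv.Cl S, (∀ h ∈ H, h • d = d) ∧
      letI : Fintype H := Fintype.ofFinite _
      ∑ h : H, (h : G) • c = p • d

end Top

end FLTAgent.PoitouTate
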