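import Fermat.Agent.PoitouTate.Base
import Fermat.Agent.TW.Idele.ClassField

/-!
# Kummer theory for `C_S` without hypothesis on the class group

Every character of order `p` of the ideles of `F` killing `classKer S F` is the character of a
Kummer extension `F(y)` unramified outside `S`; hence, if a field `H` contains all these `y`, the
norms from `H` lie in `classKer S F ⊔ powIdeles p F`.
-/

set_option autoImplicit false
set_option linter.style.haveILetI false
set_option linter.unusedSectionVars false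

noncomputable section

open scoped Pointwise Classical
open IsDedekindDomain

namespace FLTAgent.PoitouTate

open FLTAgent.TW

local notation "ℚ̄" => AlgebraicClosure ℚ
local notation "Γ" => (AlgebraicClosure ℚ ≃ₐ[ℚ] AlgebraicClosure ℚ)

attribute [local instance] numberField_intermediate

variable {S T : Finset ℕ} {p : ℕ} {L F H : IntermediateField ℚ (AlgebraicClosure ℚ)}

/-- The components at the places over `ℓ`. -/
def charProj (ℓ : ℕ) : PreIdele →* PreIdele where
  toFun φ := ⟨fun A => if A.char = ℓ then φ.fin A else 1, 1⟩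
  map_one' := PreIdele.ext (funext fun A => by simp) rfl
  map_mul' φ ψ := PreIdele.ext (funext fun A => by
    show _ = (if A.char = ℓ then φ.fin A else 1) * (if A.char = ℓ then ψ.fin A else 1)
    by_cases h : A.char = ℓ <;> simp [h]) (funext fun ι => (one_mul (1 : ℂˣ)).symm)

theorem charProj_fin (ℓ : ℕ) (φ : PreIdele) (A : Place) :
    (charProj ℓ φ).fin A = if A.char = ℓ then φ.fin A else 1 := rfl

theorem charProj_mem (ℓ : ℕ) {φ : PreIdele} (hφ : φ ∈ ideles F) : charProj ℓ φ ∈ ideles F := by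
  obtain ⟨h1, -, S', h3⟩ := hφ
  refine ⟨fun σ hσ => PreIdele.ext (funext fun A => Units.ext ?_) rfl,
    fun ι => by simp [charProj], S', fun A hA => ?_⟩
  · rw [PreIdele.coe_fin_smul, charProj_fin, charProj_fin, Place.char_smul]
    split_ifs
    · rw [← PreIdele.coe_fin_smul, h1 σ hσ]
    · simp
  · rw [charProj_fin]; split_ifs
    exacts [h3 A hA, one_mem _]

theorem placeIdele_congr {q : ℕ} (hq : q ≠ 0) {A B : Place}
    (h : ∃ σ ∈ F.fixingSubgroup, σ • A = B) : placeIdele F q hq A = placeIdele F q hq B := by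
  obtain ⟨σ, hσ, rfl⟩ := h
  refine PreIdele.ext (funext fun C => ?_) rfl
  show (if _ then _ else _) = (if _ then _ else _)
  exact if_congr ⟨fun ⟨τ, hτ, h⟩ => ⟨τ * σ⁻¹, mul_mem hτ (inv_mem hσ),
    by rw [mul_smul, inv_smul_smul, h]⟩, fun ⟨τ, hτ, h⟩ => ⟨τ * σ, mul_mem hτ hσ,
    by rw [mul_smul, h]⟩⟩ rfl rfl

/-- The class group is generated by the places away from a given unramified prime. -/
theorem exists_tPrincipal_avoid [FiniteDimensional ℚ F] (hS : ∀ q ∈ S, q.Prime)
    (hur : ∀ A : Place, ¬ A.Over S → ∀ σ ∈ A.1.inertiaSubgroupIn ℚ, σ ∈ F.fixingSubgroup)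
    {ℓ : ℕ} (hℓ : ℓ.Prime) (hℓS : ℓ ∉ S) :
    ∃ T : Finset ℕ, S ⊆ T ∧ ℓ ∉ T ∧ (∀ q ∈ T, q.Prime) ∧ TPrincipal T F := by
  obtain ⟨T, hST, hTp, hTP⟩ := exists_tPrincipal_single (F := F) (insert ℓ S)
  have hST' : S ⊆ T := (Finset.subset_insert _ _).trans hST
  set W := primesOverT F {ℓ}
  have hW : ∀ A : Place, A.char = ℓ → primeOf F A ∈ W := fun A hA =>
    primeOf_mem_primesOverT.mpr (A.over_iff.mpr (Finset.mem_singleton.mpr hA))
  have hWc : ∀ P ∈ W, (placeAbove F P).char = ℓ := fun P hP => by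
    have h : (placeAbove F P).Over {ℓ} :=
      primeOf_mem_primesOverT.mp ((primeOf_placeAbove (F := F) P).symm ▸ hP)
    exact Finset.mem_singleton.mp ((placeAbove F P).over_iff.mp h)
  set π : HeightOneSpectrum (NumberField.RingOfIntegers F) → PreIdele := fun P =>
    placeIdele F (placeAbove F P).char (placeAbove F P).prime_char.ne_zero (placeAbove F P)
    with hπ
  have hπmem : ∀ P, π P ∈ ideles F := fun P =>
    placeIdele_mem_ideles (placeAbove F P).prime_char (placeAbove F P).liesOver_char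
  choose x hx0 hx using fun P => exists_idele_approx (hπmem P) W 1
  set ξ : HeightOneSpectrum (NumberField.RingOfIntegers F) → (AlgebraicClosure ℚ)ˣ := fun P =>
    Units.mk0 (x P : ℚ̄) (by simpa using hx0 P) with hξ
  have hquot : ∀ P, π P / PreIdele.principalHom (ξ P) ∈ ideles F := fun P =>
    div_mem (hπmem P) (principalHom_mem_ideles (x P).2)
  choose B hB using fun P => (hquot P).2.2
  set T₂ := T.erase ℓ ∪ (W.biUnion B).filter (fun q => q.Prime ∧ q ≠ ℓ) with hT₂
  have hℓT₂ : ℓ ∉ T₂ := by simp [hT₂]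
  have hS₂ : S ⊆ T₂ := fun q hq => Finset.mem_union_left _
    (Finset.mem_erase.mpr ⟨fun e => hℓS (e ▸ hq), hST' hq⟩)
  refine ⟨T₂, hS₂, hℓT₂, fun q hq => ?_, ?_⟩
  · rcases Finset.mem_union.mp hq with h | h
    · rcases hTp q (Finset.mem_of_mem_erase h) with h' | h'
      · rcases Finset.mem_insert.mp h' with rfl | h''
        exacts [hℓ, hS q h'']
      · exact h'
    · exact (Finset.mem_filter.mp h).2.1
  set G : Subgroup PreIdele := principal F ⊔ offIdeles (fun A => A.Over T₂) F with hG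
  suffices hall : ∀ φ ∈ ideles F, φ ∈ G by
    intro φ hφ
    obtain ⟨_, ⟨y, hy, rfl⟩, b, hb, rfl⟩ := Subgroup.mem_sup.mp (hall φ hφ)
    refine ⟨y, hy, fun A hA => ?_⟩
    show (PreIdele.principalHom y * b).fin A * y⁻¹ ∈ _
    rw [PreIdele.fin_mul, show (PreIdele.principalHom y).fin A = y from rfl, mul_inv_cancel_comm]
    exact hb.2 A hA
  -- the places over `ℓ` are in `G`
  have hgenP : ∀ P ∈ W, π P ∈ G := fun P hP => by
    rw [← mul_div_cancel (PreIdele.principalHom (ξ P)) (π P)]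
    refine mul_mem (Subgroup.mem_sup_left ⟨ξ P, (x P).2, rfl⟩)
      (Subgroup.mem_sup_right ⟨hquot P, fun A hA => ?_⟩)
    by_cases hc : A.char = ℓ
    · have h := hx P A (hW A hc)
      rw [pow_one] at h
      have h1 : A.1.valuation ((x P : ℚ̄) / (π P).fin A) = 1 := by
        rw [← sub_add_cancel ((x P : ℚ̄) / ((π P).fin A : ℚ̄)) 1,
          Valuation.map_add_eq_of_lt_right _
            (by rw [map_one]; exact lt_of_le_of_lt h A.valuation_char_lt_one), map_one]
      have h2 : A.1.valuation (((π P / PreIdele.principalHom (ξ P)).fin A : ℚ̄)) = 1 := by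
        show A.1.valuation (((π P).fin A / ξ P : (AlgebraicClosure ℚ)ˣ) : ℚ̄) = 1
        rw [Units.val_div_eq_div_val, ← inv_div, map_inv₀]
        rw [show ((ξ P : (AlgebraicClosure ℚ)ˣ) : ℚ̄) = (x P : ℚ̄) from rfl, h1, inv_one]
      exact mem_unitGroup_iff.mpr h2
    · refine hB P A fun hAB => hA (A.over_iff.mpr (Finset.mem_union_right _
        (Finset.mem_filter.mpr ⟨Finset.mem_biUnion.mpr ⟨P, hP, A.over_iff.mp hAB⟩,
          A.prime_char, hc⟩)))
  have hgen : ∀ A : Place, A.char = ℓ → placeIdele F ℓ hℓ.ne_zero A ∈ G := fun A hA => by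
    have h := hgenP _ (hW A hA)
    simp only [hπ] at h
    have hc := hWc _ (hW A hA)
    obtain ⟨σ, hσ, he⟩ := exists_smul_eq_of_primeOf_eq (F := F)
      (A := placeAbove F (primeOf F A)) (B := A) (primeOf_placeAbove _)
    rw [← placeIdele_congr hℓ.ne_zero ⟨σ, hσ, he⟩]
    convert h using 2
    exact hc.symm
  intro φ hφ
  obtain ⟨y, hy, hoff⟩ := exists_div_principal_mem hTP hφ
  rw [← mul_div_cancel (PreIdele.principalHom y) φ]
  refine mul_mem (Subgroup.mem_sup_left ⟨y, hy, rfl⟩) ?_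
  generalize φ / PreIdele.principalHom y = ψ at hoff ⊢
  rw [← mul_div_cancel (charProj ℓ ψ) ψ]
  have hdiv : ∀ A : Place, (ψ / charProj ℓ ψ).fin A = if A.char = ℓ then 1 else ψ.fin A :=
    fun A => by
    show ψ.fin A / (charProj ℓ ψ).fin A = _
    rw [charProj_fin]; split_ifs <;> simp
  refine mul_mem ?_ (Subgroup.mem_sup_right
    ⟨div_mem hoff.1 (charProj_mem ℓ hoff.1), fun A hA => ?_⟩)
  swap
  · rw [hdiv]; split_ifs with hc
    · exact one_mem _
    · exact hoff.2 A fun hAT => hA (A.over_iff.mpr (Finset.mem_union_left _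
        (Finset.mem_erase.mpr ⟨hc, A.over_iff.mp hAT⟩)))
  -- the part over `ℓ`
  have haway : charProj ℓ ψ ∈ awayIdeles (T.erase ℓ) F := by
    refine ⟨charProj_mem ℓ hoff.1, fun A hA => ?_, rfl⟩
    rw [charProj_fin, if_neg (Finset.mem_erase.mp (A.over_iff.mp hA)).1]
  have hle : awayIdeles (T.erase ℓ) F ≤ G.comap (charProj ℓ) := by
    refine (awayIdeles_le_closure fun A hA => hur A fun hAS => hA (over_mono ?_ hAS)).trans
      (sup_le ?_ ?_)
    · exact fun q hq => Finset.mem_erase.mpr ⟨fun e => hℓS (e ▸ hq), hST' hq⟩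
    · rw [Subgroup.closure_le]
      rintro _ ⟨q, hq, A, -, hA, rfl⟩
      have hc : ∀ C : Place, (∃ σ ∈ F.fixingSubgroup, σ • A = C) → C.char = q := by
        rintro C ⟨σ, -, rfl⟩
        rw [Place.char_smul, A.char_eq hq hA]
      show charProj ℓ (placeIdele F q hq.ne_zero A) ∈ G
      by_cases hqℓ : q = ℓ
      · subst hqℓ
        rw [show charProj q (placeIdele F q hq.ne_zero A) = placeIdele F q hq.ne_zero A from
          PreIdele.ext (funext fun C => ?_) rfl]
        · exact hgen A (A.char_eq hq hA)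
        · rw [charProj_fin]; split_ifs with h
          · rfl
          · exact (placeIdele_fin_of_not _ _ fun h' => h (hc C h')).symm
      · rw [show charProj ℓ (placeIdele F q hq.ne_zero A) = 1 from
          PreIdele.ext (funext fun C => ?_) rfl]
        · exact one_mem _
        · rw [charProj_fin]; split_ifs with h
          · exact placeIdele_fin_of_not _ _ fun h' => hqℓ ((hc C h').symm.trans h)
          · rfl
    · intro u hu
      exact Subgroup.mem_sup_right ⟨charProj_mem ℓ hu.1.1, fun A _ => by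
        rw [charProj_fin]; split_ifs
        exacts [hu.2 A, one_mem _]⟩
  have hidem : charProj ℓ (charProj ℓ ψ) = charProj ℓ ψ := PreIdele.ext (funext fun A => by
    simp only [charProj_fin]; split_ifs <;> rfl) rfl
  have := hle haway
  rwa [Subgroup.mem_comap, hidem] at this

/-- Characters killing `classKer` with the same values at the places outside `T` are equal. -/
theorem char_eq_of_places [Fact p.Prime] (hL : IdeleSetting T p L) (hFL : F ≤ L)
    (hμ : ContainsMuP p F) {f g : ideles F →* (AlgebraicClosure ℚ)ˣ} (hf : ∀ φ, f φ ^ p = 1)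
    (hg : ∀ φ, g φ ^ p = 1) (hfk : ∀ φ : ideles F, φ.1 ∈ classKer T F → f φ = 1)
    (hgk : ∀ φ : ideles F, φ.1 ∈ classKer T F → g φ = 1)
    (h : ∀ (q : ℕ) (hq : q.Prime) (A : Place), q ∉ T → A.1.LiesOverPrime q →
      ∀ hm : placeIdele F q hq.ne_zero A ∈ ideles F, f ⟨_, hm⟩ = g ⟨_, hm⟩)
    (φ : ideles F) : f φ = g φ := by
  have := eq_one_of_places hL hFL hμ (f / g)
    (fun ψ => by rw [MonoidHom.div_apply, div_pow, hf, hg, div_one])
    (fun ψ hψ => by rw [MonoidHom.div_apply, hfk ψ hψ, hgk ψ hψ, div_one])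
    (fun q hq A hqT hA hm => by rw [MonoidHom.div_apply, h q hq A hqT hA hm, div_self']) φ
  rwa [MonoidHom.div_apply, div_eq_one] at this

/-- **Existence.** A character of order `p` killing `classKer S F` is the character of a Kummer
extension unramified outside `S`, and it kills the norms from it. -/
theorem exists_kummer_char [Fact p.Prime] (hL : IdeleSetting S p L) (hFL : F ≤ L)
    (hμ : ContainsMuP p F) (lam : ideles F →* (AlgebraicClosure ℚ)ˣ) (hlam : ∀ φ, lam φ ^ p = 1)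
    (hker : ∀ φ : ideles F, φ.1 ∈ classKer S F → lam φ = 1) :
    ∃ y : (AlgebraicClosure ℚ)ˣ, (y : ℚ̄) ^ p ∈ F ∧
      (∀ A : Place, ¬ A.Over S → ∀ σ ∈ A.1.inertiaSubgroupIn ℚ, σ (y : ℚ̄) = y) ∧
      (∀ φ : ideles F,
        φ.1 ∈ normSubgroup F (F ⊔ IntermediateField.adjoin ℚ {(y : ℚ̄)}) → lam φ = 1) ∧
      ∀ (q : ℕ) (hq : q.Prime) (A : Place), q ∉ S → A.1.LiesOverPrime q →
        ∀ σ : Γ, A.1.IsFrobeniusAt σ q → ∀ f : ℕ, 0 < f → σ ^ f ∈ F.fixingSubgroup →
          (∀ g : ℕ, 0 < g → g < f → σ ^ g ∉ F.fixingSubgroup) →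
          ∀ h : placeIdele F q hq.ne_zero A ∈ ideles F,
            (lam ⟨_, h⟩ : ℚ̄) = (σ ^ f) (y : ℚ̄) / (y : ℚ̄) := by
  haveI := hL.finite
  haveI := finite_of_le (L := L) hFL
  obtain ⟨T, hST, hTp, hTP⟩ := exists_tPrincipal_single (F := F) S
  have hT : ∀ q ∈ T, q.Prime := fun q hq => (hTp q hq).elim (hL.prime q) id
  have hLT := hL.mono_T hST hT
  have hkerT : ∀ φ : ideles F, φ.1 ∈ classKer T F → lam φ = 1 := fun φ hφ =>
    hker φ (classKer_anti hST hφ)
  obtain ⟨y, hyU, hyunr, hy⟩ := exists_kummer_units hLT hTP hFL hμ lam hlam hkerT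
  have hyF : (y : ℚ̄) ^ p ∈ F := by rw [← Units.val_pow_eq_pow_val]; exact hyU.1
  have hurF : ∀ A : Place, ¬ A.Over S → ∀ σ ∈ A.1.inertiaSubgroupIn ℚ, σ ∈ F.fixingSubgroup :=
    fun A hA σ hσ => IntermediateField.fixingSubgroup_le hFL (hL.unramified A hA σ hσ)
  have hunr : ∀ A : Place, ¬ A.Over S → ∀ σ ∈ A.1.inertiaSubgroupIn ℚ, σ (y : ℚ̄) = y := by
    intro A hA σ hσ
    by_cases hAT : A.Over T
    swap
    · exact hyunr A hAT σ hσ
    obtain ⟨T₂, hST₂, hcT₂, hT₂, hTP₂⟩ := exists_tPrincipal_avoid hL.prime hurF A.prime_char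
      fun h => hA (A.over_iff.mpr h)
    obtain ⟨y₂, hy₂U, hy₂unr, hy₂⟩ := exists_kummer_units (hL.mono_T hST₂ hT₂) hTP₂ hFL hμ lam hlam
      fun φ hφ => hker φ (classKer_anti hST₂ hφ)
    have hz : ∀ g ∈ F.fixingSubgroup, g ((y / y₂ : (AlgebraicClosure ℚ)ˣ) : ℚ̄) =
        ((y / y₂ : (AlgebraicClosure ℚ)ˣ) : ℚ̄) := by
      by_contra hnot
      push Not at hnot
      obtain ⟨g, hg, hgz⟩ := hnot
      obtain ⟨v, hv⟩ := exists_inertPlace (T := T) hg hgz T₂
      have hmem : placeIdele F v.q v.hq.ne_zero v.A ∈ ideles F := placeIdele_mem_ideles v.hq v.hA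
      have e1 := hy v.q v.hq v.A v.hqT v.hA v.σ v.hσ v.f v.hf v.hσf v.hmin hmem
      have e2 := hy₂ v.q v.hq v.A hv v.hA v.σ v.hσ v.f v.hf v.hσf v.hmin hmem
      refine v.hne ?_
      rw [Units.val_div_eq_div_val, map_div₀,
        div_eq_div_iff ((map_ne_zero _).mpr (Units.ne_zero _)) (Units.ne_zero _)]
      rw [e1, div_eq_div_iff (Units.ne_zero _) (Units.ne_zero _)] at e2
      linear_combination e2
    have h1 := hz σ (hurF A hA σ hσ)
    have h2 : σ (y₂ : ℚ̄) = y₂ := hy₂unr A (fun h => hcT₂ (A.over_iff.mp h)) σ hσ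
    rw [Units.val_div_eq_div_val, map_div₀, h2, div_left_inj' y₂.ne_zero] at h1
    exact h1
  obtain ⟨μS, hpow, hμker, hnorm, hplace⟩ := exists_reciprocity hL hFL hμ hyF hunr
  have heq : ∀ φ, lam φ = μS φ := char_eq_of_places hLT hFL hμ hlam hpow hkerT
    (fun φ hφ => hμker φ (classKer_anti hST hφ)) fun q hq A hqT hA hm => by
      obtain ⟨σ, hσ⟩ := GalCommon.exists_isFrobeniusAt hq hA
      obtain ⟨f, hf, hσf, hmin⟩ := exists_least_pow_mem_fixing F σ
      exact Units.ext ((hy q hq A hqT hA σ hσ f hf hσf hmin hm).trans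
        (hplace q hq A (fun h => hqT (hST h)) hA σ hσ f hf hσf hmin hm).symm)
  exact ⟨y, hyF, hunr, fun φ hφ => (heq φ).trans (hnorm φ hφ),
    fun q hq A hqS hA σ hσ f hf hσf hmin hm => by
      rw [heq]; exact hplace q hq A hqS hA σ hσ f hf hσf hmin hm⟩

/-- `H` contains the `p`-th roots in `F` that are unramified outside `S`. -/
def KummerClosed (S : Finset ℕ) (p : ℕ) (F H : IntermediateField ℚ (AlgebraicClosure ℚ)) : Prop :=
  ∀ y : ℚ̄, y ^ p ∈ F → (∀ A : Place, ¬ A.Over S → ∀ σ ∈ A.1.inertiaSubgroupIn ℚ, σ y = y) → y ∈ H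

/-- The Kummer extension of `F` unramified outside `S` is finite. -/
theorem exists_kummerClosed [Fact p.Prime] (hL : IdeleSetting S p L) (hFL : F ≤ L)
    (hμ : ContainsMuP p F) :
    ∃ L' : IntermediateField ℚ (AlgebraicClosure ℚ),
      IdeleSetting S p L' ∧ L ≤ L' ∧ KummerClosed S p F L' := by
  haveI := hL.finite
  haveI := finite_of_le (L := L) hFL
  obtain ⟨T, hST, hTp, hTP⟩ := exists_tPrincipal_single (F := F) S
  have hT : ∀ q ∈ T, q.Prime := fun q hq => (hTp q hq).elim (hL.prime q) id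
  have hLT := hL.mono_T hST hT
  set P := ((tUnits T F).map (powMonoidHom p)).subgroupOf (tUnits T F) with hP
  haveI hfinP : Finite (tUnits T F ⧸ P) := Nat.finite_of_card_ne_zero (by
    rw [← Subgroup.index_eq_card, hP, ← Subgroup.relIndex, relIndex_tUnits_pow hLT hFL hμ]
    exact pow_ne_zero _ (Fact.out : p.Prime).ne_zero)
  set good : ℚ̄ → Prop := fun y => y ≠ 0 ∧ y ^ p ∈ F ∧
    ∀ A : Place, ¬ A.Over S → ∀ σ ∈ A.1.inertiaSubgroupIn ℚ, σ y = y with hgood
  set rep : tUnits T F ⧸ P → ℚ̄ → Prop := fun c y => good y ∧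
    ∃ (x : ℚ̄) (t : tUnits T F), x ∈ F ∧ x ≠ 0 ∧ QuotientGroup.mk t = c ∧
      y ^ p = x ^ p * ((t : (AlgebraicClosure ℚ)ˣ) : ℚ̄) with hrep
  set Y : Set ℚ̄ := Set.range fun c : {c // ∃ y, rep c y} => c.2.choose with hY
  have hYfin : Y.Finite := Set.finite_range _
  have hYgood : ∀ y ∈ Y, good y := by
    rintro _ ⟨c, rfl⟩
    exact c.2.choose_spec.1
  haveI : Finite Y := hYfin.to_subtype
  haveI : FiniteDimensional ℚ (IntermediateField.adjoin ℚ Y) :=
    IntermediateField.finiteDimensional_adjoin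
      fun y _ => (EllP.qbarIsAlgebraic.isAlgebraic y).isIntegral
  obtain ⟨L', hL', hLL', hYL'⟩ := hL.exists_extend (Finset.Subset.refl S) hL.prime
    (IntermediateField.adjoin ℚ Y) fun A hA σ hσ => by
      rw [IntermediateField.mem_fixingSubgroup_iff]
      intro z hz
      have hle : IntermediateField.adjoin ℚ Y ≤
          IntermediateField.fixedField (Subgroup.zpowers σ) := by
        refine IntermediateField.adjoin_le_iff.mpr fun y hy => ?_
        rintro ⟨g, hg⟩
        exact Subgroup.zpowers_le.mpr (show σ ∈ MulAction.stabilizer Γ y from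
          (hYgood y hy).2.2 A hA σ hσ) hg
      exact hle hz ⟨σ, Subgroup.mem_zpowers σ⟩
  refine ⟨L', hL', hLL', fun y hy hyunr => ?_⟩
  by_cases hy0 : y = 0
  · subst hy0; exact L'.zero_mem
  set yu : (AlgebraicClosure ℚ)ˣ := Units.mk0 y hy0
  have hyu : (yu : ℚ̄) = y := rfl
  -- normalise to a root of a `T`-unit
  haveI : FiniteDimensional ℚ
      (F ⊔ IntermediateField.adjoin ℚ {(yu : ℚ̄)} : IntermediateField ℚ ℚ̄) :=
    finiteDimensional_sup_adjoin F _
  obtain ⟨L₁, hL₁, hLL₁, hyL₁⟩ := hLT.exists_extend (Finset.Subset.refl T) hT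
    (F ⊔ IntermediateField.adjoin ℚ {(yu : ℚ̄)}) fun A hA σ hσ => inertia_mem_sup_adjoin hLT hFL
      (fun A hA σ hσ => hyunr A (fun h => hA (over_mono hST h)) σ hσ) A hA σ hσ
  obtain ⟨x, hxF, hx⟩ := exists_unit_root hL₁ hTP (β := yu)
    (hyL₁ (le_sup_right (a := F) (IntermediateField.mem_adjoin_simple_self ℚ _))) hy
  have htU : (yu / x) ^ p ∈ tUnits T F := ⟨by
    rw [Units.val_pow_eq_pow_val, Units.val_div_eq_div_val, div_pow]
    exact div_mem hy (pow_mem hxF p), fun A hA => pow_mem (hx A hA) p⟩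
  set t : tUnits T F := ⟨_, htU⟩
  have hc : ∃ y', rep (QuotientGroup.mk t) y' := ⟨y, ⟨hy0, hy, hyunr⟩, x, t, hxF, x.ne_zero, rfl, by
    show y ^ p = (x : ℚ̄) ^ p * (((yu / x) ^ p : (AlgebraicClosure ℚ)ˣ) : ℚ̄)
    rw [Units.val_pow_eq_pow_val, Units.val_div_eq_div_val, ← mul_pow,
      mul_div_cancel₀ _ x.ne_zero, hyu]⟩
  set y' := hc.choose with hy'def
  obtain ⟨⟨hy'0, -, -⟩, x', t', hx'F, hx'0, hmk, hy'⟩ := hc.choose_spec
  rw [← hy'def] at hy'0 hy'
  have hy'L : y' ∈ L' := hYL' (IntermediateField.subset_adjoin ℚ Y ⟨⟨_, hc⟩, rfl⟩)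
  obtain ⟨u, hu, hue⟩ := Subgroup.mem_subgroupOf.mp (QuotientGroup.eq.mp hmk)
  have e1 : (u : ℚ̄) ^ p = (((t' : (AlgebraicClosure ℚ)ˣ) : ℚ̄))⁻¹ * ((yu / x : _) : ℚ̄) ^ p := by
    rw [← Units.val_pow_eq_pow_val, show u ^ p = _ from hue]
    simp [t]
  have e2 : (y / (u * x * y' / x')) ^ p = 1 := by
    have h2 : y ^ p = (x : ℚ̄) ^ p * ((yu / x : (AlgebraicClosure ℚ)ˣ) : ℚ̄) ^ p := by
      rw [Units.val_div_eq_div_val, ← mul_pow, mul_div_cancel₀ _ x.ne_zero, hyu]
    have ht'0 : ((t' : (AlgebraicClosure ℚ)ˣ) : ℚ̄) ≠ 0 := Units.ne_zero _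
    rw [div_pow, div_pow, mul_pow, mul_pow, e1, hy', h2]
    field_simp
  have hFL' : F ≤ L' := hFL.trans hLL'
  have hmem : (u : ℚ̄) * x * y' / x' ∈ L' :=
    div_mem (mul_mem (mul_mem (hFL' hu.1) (hFL' hxF)) hy'L) (hFL' hx'F)
  have := mul_mem (hFL' (hμ _ e2)) hmem
  rwa [div_mul_cancel₀] at this
  simp [u.ne_zero, x.ne_zero, hy'0, hx'0]

/-- **Norms from a Kummer closed field vanish in `C_S(F) / p`.** -/
theorem normIdele_mem_sup_pow [Fact p.Prime] (hL : IdeleSetting S p L) (hFL : F ≤ L)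
    (hμ : ContainsMuP p F) [FiniteDimensional ℚ H] (hFH : F ≤ H) (hH : KummerClosed S p F H)
    {φ : PreIdele} (hφ : φ ∈ ideles H) :
    normIdele F H φ ∈ classKer S F ⊔ powIdeles p F := by
  haveI := hL.finite
  haveI := finite_of_le (L := L) hFL
  set M := (classKer S F ⊔ powIdeles p F).subgroupOf (ideles F) with hM
  have hN : normIdele F H φ ∈ ideles F := normIdele_mem hFH hφ
  by_contra hnot
  obtain ⟨T, hST, hTp, hTP⟩ := exists_tPrincipal_single (F := F) S
  have hT : ∀ q ∈ T, q.Prime := fun q hq => (hTp q hq).elim (hL.prime q) id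
  haveI : Finite (ideles F ⧸ M) := Nat.finite_of_card_ne_zero (by
    rw [← Subgroup.index_eq_card]
    intro h0
    have h1 : M.index ∣ (classKer T F ⊔ powIdeles p F).relIndex (ideles F) :=
      Subgroup.relIndex_dvd_of_le_left _ (sup_le_sup_right (classKer_anti hST) _)
    rw [h0, zero_dvd_iff, relIndex_classKer_sup_pow (hL.mono_T hST hT) hTP hFL hμ] at h1
    exact pow_ne_zero _ (Fact.out : p.Prime).ne_zero h1)
  haveI : NeZero (Monoid.exponent (ideles F ⧸ M)) := ⟨Monoid.exponent_ne_zero_of_finite⟩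
  have hne : (QuotientGroup.mk ⟨_, hN⟩ : ideles F ⧸ M) ≠ 1 := fun h =>
    hnot (Subgroup.mem_subgroupOf.mp ((QuotientGroup.eq_one_iff _).mp h))
  obtain ⟨χ, hχ⟩ := CommGroup.exists_apply_ne_one_of_hasEnoughRootsOfUnity (ideles F ⧸ M) ℚ̄ hne
  set lam : ideles F →* (AlgebraicClosure ℚ)ˣ := χ.comp (QuotientGroup.mk' M) with hlamdef
  have hlam : ∀ ψ, lam ψ ^ p = 1 := fun ψ => by
    rw [← map_pow, hlamdef, MonoidHom.comp_apply, QuotientGroup.mk'_apply,
      (QuotientGroup.eq_one_iff _).mpr, map_one]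
    exact Subgroup.mem_subgroupOf.mpr (Subgroup.mem_sup_right ⟨ψ.1, ψ.2, rfl⟩)
  obtain ⟨y, hy, hyunr, hnorm, -⟩ := exists_kummer_char hL hFL hμ lam hlam fun ψ hψ => by
    rw [hlamdef, MonoidHom.comp_apply, QuotientGroup.mk'_apply,
      (QuotientGroup.eq_one_iff _).mpr (Subgroup.mem_subgroupOf.mpr (Subgroup.mem_sup_left hψ)),
      map_one]
  set F' := F ⊔ IntermediateField.adjoin ℚ {(y : ℚ̄)}
  have hF'H : F' ≤ H := sup_le hFH (IntermediateField.adjoin_simple_le_iff.mpr (hH _ hy hyunr))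
  haveI := finite_of_le (L := H) hF'H
  refine hχ (hnorm ⟨_, hN⟩ ?_)
  show normIdele F H φ ∈ normSubgroup F F'
  rw [← normIdele_trans le_sup_left hF'H hφ]
  exact normIdele_mem_normSubgroup (normIdele_mem hF'H hφ)


/-- **The Kummer level.** A level over a given one whose field contains the `p`-th roots in it
unramified outside `S`, and whose norms to it are divisible by `p` in `C_S`. -/
theorem exists_level [Fact p.Prime] {G₁ : Type} [Group G₁] (lv₁ : Level S p G₁) :
    ∃ (G : Type) (_ : Group G) (_ : Fintype G) (lv : Level S p G) (f : G →* G₁),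
      f.comp lv.q = lv₁.q ∧
      (∀ y : ℚ̄, y ^ p ∈ lv₁.field →
        (∀ A : Place, ¬ A.Over S → ∀ s ∈ A.1.inertiaSubgroupIn ℚ, s y = y) →
        ∀ s, lv.q s = 1 → s y = y) ∧
      ∀ c : lv.Cl S, ∃ d : lv.Cl S, (∀ h ∈ f.ker, h • d = d) ∧
        letI : Fintype f.ker := Fintype.ofFinite _
        ∑ h : f.ker, (h : G) • c = p • d := by
  obtain ⟨L', hL', hle, hK⟩ := exists_kummerClosed lv₁.setting le_rfl lv₁.containsMuP
  haveI := hL'.finite
  haveI := hL'.isGalois
  haveI : Normal ℚ L' := @IsGalois.to_normal _ _ _ _ _ hL'.isGalois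
  let r : Γ →* (L' ≃ₐ[ℚ] L') := AlgEquiv.restrictNormalHom L'
  have hr : Function.Surjective r := AlgEquiv.restrictNormalHom_surjective _
  have hker : r.ker = L'.fixingSubgroup := by
    refine Eq.trans ?_ (@IntermediateField.restrictNormalHom_ker _ _ _ _ _ L'
      (@IsGalois.to_normal _ _ _ _ _ hL'.isGalois))
    rfl
  have hfix : ∀ σ, r σ = 1 → σ ∈ L'.fixingSubgroup := fun σ h => hker ▸ MonoidHom.mem_ker.mpr h
  have hq₁ : ∀ σ, r σ = 1 → lv₁.q σ = 1 := fun σ h =>
    lv₁.mem_fix_field.mp (IntermediateField.fixingSubgroup_le hle (hfix σ h))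
  let lv : Level S p (L' ≃ₐ[ℚ] L') :=
    { q := r
      surj := hr
      isOpen_ker := hker ▸ L'.fixingSubgroup_isOpen
      mem := lv₁.mem
      prime := lv₁.prime
      unramified := fun A hA σ hσ =>
        MonoidHom.mem_ker.mp (hker ▸ hL'.unramified A hA σ hσ)
      zeta := fun σ h => lv₁.zeta σ (hq₁ σ h) }
  have hfield : ∀ σ : Γ, σ ∈ lv.field.fixingSubgroup ↔ σ ∈ L'.fixingSubgroup := fun σ => by
    rw [lv.fix_field, ← hker]
  let f : (L' ≃ₐ[ℚ] L') →* G₁ := r.liftOfSurjective hr ⟨lv₁.q, fun σ hσ =>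
    MonoidHom.mem_ker.mpr (hq₁ σ (MonoidHom.mem_ker.mp hσ))⟩
  have hf : ∀ σ, f (r σ) = lv₁.q σ := fun σ =>
    MonoidHom.liftOfRightInverse_comp_apply r (Function.surjInv hr)
      (Function.rightInverse_surjInv hr) _ σ
  refine ⟨_, inferInstance, Fintype.ofFinite _, lv, f, MonoidHom.ext hf,
    fun y hy hyunr s hs => apply_of_mem (hK y hy hyunr) (hfix s hs), fun c => ?_⟩
  obtain ⟨φ, rfl⟩ := lv.classOf_surjective _ c
  haveI : FiniteDimensional ℚ lv.field := lv.finite_field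
  haveI : FiniteDimensional ℚ lv₁.field := lv₁.finite_field
  have hle' : lv₁.field ≤ lv.field := fun x hx => mem_of_forall_fixed fun σ hσ =>
    apply_of_mem hx (IntermediateField.fixingSubgroup_le hle ((hfield σ).mp hσ))
  have hLle : L' ≤ lv.field := fun x hx => mem_of_forall_fixed fun σ hσ =>
    apply_of_mem hx ((hfield σ).mp hσ)
  have hH : KummerClosed S p lv₁.field lv.field := fun y hy hyunr => hLle (hK y hy hyunr)
  obtain ⟨a, ha, _, ⟨ψ, hψ, rfl⟩, he⟩ := Subgroup.mem_sup.mp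
    (normIdele_mem_sup_pow lv₁.setting le_rfl lv₁.containsMuP hle' hH φ.2)
  have hψ' : ψ ∈ ideles lv.field := ideles_mono hle' hψ
  refine ⟨lv.classOf _ ⟨ψ, hψ'⟩, fun g hg => ?_, ?_⟩
  · obtain ⟨σ, rfl⟩ := hr g
    have hσ : σ ∈ lv₁.field.fixingSubgroup :=
      lv₁.mem_fix_field.mpr ((hf σ).symm.trans (MonoidHom.mem_ker.mp hg))
    rw [lv.smul_classOf _ (σ := σ) rfl]
    exact congrArg _ (Subtype.ext (hψ.1 σ hσ))
  letI : Fintype f.ker := Fintype.ofFinite _
  haveI := finite_fixing_quotient lv₁.field.fixingSubgroup lv.field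
  letI : Fintype (lv₁.field.fixingSubgroup ⧸
      lv.field.fixingSubgroup.subgroupOf lv₁.field.fixingSubgroup) := Fintype.ofFinite _
  let e : (lv₁.field.fixingSubgroup ⧸
      lv.field.fixingSubgroup.subgroupOf lv₁.field.fixingSubgroup) → f.ker := fun q =>
    ⟨r (Quotient.out q).1, MonoidHom.mem_ker.mpr
      ((hf _).trans (lv₁.mem_fix_field.mp (Quotient.out q).2))⟩
  have hebij : Function.Bijective e := by
    refine ⟨fun q q' h => ?_, fun g => ?_⟩
    · rw [← QuotientGroup.out_eq' q, ← QuotientGroup.out_eq' q', QuotientGroup.eq,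
        Subgroup.mem_subgroupOf, hfield, ← hker, MonoidHom.mem_ker, Subgroup.coe_mul,
        InvMemClass.coe_inv, map_mul, map_inv, _root_.inv_mul_eq_one]
      exact congrArg Subtype.val h
    · obtain ⟨σ, hσ⟩ := hr g.1
      have hσF : σ ∈ lv₁.field.fixingSubgroup :=
        lv₁.mem_fix_field.mpr ((hf σ).symm.trans (hσ ▸ MonoidHom.mem_ker.mp g.2))
      refine ⟨QuotientGroup.mk ⟨σ, hσF⟩, Subtype.ext ?_⟩
      have h := mem_of_mk_eq (QuotientGroup.out_eq' (QuotientGroup.mk (⟨σ, hσF⟩ :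
        lv₁.field.fixingSubgroup) : lv₁.field.fixingSubgroup ⧸
          lv.field.fixingSubgroup.subgroupOf lv₁.field.fixingSubgroup))
      rw [hfield, ← hker, MonoidHom.mem_ker, Subgroup.coe_mul, InvMemClass.coe_inv, map_mul,
        map_inv, _root_.inv_mul_eq_one] at h
      exact h.trans hσ
  let hom : ideles lv.field →* Multiplicative (lv.Cl S) :=
    MonoidHom.mk' (fun x => Multiplicative.ofAdd (lv.classOf _ x)) fun x y =>
      congrArg Multiplicative.ofAdd (lv.classOf_mul _ x y)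
  have hsum : ∑ h : f.ker, (h : L' ≃ₐ[ℚ] L') • lv.classOf _ φ =
      lv.classOf (classKer S lv.field) ⟨normIdele lv₁.field lv.field φ.1,
        ideles_mono hle' (normIdele_mem hle' φ.2)⟩ := by
    have h1 := map_prod hom (fun q : lv₁.field.fixingSubgroup ⧸
        lv.field.fixingSubgroup.subgroupOf lv₁.field.fixingSubgroup =>
      (⟨((Quotient.out q).1 : Γ) • φ.1, smul_mem_ideles _ φ.2⟩ : ideles lv.field)) Finset.univ
    rw [← Fintype.sum_bijective e hebij _ _ fun q => rfl,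
      Finset.sum_congr rfl fun q _ => lv.smul_classOf _ (σ := (Quotient.out q).1) rfl φ]
    refine Eq.trans ?_ ((congrArg Multiplicative.toAdd h1).symm.trans (congrArg (lv.classOf _)
      (Subtype.ext ?_)))
    · exact (toAdd_prod _ _).symm
    · exact (SubmonoidClass.coe_finsetProd _ _).trans (finprod_eq_prod_of_fintype _).symm
  rw [hsum]
  refine Eq.trans ((lv.classOf_eq_iff _ _ (⟨ψ, hψ'⟩ ^ p)).mpr ?_) ?_
  · show normIdele lv₁.field lv.field φ.1 / ψ ^ p ∈ _
    rw [← he]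
    show a * ψ ^ p / ψ ^ p ∈ _
    rw [mul_div_cancel_right]
    exact classKer_mono hle' ha
  · exact congrArg Multiplicative.toAdd (map_pow hom (⟨ψ, hψ'⟩ : ideles lv.field) p)

end FLTAgent.PoitouTate
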