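import Fermat.Agent.PoitouTate.Interface
import Fermat.Agent.TW.Idele.ClassField.AuxPrime
import Fermat.Agent.Lower.TameFacts

/-!
# Existence of the auxiliary layer

An element of the Galois group fixing `μ_N` and moving `r^(1/p)` for every prime `r` of a finite
set is glued from the inertia groups at `r ≠ p` and from an element moving `p^(1/p)`, which exists
since `p^(1/p)` lies in no abelian extension of `ℚ`; its Frobenius gives the auxiliary prime.
-/

set_option autoImplicit false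
set_option maxHeartbeats 1000000
set_option linter.style.haveILetI false
set_option linter.unusedSectionVars false

noncomputable section

open scoped Pointwise

namespace FLTAgent.PoitouTate

open FLTAgent.TW

local notation "ℚ̄" => AlgebraicClosure ℚ
local notation "Γ" => (AlgebraicClosure ℚ ≃ₐ[ℚ] AlgebraicClosure ℚ)

variable {p N : ℕ}

theorem natRoot_ne_zero {r : ℕ} (hr : r ≠ 0) {n : ℕ} (hn : n ≠ 0) {y : ℚ̄} (hy : y ^ n = (r : ℚ̄)) :
    y ≠ 0 := fun h => by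
  rw [h, zero_pow hn] at hy
  exact hr (by exact_mod_cast hy.symm)

/-- A `p`-th root of a prime lies in no cyclotomic field. -/
theorem exists_moving_root [hp : Fact p.Prime] (hp2 : p ≠ 2) [NeZero N] {r : ℕ} (hr : r.Prime)
    {ζ y : ℚ̄} (hζ : IsPrimitiveRoot ζ N) (hy : y ^ p = (r : ℚ̄)) :
    ∃ σ : Γ, σ ζ = ζ ∧ σ y ≠ y := by
  by_contra hall
  push Not at hall
  haveI := GalCommon.isGalois_Qbar
  have hcomm : ∀ g h : Γ, g (h y) = h (g y) := fun g h => by
    obtain ⟨a, -, ha⟩ := hζ.eq_pow_of_pow_eq_one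
      (show (g ζ) ^ N = 1 by rw [← map_pow, hζ.pow_eq_one, map_one])
    obtain ⟨b, -, hb⟩ := hζ.eq_pow_of_pow_eq_one
      (show (h ζ) ^ N = 1 by rw [← map_pow, hζ.pow_eq_one, map_one])
    have e : g (h ζ) = h (g ζ) := by
      rw [← ha, ← hb, map_pow, map_pow, ← ha, ← hb, ← pow_mul, ← pow_mul, mul_comm]
    have h1 := hall ((h * g)⁻¹ * (g * h)) (by
      rw [AlgEquiv.mul_apply, AlgEquiv.mul_apply, e, ← AlgEquiv.mul_apply h g,
        ← AlgEquiv.mul_apply, inv_mul_cancel, AlgEquiv.one_apply])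
    have h2 := congrArg (h * g) h1
    rwa [← AlgEquiv.mul_apply, mul_inv_cancel_left, AlgEquiv.mul_apply, AlgEquiv.mul_apply] at h2
  -- every conjugate of `y` lies in `ℚ(y)`
  set F := IntermediateField.adjoin ℚ {y} with hF
  have hyF : y ∈ F := IntermediateField.mem_adjoin_simple_self ℚ y
  have hmem : ∀ τ : Γ, τ y ∈ F := fun τ => by
    rw [← InfiniteGalois.fixedField_fixingSubgroup F]
    rintro ⟨σ, hσ⟩
    show σ (τ y) = τ y
    rw [hcomm, (IntermediateField.mem_fixingSubgroup_iff _ _).mp hσ y hyF]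
  have hirr : Irreducible (Polynomial.X ^ p - Polynomial.C (r : ℚ)) :=
    X_pow_sub_C_irreducible_of_prime hp.out fun b hb => by
      have h := congrArg (padicValRat r) hb
      haveI := Fact.mk hr
      rw [padicValRat.pow b, padicValRat.of_nat, padicValNat_self, Nat.cast_one] at h
      exact hp.out.ne_one (Nat.eq_one_of_dvd_one (Int.natCast_dvd_natCast.mp ⟨_, h.symm⟩))
  have hmin : minpoly ℚ y = Polynomial.X ^ p - Polynomial.C (r : ℚ) :=
    (minpoly.eq_of_irreducible_of_monic hirr (by simp [hy])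
      (Polynomial.monic_X_pow_sub_C _ hp.out.ne_zero)).symm
  haveI : NeZero p := ⟨hp.out.ne_zero⟩
  obtain ⟨ω, hω⟩ := HasEnoughRootsOfUnity.exists_primitiveRoot ℚ̄ p
  obtain ⟨τ, hτ⟩ := minpoly.exists_algEquiv_of_root' (K := ℚ) (x := ω * y) (y := y)
    (Algebra.IsAlgebraic.isAlgebraic y) (by simp [hmin, mul_pow, hω.pow_eq_one, hy])
  have hωF : ω ∈ F := by
    have h := F.div_mem (hτ ▸ hmem τ) hyF
    rwa [mul_div_assoc, div_self (natRoot_ne_zero hr.ne_zero hp.out.ne_zero hy), mul_one] at h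
  have hdF : Module.finrank ℚ F = p := by
    rw [hF, IntermediateField.adjoin.finrank (Algebra.IsIntegral.isIntegral y), hmin,
      Polynomial.natDegree_X_pow_sub_C]
  have hdω : Module.finrank ℚ (IntermediateField.adjoin ℚ {ω}) = p - 1 := by
    rw [IntermediateField.adjoin.finrank (Algebra.IsIntegral.isIntegral ω),
      ← Polynomial.cyclotomic_eq_minpoly_rat hω hp.out.pos, Polynomial.natDegree_cyclotomic,
      Nat.totient_prime hp.out]
  have hle : IntermediateField.adjoin ℚ {ω} ≤ F := IntermediateField.adjoin_simple_le_iff.mpr hωF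
  have hdvd : p - 1 ∣ p := by
    rw [← hdω, ← hdF]
    exact IntermediateField.finrank_dvd_of_le_right hle
  rcases (Nat.dvd_prime hp.out).mp hdvd with h | h
  · exact hp2 (by omega)
  · exact absurd h (by have := hp.out.two_le; omega)

/-- Inertia at `r ≠ p` moves `r^(1/p)` and fixes the roots of unity of `p`-power order and the
roots of the other primes. -/
theorem exists_inertia_moving [hp : Fact p.Prime] {k r : ℕ} (hr : r.Prime) (hrp : r ≠ p)
    {ζ y : ℚ̄} (hζ : ζ ^ p ^ k = 1) (hy : y ^ p = (r : ℚ̄)) :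
    ∃ τ : Γ, τ ζ = ζ ∧ τ y ≠ y ∧
      ∀ (r' : ℕ) (y' : ℚ̄), r'.Prime → r' ≠ r → y' ^ p = (r' : ℚ̄) → τ y' = y' := by
  obtain ⟨A, hA⟩ := GalCommon.exists_liesOverPrime hr
  obtain ⟨g, hgI, hgy⟩ : ∃ g ∈ A.inertiaSubgroupIn ℚ, g y ≠ y := by
    by_contra hall
    push Not at hall
    obtain ⟨i, hi⟩ := EllP.exists_valuation_eq_zpow hr hA
      (natRoot_ne_zero hr.ne_zero hp.out.ne_zero hy) hall
    have h1 : A.valuation (r : ℚ̄) ^ (1 : ℤ) = A.valuation (r : ℚ̄) ^ (i * p) := by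
      rw [zpow_one, zpow_mul, ← hi, zpow_natCast, ← map_pow, hy]
    have hne : A.valuation (r : ℚ̄) ≠ 0 := by simpa using hr.ne_zero
    have h2 := zpow_right_injective₀ (zero_lt_iff.mpr hne) (A.mem_nonunits_iff.mp hA).ne h1
    have h3 : (p : ℤ) ∣ 1 := ⟨i, by rw [h2]; ring⟩
    exact hp.out.ne_one (Nat.eq_one_of_dvd_one (by exact_mod_cast h3))
  have hrP : ¬ r ∣ p ^ k := fun h =>
    hrp ((Nat.prime_dvd_prime_iff_eq hr hp.out).mp (hr.dvd_of_dvd_pow h))
  refine ⟨g, GalCommon.inertia_apply_of_pow_eq_one hr hA hrP hgI hζ, hgy, ?_⟩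
  intro r' y' hr' hne hy'
  have hv1 : A.valuation (r' : ℚ̄) = 1 :=
    le_antisymm ((A.valuation_le_one_iff _).mpr (natCast_mem A r'))
      (not_lt.mp fun h => hne ((Nat.prime_dvd_prime_iff_eq hr hr').mp
        ((GalCommon.natCast_mem_nonunits_iff hr hA r').mp (A.mem_nonunits_iff.mpr h))).symm)
  have hy0 := natRoot_ne_zero hr'.ne_zero hp.out.ne_zero hy'
  have hv : A.valuation y' = 1 := valuation_eq_one_of_pow_eq hp.out.ne_zero hy' hv1
  have h1 := A.mem_nonunits_iff.mp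
    ((GalCommon.mem_inertiaSubgroupIn_iff.mp hgI).2 _ ((A.valuation_le_one_iff _).mp hv.le))
  have h2 : g y' / y' = 1 := GalCommon.eq_one_of_pow_eq_one_of_sub_mem hr hA
    (fun h => hrp ((Nat.prime_dvd_prime_iff_eq hr hp.out).mp h))
    (by rw [div_pow, ← map_pow, hy', map_natCast, div_self (Nat.cast_ne_zero.mpr hr'.ne_zero)])
    (A.mem_nonunits_iff.mpr (by rw [div_sub_one hy0, map_div₀, hv, div_one]; exact h1))
  rwa [div_eq_one_iff_eq hy0] at h2

/-- One element moves all the roots. -/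
theorem exists_moving_all [hp : Fact p.Prime] (hp2 : p ≠ 2) {k : ℕ} (S : Finset ℕ)
    (hS : ∀ r ∈ S, r.Prime) {ζ : ℚ̄} (hζ : IsPrimitiveRoot ζ (p ^ k)) (y : ℕ → ℚ̄)
    (hy : ∀ r ∈ S, y r ^ p = (r : ℚ̄)) : ∃ σ : Γ, σ ζ = ζ ∧ ∀ r ∈ S, σ (y r) ≠ y r := by
  classical
  haveI : NeZero (p ^ k) := ⟨pow_ne_zero _ hp.out.ne_zero⟩
  suffices h : ∀ U : Finset ℕ, U ⊆ S.erase p →
      ∃ σ : Γ, σ ζ = ζ ∧ (p ∈ S → σ (y p) ≠ y p) ∧ ∀ r ∈ U, σ (y r) ≠ y r by
    obtain ⟨σ, h1, h2, h3⟩ := h _ subset_rfl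
    refine ⟨σ, h1, fun r hr => ?_⟩
    by_cases hrp : r = p
    · exact hrp.symm ▸ h2 (hrp ▸ hr)
    · exact h3 r (Finset.mem_erase.mpr ⟨hrp, hr⟩)
  intro U
  induction U using Finset.induction_on with
  | empty =>
    intro _
    by_cases hpS : p ∈ S
    · obtain ⟨σ, h1, h2⟩ := exists_moving_root hp2 hp.out hζ (hy p hpS)
      exact ⟨σ, h1, fun _ => h2, by simp⟩
    · exact ⟨1, rfl, fun h => absurd h hpS, by simp⟩
  | @insert r U hrU ih =>
    intro hsub
    obtain ⟨σ, h1, h2, h3⟩ := ih ((Finset.subset_insert r U).trans hsub)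
    obtain ⟨hrp, hrS⟩ := Finset.mem_erase.mp (hsub (Finset.mem_insert_self r U))
    by_cases hσ : σ (y r) = y r
    · obtain ⟨τ, t1, t2, t3⟩ := exists_inertia_moving (hS r hrS) hrp hζ.pow_eq_one (hy r hrS)
      refine ⟨σ * τ, by rw [AlgEquiv.mul_apply, t1, h1], fun hpS => ?_, fun r' hr' => ?_⟩
      · rw [AlgEquiv.mul_apply, t3 p _ hp.out (fun h => hrp h.symm) (hy p hpS)]
        exact h2 hpS
      · rw [AlgEquiv.mul_apply]
        rcases Finset.mem_insert.mp hr' with rfl | hr'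
        · exact fun h => t2 (σ.injective (h.trans hσ.symm))
        · have hS' := (Finset.mem_erase.mp (hsub (Finset.mem_insert_of_mem hr'))).2
          rw [t3 r' _ (hS r' hS') (fun h => hrU (h ▸ hr')) (hy r' hS')]
          exact h3 r' hr'
    · refine ⟨σ, h1, h2, fun r' hr' => ?_⟩
      rcases Finset.mem_insert.mp hr' with rfl | hr'
      · exact hσ
      · exact h3 r' hr'

/-- A prime `ℓ ≡ 1 (mod p ^ k)` modulo which no prime of `S` is a `p`-th power. -/
theorem exists_generating_prime [hp : Fact p.Prime] (hp2 : p ≠ 2) (k : ℕ) (S : Finset ℕ)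
    (hS : ∀ r ∈ S, r.Prime) :
    ∃ ℓ : ℕ, ℓ.Prime ∧ ℓ ∉ S ∧ p ^ (k + 1) ∣ ℓ - 1 ∧
      ∀ r ∈ S, (r : ZMod ℓ) ^ ((ℓ - 1) / p) ≠ 1 := by
  classical
  haveI : NeZero (p ^ (k + 1)) := ⟨pow_ne_zero _ hp.out.ne_zero⟩
  haveI := GalCommon.normal_Qbar
  obtain ⟨ζ, hζ⟩ := HasEnoughRootsOfUnity.exists_primitiveRoot ℚ̄ (p ^ (k + 1))
  choose y hy using fun r : ℕ => IsAlgClosed.exists_pow_nat_eq (r : ℚ̄) hp.out.pos
  obtain ⟨σ, hσζ, hσy⟩ := exists_moving_all hp2 S hS hζ y fun r _ => hy r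
  let gens : Set ℚ̄ := insert ζ (y '' (S : Set ℕ))
  haveI : Finite gens := ((S.finite_toSet.image y).insert ζ).to_subtype
  haveI : FiniteDimensional ℚ (IntermediateField.adjoin ℚ gens) :=
    IntermediateField.finiteDimensional_adjoin fun x _ =>
      (EllP.qbarIsAlgebraic.isAlgebraic x).isIntegral
  set K := IntermediateField.normalClosure ℚ (IntermediateField.adjoin ℚ gens) ℚ̄ with hK
  haveI : Normal ℚ K := normalClosure.normal ℚ _ ℚ̄
  haveI : FiniteDimensional ℚ K := normalClosure.is_finiteDimensional ℚ _ ℚ̄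
  haveI : IsGalois ℚ K := ⟨⟩
  have hsub : ∀ x ∈ gens, x ∈ K := fun x hx =>
    IntermediateField.le_normalClosure _ (IntermediateField.subset_adjoin ℚ _ hx)
  set o := orderOf (AlgEquiv.restrictNormalHom K σ) with ho
  obtain ⟨ℓ, hℓ, hℓS, -, B, hB, τ, hτ, j, hj, hres⟩ :=
    Density.exists_isFrobeniusAt_restrict_eq_pow K (AlgEquiv.restrictNormalHom K σ) (insert p S)
  rw [Finset.mem_insert, not_or] at hℓS
  obtain ⟨hℓp, hℓS⟩ := hℓS
  have hact : ∀ x ∈ K, τ x = (σ ^ j) x := fun x hx => by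
    have h := Density.inv_mul_mem_fixingSubgroup_of_restrict_eq (L := K) (x := σ ^ j) (y := τ)
      (by rw [map_pow, hres])
    have h' := congrArg (σ ^ j) ((IntermediateField.mem_fixingSubgroup_iff _ _).mp h x hx)
    rwa [← AlgEquiv.mul_apply, mul_inv_cancel_left] at h'
  have hord : ∀ x ∈ K, (σ ^ o) x = x := fun x hx => by
    have h1 : AlgEquiv.restrictNormalHom K (σ ^ o) = 1 := by rw [map_pow, ho, pow_orderOf_eq_one]
    exact (IntermediateField.mem_fixingSubgroup_iff _ _).mp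
      (Density.mem_fixingSubgroup_of_restrict_eq_one h1) x hx
  have hτy : ∀ r ∈ S, τ (y r) ≠ y r := fun r hr h => hσy r hr (by
    have hyK := hsub _ (Set.mem_insert_of_mem _ ⟨r, hr, rfl⟩)
    rw [hact _ hyK] at h
    have h1 : σ ^ j ∈ MulAction.stabilizer Γ (y r) := h
    have h2 : σ ^ o ∈ MulAction.stabilizer Γ (y r) := hord _ hyK
    have hbez : (1 : ℤ) = j * Nat.gcdA j o + o * Nat.gcdB j o := by
      rw [← Nat.gcd_eq_gcd_ab, hj.gcd_eq_one, Nat.cast_one]
    have h3 : σ ∈ MulAction.stabilizer Γ (y r) := by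
      rw [← zpow_one σ, hbez, zpow_add, zpow_mul, zpow_mul, zpow_natCast, zpow_natCast]
      exact mul_mem (zpow_mem h1 _) (zpow_mem h2 _)
    exact h3)
  have hτζ : τ ζ = ζ := by
    rw [hact ζ (hsub ζ (Set.mem_insert _ _))]
    exact MulAction.mem_stabilizer_iff.mp
      (pow_mem (show σ ∈ MulAction.stabilizer Γ ζ from hσζ) j)
  have hndiv : ∀ {q : ℕ}, q.Prime → ℓ ≠ q → ¬ ℓ ∣ q := fun hq hne hd =>
    hne ((Nat.prime_dvd_prime_iff_eq hℓ hq).mp hd)
  have hℓP : ¬ ℓ ∣ p ^ (k + 1) := fun h => hndiv hp.out hℓp (hℓ.dvd_of_dvd_pow h)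
  have hℓ1 : p ^ (k + 1) ∣ ℓ - 1 := by
    have h := GalCommon.frobenius_apply_of_pow_eq_one hℓ hB hℓP hτ hζ.pow_eq_one
    rw [hτζ] at h
    refine hζ.dvd_of_pow_eq_one _ ?_
    refine mul_left_cancel₀ (hζ.ne_zero (pow_ne_zero _ hp.out.ne_zero)) ?_
    rw [mul_one, ← pow_succ', Nat.sub_add_cancel hℓ.one_le]
    exact h.symm
  refine ⟨ℓ, hℓ, hℓS, hℓ1, fun r hr hone => hτy r hr ?_⟩
  haveI := GalCommon.charP_residueField hℓ hB
  haveI : Fact ℓ.Prime := ⟨hℓ⟩
  have hvr : B.valuation (r : ℚ̄) = 1 :=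
    le_antisymm ((B.valuation_le_one_iff _).mpr (natCast_mem B r))
      (not_lt.mp fun h => hndiv (hS r hr) (fun e => hℓS (e ▸ hr))
        ((GalCommon.natCast_mem_nonunits_iff hℓ hB r).mp (B.mem_nonunits_iff.mpr h)))
  have hv : B.valuation (y r) = 1 := valuation_eq_one_of_pow_eq hp.out.ne_zero (hy r) hvr
  have hm : y r ∈ B := (B.valuation_le_one_iff _).mp hv.le
  have hy0 := natRoot_ne_zero (hS r hr).ne_zero hp.out.ne_zero (hy r)
  set z := IsLocalRing.residue B ⟨y r, hm⟩ with hz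
  have hzp : z ^ p = ZMod.castHom (dvd_refl ℓ) (IsLocalRing.ResidueField B) (r : ZMod ℓ) := by
    rw [map_natCast, ← map_natCast (IsLocalRing.residue B), hz, ← map_pow]
    exact congrArg _ (Subtype.ext (by simpa using hy r))
  have hdvd : p ∣ ℓ - 1 := (dvd_pow_self p k.succ_ne_zero).trans hℓ1
  have hz1 : z ^ (ℓ - 1) = 1 := by
    rw [← Nat.mul_div_cancel' hdvd, pow_mul, hzp, ← map_pow, hone, map_one]
  have hτm : τ (y r) ∈ B :=
    (GalCommon.map_mem_iff_of_mem_decomposition hτ.mem_decompositionSubgroup).mpr hm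
  have hres' : IsLocalRing.residue B ⟨τ (y r), hτm⟩ = z ^ ℓ := by
    rw [hz, ← map_pow, ← sub_eq_zero, ← map_sub, ← GalCommon.coe_mem_nonunits_iff_residue]
    exact (GalCommon.isFrobeniusAt_iff.mp hτ).2 _ hm
  rw [← Nat.sub_add_cancel hℓ.one_le, pow_succ, hz1, one_mul, hz, ← sub_eq_zero, ← map_sub,
    ← GalCommon.coe_mem_nonunits_iff_residue, B.mem_nonunits_iff] at hres'
  change B.valuation (τ (y r) - y r) < 1 at hres'
  have h2 : τ (y r) / y r = 1 := GalCommon.eq_one_of_pow_eq_one_of_sub_mem hℓ hB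
    (hndiv hp.out hℓp)
    (by rw [div_pow, ← map_pow, hy r, map_natCast, div_self (Nat.cast_ne_zero.mpr (hS r hr).ne_zero)])
    (B.mem_nonunits_iff.mpr (by rw [div_sub_one hy0, map_div₀, hv, div_one]; exact hres'))
  rwa [div_eq_one_iff_eq hy0] at h2

/-- The auxiliary layer exists. -/
theorem exists_layer_level [hp : Fact p.Prime] (hp2 : p ≠ 2) {G : Type} [Group G] {S : Finset ℕ}
    (lv : Level S p G) : Nonempty (Layer lv) := by
  classical
  set k := (Nat.card G).factorization p with hk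
  set n := sylowDeg p G with hn
  have hnk : n = p ^ k := rfl
  have hn0 : n ≠ 0 := hnk ▸ pow_ne_zero _ hp.out.ne_zero
  obtain ⟨l, hl, hlS, hldvd, hgenr⟩ := exists_generating_prime hp2 k S lv.prime
  have hdvd : n ∣ l - 1 := (pow_dvd_pow p k.le_succ).trans hldvd
  haveI : Fact l.Prime := ⟨hl⟩
  haveI : NeZero l := ⟨hl.ne_zero⟩
  haveI : NeZero (l : ℚ̄) := ⟨Nat.cast_ne_zero.mpr hl.ne_zero⟩
  let ψ := Lower.cycPow n l
  obtain ⟨ζ, hζ⟩ := HasEnoughRootsOfUnity.exists_primitiveRoot ℚ̄ l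
  have hψ1 : ∀ σ : Γ, (∀ ζ : ℚ̄, ζ ^ l = 1 → σ ζ = ζ) → ψ σ = 1 := fun σ h => Units.ext (by
    rw [Lower.cycPow_apply_eq hζ (a := 1) (by rw [pow_one]; exact h ζ hζ.pow_eq_one), Nat.cast_one,
      one_pow, Units.val_one])
  have hker : lv.q.ker ⊔ ψ.ker = ⊤ := by
    haveI := lv.finite_field
    refine EllP.eq_top_of_inertia_le _ lv.field (fun σ hσ => Subgroup.mem_sup_left
      (lv.fix_field ▸ hσ)) fun q hq A hA τ hτ => ?_
    by_cases hql : q = l
    · subst hql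
      refine Subgroup.mem_sup_left (MonoidHom.mem_ker.mpr
        (lv.unramified ⟨A, q, hq, hA⟩ (fun ⟨q', hq'S, hq', hA'⟩ => hlS ?_) τ hτ))
      have e : q' = q := ((Place.char_eq ⟨A, q, hq, hA⟩ hq' hA').symm.trans
        (Place.char_eq ⟨A, q, hq, hA⟩ hq hA))
      exact e ▸ hq'S
    · exact Subgroup.mem_sup_right (MonoidHom.mem_ker.mpr (hψ1 τ fun μ hμ =>
        GalCommon.inertia_apply_of_pow_eq_one hq hA
          (fun h => hql ((Nat.prime_dvd_prime_iff_eq hq hl).mp h)) hτ hμ))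
  haveI : lv.q.ker.Normal := MonoidHom.normal_ker _
  have hsplit : ∀ σ, ∃ u, lv.q u = 1 ∧ ψ u = ψ σ := fun σ => by
    obtain ⟨u, hu, v, hv, rfl⟩ := Subgroup.mem_sup_of_normal_left.mp
      (show σ ∈ lv.q.ker ⊔ ψ.ker from hker ▸ Subgroup.mem_top σ)
    exact ⟨u, hu, by rw [map_mul, MonoidHom.mem_ker.mp hv, mul_one]⟩
  -- the generator
  obtain ⟨g, hg⟩ := IsCyclic.exists_ofOrder_eq_natCard (α := (ZMod l)ˣ)
  have hcard : Nat.card (ZMod l)ˣ = l - 1 := by rw [Nat.card_eq_fintype_card, ZMod.card_units]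
  obtain ⟨s, hs⟩ := minpoly.exists_algEquiv_of_root' (K := ℚ) (x := ζ ^ (g : ZMod l).val) (y := ζ)
    (Algebra.IsAlgebraic.isAlgebraic ζ) (by
      rw [← Polynomial.cyclotomic_eq_minpoly_rat hζ hl.pos, Polynomial.aeval_def,
        ← Polynomial.eval_map, Polynomial.map_cyclotomic]
      exact (Polynomial.isRoot_cyclotomic_iff).mpr
        (hζ.pow_of_coprime _ (ZMod.val_coe_unit_coprime g)))
  have hψs : ψ s = g ^ ((l - 1) / n) := Units.ext (by
    rw [Lower.cycPow_apply_eq hζ hs, ZMod.natCast_zmod_val, Units.val_pow_eq_pow_val])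
  have hl1 : l - 1 ≠ 0 := by have := hl.two_le; omega
  have hord : orderOf (ψ s) = n := by
    rw [hψs, orderOf_pow_of_dvd
      (Nat.div_pos (Nat.le_of_dvd (Nat.pos_of_ne_zero hl1) hdvd) (Nat.pos_of_ne_zero hn0)).ne'
      (by rw [hg, hcard]; exact Nat.div_dvd_of_dvd hdvd), hg, hcard, Nat.div_div_self hdvd hl1]
  obtain ⟨t, ht1, ht2⟩ := hsplit s
  have hgen : ∀ σ, ∃ i < n, ψ σ = ψ t ^ i := fun σ => by
    haveI : NeZero n := ⟨hn0⟩
    have hprim : IsPrimitiveRoot ((ψ t : (ZMod l)ˣ) : ZMod l) n := by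
      rw [IsPrimitiveRoot.iff_orderOf, orderOf_units, ht2, hord]
    obtain ⟨i, hi, he⟩ := hprim.eq_pow_of_pow_eq_one (ξ := ((ψ σ : (ZMod l)ˣ) : ZMod l))
      (by rw [← Units.val_pow_eq_pow_val, Lower.cycPow_pow_eq_one hdvd σ, Units.val_one])
    exact ⟨i, hi, Units.ext (by rw [Units.val_pow_eq_pow_val]; exact he.symm)⟩
  have hlift : ∀ x : G, ∃ σ, lv.q σ = x ∧ ψ σ = 1 := fun x => by
    obtain ⟨u, hu, hu'⟩ := hsplit (lv.lift x)
    exact ⟨u⁻¹ * lv.lift x, by rw [map_mul, map_inv, hu, inv_one, one_mul, lv.q_lift],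
      by rw [map_mul, map_inv, hu', inv_mul_cancel]⟩
  choose f hf hf' using hlift
  refine ⟨⟨l, hl, hlS, hdvd, t, ht1, f, hf, ψ, hf', hgen, by rw [ht2, hord], hψ1, ?_⟩⟩
  intro r A hr hA σ hσ
  have hrl : r ≠ l := fun h => hlS (h ▸ hr)
  have hσζ : σ ζ = ζ ^ r := GalCommon.frobenius_apply_of_pow_eq_one (lv.prime r hr) hA
    (fun h => hrl ((Nat.prime_dvd_prime_iff_eq (lv.prime r hr) hl).mp h)) hσ hζ.pow_eq_one
  rcases Nat.eq_zero_or_pos k with h0 | h0
  · refine Nat.dvd_one.mp ?_ |>.trans (by rw [hn.symm, hnk, h0, pow_zero])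
    refine orderOf_dvd_of_pow_eq_one ?_
    have h : ψ σ ^ n = 1 := Lower.cycPow_pow_eq_one hdvd σ
    rwa [hnk, h0, pow_zero] at h
  obtain ⟨k', hk'⟩ := Nat.exists_eq_succ_of_ne_zero h0.ne'
  show orderOf (ψ σ) = n
  rw [hnk, hk']
  refine orderOf_eq_prime_pow (fun h => hgenr r hr ?_) ?_
  · have h1 := congrArg Units.val h
    rw [Units.val_pow_eq_pow_val, Lower.cycPow_apply_eq hζ hσζ, Units.val_one, ← pow_mul] at h1
    obtain ⟨c, hc⟩ := hdvd
    have e : (l - 1) / p = (l - 1) / n * p ^ k' := by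
      rw [hc, Nat.mul_div_cancel_left _ (Nat.pos_of_ne_zero hn0), hnk, hk', pow_succ,
        show p ^ k' * p * c = p * (c * p ^ k') by ring, Nat.mul_div_cancel_left _ hp.out.pos]
    rw [e]
    exact h1
  · have h : ψ σ ^ n = 1 := Lower.cycPow_pow_eq_one hdvd σ
    rwa [hnk, hk'] at h

end FLTAgent.PoitouTate
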