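import Fermat.Agent.PoitouTate.Interface
import Fermat.Agent.PoitouTate.Cohomology
import Fermat.Agent.TW.Global.Bridge

/-!
# The fields of a layer and the action on its classes

`subLayer Q` is the fixed field of the elements over `Q` which fix the layer; the ideles fixed by
`Q` and by the generator come from the fixed field of `Q` in the level.
-/

set_option autoImplicit false
set_option linter.style.haveILetI false
set_option linter.unusedSectionVars false

noncomputable section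

open scoped Pointwise

namespace FLTAgent.PoitouTate

open FLTAgent.TW

local notation "ℚ̄" => AlgebraicClosure ℚ
local notation "Γ" => (AlgebraicClosure ℚ ≃ₐ[ℚ] AlgebraicClosure ℚ)

variable {S : Finset ℕ} {p : ℕ} {G : Type} [Group G] {lv : Level S p G}

namespace Layer

variable (ly : Layer lv)

theorem psi_t_pow : ly.ψ ly.t ^ sylowDeg p G = 1 := ly.ord ▸ pow_orderOf_eq_one _

theorem isOpen_psi : IsOpen (ly.ψ.ker : Set Γ) := by
  haveI : NeZero ly.ell := ⟨ly.prime.ne_zero⟩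
  haveI : NeZero (ly.ell : ℚ̄) := ⟨Nat.cast_ne_zero.mpr ly.prime.ne_zero⟩
  obtain ⟨ζ, hζ⟩ := HasEnoughRootsOfUnity.exists_primitiveRoot ℚ̄ ly.ell
  haveI : FiniteDimensional ℚ (IntermediateField.adjoin ℚ {ζ}) :=
    IntermediateField.adjoin.finiteDimensional (Algebra.IsIntegral.isIntegral ζ)
  refine Subgroup.isOpen_mono (H₁ := (IntermediateField.adjoin ℚ {ζ}).fixingSubgroup)
    (fun σ hσ => MonoidHom.mem_ker.mpr (ly.psi_eq σ fun μ hμ => ?_))
    (IntermediateField.fixingSubgroup_isOpen _)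
  obtain ⟨i, -, rfl⟩ := hζ.eq_pow_of_pow_eq_one hμ
  rw [map_pow, (IntermediateField.mem_fixingSubgroup_iff _ σ).mp hσ ζ
    (IntermediateField.mem_adjoin_simple_self ℚ ζ)]

theorem fix_field : ly.field.fixingSubgroup = lv.q.ker ⊓ ly.ψ.ker :=
  fixingSubgroup_fixed (lv.isOpen_ker.inter ly.isOpen_psi)

theorem mem_fix_field {σ : Γ} : σ ∈ ly.field.fixingSubgroup ↔ lv.q σ = 1 ∧ ly.ψ σ = 1 := by
  rw [ly.fix_field, Subgroup.mem_inf, MonoidHom.mem_ker, MonoidHom.mem_ker]

theorem finite_field : FiniteDimensional ℚ ly.field :=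
  finite_fixed (lv.isOpen_ker.inter ly.isOpen_psi)

theorem setting : IdeleSetting ly.places p ly.field := by
  haveI := ly.finite_field
  refine ⟨inferInstance, ⟨⟩, ly.subset_places lv.mem, ly.prime_places, fun A hA σ hσ => ?_⟩
  rw [ly.mem_fix_field]
  refine ⟨lv.unramified A (fun ⟨r, hr, h⟩ => hA ⟨r, ly.subset_places hr, h⟩) σ hσ,
    ly.psi_eq σ fun μ hμ => GalCommon.inertia_apply_of_pow_eq_one A.prime_char A.liesOver_char
      (fun h => hA (A.over_iff.mpr ?_)) hσ hμ⟩
  rw [(Nat.prime_dvd_prime_iff_eq A.prime_char ly.prime).mp h]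
  exact ly.ell_mem

/-- The elements over a subgroup which fix the layer. -/
def above (Q : Subgroup G) : Subgroup Γ := Q.comap lv.q ⊓ ly.ψ.ker

/-- The cyclotomic field of the layer. -/
def cycField : IntermediateField ℚ ℚ̄ := IntermediateField.fixedField ly.ψ.ker

/-- The fixed field of a subgroup in the layer. -/
def subLayer (Q : Subgroup G) : IntermediateField ℚ ℚ̄ :=
  IntermediateField.fixedField (ly.above Q)

theorem fix_subLayer (Q : Subgroup G) : (ly.subLayer Q).fixingSubgroup = ly.above Q :=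
  fixingSubgroup_fixed ((lv.isOpen_comap Q).inter ly.isOpen_psi)

theorem mem_fix_subLayer {Q : Subgroup G} {σ : Γ} :
    σ ∈ (ly.subLayer Q).fixingSubgroup ↔ lv.q σ ∈ Q ∧ ly.ψ σ = 1 := by
  rw [ly.fix_subLayer]; exact Iff.rfl

theorem fix_cycField : ly.cycField.fixingSubgroup = ly.ψ.ker := fixingSubgroup_fixed ly.isOpen_psi

theorem cycField_le : ly.cycField ≤ ly.field := TW.Layer.le_of_fix (by
  rw [ly.fix_field, ly.fix_cycField]; exact inf_le_right)

theorem subLayer_le (Q : Subgroup G) : ly.subLayer Q ≤ ly.field := TW.Layer.le_of_fix (by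
  rw [ly.fix_field, ly.fix_subLayer]
  exact inf_le_inf_right _ fun σ hσ => Subgroup.mem_comap.mpr
    ((MonoidHom.mem_ker.mp hσ).symm ▸ one_mem Q))

theorem subField_le_field (Q : Subgroup G) : lv.subField Q ≤ ly.field :=
  (lv.subField_le Q).trans ly.level_le

theorem sup_cycField (Q : Subgroup G) : lv.subField Q ⊔ ly.cycField = ly.subLayer Q := by
  have h : (lv.subField Q ⊔ ly.cycField).fixingSubgroup = (ly.subLayer Q).fixingSubgroup := by
    rw [IntermediateField.fixingSubgroup_sup, lv.fix_subField, ly.fix_cycField, ly.fix_subLayer]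
    rfl
  exact le_antisymm (TW.Layer.le_of_fix h.ge) (TW.Layer.le_of_fix h.le)

theorem subField_le_subLayer (Q : Subgroup G) : lv.subField Q ≤ ly.subLayer Q :=
  le_sup_left.trans (ly.sup_cycField Q).le

theorem inf_cycField (Q : Subgroup G) : ly.cycField ⊓ lv.subField Q = ⊥ := by
  refine eq_bot_iff.mpr fun x hx => ?_
  haveI := GalCommon.isGalois_Qbar
  refine (InfiniteGalois.mem_bot_iff_fixed x).mpr fun σ => ?_
  have h1 : ly.lift (lv.q σ) ∈ ly.cycField.fixingSubgroup := by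
    rw [ly.fix_cycField]; exact ly.psi_lift _
  have h2 : (ly.lift (lv.q σ))⁻¹ * σ ∈ (lv.subField Q).fixingSubgroup := by
    rw [lv.mem_fix_subField, map_mul, map_inv, ly.q_lift, inv_mul_cancel]
    exact one_mem Q
  have e1 := (IntermediateField.mem_fixingSubgroup_iff _ _).mp h1 x hx.1
  have e2 := (IntermediateField.mem_fixingSubgroup_iff _ _).mp h2 x hx.2
  calc σ x = (ly.lift (lv.q σ) * ((ly.lift (lv.q σ))⁻¹ * σ) : Γ) x := by rw [mul_inv_cancel_left]
    _ = x := by rw [AlgEquiv.mul_apply, e2, e1]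

theorem normal_cycField : Normal ℚ ly.cycField := normal_fixed (MonoidHom.normal_ker _)

theorem mem_psiKer_mul {σ : Γ} {i : ℕ} (h : ly.ψ σ = ly.ψ ly.t ^ i) :
    ly.ψ ((ly.t ^ i)⁻¹ * σ) = 1 := by
  rw [map_mul, map_inv, map_pow, h, inv_mul_cancel]

theorem range_psi {U : Subgroup Γ} (ht : ly.t ∈ U) :
    U.map ly.ψ = Subgroup.zpowers (ly.ψ ly.t) := by
  refine le_antisymm ?_ (Subgroup.zpowers_le.mpr ⟨ly.t, ht, rfl⟩)
  rintro _ ⟨σ, -, rfl⟩
  obtain ⟨i, -, h⟩ := ly.gen σ
  exact h ▸ Subgroup.npow_mem_zpowers _ i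

theorem index_psi : ly.ψ.ker.index = sylowDeg p G := by
  rw [Subgroup.index_ker, ← ly.ord, ← Nat.card_zpowers, MonoidHom.range_eq_map,
    ly.range_psi (Subgroup.mem_top _)]

theorem finrank_cycField : Module.finrank ℚ ly.cycField = sylowDeg p G := by
  haveI := GalCommon.isGalois_Qbar
  haveI := finite_fixed ly.isOpen_psi
  rw [IntermediateField.finrank_eq_fixingSubgroup_index, ly.fix_cycField, ly.index_psi]

theorem isCyclic_cycField : IsCyclic (ly.cycField ≃ₐ[ℚ] ly.cycField) := by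
  haveI := GalCommon.normal_Qbar
  haveI := ly.normal_cycField
  refine ⟨⟨AlgEquiv.restrictNormalHom ly.cycField ly.t, fun x => ?_⟩⟩
  obtain ⟨σ, rfl⟩ := AlgEquiv.restrictNormalHom_surjective (F := ℚ) (K₁ := ly.cycField) ℚ̄ x
  obtain ⟨i, -, hi⟩ := ly.gen σ
  have h1 : (ly.t ^ i)⁻¹ * σ ∈ ly.cycField.fixingSubgroup := by
    rw [ly.fix_cycField]; exact ly.mem_psiKer_mul hi
  refine ⟨(i : ℤ), ?_⟩
  show AlgEquiv.restrictNormalHom ly.cycField ly.t ^ (i : ℤ) = _
  rw [zpow_natCast, ← map_pow]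
  refine AlgEquiv.ext fun x => Subtype.ext ?_
  have e1 := AlgEquiv.restrictNormal_commutes (ly.t ^ i) ly.cycField x
  have e2 := AlgEquiv.restrictNormal_commutes σ ly.cycField x
  refine e1.trans (Eq.trans ?_ e2.symm)
  conv_rhs => rw [← mul_inv_cancel_left (ly.t ^ i) σ, AlgEquiv.mul_apply]
  exact congrArg (ly.t ^ i) ((IntermediateField.mem_fixingSubgroup_iff _ _).mp h1 _ x.2).symm

theorem cycField_le_adjoin :
    ly.cycField ≤ IntermediateField.adjoin ℚ {ζ : ℚ̄ | ζ ^ ly.ell = 1} := TW.Layer.le_of_fix (by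
  rw [ly.fix_cycField]
  exact fun σ hσ => MonoidHom.mem_ker.mpr (ly.psi_eq σ fun μ hμ =>
    (IntermediateField.mem_fixingSubgroup_iff _ σ).mp hσ μ
      (IntermediateField.subset_adjoin ℚ _ hμ)))

/-! ### The action -/

theorem cls_mul (φ χ : ideles ly.field) : ly.cls (φ * χ) = ly.cls φ + ly.cls χ := rfl

theorem cls_zpow (φ : ideles ly.field) (j : ℤ) : ly.cls (φ ^ j) = j • ly.cls φ := rfl

theorem cls_eq_zero_iff {φ : ideles ly.field} :
    ly.cls φ = 0 ↔ φ.1 ∈ classKer ly.places ly.field := by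
  rw [show (0 : ly.Classes) = ly.cls 1 from rfl, cls_eq_iff, OneMemClass.coe_one, div_one]

theorem cls_prod {n : ℕ} (f : ℕ → ideles ly.field) :
    ly.cls (∏ i ∈ Finset.range n, f i) = ∑ i ∈ Finset.range n, ly.cls (f i) := by
  induction n with
  | zero => rfl
  | succ n ih => rw [Finset.prod_range_succ, Finset.sum_range_succ, cls_mul, ih]

theorem addPow_tau (i : ℕ) (c : ly.Classes) :
    Coh.addPow ly.tau i c = ly.galSMul (ly.t ^ i) c := by
  induction i with
  | zero => rw [pow_zero]; exact (ly.galSMul_one c).symm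
  | succ i ih => rw [Coh.addPow_succ_apply, ih, pow_succ', galSMul_mul]; rfl

theorem addPow_tau_deg (c : ly.Classes) : Coh.addPow ly.tau (sylowDeg p G) c = c := by
  rw [addPow_tau, ly.galSMul_congr (τ := 1) (by rw [map_pow, ly.q_t, one_pow, map_one])
    (by rw [map_pow, ly.psi_t_pow, map_one]), galSMul_one]

theorem tau_smul (g : G) (c : ly.Classes) : ly.tau (g • c) = g • ly.tau c := by
  show ly.galSMul ly.t (ly.galSMul (ly.lift g) c) = ly.galSMul (ly.lift g) (ly.galSMul ly.t c)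
  rw [← galSMul_mul, ← galSMul_mul]
  exact ly.galSMul_congr (by rw [map_mul, map_mul, q_t, one_mul, mul_one])
    (by rw [map_mul, map_mul, psi_lift, one_mul, mul_one]) c

theorem addPow_tau_smul (i : ℕ) (g : G) (c : ly.Classes) :
    Coh.addPow ly.tau i (g • c) = g • Coh.addPow ly.tau i c := by
  induction i with
  | zero => rfl
  | succ i ih => rw [Coh.addPow_succ_apply, ih, tau_smul, Coh.addPow_succ_apply]

theorem galSMul_fixed (Q : Subgroup G) {c : ly.Classes} (hc : ∀ h ∈ Q, h • c = c) {σ : Γ}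
    (hσ : lv.q σ ∈ Q) {i : ℕ} (hi : ly.ψ σ = ly.ψ ly.t ^ i) :
    ly.galSMul σ c = Coh.addPow ly.tau i c := by
  rw [← mul_inv_cancel_left (ly.t ^ i) σ, galSMul_mul, addPow_tau]
  refine congrArg _ ?_
  have h1 : lv.q ((ly.t ^ i)⁻¹ * σ) = lv.q σ := by
    rw [map_mul, map_inv, map_pow, ly.q_t, one_pow, inv_one, one_mul]
  rw [← ly.smul_eq_galSMul h1 (ly.mem_psiKer_mul hi)]
  exact hc _ hσ

theorem normal_field_subgroupOf (U : Subgroup Γ) :
    (ly.field.fixingSubgroup.subgroupOf U).Normal := by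
  rw [ly.fix_field]
  haveI : (lv.q.ker ⊓ ly.ψ.ker).Normal := Subgroup.normal_inf_normal _ _
  infer_instance

theorem relIndex_field_subLayer (Q : Subgroup G) :
    ly.field.fixingSubgroup.relIndex (ly.subLayer Q).fixingSubgroup = Nat.card Q := by
  have hmap : (ly.above Q).map lv.q = Q := le_antisymm
    (Subgroup.map_le_iff_le_comap.mpr inf_le_left)
    fun g hg => ⟨ly.lift g, ⟨show lv.q (ly.lift g) ∈ Q by rwa [ly.q_lift], ly.psi_lift g⟩,
      ly.q_lift g⟩
  rw [ly.fix_field, ly.fix_subLayer]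
  conv_rhs => rw [← hmap]
  rw [← Subgroup.relIndex_ker (ly.above Q) lv.q, Subgroup.relIndex, Subgroup.relIndex]
  congr 1
  ext ⟨σ, hσ⟩
  simp only [Subgroup.mem_subgroupOf, Subgroup.mem_inf, MonoidHom.mem_ker]
  exact ⟨fun h => h.1, fun h => ⟨h, hσ.2⟩⟩

theorem relIndex_field_subField (Q : Subgroup G) :
    ly.field.fixingSubgroup.relIndex (lv.subField Q).fixingSubgroup =
      Nat.card Q * sylowDeg p G := by
  have h1 : ly.field.fixingSubgroup ≤ (ly.subLayer Q).fixingSubgroup :=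
    IntermediateField.fixingSubgroup_le (ly.subLayer_le Q)
  have h2 : (ly.subLayer Q).fixingSubgroup ≤ (lv.subField Q).fixingSubgroup :=
    IntermediateField.fixingSubgroup_le (ly.subField_le_subLayer Q)
  rw [← Subgroup.relIndex_mul_relIndex _ _ _ h1 h2, ly.relIndex_field_subLayer, ly.fix_subLayer,
    lv.fix_subField]
  congr 1
  rw [show ly.above Q = ly.ψ.ker ⊓ Q.comap lv.q from inf_comm _ _, Subgroup.inf_relIndex_right,
    Subgroup.relIndex_ker, ly.range_psi (by rw [Subgroup.mem_comap, ly.q_t]; exact one_mem Q),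
    Nat.card_zpowers, ly.ord]

variable [Fact p.Prime]

theorem exists_idele_of_fixed {F : IntermediateField ℚ ℚ̄} (hF : F ≤ ly.field) (c : ly.Classes)
    (hc : ∀ σ ∈ F.fixingSubgroup, ly.galSMul σ c = c) :
    ∃ φ : ideles ly.field, φ.1 ∈ ideles F ∧ ly.cls φ = c := by
  obtain ⟨φ, rfl⟩ := ly.cls_surjective c
  obtain ⟨χ, hχ, h⟩ := exists_fixed' ly.setting hF le_rfl (ly.normal_field_subgroupOf _) φ.2
    fun σ hσ => (ly.cls_eq_iff (φ := ⟨σ • φ.1, smul_mem_ideles σ φ.2⟩) (ψ := φ)).mp (hc σ hσ)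
  exact ⟨⟨χ, ideles_mono hF hχ⟩, hχ,
    ((ly.cls_eq_iff (φ := φ) (ψ := ⟨χ, ideles_mono hF hχ⟩)).mpr h).symm⟩

theorem exists_idele_subField (Q : Subgroup G) (c : ly.Classes) (hc : ∀ h ∈ Q, h • c = c)
    (hτ : ly.tau c = c) :
    ∃ φ : ideles ly.field, φ.1 ∈ ideles (lv.subField Q) ∧ ly.cls φ = c := by
  refine ly.exists_idele_of_fixed (ly.subField_le_field Q) c fun σ hσ => ?_
  rw [lv.mem_fix_subField] at hσ
  obtain ⟨i, -, hi⟩ := ly.gen σ
  rw [ly.galSMul_fixed Q hc hσ hi]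
  clear hi
  induction i with
  | zero => rfl
  | succ i ih => rw [Coh.addPow_succ_apply, ih, hτ]

theorem exists_idele_subLayer (Q : Subgroup G) (c : ly.Classes) (hc : ∀ h ∈ Q, h • c = c) :
    ∃ φ : ideles ly.field, φ.1 ∈ ideles (ly.subLayer Q) ∧ ly.cls φ = c := by
  refine ly.exists_idele_of_fixed (ly.subLayer_le Q) c fun σ hσ => ?_
  rw [ly.mem_fix_subLayer] at hσ
  exact ly.galSMul_fixed Q hc hσ.1 (i := 0) (by rw [hσ.2, pow_zero])

end Layer

end FLTAgent.PoitouTate
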