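import Fermat.Agent.PoitouTate.Base
import Fermat.Agent.EllP.Unramified

/-!
# The valuation group of a level at a place

The ramification index of the field of a level is the order of the image of the inertia group.
-/

set_option autoImplicit false
set_option linter.style.haveILetI false
set_option linter.unusedSectionVars false
set_option maxHeartbeats 800000

noncomputable section

open IsDedekindDomain
open scoped Pointwise NumberField

namespace FLTAgent.PoitouTate

open FLTAgent.TW

local notation "ℚ̄" => AlgebraicClosure ℚ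
local notation "Γ" => (AlgebraicClosure ℚ ≃ₐ[ℚ] AlgebraicClosure ℚ)

attribute [local instance] numberField_intermediate

namespace Level

variable {S : Finset ℕ} {p : ℕ} {G : Type} [Group G] (lv : Level S p G)

/-- The image of the inertia group of a place. -/
def inertiaGroup (A : Place) : Subgroup G := (A.1.inertiaSubgroupIn ℚ).map lv.q

/-- The inertia group of the prime below a place is the image of the inertia group. -/
theorem card_inertia_primeOf (K : IntermediateField ℚ ℚ̄) [FiniteDimensional ℚ K] [IsGalois ℚ K]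
    (A : Place) :
    (A.1.inertiaSubgroupIn ℚ).map (AlgEquiv.restrictNormalHom K) =
      (primeOf K A).asIdeal.inertia (K ≃ₐ[ℚ] K) := by
  have hP : (EllP.centre A.1).under (𝓞 K) = (primeOf K A).asIdeal := by
    ext a
    rw [mem_primeOf, ← ValuationSubring.mem_nonunits_iff]
    exact EllP.mem_centre (b := algebraMap (𝓞 K) (𝓞 ℚ̄) a)
  refine le_antisymm ?_ (hP ▸ EllP.inertia_under_le_map K A.prime_char A.liesOver_char _ le_rfl)
  rintro _ ⟨σ, hσ, rfl⟩ a
  rw [Submodule.mem_toAddSubgroup, mem_primeOf, ← ValuationSubring.mem_nonunits_iff]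
  have h := (GalCommon.mem_inertiaSubgroupIn_iff.mp hσ).2 _
    (GalCommon.mem_of_isIntegral A.1 (Density.isIntegral_coe K a))
  convert h using 1
  show ((AlgEquiv.restrictNormalHom K σ (a : K) - (a : K) : K) : ℚ̄) = _
  rw [AddSubgroupClass.coe_sub]
  congr 1
  exact AlgEquiv.restrictNormal_commutes σ K (a : K)

theorem ramificationIdx_eq_expOf (K : IntermediateField ℚ ℚ̄) [FiniteDimensional ℚ K] (A : Place) :
    (primeOf K A).asIdeal.ramificationIdx ℤ = expOf K (primeOf K A) A.char := by
  set P := primeOf K A with hP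
  set r := A.char with hr
  set e := expOf K P r with he
  haveI : P.asIdeal.IsMaximal := P.isMaximal
  have hunder : P.asIdeal.under ℤ = Ideal.span {(r : ℤ)} := by
    symm
    refine (PrincipalIdealRing.isMaximal_of_irreducible
      (Nat.prime_iff_prime_int.mp A.prime_char).irreducible).eq_of_le ?_ ?_
    · exact (Ideal.IsMaximal.under ℤ P.asIdeal).ne_top
    · rw [Ideal.span_singleton_le_iff_mem, Ideal.under_def, Ideal.mem_comap, map_natCast]
      exact natCast_char_mem
  have hmap : (P.asIdeal.under ℤ).map (algebraMap ℤ (𝓞 K)) = Ideal.span {(r : 𝓞 K)} := by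
    rw [hunder, Ideal.map_span, Set.image_singleton, map_natCast]
  have hv : P.intValuation (r : 𝓞 K) = WithZero.exp (-(e : ℤ)) := by
    rw [P.intValuation_if_neg (Nat.cast_ne_zero.mpr A.prime_char.ne_zero)]
    rfl
  have hne : P.asIdeal.under ℤ ≠ ⊥ := by
    rw [hunder, ne_eq, Ideal.span_singleton_eq_bot]
    exact_mod_cast A.prime_char.ne_zero
  rw [← Ideal.ramificationIdx'_eq_ramificationIdx (P.asIdeal.under ℤ) P.asIdeal hne]
  refine Ideal.ramificationIdx'_spec ?_ ?_
  · rw [hmap, Ideal.span_singleton_le_iff_mem, ← P.intValuation_le_pow_iff_mem, hv]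
  · rw [hmap, Ideal.span_singleton_le_iff_mem, ← P.intValuation_le_pow_iff_mem, hv,
      WithZero.exp_le_exp]
    omega

/-- An element of the field of the level whose valuation is the ramification root of that of the
residue characteristic. -/
theorem exists_uniformizer_pow (A : Place) :
    ∃ x : ℚ̄, x ∈ lv.field ∧
      A.1.valuation x ^ Nat.card (lv.inertiaGroup A) = A.1.valuation (A.char : ℚ̄) := by
  haveI := lv.finite_field
  haveI : IsGalois ℚ lv.field := lv.setting.isGalois
  haveI := GalCommon.normal_Qbar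
  set K := lv.field with hK
  set P := primeOf K A with hP
  haveI : P.asIdeal.IsMaximal := P.isMaximal
  haveI : (P.asIdeal.under ℤ).IsMaximal := Ideal.IsMaximal.under ℤ P.asIdeal
  haveI : Finite (ℤ ⧸ P.asIdeal.under ℤ) := by
    apply Ring.HasFiniteQuotients.finiteQuotient
    exact Ideal.IsMaximal.ne_bot_of_isIntegral_int _
  haveI : IsGaloisGroup (K ≃ₐ[ℚ] K) ℤ (𝓞 K) := .of_isFractionRing _ _ _ ℚ K
  have h1 : Nat.card (P.asIdeal.inertia (K ≃ₐ[ℚ] K)) = P.asIdeal.ramificationIdx ℤ := by
    rw [Ideal.card_inertia_eq_ramificationIdxIn (P.asIdeal.under ℤ) P.asIdeal,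
      Ideal.ramificationIdxIn_eq_ramificationIdx (P.asIdeal.under ℤ) P.asIdeal (K ≃ₐ[ℚ] K)]
  have hker : (AlgEquiv.restrictNormalHom K).ker = lv.q.ker := by
    refine (Subgroup.ext fun σ => ?_)
    rw [MonoidHom.mem_ker, ← lv.fix_field]
    refine ⟨Density.mem_fixingSubgroup_of_restrict_eq_one, fun h => AlgEquiv.ext fun z =>
      Subtype.ext ((AlgEquiv.restrictNormal_commutes σ K z).trans
        ((IntermediateField.mem_fixingSubgroup_iff _ _).mp h _ z.2))⟩
  have h2 : Nat.card (lv.inertiaGroup A) = expOf K P A.char := by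
    rw [← ramificationIdx_eq_expOf, ← h1, ← card_inertia_primeOf, inertiaGroup,
      ← Subgroup.relIndex_ker, ← Subgroup.relIndex_ker, hker]
  obtain ⟨π, hπ⟩ := P.valuation_exists_uniformizer K
  refine ⟨(π : ℚ̄), π.2, ?_⟩
  rw [h2, ← map_pow]
  have h3 := (valuation_eq_iff (A := A) (π ^ expOf K P A.char) (A.char : K)).mpr (by
    rw [map_pow, hπ, valuation_natCast (F := K) P A.prime_char.ne_zero, ← WithZero.exp_nsmul]
    simp)
  simpa using h3

end Level

end FLTAgent.PoitouTate
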