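import Fermat.Agent.PoitouTate.UnitGen

/-!
# Units are norms in unramified layers

The residues are lifted to roots of unity, the congruent units are reached by successive
approximation with a root of unity of unit trace, and a unit close enough to `1` has a root fixed
by the group.
-/

set_option autoImplicit false
set_option linter.style.haveILetI false
set_option linter.unusedSectionVars false
set_option linter.unusedVariables false
set_option maxHeartbeats 800000

noncomputable section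

open scoped Pointwise

namespace FLTAgent.PoitouTate

open FLTAgent.TW

local notation "ℚ̄" => AlgebraicClosure ℚ
local notation "Γ" => (AlgebraicClosure ℚ ≃ₐ[ℚ] AlgebraicClosure ℚ)

attribute [local instance] numberField_intermediate

variable {A : Place} {D D' : Subgroup Γ}

/-- The valuation group of a place is archimedean. -/
theorem exists_val_pow_le (A : Place) {x z : ℚ̄} (hx : A.1.valuation x < 1) (hz : z ≠ 0) :
    ∃ n : ℕ, A.1.valuation x ^ n ≤ A.1.valuation z := by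
  rcases eq_or_ne x 0 with rfl | hx0
  · exact ⟨1, by simp⟩
  haveI : FiniteDimensional ℚ (IntermediateField.adjoin ℚ ({x, z} : Set ℚ̄)) :=
    IntermediateField.finiteDimensional_adjoin fun w _ =>
      (EllP.qbarIsAlgebraic.isAlgebraic w).isIntegral
  set Z := IntermediateField.adjoin ℚ ({x, z} : Set ℚ̄) with hZ
  let x' : Z := ⟨x, IntermediateField.subset_adjoin ℚ _ (by simp)⟩
  let z' : Z := ⟨z, IntermediateField.subset_adjoin ℚ _ (by simp)⟩
  have h0 : (primeOf Z A).valuation Z z' ≠ 0 := by simpa [z', Subtype.ext_iff] using hz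
  have hlt : (primeOf Z A).valuation Z x' < 1 := by
    have := (valuation_lt_iff (A := A) x' (1 : Z)).mp (by simpa [x'] using hx)
    simpa using this
  have hx0' : (primeOf Z A).valuation Z x' ≠ 0 := by simpa [x', Subtype.ext_iff] using hx0
  obtain ⟨n, hn⟩ : ∃ n : ℕ, (primeOf Z A).valuation Z x' ^ n ≤ (primeOf Z A).valuation Z z' := by
    set a := (primeOf Z A).valuation Z x'
    set b := (primeOf Z A).valuation Z z'
    refine ⟨(-WithZero.log b).toNat, ?_⟩
    have ha : WithZero.log a ≤ -1 := by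
      have := (WithZero.log_lt_iff_lt_exp hx0' (a := 0)).mpr (by simpa using hlt)
      omega
    rw [← WithZero.log_le_log (pow_ne_zero _ hx0') h0, WithZero.log_pow, nsmul_eq_mul]
    have h1 := Int.self_le_toNat (-WithZero.log b)
    have h2 : ((-WithZero.log b).toNat : ℤ) * WithZero.log a ≤
        ((-WithZero.log b).toNat : ℤ) * (-1) := mul_le_mul_of_nonneg_left ha (by positivity)
    omega
  refine ⟨n, ?_⟩
  have := (valuation_le_iff (A := A) (x' ^ n) z').mpr (by simpa using hn)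
  simpa [x', z'] using this

theorem valuation_root_of_unity (A : Place) {M : ℕ} (hM : M ≠ 0) {ω : ℚ̄} (hω : ω ^ M = 1) :
    A.1.valuation ω = 1 :=
  (pow_eq_one_iff.mp (by rw [← map_pow, hω, map_one] : A.1.valuation ω ^ M = 1)).resolve_right hM

theorem root_eq_of_res_eq {M : ℕ} (hM : ¬ A.char ∣ M) {ω ω' : ℚ̄} (hω : ω ^ M = 1)
    (hω' : ω' ^ M = 1) (h : LocP.res A.1 ω = LocP.res A.1 ω') : ω = ω' := by
  have hM0 : M ≠ 0 := fun h0 => hM (h0 ▸ dvd_zero _)
  exact GalCommon.eq_of_pow_eq_one_of_sub_mem A.prime_char A.liesOver_char hM hω hω'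
    (A.1.mem_nonunits_iff.mpr ((LocP.res_eq_iff (valuation_root_of_unity A hM0 hω).le
      (valuation_root_of_unity A hM0 hω').le).mp h))

theorem exists_primitive_res {M : ℕ} (hM : ¬ A.char ∣ M) :
    ∃ ζ : ℚ̄, IsPrimitiveRoot ζ M ∧ IsPrimitiveRoot (LocP.res A.1 ζ) M := by
  have hM0 : M ≠ 0 := fun h0 => hM (h0 ▸ dvd_zero _)
  haveI : NeZero M := ⟨hM0⟩
  obtain ⟨ζ, hζ⟩ := HasEnoughRootsOfUnity.exists_primitiveRoot ℚ̄ M
  have hv := (valuation_root_of_unity A hM0 hζ.pow_eq_one).le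
  refine ⟨ζ, hζ, ⟨by rw [← LocP.res_pow hv, hζ.pow_eq_one, LocP.res_one], fun l hl => ?_⟩⟩
  refine hζ.dvd_of_pow_eq_one l (root_eq_of_res_eq hM ?_ (one_pow M) ?_)
  · rw [← pow_mul, mul_comm, pow_mul, hζ.pow_eq_one, one_pow]
  · rw [LocP.res_pow hv, hl, LocP.res_one]

theorem exists_root_res {M : ℕ} (hM : ¬ A.char ∣ M) {y : IsLocalRing.ResidueField A.1}
    (hy : y ^ M = 1) : ∃ ω : ℚ̄, ω ^ M = 1 ∧ LocP.res A.1 ω = y := by
  have hM0 : M ≠ 0 := fun h0 => hM (h0 ▸ dvd_zero _)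
  haveI : NeZero M := ⟨hM0⟩
  obtain ⟨ζ, hζ, hζ'⟩ := exists_primitive_res hM
  obtain ⟨i, -, hi⟩ := hζ'.eq_pow_of_pow_eq_one hy
  exact ⟨ζ ^ i, by rw [← pow_mul, mul_comm, pow_mul, hζ.pow_eq_one, one_pow],
    by rw [LocP.res_pow (valuation_root_of_unity A hM0 hζ.pow_eq_one).le, hi]⟩

theorem valuation_prod_one_add_sub {c : ValuationSubring.ValueGroup A.1} (hc : c ≤ 1) (a : ℕ → ℚ̄)
    (d : ℕ) (ha : ∀ j < d, A.1.valuation (a j) ≤ c) :
    A.1.valuation (∑ j ∈ Finset.range d, a j) ≤ c ∧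
      A.1.valuation (∏ j ∈ Finset.range d, (1 + a j) - 1 - ∑ j ∈ Finset.range d, a j) ≤ c * c := by
  induction d with
  | zero => simp
  | succ d ih =>
    obtain ⟨h1, h2⟩ := ih fun j hj => ha j (hj.trans d.lt_succ_self)
    have h3 := ha d d.lt_succ_self
    refine ⟨?_, ?_⟩
    · rw [Finset.sum_range_succ]
      exact (A.1.valuation.map_add _ _).trans (max_le h1 h3)
    set P := ∏ j ∈ Finset.range d, (1 + a j)
    set S := ∑ j ∈ Finset.range d, a j
    rw [Finset.prod_range_succ, Finset.sum_range_succ,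
      show P * (1 + a d) - 1 - (S + a d) = (P - 1 - S) + (P - 1 - S + S) * a d by ring]
    refine (A.1.valuation.map_add _ _).trans (max_le h2 ?_)
    rw [map_mul]
    refine mul_le_mul' ((A.1.valuation.map_add _ _).trans (max_le ?_ h1)) h3
    exact h2.trans (mul_le_of_le_one_left zero_le hc)

/-- Elements close to `1` have roots of `p`-power order fixed by the automorphisms fixing them. -/
theorem exists_pow_root {p : ℕ} [Fact p.Prime] {ζ : ℚ̄} (hζ : IsPrimitiveRoot ζ p) (A : Place)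
    (i : ℕ) : ∀ {u : ℚ̄}, A.1.valuation (u - 1) <
      A.1.valuation (p : ℚ̄) ^ i * A.1.valuation (ζ - 1) →
    ∃ t : ℚ̄, t ^ p ^ i = u ∧ A.1.valuation (t - 1) < A.1.valuation (ζ - 1) ∧
      ∀ σ : Γ, σ • A = A → σ u = u → σ ζ = ζ → σ t = t := by
  induction i with
  | zero =>
    intro u h
    rw [pow_zero, one_mul] at h
    exact ⟨u, by rw [pow_zero, pow_one], h, fun σ _ hu _ => hu⟩
  | succ i ih =>
    intro u h
    have hp1 : A.1.valuation (p : ℚ̄) ≤ 1 :=
      (A.1.valuation_le_one_iff _).mpr (natCast_mem A.1 p)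
    have hlt : A.1.valuation (u - 1) < A.1.valuation (p : ℚ̄) * A.1.valuation (ζ - 1) :=
      h.trans_le (mul_le_mul' (by
        rw [pow_succ]; exact mul_le_of_le_one_left zero_le (pow_le_one₀ zero_le hp1)) le_rfl)
    obtain ⟨t₁, ht₁, hnear, hfix⟩ := exists_root_fixed hζ A hlt
    have hv := valuation_pow_prime_sub_one hζ A hnear
    rw [ht₁] at hv
    rw [hv, pow_succ', mul_assoc] at h
    obtain ⟨t, ht, hnear', hfix'⟩ := ih (lt_of_mul_lt_mul_left' h)
    exact ⟨t, by rw [pow_succ, pow_mul, ht, ht₁], hnear',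
      fun σ hA hu hz => hfix' σ hA (hfix σ hA hu hz) hz⟩

namespace FrobGen

variable (g : FrobGen A D D')

/-- The norm. -/
def norm (b : ℚ̄) : ℚ̄ := ∏ j ∈ Finset.range g.d, (g.s ^ j) b

theorem norm_mul (b c : ℚ̄) : g.norm (b * c) = g.norm b * g.norm c := by
  simp only [norm, map_mul, Finset.prod_mul_distrib]

/-- An element fixed by the generator and by `D'` is fixed by `D`. -/
theorem fixed_of (hle : D' ≤ D) {x : ℚ̄} (hs : g.s x = x) (h : ∀ σ ∈ D', σ x = x) :
    ∀ σ ∈ D, σ x = x := fun σ hσ => by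
  obtain ⟨j, -, hj⟩ := g.rep σ hσ
  have hmem : g.s ^ j ∈ MulAction.stabilizer Γ x :=
    _root_.pow_mem (show g.s ∈ MulAction.stabilizer Γ x from hs) j
  have h2 := congrArg (g.s ^ j) (h _ hj)
  rw [← AlgEquiv.mul_apply, mul_inv_cancel_left] at h2
  exact h2.trans hmem

/-- The number of residues of the base. -/
def q : ℕ := A.char ^ g.f

theorem two_le_q : 2 ≤ g.q := A.prime_char.two_le.trans (Nat.le_self_pow g.f_pos.ne' _)

theorem char_dvd_q : A.char ∣ g.q := dvd_pow_self _ g.f_pos.ne'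

theorem not_dvd_pow_sub_one {j : ℕ} (hj : j ≠ 0) : ¬ A.char ∣ g.q ^ j - 1 := fun h => by
  have h1 : 1 ≤ g.q ^ j := Nat.one_le_pow _ _ ((by norm_num : 0 < 2).trans_le g.two_le_q)
  have h2 := Nat.dvd_sub (g.char_dvd_q.trans (dvd_pow_self _ hj)) h
  rw [show g.q ^ j - (g.q ^ j - 1) = 1 by omega] at h2
  exact A.prime_char.one_lt.ne' (Nat.dvd_one.mp h2)

theorem pow_smul_self (hD : ∀ σ ∈ D, σ • A = A) (j : ℕ) :
    g.s ^ j ∈ A.1.decompositionSubgroup ℚ :=
  mem_decomposition_of_smul (hD _ (_root_.pow_mem g.mem j))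

theorem apply_root (hD : ∀ σ ∈ D, σ • A = A) {M : ℕ} (hM : ¬ A.char ∣ M) {ω : ℚ̄}
    (hω : ω ^ M = 1) (j : ℕ) : (g.s ^ j) ω = ω ^ g.q ^ j := by
  have hv : A.1.valuation ω ≤ 1 :=
    (valuation_root_of_unity A (M := M) (fun h0 => hM (by rw [h0]; exact dvd_zero _)) hω).le
  induction j with
  | zero => simp
  | succ j ih =>
    rw [pow_succ' g.s j, AlgEquiv.mul_apply, ih]
    refine root_eq_of_res_eq hM (by rw [← map_pow, ← pow_mul, mul_comm, pow_mul, hω, one_pow, map_one])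
      (by rw [← pow_mul, mul_comm, pow_mul, hω, one_pow]) ?_
    rw [g.frob _ (by rw [map_pow]; exact pow_le_one₀ zero_le hv), LocP.res_pow hv,
      LocP.res_pow hv, ← pow_mul, pow_succ]
    rfl

theorem exists_lift_norm (hD : ∀ σ ∈ D, σ • A = A) {u : ℚ̄} (hu : A.1.valuation u = 1)
    (hufix : ∀ σ ∈ D, σ u = u) :
    ∃ ω : ℚ̄, A.1.valuation ω = 1 ∧ (∀ σ ∈ D', σ ω = ω) ∧
      A.1.valuation (u / g.norm ω - 1) < 1 := by
  have hq := g.two_le_q
  set y := LocP.res A.1 u with hy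
  have hy0 : y ≠ 0 := fun h => absurd ((LocP.res_eq_zero_iff hu.le).mp h) (by rw [hu]; exact lt_irrefl _)
  have hyq : y ^ (g.q - 1) = 1 := by
    have h1 := g.frob u hu.le
    rw [hufix _ g.mem, ← hy] at h1
    refine mul_right_cancel₀ hy0 ?_
    rw [one_mul, ← pow_succ, show g.q - 1 + 1 = g.q by omega]
    exact h1.symm
  obtain ⟨ζ, hζ, hζy⟩ := exists_root_res
    (by simpa using g.not_dvd_pow_sub_one (j := 1) one_ne_zero) hyq
  obtain ⟨ω, hω⟩ := IsAlgClosed.exists_pow_nat_eq ζ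
    (n := ∑ j ∈ Finset.range g.d, g.q ^ j) (Finset.sum_pos (fun j _ => pow_pos (by omega) j)
      (Finset.nonempty_range_iff.mpr g.d_pos.ne'))
  have hgeom := Nat.geomSum_eq hq g.d
  have hdvd : g.q - 1 ∣ g.q ^ g.d - 1 := Nat.sub_one_dvd_pow_sub_one _ _
  have hωM : ω ^ (g.q ^ g.d - 1) = 1 := by
    rw [← Nat.mul_div_cancel' hdvd, ← hgeom, mul_comm, pow_mul, hω, hζ]
  have hM0 : g.q ^ g.d - 1 ≠ 0 := fun h0 => g.not_dvd_pow_sub_one g.d_pos.ne' (h0 ▸ dvd_zero _)
  refine ⟨ω, valuation_root_of_unity A hM0 hωM, fun σ hσ => g.fix_root σ hσ ω hωM, ?_⟩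
  have hN : g.norm ω = ζ := by
    rw [← hω, ← Finset.prod_pow_eq_pow_sum]
    exact Finset.prod_congr rfl fun j _ =>
      g.apply_root hD (g.not_dvd_pow_sub_one g.d_pos.ne') hωM j
  have hζv : A.1.valuation ζ = 1 := valuation_root_of_unity A (by omega) hζ
  have hζ0 : ζ ≠ 0 := fun h0 => by simp [h0] at hζv
  rw [hN, div_sub_one hζ0, map_div₀, hζv, div_one, ← LocP.res_eq_iff hu.le hζv.le, hζy]

theorem exists_unit_sum (hD : ∀ σ ∈ D, σ • A = A) (c : ℕ → ℚ̄)
    (hc : ∀ j < g.d, A.1.valuation (c j) = 1) :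
    ∃ θ : ℚ̄, θ ^ (g.q ^ g.d - 1) = 1 ∧
      A.1.valuation (∑ j ∈ Finset.range g.d, c j * (g.s ^ j) θ) = 1 := by
  classical
  have hq := g.two_le_q
  set M := g.q ^ g.d - 1 with hM
  have hrM : ¬ A.char ∣ M := g.not_dvd_pow_sub_one g.d_pos.ne'
  have hM0 : M ≠ 0 := fun h0 => hrM (h0 ▸ dvd_zero _)
  obtain ⟨d, hd⟩ : ∃ d, g.d = d + 1 := ⟨g.d - 1, by have := g.d_pos; omega⟩
  obtain ⟨ζ, hζ, hζ'⟩ := exists_primitive_res hrM
  have hv := (valuation_root_of_unity A hM0 hζ.pow_eq_one).le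
  let P : Polynomial (IsLocalRing.ResidueField A.1) :=
    ∑ j ∈ Finset.range g.d, Polynomial.C (LocP.res A.1 (c j)) * Polynomial.X ^ g.q ^ j
  obtain ⟨i, hi, hPi⟩ : ∃ i < M, P.eval (LocP.res A.1 ζ ^ i) ≠ 0 := by
    by_contra hall
    push Not at hall
    have hP0 : P ≠ 0 := fun h0 => by
      have h1 : P.coeff (g.q ^ d) = LocP.res A.1 (c d) := by
        simp only [P, Polynomial.finsetSum_coeff, Polynomial.coeff_C_mul_X_pow]
        rw [Finset.sum_eq_single d (fun j _ hj => if_neg fun h =>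
          hj (Nat.pow_right_injective hq h).symm)
          (fun h => absurd (Finset.mem_range.mpr (by omega)) h), if_pos rfl]
      rw [h0, Polynomial.coeff_zero] at h1
      have h2 := (LocP.res_eq_zero_iff (hc d (by omega)).le).mp h1.symm
      rw [hc d (by omega)] at h2
      exact lt_irrefl _ h2
    have hdeg : P.natDegree ≤ g.q ^ d := Polynomial.natDegree_sum_le_of_forall_le _ _ fun j hj => by
      refine (Polynomial.natDegree_C_mul_X_pow_le _ _).trans ?_
      exact Nat.pow_le_pow_right (by omega) (by rw [Finset.mem_range] at hj; omega)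
    let S : Finset (IsLocalRing.ResidueField A.1) :=
      insert 0 ((Finset.range M).image fun i => LocP.res A.1 ζ ^ i)
    have hS : S.card = M + 1 := by
      rw [Finset.card_insert_of_notMem, Finset.card_image_of_injOn, Finset.card_range]
      · intro a ha b hb h
        exact hζ'.pow_inj (Finset.mem_range.mp ha) (Finset.mem_range.mp hb) h
      · intro h
        obtain ⟨i, -, h0⟩ := Finset.mem_image.mp h
        exact pow_ne_zero i (hζ'.ne_zero hM0) h0
    have hle' := Polynomial.card_le_degree_of_subset_roots (p := P) (Z := S) fun x hx => by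
      rw [Polynomial.mem_roots hP0, Polynomial.IsRoot]
      replace hx : x ∈ S := hx
      rcases Finset.mem_insert.mp hx with rfl | hx
      · simp only [P, Polynomial.eval_finsetSum, Polynomial.eval_mul, Polynomial.eval_pow,
          Polynomial.eval_X]
        exact Finset.sum_eq_zero fun j _ => by
          rw [zero_pow (pow_ne_zero _ (by omega)), mul_zero]
      · obtain ⟨i, hi, rfl⟩ := Finset.mem_image.mp hx
        exact hall i (Finset.mem_range.mp hi)
    have hpow : g.q ^ d < g.q ^ g.d :=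
      Nat.pow_lt_pow_right (by omega) (by omega)
    omega
  set θ := ζ ^ i
  have hθM : θ ^ M = 1 := by rw [← pow_mul, mul_comm, pow_mul, hζ.pow_eq_one, one_pow]
  have hθv : A.1.valuation θ = 1 := valuation_root_of_unity A hM0 hθM
  set τ := ∑ j ∈ Finset.range g.d, c j * (g.s ^ j) θ with hτ
  have hsj : ∀ j, (g.s ^ j) θ = θ ^ g.q ^ j := g.apply_root hD hrM hθM
  have hterm : ∀ j < g.d, A.1.valuation (c j * (g.s ^ j) θ) = 1 := fun j hj => by
    rw [map_mul, hc j hj, LocP.val_map (g.pow_smul_self hD j), hθv, one_mul]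
  have hτv : A.1.valuation τ ≤ 1 :=
    A.1.valuation.map_sum_le fun j hj => (hterm j (Finset.mem_range.mp hj)).le
  have hres : LocP.res A.1 τ = P.eval (LocP.res A.1 ζ ^ i) := by
    rw [LocP.res_apply (LocP.mem_of_val_le hτv)]
    simp only [P, Polynomial.eval_finsetSum, Polynomial.eval_mul, Polynomial.eval_C,
      Polynomial.eval_pow, Polynomial.eval_X]
    have hmem : ∀ j : Finset.range g.d, c j * (g.s ^ (j : ℕ)) θ ∈ A.1 := fun j =>
      LocP.mem_of_val_le (hterm j (Finset.mem_range.mp j.2)).le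
    rw [show (⟨τ, LocP.mem_of_val_le hτv⟩ : A.1) = ∑ j : Finset.range g.d, ⟨_, hmem j⟩ from
      Subtype.ext (by push_cast; rw [hτ, ← Finset.sum_coe_sort]), map_sum,
      ← Finset.sum_coe_sort (Finset.range g.d)
        (fun j => LocP.res A.1 (c j) * (LocP.res A.1 ζ ^ i) ^ g.q ^ j)]
    refine Finset.sum_congr rfl fun j _ => ?_
    rw [← LocP.res_apply (hmem j), hsj, LocP.res_mul (hc j (Finset.mem_range.mp j.2)).le
      (by rw [map_pow, hθv, one_pow]), LocP.res_pow hθv.le, LocP.res_pow hv]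
  refine ⟨θ, hθM, le_antisymm hτv (not_lt.mp fun h => hPi ?_)⟩
  rw [← hres, LocP.res_eq_zero_iff hτv]
  exact h

theorem exists_trace_unit (hle : D' ≤ D) (hD : ∀ σ ∈ D, σ • A = A) :
    ∃ θ : ℚ̄, A.1.valuation θ = 1 ∧ (∀ σ ∈ D', σ θ = θ) ∧
      A.1.valuation (∑ j ∈ Finset.range g.d, (g.s ^ j) θ) = 1 ∧
      ∀ σ ∈ D, σ (∑ j ∈ Finset.range g.d, (g.s ^ j) θ) = ∑ j ∈ Finset.range g.d, (g.s ^ j) θ := by
  obtain ⟨θ, hθM, hτv⟩ := g.exists_unit_sum hD (fun _ => 1) fun _ _ => map_one _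
  simp only [one_mul] at hτv
  have hrM := g.not_dvd_pow_sub_one g.d_pos.ne'
  have hθv : A.1.valuation θ = 1 :=
    valuation_root_of_unity A (fun h0 => hrM (by rw [h0]; exact dvd_zero _)) hθM
  have hsj : ∀ j, (g.s ^ j) θ = θ ^ g.q ^ j := g.apply_root hD hrM hθM
  have hsd : (g.s ^ g.d) θ = θ := g.fix_root _ g.pow_mem θ hθM
  refine ⟨θ, hθv, fun σ hσ => g.fix_root σ hσ θ hθM, hτv, g.fixed_of hle ?_ fun σ hσ => ?_⟩
  · rw [map_sum]
    simp only [← AlgEquiv.mul_apply, ← pow_succ']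
    refine add_right_cancel (b := (g.s ^ 0) θ) ?_
    rw [← Finset.sum_range_succ' (fun j => (g.s ^ j) θ), Finset.sum_range_succ, hsd, pow_zero,
      AlgEquiv.one_apply]
  · rw [map_sum]
    exact Finset.sum_congr rfl fun j _ => by rw [hsj, map_pow, g.fix_root σ hσ θ hθM]

/-- Hilbert 90 for units. -/
theorem exists_div_eq (hD : ∀ σ ∈ D, σ • A = A)
    (hn : ∀ σ ∈ D', ∀ δ ∈ D, δ⁻¹ * σ * δ ∈ D') {u : ℚ̄} (hu : A.1.valuation u = 1)
    (hufix : ∀ σ ∈ D', σ u = u) (hN : g.norm u = 1) :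
    ∃ w : ℚ̄, A.1.valuation w = 1 ∧ (∀ σ ∈ D', σ w = w) ∧ g.s w / w = u := by
  set c : ℕ → ℚ̄ := fun j => ∏ i ∈ Finset.range j, (g.s ^ i) u with hcdef
  have hfixu : ∀ i, ∀ σ ∈ D', σ ((g.s ^ i) u) = (g.s ^ i) u := fun i σ hσ => by
    have h := congrArg (g.s ^ i) (hufix _ (hn σ hσ _ (_root_.pow_mem g.mem i)))
    rwa [← AlgEquiv.mul_apply, mul_assoc (g.s ^ i)⁻¹ σ, mul_inv_cancel_left,
      AlgEquiv.mul_apply] at h
  have hcs : ∀ j, c (j + 1) = u * g.s (c j) := fun j => by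
    simp only [hcdef, map_prod, ← AlgEquiv.mul_apply, ← pow_succ']
    rw [Finset.prod_range_succ', pow_zero, AlgEquiv.one_apply, mul_comm]
  obtain ⟨θ, hθM, hy⟩ := g.exists_unit_sum hD c fun j _ => by
    simp only [hcdef, map_prod]
    exact Finset.prod_eq_one fun i _ => by rw [LocP.val_map (g.pow_smul_self hD i), hu]
  set y := ∑ j ∈ Finset.range g.d, c j * (g.s ^ j) θ with hydef
  have hrM := g.not_dvd_pow_sub_one g.d_pos.ne'
  have hsy : u * g.s y = y := by
    let f : ℕ → ℚ̄ := fun j => c j * (g.s ^ j) θ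
    have h1 : u * g.s y = ∑ j ∈ Finset.range g.d, f (j + 1) := by
      simp only [hydef, map_sum, map_mul, Finset.mul_sum]
      refine Finset.sum_congr rfl fun j _ => ?_
      simp only [f, hcs, pow_succ', AlgEquiv.mul_apply, mul_assoc]
    have h2 : f g.d = f 0 := by
      simp only [f, pow_zero, AlgEquiv.one_apply]
      rw [show c g.d = 1 from hN, show c 0 = 1 from Finset.prod_range_zero _,
        g.fix_root _ g.pow_mem θ hθM]
    have h3 := Finset.sum_range_succ f g.d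
    rw [Finset.sum_range_succ', h2, add_left_inj] at h3
    rw [h1, h3]
  refine ⟨y⁻¹, by rw [map_inv₀, hy, inv_one], fun σ hσ => ?_, ?_⟩
  · rw [map_inv₀, inv_inj]
    simp only [hydef, hcdef, map_sum, map_mul, map_prod, g.apply_root hD hrM hθM, map_pow,
      g.fix_root σ hσ θ hθM, hfixu _ σ hσ]
  · have hy0 : y ≠ 0 := fun h0 => by simp [h0] at hy
    have hsy0 : g.s y ≠ 0 := (map_ne_zero _).mpr hy0
    rw [map_inv₀, div_inv_eq_mul, inv_mul_eq_iff_eq_mul₀ hsy0, mul_comm, hsy]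

theorem exists_norm_improve (hle : D' ≤ D) (hD : ∀ σ ∈ D, σ • A = A) {u : ℚ̄}
    (hu : A.1.valuation (u - 1) < 1) (hufix : ∀ σ ∈ D, σ u = u) :
    ∃ b : ℚ̄, A.1.valuation b = 1 ∧ (∀ σ ∈ D', σ b = b) ∧
      A.1.valuation (u / g.norm b - 1) ≤ A.1.valuation (u - 1) * A.1.valuation (u - 1) := by
  obtain ⟨θ, hθ, hθfix, hτ, hτfix⟩ := g.exists_trace_unit hle hD
  set τ := ∑ j ∈ Finset.range g.d, (g.s ^ j) θ with hτdef
  have hτ0 : τ ≠ 0 := fun h0 => by simp [h0] at hτ
  set x := u - 1 with hx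
  set c := A.1.valuation x
  have hxfix : ∀ σ ∈ D, σ x = x := fun σ hσ => by rw [hx, map_sub, hufix σ hσ, map_one]
  let a : ℕ → ℚ̄ := fun j => x / τ * (g.s ^ j) θ
  have ha : ∀ j < g.d, A.1.valuation (a j) ≤ c := fun j _ => by
    rw [map_mul, map_div₀, hτ, div_one, LocP.val_map (g.pow_smul_self hD j), hθ, mul_one]
  obtain ⟨-, h2⟩ := valuation_prod_one_add_sub hu.le a g.d ha
  refine ⟨1 + x / τ * θ, ?_, fun σ hσ => ?_, ?_⟩
  · rw [Valuation.map_add_eq_of_lt_left _ (by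
      rw [map_one, map_mul, map_div₀, hτ, hθ, div_one, mul_one]; exact hu), map_one]
  · rw [map_add, map_one, map_mul, map_div₀, hxfix σ (hle hσ), hτfix σ (hle hσ), hθfix σ hσ]
  have hN : g.norm (1 + x / τ * θ) = ∏ j ∈ Finset.range g.d, (1 + a j) :=
    Finset.prod_congr rfl fun j _ => by
      have hsD : g.s ^ j ∈ D := _root_.pow_mem g.mem j
      rw [map_add, map_one, map_mul, map_div₀, hxfix _ hsD, hτfix _ hsD]
  have hsum : ∑ j ∈ Finset.range g.d, a j = x := by
    rw [← Finset.mul_sum, ← hτdef, div_mul_cancel₀ _ hτ0]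
  rw [hsum, ← hN, show g.norm (1 + x / τ * θ) - 1 - x = g.norm (1 + x / τ * θ) - u by
    rw [hx]; ring] at h2
  have hu1 : A.1.valuation u = 1 := by
    rw [← sub_add_cancel u 1, Valuation.map_add_eq_of_lt_right _ (by rw [map_one]; exact hu),
      map_one]
  have hNv : A.1.valuation (g.norm (1 + x / τ * θ)) = 1 := by
    rw [← sub_add_cancel (g.norm (1 + x / τ * θ)) u, Valuation.map_add_eq_of_lt_right _ (by
      rw [hu1]; exact h2.trans_lt (lt_of_le_of_lt (mul_le_of_le_one_left zero_le hu.le) hu)), hu1]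
  have hN0 : g.norm (1 + x / τ * θ) ≠ 0 := fun h0 => by simp [h0] at hNv
  rw [div_sub_one hN0, map_div₀, hNv, div_one, Valuation.map_sub_swap]
  exact h2

/-- Units fixed by `D` are norms of units fixed by `D'`. -/
theorem exists_norm_eq {p : ℕ} [Fact p.Prime] {ζ : ℚ̄} (hζ : IsPrimitiveRoot ζ p)
    (hle : D' ≤ D) (hD : ∀ σ ∈ D, σ • A = A) (hn : ∀ σ ∈ D', ∀ δ ∈ D, δ⁻¹ * σ * δ ∈ D') (hζfix : ∀ σ ∈ D, σ ζ = ζ) {k : ℕ}
    (hd : g.d = p ^ k) {u : ℚ̄} (hu : A.1.valuation u = 1) (hufix : ∀ σ ∈ D, σ u = u) :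
    ∃ b : ℚ̄, A.1.valuation b = 1 ∧ (∀ σ ∈ D', σ b = b) ∧ g.norm b = u := by
  have hfixN : ∀ b : ℚ̄, (∀ σ ∈ D', σ b = b) → ∀ σ ∈ D, σ (g.norm b) = g.norm b := fun b hb => by
    refine g.fixed_of hle ?_ fun σ hσ => ?_
    · obtain ⟨e, he⟩ : ∃ e, g.d = e + 1 := ⟨g.d - 1, by have := g.d_pos; omega⟩
      simp only [norm, map_prod, ← AlgEquiv.mul_apply, ← pow_succ']
      rw [he]
      conv_lhs => rw [Finset.prod_range_succ]
      conv_rhs => rw [Finset.prod_range_succ']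
      congr 1
      rw [← he, pow_zero, AlgEquiv.one_apply]
      exact hb _ g.pow_mem
    · simp only [norm, map_prod]
      refine Finset.prod_congr rfl fun j _ => ?_
      have h := congrArg (g.s ^ j) (hb _ (hn σ hσ _ (_root_.pow_mem g.mem j)))
      rwa [← AlgEquiv.mul_apply, mul_assoc (g.s ^ j)⁻¹ σ, mul_inv_cancel_left,
        AlgEquiv.mul_apply] at h
  -- the residue
  obtain ⟨ω, hωv, hωfix, hω⟩ := g.exists_lift_norm hD hu hufix
  have hN1 : ∀ b : ℚ̄, A.1.valuation b = 1 → A.1.valuation (g.norm b) = 1 := fun b hb => by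
    rw [norm, map_prod]
    exact Finset.prod_eq_one fun j _ => by rw [LocP.val_map (g.pow_smul_self hD j), hb]
  -- successive approximation
  set u₀ := u / g.norm ω with hu₀
  have hiter : ∀ m : ℕ, ∃ b : ℚ̄, A.1.valuation b = 1 ∧ (∀ σ ∈ D', σ b = b) ∧
      A.1.valuation (u₀ / g.norm b - 1) ≤ A.1.valuation (u₀ - 1) ^ (2 ^ m) := by
    intro m
    induction m with
    | zero => exact ⟨1, map_one _, fun σ _ => map_one _, by simp [norm]⟩
    | succ m ih =>
      obtain ⟨b, hb, hbfix, hle1⟩ := ih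
      have hlt : A.1.valuation (u₀ / g.norm b - 1) < 1 :=
        hle1.trans_lt (pow_lt_one₀ zero_le hω (pow_ne_zero _ two_ne_zero))
      obtain ⟨b', hb', hb'fix, hle2⟩ := g.exists_norm_improve hle hD hlt fun σ hσ => by
        rw [map_div₀, map_div₀, hufix σ hσ, hfixN ω hωfix σ hσ, hfixN b hbfix σ hσ]
      refine ⟨b * b', by rw [map_mul, hb, hb', one_mul],
        fun σ hσ => by rw [map_mul, hbfix σ hσ, hb'fix σ hσ], ?_⟩
      rw [norm_mul, ← div_div, pow_succ 2 m, mul_two, pow_add]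
      exact hle2.trans (mul_le_mul' hle1 hle1)
  obtain ⟨N, hN⟩ := exists_val_pow_le A (z := (p : ℚ̄) ^ k * (ζ - 1)) hω
    (mul_ne_zero (pow_ne_zero _ (Nat.cast_ne_zero.mpr (Fact.out : p.Prime).ne_zero))
      (sub_ne_zero.mpr (hζ.ne_one (Fact.out : p.Prime).one_lt)))
  obtain ⟨b, hb, hbfix, hbu⟩ := hiter (N + 1)
  have hnear : A.1.valuation (u₀ / g.norm b - 1) <
      A.1.valuation (p : ℚ̄) ^ k * A.1.valuation (ζ - 1) := by
    rw [← map_pow, ← map_mul]
    rcases eq_or_ne (A.1.valuation (u₀ - 1)) 0 with h0 | h0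
    · refine hbu.trans_lt ?_
      rw [h0, zero_pow (pow_ne_zero _ two_ne_zero)]
      exact zero_lt_iff.mpr ((Valuation.ne_zero_iff _).mpr (mul_ne_zero (pow_ne_zero _
        (Nat.cast_ne_zero.mpr (Fact.out : p.Prime).ne_zero))
        (sub_ne_zero.mpr (hζ.ne_one (Fact.out : p.Prime).one_lt))))
    · refine (hbu.trans_lt ?_).trans_le hN
      exact pow_lt_pow_right_of_lt_one₀ (zero_lt_iff.mpr h0) hω
        (Nat.lt_two_pow_self (n := N + 1) |>.trans' N.lt_succ_self)
  obtain ⟨t, ht, htnear, htfix⟩ := exists_pow_root hζ A k hnear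
  have htD : ∀ σ ∈ D, σ t = t := fun σ hσ => htfix σ (hD σ hσ) (by
    rw [map_div₀, map_div₀, hufix σ hσ, hfixN ω hωfix σ hσ, hfixN b hbfix σ hσ]) (hζfix σ hσ)
  have hNt : g.norm t = u₀ / g.norm b := by
    rw [← ht, ← hd, norm, Finset.prod_congr rfl fun j _ => htD _ (_root_.pow_mem g.mem j),
      Finset.prod_const, Finset.card_range]
  have htv : A.1.valuation t = 1 := valuation_eq_one_of_near hζ A htnear
  refine ⟨ω * b * t, by rw [map_mul, map_mul, hωv, hb, htv, one_mul, one_mul],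
    fun σ hσ => by rw [map_mul, map_mul, hωfix σ hσ, hbfix σ hσ, htD σ (hle hσ)], ?_⟩
  have h1 : g.norm ω ≠ 0 := fun h0 => by simpa [h0] using hN1 ω hωv
  have h2 : g.norm b ≠ 0 := fun h0 => by simpa [h0] using hN1 b hb
  rw [norm_mul, norm_mul, hNt, hu₀]
  field_simp

end FrobGen

end FLTAgent.PoitouTate
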