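import Fermat.Agent.PoitouTate.LayerFields
import Fermat.Agent.PoitouTate.UnitNorms
import Fermat.Agent.PoitouTate.Uniformizer

/-!
# The local power is a norm from the components of the layer

A power of a uniformizer of the level takes up the valuation, since the local degree of the layer
divides the ramification index times the exponent, and the remaining unit is a norm.
-/

set_option autoImplicit false
set_option linter.style.haveILetI false
set_option linter.unusedSectionVars false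
set_option maxHeartbeats 800000

noncomputable section

open scoped Pointwise

namespace FLTAgent.PoitouTate

open FLTAgent.TW

local notation "ℚ̄" => AlgebraicClosure ℚ
local notation "Γ" => (AlgebraicClosure ℚ ≃ₐ[ℚ] AlgebraicClosure ℚ)

/-- The components `σ b` at the conjugates `σ A` over `L`. -/
theorem exists_orbit_idele (L : IntermediateField ℚ ℚ̄) (A : Place) (b : ℚ̄ˣ)
    (hb : ∀ σ ∈ L.fixingSubgroup, σ • A = A → σ (b : ℚ̄) = b) :
    ∃ β : PreIdele, β ∈ ideles L ∧ β.inf = 1 ∧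
      (∀ B, (¬ ∃ σ ∈ L.fixingSubgroup, σ • A = B) → β.fin B = 1) ∧
      ∀ σ ∈ L.fixingSubgroup, (β.fin (σ • A) : ℚ̄) = σ (b : ℚ̄) := by
  classical
  let fn : Place → ℚ̄ˣ := fun B =>
    if h : ∃ σ ∈ L.fixingSubgroup, σ • A = B then Units.map (h.choose : ℚ̄ →* ℚ̄) b else 1
  have hfn : ∀ σ ∈ L.fixingSubgroup, (fn (σ • A) : ℚ̄) = σ (b : ℚ̄) := by
    intro σ hσ
    have h : ∃ τ ∈ L.fixingSubgroup, τ • A = σ • A := ⟨σ, hσ, rfl⟩
    simp only [fn, dif_pos h, Units.coe_map, MonoidHom.coe_coe]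
    obtain ⟨h1, h2⟩ := h.choose_spec
    have h3 := congrArg σ (hb (σ⁻¹ * h.choose) (mul_mem (inv_mem hσ) h1)
      (by rw [mul_smul, h2, inv_smul_smul]))
    rwa [← AlgEquiv.mul_apply, mul_inv_cancel_left] at h3
  have hout : ∀ B, (¬ ∃ σ ∈ L.fixingSubgroup, σ • A = B) → fn B = 1 := fun B h => dif_neg h
  refine ⟨⟨fn, 1⟩, ⟨fun σ hσ => PreIdele.ext (funext fun B => Units.ext ?_) rfl,
    fun ι => by simp, {A.char}, fun B hB => ?_⟩, rfl, hout, hfn⟩
  · rw [PreIdele.coe_fin_smul]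
    by_cases h : ∃ τ ∈ L.fixingSubgroup, τ • A = B
    · obtain ⟨τ, hτ, rfl⟩ := h
      show σ (fn (σ⁻¹ • τ • A) : ℚ̄) = fn (τ • A)
      rw [← mul_smul, hfn _ (mul_mem (inv_mem hσ) hτ), hfn _ hτ, ← AlgEquiv.mul_apply,
        mul_inv_cancel_left]
    · show σ (fn (σ⁻¹ • B) : ℚ̄) = fn B
      rw [hout B h, hout _ fun ⟨τ, hτ, hτA⟩ => h ⟨σ * τ, mul_mem hσ hτ, by
        rw [mul_smul, hτA, smul_inv_smul]⟩, Units.val_one, map_one]
  · show fn B ∈ _
    rw [hout B fun ⟨τ, _, hτA⟩ => hB (B.over_iff.mpr (by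
      rw [Finset.mem_singleton, ← hτA, Place.char_smul]))]
    exact one_mem _

namespace Layer

variable {S : Finset ℕ} {p : ℕ} [Fact p.Prime] {G : Type} [Group G] {lv : Level S p G}
variable (ly : Layer lv)

/-- The decomposition group of a place over the level. -/
def decLevel (lv : Level S p G) (A : Place) : Subgroup Γ :=
  MulAction.stabilizer Γ A ⊓ lv.q.ker

/-- The decomposition group of a place over the layer. -/
def decLayer (A : Place) : Subgroup Γ :=
  decLevel lv A ⊓ ly.ψ.ker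

/-- The degree of the residue field of the level bounds the decomposition group. -/
theorem card_decGroup_dvd (lv : Level S p G) (A : Place) {D' : Subgroup Γ}
    (g : FrobGen A (decLevel lv A) D') {φ : Γ} (hφ : A.1.IsFrobeniusAt φ A.char) :
    Nat.card (lv.decGroup A) ∣ Nat.card (lv.inertiaGroup A) * g.f ∧
      ∃ ι ∈ A.1.inertiaSubgroupIn ℚ, g.s = φ ^ g.f * ι := by
  haveI := lv.finite_field
  haveI := lv.finite_group
  haveI : Fact A.char.Prime := ⟨A.prime_char⟩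
  have hφD := hφ.mem_decompositionSubgroup
  have hsD : g.s ∈ A.1.decompositionSubgroup ℚ :=
    mem_decomposition_of_smul (MulAction.mem_stabilizer_iff.mp g.mem.1)
  have hι : (φ ^ g.f)⁻¹ * g.s ∈ A.1.inertiaSubgroupIn ℚ := by
    have hD : (φ ^ g.f)⁻¹ * g.s ∈ A.1.decompositionSubgroup ℚ :=
      mul_mem (inv_mem (_root_.pow_mem hφD _)) hsD
    refine GalCommon.mem_inertiaSubgroupIn_iff.mpr ⟨hD, fun a ha => ?_⟩
    set y := ((φ ^ g.f)⁻¹ * g.s) a with hy
    have hav := (A.1.valuation_le_one_iff _).mpr ha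
    have hyv : A.1.valuation y ≤ 1 := by rw [hy, LocP.val_map hD]; exact hav
    have h1 : LocP.res A.1 y ^ A.char ^ g.f = LocP.res A.1 a ^ A.char ^ g.f := by
      rw [← res_frobenius_pow hφ _ hyv, hy, ← AlgEquiv.mul_apply, mul_inv_cancel_left, g.frob a hav]
    haveI := LocP.charP_res A.liesOver_char
    haveI : ExpChar (IsLocalRing.ResidueField A.1) A.char := .prime A.prime_char
    exact A.1.mem_nonunits_iff.mpr
      ((LocP.res_eq_iff hyv hav).mp (iterateFrobenius_inj _ A.char g.f h1))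
  refine ⟨?_, _, hι, (mul_inv_cancel_left _ _).symm⟩
  set J := lv.inertiaGroup A with hJ
  set W := lv.decGroup A with hW
  have hJW : J ≤ W := Subgroup.map_mono fun σ hσ => MulAction.mem_stabilizer_iff.mpr
    (Subtype.ext (MulAction.mem_stabilizer_iff.mp (LocP.inertia_le_decomposition hσ)))
  haveI hn : (J.subgroupOf W).Normal := ⟨fun n hn w => by
    obtain ⟨ι, hι', hιn⟩ := Subgroup.mem_subgroupOf.mp hn
    obtain ⟨σ, hσ, hσw⟩ := lv.mem_decGroup.mp w.2
    refine Subgroup.mem_subgroupOf.mpr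
      ⟨σ * ι * σ⁻¹, LocP.conj_mem_inertia (mem_decomposition_of_smul hσ) hι', ?_⟩
    rw [map_mul, map_mul, map_inv, hιn, hσw]; rfl⟩
  have hφW : lv.q φ ∈ W := lv.mem_decGroup.mpr
    ⟨φ, Subtype.ext (MulAction.mem_stabilizer_iff.mp hφD), rfl⟩
  set x : W ⧸ J.subgroupOf W := QuotientGroup.mk ⟨lv.q φ, hφW⟩ with hx
  have hxf : x ^ g.f = 1 := by
    rw [hx, ← QuotientGroup.mk_pow, QuotientGroup.eq_one_iff, Subgroup.mem_subgroupOf]
    refine ⟨((φ ^ g.f)⁻¹ * g.s)⁻¹, inv_mem hι, ?_⟩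
    rw [map_inv, map_mul, map_inv, MonoidHom.mem_ker.mp g.mem.2, mul_one, inv_inv, map_pow]
    rfl
  have hgen : ∀ c : W ⧸ J.subgroupOf W, c ∈ Subgroup.zpowers x := fun c => by
    obtain ⟨⟨w, hw⟩, rfl⟩ := QuotientGroup.mk_surjective c
    obtain ⟨σ, hσ, rfl⟩ := lv.mem_decGroup.mp hw
    obtain ⟨i, ι, hι', hfix⟩ := LocP.exists_eq_frob_pow_mul A.liesOver_char hφ
      (mem_decomposition_of_smul hσ) lv.field
    have hq : lv.q σ = lv.q φ ^ i * lv.q ι := by
      have h : (φ ^ i * ι)⁻¹ * σ ∈ lv.field.fixingSubgroup :=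
        (IntermediateField.mem_fixingSubgroup_iff _ _).mpr fun y hy => by
          rw [AlgEquiv.mul_apply, hfix y hy, ← AlgEquiv.mul_apply, inv_mul_cancel,
            AlgEquiv.one_apply]
      rw [lv.mem_fix_field, map_mul, map_inv, _root_.inv_mul_eq_one, map_mul, map_pow] at h
      exact h.symm
    have e : (QuotientGroup.mk (⟨lv.q σ, hw⟩ : W) : W ⧸ J.subgroupOf W) = x ^ i := by
      rw [hx, ← QuotientGroup.mk_pow]
      refine (QuotientGroup.eq.mpr (Subgroup.mem_subgroupOf.mpr ?_)).symm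
      refine ⟨ι, hι', ?_⟩
      show lv.q ι = (lv.q φ ^ i)⁻¹ * lv.q σ
      rw [hq, inv_mul_cancel_left]
    rw [e]
    exact Subgroup.npow_mem_zpowers x i
  have hidx : (J.subgroupOf W).index ∣ g.f := by
    rw [Subgroup.index_eq_card, ← Subgroup.card_top (G := W ⧸ J.subgroupOf W),
      show (⊤ : Subgroup (W ⧸ J.subgroupOf W)) = Subgroup.zpowers x from
        (eq_top_iff.mpr fun c _ => hgen c).symm, Nat.card_zpowers]
    exact orderOf_dvd_of_pow_eq_one hxf
  have h := Subgroup.card_mul_index (J.subgroupOf W)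
  rw [Nat.card_congr (Subgroup.subgroupOfEquivOfLe hJW).toEquiv] at h
  rw [← h]
  exact mul_dvd_mul_left _ hidx

theorem psi_congr {σ τ : Γ} (h : ∀ ζ : ℚ̄, ζ ^ ly.ell = 1 → σ ζ = τ ζ) : ly.ψ σ = ly.ψ τ := by
  rw [← _root_.mul_inv_eq_one, ← map_inv, ← map_mul]
  refine ly.psi_eq _ fun ζ hζ => ?_
  have h1 : (τ⁻¹ ζ) ^ ly.ell = 1 := by rw [← map_pow, hζ, map_one]
  rw [AlgEquiv.mul_apply, h _ h1, ← AlgEquiv.mul_apply, mul_inv_cancel, AlgEquiv.one_apply]

/-- The local power is a norm from the components of the layer. -/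
theorem exists_norm_localPower (A : Place) (hA : A.Over S) (V : Subgroup G) (m : ℕ)
    (hVD : V ≤ lv.decGroup A) (hm : m * Nat.card V = sylowDeg p G) :
    ∃ β : PreIdele, β ∈ ideles ly.field ∧ (∀ B : Place, ¬ lv.inOrbit A B → β.fin B = 1) ∧
      β.inf = 1 ∧
      ∏ i ∈ Finset.range (sylowDeg p G), (ly.t ^ i) • β = localPower (lv := lv) A m := by
  classical
  haveI : Fact A.char.Prime := ⟨A.prime_char⟩
  haveI := lv.finite_field
  haveI := ly.finite_field
  haveI := lv.finite_group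
  have hrS : A.char ∈ S := A.over_iff.mp hA
  have hrl : ¬ A.char ∣ ly.ell := fun h =>
    ly.not_mem ((Nat.prime_dvd_prime_iff_eq A.prime_char ly.prime).mp h ▸ hrS)
  set n := sylowDeg p G with hn
  have hn0 : 0 < n := pow_pos (Fact.out : p.Prime).pos _
  set D := decLevel lv A with hD'
  set D' := ly.decLayer A with hD''
  have hD : ∀ σ ∈ D, σ • A = A := fun σ hσ => MulAction.mem_stabilizer_iff.mp hσ.1
  have hDfix : ∀ σ ∈ D, σ ∈ lv.field.fixingSubgroup := fun σ hσ => lv.mem_fix_field.mpr hσ.2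
  have hfixD' : ∀ σ, σ ∈ ly.field.fixingSubgroup → σ • A = A → σ ∈ D' := fun σ h1 h2 =>
    ⟨⟨h2, (ly.mem_fix_field.mp h1).1⟩, (ly.mem_fix_field.mp h1).2⟩
  have hD'L : ∀ σ ∈ D', σ ∈ ly.field.fixingSubgroup := fun σ hσ =>
    ly.mem_fix_field.mpr ⟨hσ.1.2, hσ.2⟩
  have hnorm : ∀ σ ∈ D', ∀ δ ∈ D, δ⁻¹ * σ * δ ∈ D' := fun σ hσ δ hδ =>
    ⟨D.mul_mem (D.mul_mem (D.inv_mem hδ) hσ.1) hδ, by
      simpa using (MonoidHom.normal_ker ly.ψ).conj_mem σ hσ.2 δ⁻¹⟩
  have hleD : D' ≤ D := fun σ hσ => hσ.1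
  obtain ⟨φ, hφ⟩ := GalCommon.exists_isFrobeniusAt A.prime_char A.liesOver_char
  obtain ⟨g⟩ := exists_frobGen (A := A) (D := D) (D' := D') hD ly.field hfixD' hleD
    fun ι hι hιD => ⟨hιD, ly.psi_eq ι fun ζ hζ =>
      GalCommon.inertia_apply_of_pow_eq_one A.prime_char A.liesOver_char hrl hι hζ⟩
  obtain ⟨hcard, ι₀, hι₀, hsι⟩ := card_decGroup_dvd lv A g hφ
  -- the local degree
  have hψD' : ∀ σ ∈ D, (σ ∈ D' ↔ ly.ψ σ = 1) := fun σ hσ => ⟨fun h => h.2, fun h => ⟨hσ, h⟩⟩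
  have hψs : ly.ψ g.s = ly.ψ φ ^ g.f := by
    rw [← map_pow]
    refine ly.psi_congr fun ζ hζ => ?_
    rw [hsι, AlgEquiv.mul_apply,
      GalCommon.inertia_apply_of_pow_eq_one A.prime_char A.liesOver_char hrl hι₀ hζ]
  have hd : orderOf (ly.ψ g.s) = g.d := by
    refine (orderOf_eq_iff g.d_pos).mpr ⟨?_, fun j hj hj0 h => ?_⟩
    · rw [← map_pow]; exact g.pow_mem.2
    · exact absurd (g.min j hj ((hψD' _ (pow_mem g.mem j)).mpr (by rw [map_pow]; exact h))) hj0.ne'
  have hφn : orderOf (ly.ψ φ) = n := ly.psi_frob A.char A hrS A.liesOver_char φ hφ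
  have hdn : g.d = n / n.gcd g.f := by rw [← hd, hψs, orderOf_pow, hφn]
  obtain ⟨k', -, hk'⟩ : ∃ k', k' ≤ (Nat.card G).factorization p ∧ g.d = p ^ k' :=
    (Nat.dvd_prime_pow (Fact.out : p.Prime)).mp (show g.d ∣ n by
      rw [hdn]; exact Nat.div_dvd_of_dvd (Nat.gcd_dvd_left _ _))
  set e := Nat.card (lv.inertiaGroup A) with he
  have hdvd : g.d ∣ e * m := by
    have h1 : n ∣ n.gcd g.f * (e * m) := by
      rw [← Nat.gcd_mul_right]
      refine Nat.dvd_gcd (dvd_mul_right _ _) ?_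
      rw [show n = m * Nat.card V from hm.symm, show g.f * (e * m) = m * (e * g.f) by ring]
      exact mul_dvd_mul_left m ((Subgroup.card_dvd_of_le hVD).trans hcard)
    rw [hdn, Nat.div_dvd_iff_dvd_mul (Nat.gcd_dvd_left _ _) (Nat.gcd_pos_of_pos_left _ hn0)]
    exact h1
  obtain ⟨c, hc⟩ := hdvd
  -- the power of the uniformizer and the unit
  obtain ⟨π, hπK, hπ⟩ := lv.exists_uniformizer_pow A
  rw [← he] at hπ
  set r : ℚ̄ := (A.char : ℚ̄) with hr
  have hr0 : r ≠ 0 := Nat.cast_ne_zero.mpr A.prime_char.ne_zero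
  have hπ0 : π ≠ 0 := fun h0 => A.valuation_char_ne_zero (by
    rw [← hπ, h0, map_zero, zero_pow]
    exact Nat.card_pos.ne')
  have hπfix : ∀ σ ∈ D, σ π = π := fun σ hσ =>
    (IntermediateField.mem_fixingSubgroup_iff _ _).mp (hDfix σ hσ) π hπK
  set ν := π ^ c with hν
  have hνN : g.norm ν = ν ^ g.d := by
    rw [FrobGen.norm, Finset.prod_congr rfl fun j _ => show (g.s ^ j) ν = ν by
      rw [hν, map_pow, hπfix _ (pow_mem g.mem j)], Finset.prod_const, Finset.card_range]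
  set u := r ^ m / ν ^ g.d with hu
  have huv : A.1.valuation u = 1 := by
    rw [hu, map_div₀, map_pow, map_pow, hν, map_pow, ← pow_mul, mul_comm c, ← hc, pow_mul, hπ,
      div_self (pow_ne_zero _ A.valuation_char_ne_zero)]
  have hufix : ∀ σ ∈ D, σ u = u := fun σ hσ => by
    rw [hu, hν, map_div₀, map_pow, map_pow, map_pow, hπfix σ hσ, hr, map_natCast]
  obtain ⟨ζ, hζ⟩ := exists_primitiveRoot_qbar p
  obtain ⟨b, hbv, hbfix, hbN⟩ := g.exists_norm_eq hζ hleD hD hnorm (fun σ hσ =>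
    (IntermediateField.mem_fixingSubgroup_iff _ _).mp (hDfix σ hσ) ζ
      (lv.containsMuP ζ hζ.pow_eq_one)) hk' huv hufix
  have hb0 : b ≠ 0 := fun h0 => by simp [h0] at hbv
  set b' : ℚ̄ˣ := Units.mk0 (ν * b) (mul_ne_zero (pow_ne_zero _ hπ0) hb0) with hb'
  have hb'N : g.norm (b' : ℚ̄) = r ^ m := by
    rw [hb', Units.val_mk0, FrobGen.norm_mul, hνN, hbN, hu]
    exact mul_div_cancel₀ _ (pow_ne_zero _ (pow_ne_zero _ hπ0))
  have hb'fix : ∀ σ ∈ ly.field.fixingSubgroup, σ • A = A → σ (b' : ℚ̄) = b' := fun σ h1 h2 => by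
    have hσ' := hfixD' σ h1 h2
    rw [hb', Units.val_mk0, map_mul, hbfix σ hσ', hν, map_pow, hπfix σ (hleD hσ')]
  obtain ⟨β, hβL, hβinf, hβout, hβin⟩ := exists_orbit_idele ly.field A b' hb'fix
  have hβlev : ∀ B, ¬ lv.inOrbit A B → β.fin B = 1 := fun B hB =>
    hβout B fun ⟨σ, hσ, h⟩ => hB ⟨σ, IntermediateField.fixingSubgroup_le ly.level_le hσ, h⟩
  refine ⟨β, hβL, hβlev, hβinf, ?_⟩
  set P := ∏ i ∈ Finset.range n, (ly.t ^ i) • β with hP
  have hPfin : ∀ B, (P.fin B : ℚ̄) =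
      ∏ i ∈ Finset.range n, (ly.t ^ i) (β.fin ((ly.t ^ i)⁻¹ • B) : ℚ̄) := fun B => by
    show (finHom B P : ℚ̄) = _
    rw [hP, map_prod, Units.coe_prod]
    rfl
  have hPL : P ∈ ideles ly.field := prod_mem fun i _ => smul_mem_ideles _ hβL
  have hPK : P ∈ ideles lv.field := by
    refine ⟨fun σ hσ => ?_, hPL.2⟩
    rw [lv.mem_fix_field] at hσ
    obtain ⟨i, -, hi⟩ := ly.gen σ
    have hσt : σ * (ly.t ^ i)⁻¹ ∈ ly.field.fixingSubgroup := ly.mem_fix_field.mpr
      ⟨by rw [map_mul, map_inv, map_pow, ly.q_t, one_pow, inv_one, mul_one, hσ],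
        by rw [map_mul, map_inv, map_pow, hi, mul_inv_cancel]⟩
    suffices ht : ly.t • P = P by
      have htp : ∀ a : ℕ, ly.t ^ a • P = P := fun a => by
        induction a with
        | zero => rw [pow_zero, one_smul]
        | succ a ih => rw [pow_succ, mul_smul, ht, ih]
      conv_lhs => rw [← inv_mul_cancel_right σ (ly.t ^ i), mul_smul, htp, hPL.1 _ hσt]
    have htn : ly.t ^ n • β = β :=
      hβL.1 _ (ly.mem_fix_field.mpr ⟨by rw [map_pow, ly.q_t, one_pow], by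
        rw [map_pow]; exact ly.psi_t_pow⟩)
    obtain ⟨a, ha⟩ : ∃ a, n = a + 1 := ⟨n - 1, by omega⟩
    rw [hP, Finset.smul_prod']
    simp only [← mul_smul, ← pow_succ']
    rw [ha, Finset.prod_range_succ, Finset.prod_range_succ', ← ha, htn, pow_zero, one_smul]
  have hR : localPower (lv := lv) A m ∈ ideles lv.field :=
    restr_mem_ideles (principalHom_mem_ideles (by
      rw [Units.val_pow_eq_pow_val, Units.val_mk0]
      exact pow_mem (natCast_mem lv.field _) _))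
      (fun _ hσ B => lv.inOrbit_smul hσ B) (fun _ _ _ => Iff.rfl) (fun _ => Iff.rfl)
  refine PreIdele.ext (funext fun B => Units.ext ?_) (funext fun ι => ?_)
  swap
  · show infHom ι P = _
    rw [hP, map_prod]
    refine (Finset.prod_eq_one fun i _ => ?_).trans
      (restr_inf_of_neg (W := fun _ => False) not_false).symm
    show ((ly.t ^ i) • β).inf ι = 1
    rw [inf_smul_twist, hβinf]; rfl
  by_cases hB : lv.inOrbit A B
  · obtain ⟨γ, hγ, rfl⟩ := hB
    rw [coe_smul_fin hPK hγ, coe_smul_fin hR hγ]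
    congr 1
    rw [hPfin]
    have hRA : ((localPower (lv := lv) A m).fin A : ℚ̄) = r ^ m := by
      show ((Level.orbitRestr lv A _).fin A : ℚ̄) = _
      rw [Level.orbitRestr, restr_fin_of_pos (show lv.inOrbit A A from ⟨1, one_mem _, one_smul _ _⟩)]
      rfl
    rw [hRA, ← hb'N, FrobGen.norm]
    choose idx hlt hidx using ly.gen
    let ej : ℕ → ℕ := fun j => idx (g.s ^ j)
    have hterm : ∀ j, (ly.t ^ ej j) (β.fin ((ly.t ^ ej j)⁻¹ • A) : ℚ̄) = (g.s ^ j) (b' : ℚ̄) := by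
      intro j
      have hj : g.s ^ j ∈ D := pow_mem g.mem j
      have hmem : (ly.t ^ ej j)⁻¹ * g.s ^ j ∈ ly.field.fixingSubgroup := ly.mem_fix_field.mpr
        ⟨by rw [map_mul, map_inv, map_pow, ly.q_t, one_pow, inv_one, one_mul]; exact hj.2,
          ly.mem_psiKer_mul (hidx _)⟩
      have h1 := hβin _ hmem
      rw [mul_smul, hD _ hj] at h1
      rw [h1, ← AlgEquiv.mul_apply, mul_inv_cancel_left]
    have hinj : Set.InjOn ej (Finset.range g.d : Set ℕ) := fun i hi j hj h => by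
      have h1 : ly.ψ g.s ^ i = ly.ψ g.s ^ j := by
        rw [← map_pow, ← map_pow, hidx (g.s ^ i), hidx (g.s ^ j)]
        exact congrArg (ly.ψ ly.t ^ ·) h
      exact pow_injOn_Iio_orderOf (by rw [hd]; exact Finset.mem_range.mp hi)
        (by rw [hd]; exact Finset.mem_range.mp hj) h1
    rw [← Finset.prod_congr rfl fun j _ => hterm j,
      ← Finset.prod_image (s := Finset.range g.d)
        (f := fun i => (ly.t ^ i) (β.fin ((ly.t ^ i)⁻¹ • A) : ℚ̄)) hinj]
    refine (Finset.prod_subset (fun i hi => ?_) fun i hin hi => ?_).symm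
    · obtain ⟨j, -, rfl⟩ := Finset.mem_image.mp hi
      exact Finset.mem_range.mpr (hlt _)
    · suffices hne : ¬ ∃ τ ∈ ly.field.fixingSubgroup, τ • A = (ly.t ^ i)⁻¹ • A by
        rw [hβout _ hne, Units.val_one, map_one]
      rintro ⟨τ, hτ, hτA⟩
      refine hi ?_
      have h1 : ly.t ^ i * τ ∈ D := ⟨MulAction.mem_stabilizer_iff.mpr (by
          rw [mul_smul, hτA, smul_inv_smul]),
        MonoidHom.mem_ker.mpr (by
          rw [map_mul, map_pow, ly.q_t, one_pow, one_mul]; exact (ly.mem_fix_field.mp hτ).1)⟩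
      obtain ⟨j, hj, hj'⟩ := g.rep _ h1
      have h2 : ly.ψ ((g.s ^ j)⁻¹ * (ly.t ^ i * τ)) = 1 := hj'.2
      rw [map_mul, map_mul, map_inv,
        (ly.mem_fix_field.mp hτ).2, mul_one, _root_.inv_mul_eq_one, hidx, map_pow] at h2
      exact Finset.mem_image.mpr ⟨j, Finset.mem_range.mpr hj, pow_injOn_Iio_orderOf
        (by rw [ly.ord]; exact hlt _) (by rw [ly.ord]; exact Finset.mem_range.mp hin) h2⟩
  · rw [hPfin, show (localPower (lv := lv) A m).fin B = 1 from
      restr_fin_of_neg (W := fun _ => False) hB, Units.val_one]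
    refine Finset.prod_eq_one fun i _ => ?_
    rw [hβlev _ fun ⟨σ, hσ, h⟩ => hB ⟨ly.t ^ i * σ, mul_mem (pow_mem
      (lv.mem_fix_field.mpr ly.q_t) i) hσ, by rw [mul_smul, h, smul_inv_smul]⟩,
      Units.val_one, map_one]

end Layer

end FLTAgent.PoitouTate
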