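import Fermat.Agent.PoitouTate.ThetaBase
import Fermat.Agent.PoitouTate.LayerFields
import Fermat.Agent.PoitouTate.LocalPower

/-!
# Classes of the units at unramified places

The units at an unramified place have trivial cohomology over the `p`-subgroups of the decomposition
group.  So equivariant maps into them are traces, and the classes dying in `C_S` pair to zero.
-/

set_option autoImplicit false
set_option linter.style.haveILetI false
set_option linter.unusedSectionVars false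
set_option linter.unusedVariables false
set_option maxHeartbeats 800000

noncomputable section

open scoped Pointwise

namespace FLTAgent.PoitouTate

open FLTAgent.TW FLTAgent.TW.Coh PreIdele

local notation "ℚ̄" => AlgebraicClosure ℚ
local notation "Γ" => (AlgebraicClosure ℚ ≃ₐ[ℚ] AlgebraicClosure ℚ)

variable {S T : Finset ℕ} {p : ℕ} [Fact p.Prime] {G : Type} [Group G]

namespace Level

variable (lv : Level S p G)

/-- The units at the orbit of a place. -/
def orbitUnits (A : Place) : AddSubgroup (lv.LocMod T) where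
  carrier := {x | (∀ B : Place, (lv.locVal x).fin B ∈ B.1.unitGroup) ∧
    (∀ B : Place, ¬ lv.inOrbit A B → (lv.locVal x).fin B = 1) ∧ (lv.locVal x).inf = 1}
  zero_mem' := ⟨fun _ => one_mem _, fun _ _ => rfl, rfl⟩
  add_mem' := fun {x y} hx hy => ⟨fun B => mul_mem (hx.1 B) (hy.1 B), fun B hB => by
    rw [locVal_add, fin_mul, hx.2.1 B hB, hy.2.1 B hB, one_mul], funext fun ι => by
    rw [locVal_add, PreIdele.inf_mul, hx.2.2, hy.2.2]; exact one_mul _⟩
  neg_mem' := fun {x} hx => ⟨fun B => inv_mem (hx.1 B), fun B hB => by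
    show ((lv.locVal x)⁻¹).fin B = 1
    rw [fin_inv, hx.2.1 B hB, inv_one], funext fun ι => by
    show ((lv.locVal x)⁻¹).inf ι = 1
    rw [inf_inv, hx.2.2]; exact inv_one⟩

/-- The units at `T`. -/
def unitsAt : AddSubgroup (lv.LocMod T) where
  carrier := {x | (∀ B : Place, (lv.locVal x).fin B ∈ B.1.unitGroup) ∧ (lv.locVal x).inf = 1}
  zero_mem' := ⟨fun _ => one_mem _, rfl⟩
  add_mem' := fun {x y} hx hy => ⟨fun B => mul_mem (hx.1 B) (hy.1 B), funext fun ι => by
    rw [locVal_add, PreIdele.inf_mul, hx.2, hy.2]; exact one_mul _⟩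
  neg_mem' := fun {x} hx => ⟨fun B => inv_mem (hx.1 B), funext fun ι => by
    show ((lv.locVal x)⁻¹).inf ι = 1
    rw [inf_inv, hx.2]; exact inv_one⟩

theorem smul_mem_unitsAt (g : G) {x : lv.LocMod T} (hx : x ∈ lv.unitsAt) :
    g • x ∈ lv.unitsAt := by
  rw [← lv.q_lift g]
  refine ⟨fun B => ?_, funext fun ι => by rw [inf_smul_locVal, hx.2]; rfl⟩
  rw [fin_smul_locVal]
  conv => arg 1; rw [← smul_inv_smul (lv.lift g) B, Place.coe_smul]
  exact unitGroup_smul.mpr (hx.1 _)

theorem smul_mem_orbitUnits {A : Place} {g : G} (hg : g ∈ lv.decGroup A) {x : lv.LocMod T}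
    (hx : x ∈ lv.orbitUnits A) : g • x ∈ lv.orbitUnits A := by
  refine ⟨(lv.smul_mem_unitsAt g (x := x) ⟨hx.1, hx.2.2⟩).1, fun B hB => ?_,
    (lv.smul_mem_unitsAt g (x := x) ⟨hx.1, hx.2.2⟩).2⟩
  obtain ⟨σ, hσ, rfl⟩ := lv.mem_decGroup.mp hg
  rw [fin_smul_locVal, hx.2.1, map_one]
  rintro ⟨τ, hτ, h⟩
  refine hB ⟨σ * τ * σ⁻¹, lv.mem_fix_field.mpr (by
    rw [map_mul, map_mul, lv.mem_fix_field.mp hτ, map_inv, mul_one, mul_inv_cancel]), ?_⟩
  rw [mul_smul, mul_smul, inv_smul_eq_iff.mpr hσ.symm, h, smul_inv_smul]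

theorem orbitUnits_ext {A : Place} {x y : lv.LocMod T} (hx : x ∈ lv.orbitUnits A)
    (hy : y ∈ lv.orbitUnits A) (h : (lv.locVal x).fin A = (lv.locVal y).fin A) : x = y := by
  refine lv.locVal_injective (PreIdele.ext (funext fun B => ?_) (hx.2.2.trans hy.2.2.symm))
  by_cases hB : lv.inOrbit A B
  · obtain ⟨σ, hσ, rfl⟩ := hB
    exact Units.ext (by
      rw [coe_smul_fin (lv.locVal_mem x).1 hσ, coe_smul_fin (lv.locVal_mem y).1 hσ, h])
  · rw [hx.2.1 B hB, hy.2.1 B hB]

/-- An element from a unit of the decomposition field. -/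
theorem exists_orbitUnit {A : Place} (hA : A.Over T) {u : ℚ̄} (hu : A.1.valuation u = 1)
    (hfix : ∀ σ ∈ Layer.decLevel lv A, σ u = u) :
    ∃ x : lv.LocMod T, x ∈ lv.orbitUnits A ∧ ((lv.locVal x).fin A : ℚ̄) = u := by
  have hu0 : u ≠ 0 := fun h0 => by simp [h0] at hu
  obtain ⟨β, hβ, hβinf, hout, hin⟩ := exists_orbit_idele lv.field A (Units.mk0 u hu0)
    fun σ h1 h2 => hfix σ ⟨MulAction.mem_stabilizer_iff.mpr h2, lv.mem_fix_field.mp h1⟩
  have hloc : β ∈ locIdeles T lv.field := ⟨hβ, fun B hB => hout B fun ⟨σ, _, h⟩ =>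
    hB (h ▸ hA.smul σ)⟩
  refine ⟨lv.locOf ⟨β, hloc⟩, ⟨fun B => ?_, hout, hβinf⟩, ?_⟩
  · show β.fin B ∈ B.1.unitGroup
    by_cases h : lv.inOrbit A B
    · obtain ⟨σ, hσ, rfl⟩ := h
      rw [show β.fin (σ • A) = Units.map (σ : ℚ̄ →* ℚ̄) (Units.mk0 u hu0) from
        Units.ext (hin σ hσ), Place.coe_smul]
      exact unitGroup_smul.mpr hu
    · rw [hout B h]; exact one_mem _
  · have h := hin 1 (one_mem _)
    rw [one_smul] at h
    exact h

/-- The component at `A` of a conjugate. -/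
theorem fin_smul_self {A : Place} {σ : Γ} (hσ : σ • A = A) (x : lv.LocMod T) :
    ((lv.locVal (lv.q σ • x)).fin A : ℚ̄) = σ ((lv.locVal x).fin A : ℚ̄) := by
  rw [fin_smul_locVal, inv_smul_eq_iff.mpr hσ.symm]
  rfl

variable {Y : Type} [AddCommGroup Y] [DistribMulAction G Y] [Module.Free ℤ Y] [Module.Finite ℤ Y]

/-- Over a `p`-subgroup of the decomposition group, equivariant maps into the units of an
unramified place are traces. -/
theorem exists_trace_orbitUnits [Fintype G] {A : Place} (hAT : A.Over T) (hAS : ¬ A.Over S)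
    (V : Subgroup G) [Fintype V] (hV : IsPGroup p V) (hVD : V ≤ lv.decGroup A)
    {f : Y →+ lv.LocMod T} (hf : f ∈ eqHom V Y (lv.LocMod T))
    (hfW : ∀ y, f y ∈ lv.orbitUnits A) : ∃ k : Y →+ lv.LocMod T, htrace V k = f := by
  classical
  haveI : Fact A.char.Prime := ⟨A.prime_char⟩
  haveI := lv.finite_field
  set D : Subgroup Γ := MulAction.stabilizer Γ A ⊓ V.comap lv.q with hDdef
  set D' : Subgroup Γ := Layer.decLevel lv A with hD'def
  have hD : ∀ σ ∈ D, σ • A = A := fun σ hσ => MulAction.mem_stabilizer_iff.mp hσ.1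
  have hle : D' ≤ D := fun σ hσ => ⟨hσ.1, Subgroup.mem_comap.mpr
    ((MonoidHom.mem_ker.mp hσ.2).symm ▸ one_mem V)⟩
  have hn : ∀ σ ∈ D', ∀ δ ∈ D, δ⁻¹ * σ * δ ∈ D' := fun σ hσ δ hδ =>
    ⟨Subgroup.mul_mem _ (Subgroup.mul_mem _ (Subgroup.inv_mem _ hδ.1) hσ.1) hδ.1,
      MonoidHom.mem_ker.mpr (by
        rw [map_mul, map_mul, MonoidHom.mem_ker.mp hσ.2, map_inv, mul_one, inv_mul_cancel])⟩
  obtain ⟨g⟩ := exists_frobGen (A := A) (D := D) (D' := D') hD lv.field
    (fun σ h1 h2 => ⟨MulAction.mem_stabilizer_iff.mpr h2, lv.mem_fix_field.mp h1⟩) hle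
    fun ι hι hιD => ⟨hιD.1, MonoidHom.mem_ker.mpr (lv.unramified A hAS ι hι)⟩
  -- the powers of the generator are the elements of `V`
  set τ : V := ⟨lv.q g.s, g.mem.2⟩ with hτdef
  have hker : ∀ j, τ ^ j = 1 ↔ g.s ^ j ∈ D' := fun j => by
    rw [Subtype.ext_iff, Subgroup.coe_pow, Subgroup.coe_one, hτdef, ← map_pow]
    exact ⟨fun h => ⟨(_root_.pow_mem g.mem j).1, h⟩, fun h => h.2⟩
  have hτord : orderOf τ = g.d := (orderOf_eq_iff g.d_pos).mpr
    ⟨(hker _).mpr g.pow_mem, fun j hj hj0 h => hj0.ne' (g.min j hj ((hker j).mp h))⟩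
  have hsurj : ∀ v : V, ∃ j < g.d, τ ^ j = v := fun v => by
    obtain ⟨σ, hσA, hσv⟩ := lv.mem_decGroup.mp (hVD v.2)
    obtain ⟨j, hj, h⟩ := g.rep σ ⟨MulAction.mem_stabilizer_iff.mpr hσA,
      Subgroup.mem_comap.mpr (hσv ▸ v.2)⟩
    refine ⟨j, hj, Subtype.ext ?_⟩
    have h2 : lv.q ((g.s ^ j)⁻¹ * σ) = 1 := MonoidHom.mem_ker.mp h.2
    rw [map_mul, map_inv, map_pow, _root_.inv_mul_eq_one] at h2
    rw [Subgroup.coe_pow, hτdef, h2, hσv]
  let ev : Fin g.d → V := fun j => τ ^ (j : ℕ)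
  have hev : Function.Bijective ev := ⟨fun i j h => Fin.ext
    (pow_injOn_Iio_orderOf (by rw [hτord]; exact i.2) (by rw [hτord]; exact j.2) h),
    fun v => let ⟨j, hj, h⟩ := hsurj v; ⟨⟨j, hj⟩, h⟩⟩
  obtain ⟨k, hk⟩ : ∃ k, g.d = p ^ k := by
    obtain ⟨k, hk⟩ := IsPGroup.iff_card.mp hV
    exact ⟨k, by rw [← hk, ← Nat.card_congr (Equiv.ofBijective ev hev), Nat.card_fin]⟩
  -- the module
  let W : AddSubgroup (lv.LocMod T) := lv.orbitUnits A
  letI : DistribMulAction V W :=
    { smul := fun v x => ⟨(v : G) • (x : lv.LocMod T), lv.smul_mem_orbitUnits (hVD v.2) x.2⟩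
      one_smul := fun x => Subtype.ext (one_smul G (x : lv.LocMod T))
      mul_smul := fun v w x => Subtype.ext (mul_smul (v : G) (w : G) (x : lv.LocMod T))
      smul_zero := fun v => Subtype.ext (smul_zero (v : G))
      smul_add := fun v x y => Subtype.ext (smul_add (v : G) (x : lv.LocMod T) y) }
  let val : W → ℚ̄ := fun x => ((lv.locVal (x : lv.LocMod T)).fin A : ℚ̄)
  have hval : ∀ x y, val x = val y → x = y := fun x y h =>
    Subtype.ext (lv.orbitUnits_ext x.2 y.2 (Units.ext h))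
  have hfix : ∀ x, ∀ σ ∈ D', σ (val x) = val x := fun x σ hσ => by
    have h := coe_smul_fin (lv.locVal_mem (x : lv.LocMod T)).1 (lv.mem_fix_field.mpr
      (MonoidHom.mem_ker.mp hσ.2)) (A := A)
    rw [MulAction.mem_stabilizer_iff.mp hσ.1] at h
    exact h.symm
  have hpow : ∀ (j : ℕ) x, val (τ ^ j • x) = (g.s ^ j) (val x) := fun j x => by
    show ((lv.locVal (((τ ^ j : V) : G) • (x : lv.LocMod T))).fin A : ℚ̄) = _
    rw [Subgroup.coe_pow, hτdef, ← map_pow]
    exact lv.fin_smul_self (hD _ (_root_.pow_mem g.mem j)) _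
  have hsum : ∀ x, val (∑ v : V, v • x) = g.norm (val x) := fun x => by
    show (Level.finHom A (lv.locVal ((∑ v : V, v • x : W) : lv.LocMod T)) : ℚ̄) = _
    rw [AddSubmonoidClass.coe_finsetSum, locVal_sum, map_prod, Units.coe_prod, FrobGen.norm,
      ← Fin.prod_univ_eq_prod_range (fun j => (g.s ^ j) (val x)) g.d]
    exact (Fintype.prod_bijective ev hev _ _ fun j => (hpow j x).symm).symm
  have hW0 : TraceSurj V W := fun x hx => by
    have hxfix : ∀ σ ∈ D, σ (val x) = val x := fun σ hσ => by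
      refine (lv.fin_smul_self (hD σ hσ) (x : lv.LocMod T)).symm.trans ?_
      exact congrArg val (hx ⟨lv.q σ, hσ.2⟩)
    obtain ⟨ζ, hζ⟩ := exists_primitiveRoot_qbar p
    obtain ⟨b, hb, hbfix, hN⟩ := g.exists_norm_eq (u := val x) hζ hle hD hn (fun σ hσ =>
      (IntermediateField.mem_fixingSubgroup_iff _ _).mp (lv.mem_fix_subField.mpr hσ.2) ζ
        (lv.containsMuP_subField hV ζ hζ.pow_eq_one)) hk (x.2.1 A) hxfix
    obtain ⟨y, hy, hyb⟩ := lv.exists_orbitUnit hAT hb hbfix
    refine ⟨⟨y, hy⟩, hval _ _ ?_⟩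
    rw [hsum, show val ⟨y, hy⟩ = b from hyb, hN]
  have hW1 : H1Zero V W := fun a ha => by
    have ha1 : a 1 = 0 := by
      have h := ha 1 1
      rw [one_mul, one_smul] at h
      exact left_eq_add.mp h
    have hprod : ∀ j, val (a (τ ^ j)) = ∏ i ∈ Finset.range j, (g.s ^ i) (val (a τ)) := fun j => by
      induction j with
      | zero => rw [pow_zero, ha1]; rfl
      | succ j ih =>
        rw [pow_succ, ha, Finset.prod_range_succ, ← ih, ← hpow]
        exact Units.val_mul _ _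
    obtain ⟨w, hw, hwfix, hwu⟩ := g.exists_div_eq (u := val (a τ)) hD hn ((a τ).2.1 A)
      (hfix (a τ)) (by
      rw [FrobGen.norm, ← hprod, ← hτord, pow_orderOf_eq_one, ha1]; rfl)
    obtain ⟨y, hy, hyb⟩ := lv.exists_orbitUnit hAT hw hwfix
    let z : W := ⟨y, hy⟩
    have hgen : a τ = τ • z - z := by
      refine eq_sub_of_add_eq (hval _ _ ?_)
      rw [← pow_one τ, hpow, pow_one, pow_one]
      show val (a τ) * val z = _
      have hw0 : w ≠ 0 := fun h0 => by simp [h0] at hw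
      rw [show val z = w from hyb]
      exact ((div_eq_iff hw0).mp hwu).symm
    refine ⟨z, fun v => ?_⟩
    obtain ⟨j, -, rfl⟩ := hsurj v
    induction j with
    | zero => rw [pow_zero, ha1, one_smul, sub_self]
    | succ j ih => rw [pow_succ, ha, ih, hgen, smul_sub, mul_smul]; abel
  let f' : Y →+ W := f.codRestrict W hfW
  obtain ⟨k', hk'⟩ := exists_trace_eq hV hW1 hW0 (f := f') fun v y => Subtype.ext (hf v y)
  refine ⟨W.subtype.comp k', ?_⟩
  rw [htrace_comp_left (fun v x => rfl), hk']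
  rfl

end Level

namespace CoverOn

variable [Fintype G] {lv : Level S p G} {ly : Layer lv} (C : CoverOn ly) {N : Type}
  [AddCommGroup N] [DistribMulAction G N] [Finite N]

/-- The classes of units at primes outside `S` pair to zero. -/
theorem pairC_units (hN : ∀ m : N, p • m = 0) (hT : ∀ r ∈ T, r.Prime) (hTS : ∀ r ∈ T, r ∉ S)
    (f : eqHom G (Coh.Rel G N) (lv.LocMod T)) (hf : ∀ y, f.1 y ∈ lv.unitsAt)
    (a : crossed G N) :
    C.pairC hN (Ext1.map (lv.toCl T ly.places) (lv.toCl_mem T ly.places) (Ext1.mk f)) a = 0 := by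
  classical
  have hex : ∀ r : T, ∃ A : Place, A.1.LiesOverPrime r := fun r => by
    obtain ⟨A, hA⟩ := GalCommon.exists_liesOverPrime (hT _ r.2)
    exact ⟨⟨A, r, hT _ r.2, hA⟩, hA⟩
  choose Aof hA using hex
  set j := lv.toCl T ly.places with hj
  have hjm : j ∈ eqHom G (lv.LocMod T) (lv.Cl ly.places) := lv.toCl_mem T ly.places
  have hloc : ∀ r : T, j.comp ((lv.placeProj (Aof r)).comp f.1) ∈
      eqHom (lv.decGroup (Aof r)) (Coh.Rel G N) (lv.Cl ly.places) := fun r =>
    comp_mem_eqHom (fun v x => hjm (v : G) x) (lv.placeProj_comp_mem (Aof r) f.2)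
  have hinfP : lv.infinitePart.comp f.1 = 0 := AddMonoidHom.ext fun y =>
    lv.locVal_injective (PreIdele.ext (funext fun B => lv.locVal_infinitePart_fin _ B)
      (funext fun ι => (lv.locVal_infinitePart_inf _ ι).trans (congrFun (hf y).2 ι)))
  have hmk : Ext1.map j hjm (Ext1.mk f) = ∑ r : T, Ext1.mk
      (⟨cotrace (lv.decGroup (Aof r)) (j.comp ((lv.placeProj (Aof r)).comp f.1)),
        cotrace_mem _ (hloc r)⟩ : eqHom G (Coh.Rel G N) (lv.Cl ly.places)) := by
    rw [← map_sum, Ext1.map_mk]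
    refine congrArg Ext1.mk (Subtype.ext ?_)
    rw [AddSubgroup.val_finsetSum]
    simp only [cotrace_comp_left _ hjm]
    conv_lhs => rw [lv.eq_sum_cotrace hT Aof hA f.2, hinfP, add_zero]
    refine AddMonoidHom.ext fun y => ?_
    simp only [AddMonoidHom.comp_apply, AddMonoidHom.finsetSum_apply, map_sum]
  rw [hmk, map_sum, AddMonoidHom.finsetSum_apply]
  refine Finset.sum_eq_zero fun r _ => ?_
  set D := lv.decGroup (Aof r) with hDdef
  have hAT : (Aof r).Over T := ⟨_, r.2, hT _ r.2, hA r⟩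
  have hAS : ¬ (Aof r).Over S := fun ⟨s, hs, hsp, hAs⟩ => hTS _ r.2
    ((((Aof r).char_eq hsp hAs).symm.trans ((Aof r).char_eq (hT _ r.2) (hA r))) ▸ hs)
  obtain ⟨V, hVD, hV, hidx⟩ := exists_sylow_le p D
  haveI : Fintype V := Fintype.ofFinite _
  haveI : Module.Free ℤ (Coh.Rel G N) := free_addSubgroup _
  haveI : Module.Finite ℤ (Coh.Rel G N) :=
    Module.Finite.equiv (M := AddSubgroup.toIntSubmodule (Coh.Rel G N)) (N := Coh.Rel G N)
      (AddEquiv.refl (Coh.Rel G N) :
        (AddSubgroup.toIntSubmodule (Coh.Rel G N)) ≃+ Coh.Rel G N).toIntLinearEquiv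
  have hh : (lv.placeProj (Aof r)).comp f.1 ∈ eqHom V (Coh.Rel G N) (lv.LocMod T) := fun v y =>
    lv.placeProj_comp_mem (Aof r) f.2 ⟨v, hVD v.2⟩ y
  have hhW : ∀ y, lv.placeProj (Aof r) (f.1 y) ∈ lv.orbitUnits (Aof r) := fun y => by
    refine ⟨fun B => ?_, fun B hB => restr_fin_of_neg (W := fun _ => False) hB,
      funext fun ι => restr_inf_of_neg not_false⟩
    rw [Level.locVal_placeProj, Level.orbitRestr]
    by_cases h : lv.inOrbit (Aof r) B
    · rw [restr_fin_of_pos h]; exact (hf y).1 B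
    · rw [restr_fin_of_neg h]; exact one_mem _
  obtain ⟨k, hk⟩ := lv.exists_trace_orbitUnits hAT hAS V hV hVD hh hhW
  refine eq_zero_of_coprime_nsmul hidx ?_
  rw [← AddMonoidHom.nsmul_apply, ← map_nsmul, ← map_nsmul]
  refine Eq.trans ?_ (C.pairC_trace hN (j.comp k) a)
  refine congrArg (fun e => C.pairC hN (Ext1.mk e) a) (Subtype.ext ?_)
  show V.relIndex D • cotrace D _ = htrace G (j.comp k)
  rw [← cotrace_eq_relIndex_nsmul hVD (hloc r), cotrace_comp_left V hjm, ← hk, cotrace_htrace,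
    htrace_comp_left hjm]

/-- The classes dying in `C_S` pair to zero. -/
theorem pairC_ker_changeT (hN : ∀ m : N, p • m = 0) (e : Coh.Ext1 G N (lv.Cl ly.places))
    (he : Coh.Ext1.map (lv.changeT ly.subset_places) (lv.changeT_mem _) e = 0) (a : crossed G N) :
    C.pairC hN e a = 0 := by
  classical
  induction e using Ext1.induction with
  | _ f =>
    rw [Ext1.map_mk, Ext1.mk_eq_zero_iff] at he
    obtain ⟨⟨D, hD⟩, hDf⟩ := he
    choose φ hφ using fun m : N =>
      lv.changeT_surjective ly.subset_places (D (Free.of 1 m))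
    have hlift : (lv.changeT ly.subset_places).comp (Free.eqLift (G := G) φ) = D :=
      Free.hom_ext fun g m => by
        rw [AddMonoidHom.comp_apply, Free.eqLift_of, lv.changeT_mem, hφ, ← hD, Free.smul_of,
          mul_one]
    let R : eqHom G (Coh.Rel G N) (lv.Cl ly.places) :=
      restrictRel G N _ ⟨Free.eqLift φ, Free.eqLift_mem φ⟩
    -- the units at the auxiliary prime
    set j := lv.toCl {ly.ell} ly.places with hj
    have hjm : j ∈ eqHom G (lv.LocMod {ly.ell}) (lv.Cl ly.places) := lv.toCl_mem _ _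
    have hinj : ∀ x ∈ lv.unitsAt, ∀ y ∈ lv.unitsAt, j x = j y → x = y := fun x hx y hy h => by
      have hd := (lv.unitsAt (T := {ly.ell})).sub_mem hx hy
      refine sub_eq_zero.mp ?_
      have h0 : j (x - y) = 0 := by rw [map_sub, h, sub_self]
      rw [hj, Level.toCl_apply, Level.classOf_eq_zero_iff] at h0
      obtain ⟨_, ⟨c, -, rfl⟩, v, hv, hcv⟩ := Subgroup.mem_sup.mp h0
      have hc : c = 1 := eq_of_inf_eq (funext fun ι => by
        have h2 : (principalHom c * v).inf ι = (lv.locVal (x - y)).inf ι := by rw [hcv]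
        rw [PreIdele.inf_mul, hv.1.2.2, hd.2, Pi.one_apply, mul_one] at h2
        rw [h2, map_one]; rfl)
      rw [hc, map_one, one_mul] at hcv
      refine lv.locVal_injective (PreIdele.ext (funext fun B => ?_) (hd.2.trans rfl))
      rw [Level.locVal_zero, fin_one]
      by_cases hB : B.Over {ly.ell}
      · rw [← (show v = lv.locVal (x - y) from hcv)]
        exact hv.1.2.1 B (over_mono (Finset.singleton_subset_iff.mpr ly.ell_mem) hB)
      · exact (lv.locVal_mem (x - y)).2 B hB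
    have hker : ∀ y : Coh.Rel G N, ∃ x ∈ lv.unitsAt (T := {ly.ell}),
        j x = (f - R).1 y := fun y => by
      have h0 : lv.changeT ly.subset_places ((f - R).1 y) = 0 := by
        show lv.changeT _ (f.1 y - Free.eqLift φ y.1) = 0
        rw [map_sub, ← AddMonoidHom.comp_apply (lv.changeT _) (Free.eqLift φ), hlift]
        exact sub_eq_zero.mpr (hDf y).symm
      obtain ⟨ψ, hψ⟩ := lv.classOf_surjective _ ((f - R).1 y)
      rw [← hψ, Level.changeT_classOf, Level.classOf_eq_zero_iff] at h0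
      obtain ⟨_, ⟨c, hc, rfl⟩, v, hv, hcv⟩ := Subgroup.mem_sup.mp h0
      set w := restrIdele (fun B : Place => B.Over {ly.ell}) (fun _ => False) v with hwdef
      have hw : w ∈ locIdeles {ly.ell} lv.field :=
        ⟨restr_mem_ideles hv.1.1 (fun _ _ _ => Place.over_smul_iff) (fun _ _ _ => Iff.rfl)
          (fun _ => Iff.rfl), fun B hB => restr_fin_of_neg (W := fun _ => False) hB⟩
      refine ⟨lv.locOf ⟨w, hw⟩, ⟨fun B => ?_, funext fun ι => restr_inf_of_neg not_false⟩, ?_⟩
      · show w.fin B ∈ B.1.unitGroup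
        rw [hwdef]
        by_cases h : B.Over {ly.ell}
        · rw [restr_fin_of_pos (W := fun _ => False) h]; exact hv.2 B
        · rw [restr_fin_of_neg (W := fun _ => False) h]; exact one_mem _
      rw [← hψ, hj, Level.toCl_apply, Level.classOf_eq_iff]
      show w / ψ.1 ∈ _
      rw [← hcv, div_mul_eq_div_div_swap]
      refine div_mem ?_ (Subgroup.mem_sup_left ⟨c, hc, rfl⟩)
      refine Subgroup.mem_sup_right ⟨⟨div_mem hw.1 hv.1.1, fun B hB => ?_, ?_⟩, fun B => ?_⟩
      · show w.fin B / v.fin B = 1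
        rw [hwdef]
        by_cases h : B.Over {ly.ell}
        · rw [restr_fin_of_pos (W := fun _ => False) h, div_self']
        · rw [restr_fin_of_neg (W := fun _ => False) h, hv.1.2.1 B ?_, div_one]
          obtain ⟨r, hr, hrp, hBr⟩ := hB
          rcases Finset.mem_insert.mp hr with rfl | hr
          · exact absurd ⟨_, Finset.mem_singleton_self _, hrp, hBr⟩ h
          · exact ⟨r, hr, hrp, hBr⟩
      · show w.inf / v.inf = 1
        rw [hv.1.2.2, show w.inf = 1 from funext fun ι => restr_inf_of_neg not_false, div_one]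
      · show w.fin B / v.fin B ∈ B.1.unitGroup
        refine div_mem ?_ (hv.2 B)
        rw [hwdef]
        by_cases h : B.Over {ly.ell}
        · rw [restr_fin_of_pos (W := fun _ => False) h]; exact hv.2 B
        · rw [restr_fin_of_neg (W := fun _ => False) h]; exact one_mem _
    choose F₀ hF₀ hjF₀ using hker
    let F : Coh.Rel G N →+ lv.LocMod {ly.ell} := AddMonoidHom.mk' F₀ fun y y' =>
      hinj _ (hF₀ _) _ (add_mem (hF₀ y) (hF₀ y')) (by
        rw [map_add, hjF₀, hjF₀, hjF₀, map_add])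
    have hF : F ∈ eqHom G (Coh.Rel G N) (lv.LocMod {ly.ell}) := fun g y =>
      hinj _ (hF₀ _) _ (lv.smul_mem_unitsAt g (hF₀ y)) (by
        show j (F₀ (g • y)) = j (g • F₀ y)
        rw [hjm, hjF₀, hjF₀]
        exact (f - R).2 g y)
    have hclass : Ext1.mk f = Ext1.map j hjm (Ext1.mk ⟨F, hF⟩) := by
      rw [Ext1.map_mk, ← sub_eq_zero, ← map_sub, Ext1.mk_eq_zero_iff]
      refine ⟨⟨Free.eqLift φ, Free.eqLift_mem φ⟩, fun y => ?_⟩
      show Free.eqLift φ y.1 = f.1 y - j (F₀ y)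
      rw [hjF₀]
      show Free.eqLift φ y.1 = f.1 y - (f.1 y - Free.eqLift φ y.1)
      abel
    rw [hclass]
    exact C.pairC_units hN (fun r hr => Finset.mem_singleton.mp hr ▸ ly.prime)
      (fun r hr => Finset.mem_singleton.mp hr ▸ ly.not_mem) ⟨F, hF⟩ hF₀ a

end CoverOn

end FLTAgent.PoitouTate
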