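import Fermat.Agent.PoitouTate.LocalPower
import Fermat.Agent.PoitouTate.UnitsEll

/-!
# The local units of the layer

The two facts about local units which the comparison of the pairings uses, restated from
`LocalPower` and `UnitsEll`: the local power is a norm from the components of the layer field
(`exists_norm_localPower`), and the classes dying in `C_S` pair to zero (`pairC_ker_changeT`).
-/

set_option autoImplicit false
set_option linter.unusedVariables false
set_option linter.unusedSectionVars false

noncomputable section

open scoped Pointwise

namespace FLTAgent.PoitouTate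

open FLTAgent.TW

variable {S : Finset ℕ} {p : ℕ} [Fact p.Prime] {G : Type} [Group G] [Fintype G] {lv : Level S p G}
  (ly : Layer lv)

/-- The local power is a norm from the component of the layer field. -/
theorem exists_norm_localPower (A : Place) (hA : A.Over S) (V : Subgroup G) (m : ℕ)
    (hV : IsPGroup p V) (hVD : V ≤ lv.decGroup A)
    (hidx : (V.relIndex (lv.decGroup A)).Coprime p) (hm : m * Nat.card V = sylowDeg p G) :
    ∃ β : PreIdele, β ∈ ideles ly.field ∧ (∀ B : Place, ¬ lv.inOrbit A B → β.fin B = 1) ∧
      β.inf = 1 ∧
      ∏ i ∈ Finset.range (sylowDeg p G), (ly.t ^ i) • β = Layer.localPower (lv := lv) A m :=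
  ly.exists_norm_localPower A hA V m hVD hm

/-- The classes dying in `C_S` pair to zero. -/
theorem pairC_ker_changeT {N : Type} [AddCommGroup N] [DistribMulAction G N] [Finite N]
    (C : CoverOn ly) (hN : ∀ m : N, p • m = 0) (e : Coh.Ext1 G N (lv.Cl ly.places))
    (he : Coh.Ext1.map (lv.changeT ly.subset_places) (lv.changeT_mem _) e = 0) (a : crossed G N) :
    C.pairC hN e a = 0 :=
  C.pairC_ker_changeT hN e he a

end FLTAgent.PoitouTate
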