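import Fermat.Agent.PoitouTate.ThetaBase
import Fermat.Agent.PoitouTate.Units
import Fermat.Agent.PoitouTate.LayerFields

/-!
# Classes supported at one place of the level

The component of the layer at a place of `S` satisfies Hilbert 90 for the generator of the layer.
With the local form of the generating class this gives, for a `p`-subgroup of the decomposition
group, local classes with every prescribed vector supported on that subgroup.
-/

set_option autoImplicit false
set_option maxHeartbeats 1000000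
set_option linter.style.haveILetI false
set_option linter.unusedSectionVars false

noncomputable section

open scoped Pointwise

namespace FLTAgent.PoitouTate

open FLTAgent.TW FLTAgent.TW.Coh PreIdele

local notation "ℚ̄" => AlgebraicClosure ℚ
local notation "Γ" => (AlgebraicClosure ℚ ≃ₐ[ℚ] AlgebraicClosure ℚ)

variable {S : Finset ℕ} {p : ℕ} {G : Type} [Group G] {lv : Level S p G}

theorem Level.inOrbit_smul_dec {A : Place} {σ : Γ} (hσ : lv.q σ ∈ lv.decGroup A) (B : Place) :
    lv.inOrbit A (σ • B) ↔ lv.inOrbit A B := by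
  obtain ⟨σ', hσ', he⟩ := lv.mem_decGroup.mp hσ
  constructor
  · rintro ⟨ρ, hρ, h⟩
    exact ⟨σ⁻¹ * ρ * σ', lv.mem_fix_field.mpr (by
      rw [map_mul, map_mul, map_inv, lv.mem_fix_field.mp hρ, he, mul_one, inv_mul_cancel]),
      by rw [mul_smul, mul_smul, hσ', h, inv_smul_smul]⟩
  · rintro ⟨ρ, hρ, h⟩
    exact ⟨σ * ρ * σ'⁻¹, lv.mem_fix_field.mpr (by
      rw [map_mul, map_mul, map_inv, lv.mem_fix_field.mp hρ, he, mul_one, mul_inv_cancel]),
      by rw [mul_smul, mul_smul, inv_smul_eq_iff.mpr hσ'.symm, h]⟩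

theorem Level.over_of_inOrbit {T : Finset ℕ} {A B : Place} (hA : A.Over T)
    (h : lv.inOrbit A B) : B.Over T := by
  obtain ⟨σ, -, rfl⟩ := h; exact hA.smul σ

namespace Layer

variable (ly : Layer lv)

theorem smul_congr_field {σ τ : Γ} (h1 : lv.q σ = lv.q τ) (h2 : ly.ψ σ = ly.ψ τ) {φ : PreIdele}
    (hφ : φ ∈ ideles ly.field) : σ • φ = τ • φ := by
  have h := hφ.1 _ (ly.mem_fix_of_eq (σ := τ⁻¹ * σ) (by rw [map_mul, map_inv, h1, inv_mul_cancel])
    (by rw [map_mul, map_inv, h2, inv_mul_cancel]))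
  calc σ • φ = (τ * (τ⁻¹ * σ)) • φ := by rw [mul_inv_cancel_left]
    _ = τ • φ := by rw [mul_smul, h]

theorem mem_ideles_level {z : PreIdele} (hz : z ∈ ideles ly.field) (ht : ly.t • z = z) :
    z ∈ ideles lv.field := by
  refine ⟨fun σ hσ => ?_, hz.2⟩
  obtain ⟨i, -, hi⟩ := ly.gen σ
  rw [ly.smul_congr_field (τ := ly.t ^ i)
    (by rw [lv.mem_fix_field.mp hσ, map_pow, ly.q_t, one_pow]) (by rw [map_pow, hi]) hz]
  clear hi
  induction i with
  | zero => rw [pow_zero, one_smul]
  | succ i ih => rw [pow_succ, mul_smul, ht, ih]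

theorem smul_localPower {A : Place} {σ : Γ} (hσ : lv.q σ ∈ lv.decGroup A) (m : ℕ) :
    σ • localPower (lv := lv) A m = localPower (lv := lv) A m := by
  have hiff := fun B => Level.inOrbit_smul_dec (lv := lv) (σ := σ⁻¹)
    (by rw [map_inv]; exact inv_mem hσ : lv.q σ⁻¹ ∈ lv.decGroup A) B
  refine PreIdele.ext (funext fun B => Units.ext ?_) (funext fun ι => ?_)
  · rw [coe_fin_smul]
    simp only [localPower, Level.orbitRestr]
    by_cases h : lv.inOrbit A B
    · rw [restr_fin_of_pos h, restr_fin_of_pos ((hiff B).mpr h)]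
      show σ (((Units.mk0 (A.char : ℚ̄) _ ^ m : ℚ̄ˣ)) : ℚ̄) = ((Units.mk0 (A.char : ℚ̄) _ ^ m : ℚ̄ˣ) : ℚ̄)
      simp only [Units.val_pow_eq_pow_val, Units.val_mk0, map_pow, map_natCast]
    · rw [restr_fin_of_neg h, restr_fin_of_neg (mt (hiff B).mp h), Units.val_one, map_one]
  · rw [inf_smul]
    simp only [localPower, Level.orbitRestr]
    rw [restr_inf_of_neg not_false, restr_inf_of_neg not_false]

theorem inf_smul_eq_one {φ : PreIdele} (h : φ.inf = 1) (σ : Γ) : (σ • φ).inf = 1 :=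
  funext fun ι => by rw [inf_smul, h]; rfl

theorem smul_fin_eq_one {φ : PreIdele} {σ : Γ} {B : Place} (h : φ.fin (σ⁻¹ • B) = 1) :
    (σ • φ).fin B = 1 := Units.ext (by rw [coe_fin_smul, h, Units.val_one, map_one])

end Layer

section Root

variable [Fact p.Prime] (ly : Layer lv)

/-- Hilbert 90 for the layer in the component at a place. -/
theorem exists_semilocal_root (A : Place) (e : PreIdele) (he : e ∈ ideles ly.field)
    (hsupp : ∀ B : Place, ¬ lv.inOrbit A B → e.fin B = 1) (hinf : e.inf = 1)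
    (hnorm : ∏ i ∈ Finset.range (sylowDeg p G), (ly.t ^ i) • e = 1) :
    ∃ y : PreIdele, y ∈ ideles ly.field ∧ (∀ B : Place, ¬ lv.inOrbit A B → y.fin B = 1) ∧
      y.inf = 1 ∧ ly.t • y / y = e := by
  classical
  set n := sylowDeg p G with hn
  let P : ℕ → PreIdele := fun i => ∏ j ∈ Finset.range i, ly.t ^ j • e
  have hP : ∀ i, P i ∈ ideles ly.field := fun i => prod_mem fun j _ => smul_mem_ideles _ he
  have hPs : ∀ i, P (i + 1) = e * ly.t • P i := fun i => by
    simp only [P, Finset.smul_prod', smul_smul, ← pow_succ']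
    rw [Finset.prod_range_succ', pow_zero, one_smul, mul_comm]
  have htn : ly.t ^ n ∈ ly.field.fixingSubgroup :=
    ly.mem_fix_of_eq (by rw [map_pow, ly.q_t, one_pow]) (by rw [map_pow, ly.psi_t_pow])
  -- an element with nonzero sum at `A`
  obtain ⟨θ, hθ, hθA⟩ : ∃ θ ∈ ly.field,
      ∑ i ∈ Finset.range n, ((P i).fin A : ℚ̄) * (ly.t ^ i) θ ≠ 0 := by
    by_contra hall
    push Not at hall
    let χ : Fin n → (ly.field →* ℚ̄) := fun i =>
      ((ly.t ^ (i : ℕ) : Γ) : ℚ̄ →* ℚ̄).comp (ly.field.val : ly.field →* ℚ̄)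
    have hχ : Function.Injective χ := fun i j h => by
      have h1 : (ly.t ^ (j : ℕ))⁻¹ * ly.t ^ (i : ℕ) ∈ ly.field.fixingSubgroup := by
        rw [IntermediateField.mem_fixingSubgroup_iff]
        intro x hx
        have h2 : (ly.t ^ (i : ℕ)) x = (ly.t ^ (j : ℕ)) x := DFunLike.congr_fun h ⟨x, hx⟩
        rw [AlgEquiv.mul_apply, h2, ← AlgEquiv.mul_apply, inv_mul_cancel, AlgEquiv.one_apply]
      rw [ly.mem_fix_field, map_mul ly.ψ, map_inv, _root_.inv_mul_eq_one, map_pow, map_pow] at h1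
      refine Fin.ext (pow_injOn_Iio_orderOf (x := ly.ψ ly.t) ?_ ?_ h1.2.symm)
      · rw [ly.ord]; exact i.2
      · rw [ly.ord]; exact j.2
    have h0 := Fintype.linearIndependent_iff.mp
      ((linearIndependent_monoidHom ly.field ℚ̄).comp χ hχ) (fun i => ((P i).fin A : ℚ̄))
      (funext fun x => by
        simp only [Finset.sum_apply, Pi.smul_apply, smul_eq_mul, Function.comp_apply, Pi.zero_apply]
        exact (Fin.sum_univ_eq_sum_range
          (fun i => ((P i).fin A : ℚ̄) * (ly.t ^ i) (x : ℚ̄)) n).trans (hall x x.2))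
      ⟨0, pow_pos (Fact.out : p.Prime).pos _⟩
    exact Units.ne_zero _ h0
  let Y : Place → ℚ̄ := fun B => ∑ i ∈ Finset.range n, ((P i).fin B : ℚ̄) * (ly.t ^ i) θ
  have hrec : ∀ B, Y B = (e.fin B : ℚ̄) * ly.t (Y (ly.t⁻¹ • B)) := fun B => by
    let f : ℕ → ℚ̄ := fun i => ((P i).fin B : ℚ̄) * (ly.t ^ i) θ
    have h1 : (e.fin B : ℚ̄) * ly.t (Y (ly.t⁻¹ • B)) = ∑ i ∈ Finset.range n, f (i + 1) := by
      simp only [Y, map_sum, map_mul, Finset.mul_sum]
      refine Finset.sum_congr rfl fun i _ => ?_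
      simp only [f, hPs, pow_succ', AlgEquiv.mul_apply, fin_mul, Units.val_mul, coe_fin_smul,
        mul_assoc]
    have h2 : f n = f 0 := by
      simp only [f, pow_zero]
      rw [show P n = 1 from hnorm, show P 0 = 1 from Finset.prod_range_zero _,
        (IntermediateField.mem_fixingSubgroup_iff _ _).mp htn θ hθ, AlgEquiv.one_apply]
    have h3 := Finset.sum_range_succ f n
    rw [Finset.sum_range_succ', h2, add_left_inj] at h3
    rw [h1, h3]
  have hfix : ∀ σ ∈ ly.field.fixingSubgroup, ∀ B, Y (σ • B) = σ (Y B) := fun σ hσ B => by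
    simp only [Y, map_sum, map_mul]
    refine Finset.sum_congr rfl fun i _ => ?_
    rw [coe_smul_fin (hP i) hσ,
      (IntermediateField.mem_fixingSubgroup_iff _ σ).mp hσ _ (mem_of_normal (ly.t ^ i) hθ)]
  have hpow : ∀ j : ℕ, Y (ly.t ^ j • A) ≠ 0 := fun j => by
    induction j with
    | zero => rw [pow_zero, one_smul]; exact hθA
    | succ j ih =>
      rw [hrec, pow_succ', mul_smul, inv_smul_smul]
      exact mul_ne_zero (Units.ne_zero _) ((map_ne_zero _).mpr ih)
  have hne : ∀ B, lv.inOrbit A B → Y B ≠ 0 := fun B ⟨σ, hσ, hB⟩ => by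
    obtain ⟨j, -, hj⟩ := ly.gen σ
    have h1 : σ * (ly.t ^ j)⁻¹ ∈ ly.field.fixingSubgroup := ly.mem_fix_of_eq
      (by rw [map_mul, map_inv, map_pow, ly.q_t, one_pow, inv_one, mul_one,
        lv.mem_fix_field.mp hσ])
      (by rw [map_mul, map_inv, map_pow, hj, mul_inv_cancel])
    rw [← hB, show σ • A = (σ * (ly.t ^ j)⁻¹) • ly.t ^ j • A by
      rw [smul_smul, inv_mul_cancel_right], hfix _ h1]
    exact (map_ne_zero _).mpr (hpow j)
  let y : PreIdele := ⟨fun B =>
    if h : lv.inOrbit A B then (Units.mk0 (Y B) (hne B h))⁻¹ else 1, 1⟩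
  have hy1 : ∀ B, lv.inOrbit A B → (y.fin B : ℚ̄) = (Y B)⁻¹ := fun B h => by
    simp only [y, dif_pos h, Units.val_inv_eq_inv_val, Units.val_mk0]
  have hy0 : ∀ B, ¬ lv.inOrbit A B → y.fin B = 1 := fun B h => by simp only [y, dif_neg h]
  have hyF : y ∈ ideles ly.field := by
    refine ⟨fun σ hσ => PreIdele.ext (funext fun B => Units.ext ?_) (funext fun ι => rfl),
      fun ι => by simp [y], {A.char}, fun B hB => ?_⟩
    · rw [coe_fin_smul]
      have hq : σ⁻¹ ∈ lv.field.fixingSubgroup :=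
        lv.mem_fix_field.mpr (by rw [map_inv, (ly.mem_fix_field.mp hσ).1, inv_one])
      by_cases h : lv.inOrbit A B
      · rw [hy1 B h, hy1 _ ((lv.inOrbit_smul hq B).mpr h), map_inv₀, ← hfix σ hσ, smul_inv_smul]
      · rw [hy0 B h, hy0 _ (mt (lv.inOrbit_smul hq B).mp h), Units.val_one, map_one]
    · rw [hy0 B fun h => hB (Level.over_of_inOrbit
        ⟨A.char, Finset.mem_singleton_self _, A.prime_char, A.liesOver_char⟩ h)]
      exact one_mem _
  refine ⟨y, hyF, hy0, rfl, div_eq_iff_eq_mul.mpr (PreIdele.ext (funext fun B => Units.ext ?_)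
    (funext fun ι => ?_))⟩
  · rw [coe_fin_smul, fin_mul, Units.val_mul]
    have hq : ly.t⁻¹ ∈ lv.field.fixingSubgroup :=
      lv.mem_fix_field.mpr (by rw [map_inv, ly.q_t, inv_one])
    by_cases h : lv.inOrbit A B
    · have h' := (lv.inOrbit_smul hq B).mpr h
      rw [hy1 B h, hy1 _ h', map_inv₀, hrec B, mul_inv, ← mul_assoc,
        mul_inv_cancel₀ (Units.ne_zero _), one_mul]
    · rw [hy0 B h, hy0 _ (mt (lv.inOrbit_smul hq B).mp h), hsupp B h, Units.val_one, map_one,
        mul_one]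
  · rw [PreIdele.inf_mul, hinf, inf_smul]
    simp [y]

end Root

section Vec

variable [Fintype G] [Fact p.Prime] {n : ℕ} {B : Type} [AddCommGroup B] [DistribMulAction G B]
  (D : CoverData G p n B) {N : Type} [AddCommGroup N] [DistribMulAction G N]
  (hN : ∀ m : N, p • m = 0) {M : Type} [AddCommGroup M] [DistribMulAction G M]

/-- Elements of the extension with lattice parts `u (g - 1)`, closed up to a submodule, give
induced classes with every vector of sum and trace zero supported on `V`. -/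
theorem exists_cotrace_vec (i : M →+ D.classes) (hi : i ∈ eqHom G M D.classes) (V : Subgroup G)
    (L : AddSubgroup M) (hL : ∀ g ∈ V, ∀ x ∈ L, g • x ∈ L) (hinj : ∀ x ∈ L, i x = 0 → x = 0)
    (u : ℤ) (hu : ¬ (p : ℤ) ∣ u) (w : V → D.cover)
    (hw : ∀ g : V, D.latt (w g) = u • (delta1 (g : G) - delta1 1))
    (hz : ∀ g h : V, ∃ x ∈ L, w g + (g : G) • w h - w (g * h) = D.inclA (i x))
    (ψ : G → (N →+ ZMod p)) (hψ : ∀ x, x ∉ V → ψ x = 0) (hsum : ∑ x : G, ψ x = 0)
    (htr : ∀ m : N, ∑ σ : G, ψ σ (σ • m) = 0) :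
    ∃ (f : Coh.Rel G N →+ M) (hf : f ∈ eqHom V (Coh.Rel G N) M) (k : Coh.Rel G N →+ D.cover),
      latVec D hN k = ψ ∧
        Ext1.map D.inclA D.inclA_mem (Ext1.map i hi (Ext1.mk ⟨cotrace V f, cotrace_mem V hf⟩)) =
          Ext1.mk ⟨htrace G k, htrace_mem k⟩ := by
  classical
  haveI : Fintype V := Fintype.ofFinite _
  have hp0 : (p : ℤ) ≠ 0 := Int.natCast_ne_zero.mpr (Fact.out : p.Prime).ne_zero
  have hu0 : u ≠ 0 := fun h => hu (h ▸ dvd_zero _)
  have hwd : ∀ (g : V) (x : G), ((D.latt (w g)) x : ℤ) =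
      u * ((if x = (g : G) then 1 else 0) - if x = 1 then 1 else 0) := fun g x => by
    have hd : ∀ h : G, (delta1 h : TrivMod G) x = (if x = h then 1 else 0 : ℤ) := fun h => by
      show (Pi.single h 1 : G → ℤ) x = _
      simp [Pi.single_apply]
    rw [hw, ← hd, ← hd]
    rfl
  -- the subgroup generated by the `w g` and the local classes
  let Φ : ((V → ℤ) × L) →+ D.cover := AddMonoidHom.mk'
    (fun c => (∑ h : V, c.1 h • w h) + D.inclA (i c.2.1)) fun c c' => by
      simp only [Prod.fst_add, Prod.snd_add, Pi.add_apply, add_smul, Finset.sum_add_distrib,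
        AddSubgroup.coe_add, map_add]
      abel
  have hjW : ∀ x ∈ L, D.inclA (i x) ∈ Φ.range := fun x hx => ⟨(0, ⟨x, hx⟩), by simp [Φ]⟩
  have hwW : ∀ g : V, w g ∈ Φ.range := fun g =>
    ⟨(Pi.single g 1, 0), by simp [Φ, Pi.single_apply, ite_smul]⟩
  have hstab : ∀ g : V, ∀ v ∈ Φ.range, (g : G) • v ∈ Φ.range := by
    rintro g _ ⟨⟨c, x⟩, rfl⟩
    show (g : G) • (∑ h : V, c h • w h + D.inclA (i x.1)) ∈ Φ.range
    rw [smul_add, Finset.smul_sum, ← D.inclA_mem, ← hi]
    refine add_mem (sum_mem fun h _ => ?_) (hjW _ (hL g g.2 _ x.2))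
    rw [smul_comm]
    refine zsmul_mem ?_ _
    obtain ⟨y, hy, e⟩ := hz g h
    rw [show (g : G) • w h = D.inclA (i y) - w g + w (g * h) by rw [← e]; abel]
    exact add_mem (sub_mem (hjW y hy) (hwW g)) (hwW _)
  have hev : ∀ (c : V → ℤ) (x : G), (D.latt (∑ h : V, c h • w h)) x =
      u * ((if hx : x ∈ V then c ⟨x, hx⟩ else 0) - if x = 1 then ∑ h : V, c h else 0) := by
    intro c x
    rw [map_sum]
    show (∑ h : V, D.latt (c h • w h) : TrivMod G) x = _
    rw [show (∑ h : V, D.latt (c h • w h) : TrivMod G) x = ∑ h : V, (D.latt (c h • w h)) x from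
      Finset.sum_apply x _ _]
    have h1 : ∀ h : V, (D.latt (c h • w h)) x = c h * (D.latt (w h)) x := fun h => by
      rw [map_zsmul]; rfl
    simp only [h1, hwd]
    rw [Finset.sum_congr rfl fun h _ => mul_left_comm (c h) u _, ← Finset.mul_sum]
    congr 1
    simp only [mul_sub, mul_ite, mul_one, mul_zero, Finset.sum_sub_distrib]
    congr 1
    · split_ifs with hx
      · rw [Finset.sum_eq_single (⟨x, hx⟩ : V) (fun h _ hh => if_neg fun e => hh (Subtype.ext e.symm))
          (by simp), if_pos rfl]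
      · exact Finset.sum_eq_zero fun h _ => if_neg fun e : x = (h : G) => hx (by rw [e]; exact h.2)
    · split_ifs <;> simp
  have hsuppW : ∀ v ∈ Φ.range, ∀ x : G, x ∉ V → (D.latt v) x = 0 := by
    rintro _ ⟨⟨c, y⟩, rfl⟩ x hx
    show (D.latt (∑ h : V, c h • w h + D.inclA (i y.1))) x = 0
    rw [map_add, show D.latt (D.inclA (i y.1)) = 0 from rfl, add_zero, hev, dif_neg hx,
      if_neg fun h : x = 1 => hx (h ▸ one_mem V), sub_zero, mul_zero]
  have hker : ∀ v ∈ Φ.range, D.latt v = 0 → ∃ y ∈ L, D.inclA (i y) = v := by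
    rintro _ ⟨⟨c, y⟩, rfl⟩ h0
    change D.latt (∑ h : V, c h • w h + D.inclA (i y.1)) = 0 at h0
    rw [map_add, show D.latt (D.inclA (i y.1)) = 0 from rfl, add_zero] at h0
    have hc : ∀ h : V, h ≠ 1 → c h = 0 := fun h hh => by
      have h1 : (D.latt (∑ h : V, c h • w h)) (h : G) = (0 : ℤ) := congrFun h0 (h : G)
      rw [hev, dif_pos h.2, if_neg fun e : (h : G) = 1 => hh (Subtype.ext e), sub_zero] at h1
      exact (mul_eq_zero.mp h1).resolve_left hu0
    obtain ⟨y₁, hy₁, e₁⟩ := hz 1 1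
    rw [one_mul, Subgroup.coe_one, one_smul, add_sub_cancel_right] at e₁
    refine ⟨c 1 • y₁ + y.1, add_mem (zsmul_mem hy₁ _) y.2, ?_⟩
    show _ = ∑ h : V, c h • w h + D.inclA (i y.1)
    rw [Finset.sum_eq_single 1 (fun h _ hh => by rw [hc h hh, zero_smul]) (by simp), map_add,
      map_zsmul, map_add, map_zsmul, e₁]
  -- a map on the relations with vector `ψ`
  obtain ⟨c, hc⟩ : ∃ c : ℕ, (u : ZMod p) * c = 1 := by
    haveI : NeZero p := ⟨(Fact.out : p.Prime).ne_zero⟩
    exact ⟨((u : ZMod p)⁻¹).val, by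
      rw [ZMod.natCast_zmod_val, mul_inv_cancel₀ fun h =>
        hu ((ZMod.intCast_zmod_eq_zero_iff_dvd u p).mp h)]⟩
  let k : Coh.Rel G N →+ D.cover :=
    ∑ g : V, (zmultiplesHom D.cover (w g)).comp (phiOf (c • ψ g))
  have hsumV : ∀ F : G → ZMod p, (∀ x, x ∉ V → F x = 0) → ∑ g : V, F g = ∑ x : G, F x :=
    fun F hF => Fintype.sum_of_injective _ Subtype.val_injective _ _
      (fun x hx => hF x fun h => hx ⟨⟨x, h⟩, rfl⟩) fun _ => rfl
  have hk : latVec D hN k = ψ := funext fun x => AddMonoidHom.ext fun m => by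
    rw [latVec_sum_index, Finset.sum_apply, AddMonoidHom.finsetSum_apply]
    have hterm : ∀ g : V,
        latVec D hN ((zmultiplesHom D.cover (w g)).comp (phiOf (c • ψ g))) x m =
          ψ g m * ((if x = (g : G) then 1 else 0) - if x = 1 then 1 else 0) := fun g => by
      rw [latVec_apply, AddMonoidHom.comp_apply, zmultiplesHom_apply, map_zsmul]
      show (((phiOf (c • ψ g) (pRel G p hN (Free.of 1 m))) * (D.latt (w g)) x : ℤ) : ZMod p) = _
      have h1 : ((phiOf (c • ψ g) (pRel G p hN (Free.of 1 m)) : ℤ) : ZMod p) = c * ψ g m :=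
        (DFunLike.congr_fun (residueFn_phiOf hN (c • ψ g)) m).trans (nsmul_eq_mul c (ψ g m))
      rw [hwd, Int.cast_mul, h1, Int.cast_mul, Int.cast_sub]
      simp only [apply_ite (Int.cast : ℤ → ZMod p), Int.cast_one, Int.cast_zero]
      linear_combination
        (ψ g m * ((if x = (g : G) then (1 : ZMod p) else 0) - if x = 1 then 1 else 0)) * hc
    simp only [hterm, mul_sub, Finset.sum_sub_distrib, mul_ite, mul_one, mul_zero]
    rw [hsumV (fun g => if x = g then ψ g m else 0) fun g hg => by simp [hψ g hg],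
      Finset.sum_ite_eq, if_pos (Finset.mem_univ x), sub_eq_self]
    by_cases hx : x = 1
    · simp only [if_pos hx]
      rw [hsumV (fun g => ψ g m) fun g hg => by simp [hψ g hg],
        ← AddMonoidHom.finsetSum_apply, hsum, AddMonoidHom.zero_apply]
    · simp only [if_neg hx, Finset.sum_const_zero]
  let R : Coh.Rel G N →+ D.cover := htrace V k
  have hR : R ∈ eqHom V (Coh.Rel G N) D.cover := htrace_mem k
  have hRW : ∀ y, R y ∈ Φ.range := fun y => by
    simp only [R, htrace_apply, AddMonoidHom.finsetSum_apply, hconj_apply]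
    refine sum_mem fun v _ => hstab v _ ?_
    simp only [k, AddMonoidHom.finsetSum_apply, AddMonoidHom.comp_apply, zmultiplesHom_apply]
    exact sum_mem fun g _ => zsmul_mem (hwW g) _
  have hR0 : latVec D hN R = 0 := funext fun x => AddMonoidHom.ext fun m => by
    rw [show R = ∑ v : V, hconj (v : G) k from htrace_apply k, latVec_sum_index, Finset.sum_apply,
      AddMonoidHom.finsetSum_apply]
    simp only [latVec_hconj, hk]
    show ∑ v : V, ψ ((v : G)⁻¹ * x) ((v : G)⁻¹ • m) = 0
    by_cases hx : x ∈ V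
    · rw [← htr (x⁻¹ • m), ← hsumV (fun s => ψ s (s • x⁻¹ • m)) fun s hs => by simp [hψ s hs]]
      refine Fintype.sum_equiv ((Equiv.inv V).trans (Equiv.mulRight ⟨x, hx⟩)) _ _ fun v => ?_
      show _ = ψ ((v : G)⁻¹ * x) (((v : G)⁻¹ * x) • x⁻¹ • m)
      rw [mul_smul, smul_inv_smul]
    · exact Finset.sum_eq_zero fun v _ => by
        rw [hψ _ fun h => hx (by simpa using mul_mem v.2 h), AddMonoidHom.zero_apply]
  obtain ⟨E, hE⟩ := exists_extend_of_modPHom hN (D.latt.comp R) (AddMonoidHom.ext fun m =>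
    coordFp_ext fun x => by
      show latVec D hN R x m = _
      rw [hR0, AddMonoidHom.zero_apply, map_zero]
      rfl)
  have hpE : ∀ x, p • E x = D.latt (R (pRel G p hN x)) := fun x =>
    (map_nsmul E p x).symm.trans (hE (pRel G p hN x))
  have hEV : ∀ (v : V) (x : Free G N), E ((v : G) • x) = (v : G) • E x := fun v x => by
    refine sub_eq_zero.mp (CoverData.trivMod_nsmul_eq_zero (p := p) ?_)
    rw [nsmul_sub, smul_comm p (v : G), hpE, hpE, pRel_smul,
      show R ((v : G) • pRel G p hN x) = (v : G) • R (pRel G p hN x) from hR v _, D.latt_mem,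
      sub_self]
  have hEsupp : ∀ x, ∀ g : G, g ∉ V → E x g = 0 := fun x g hg => by
    have h1 : ((p • E x) g : ℤ) = 0 := by rw [hpE]; exact hsuppW _ (hRW _) g hg
    rw [TrivMod.nsmul_apply] at h1
    exact (mul_eq_zero.mp h1).resolve_left hp0
  have hEaug : ∀ x, aug (E x) = 0 := fun x => by
    have h1 : (p : ℤ) * aug (E x) = 0 := by
      rw [← nsmul_eq_mul, ← map_nsmul, hpE]; exact (R _).2.1
    exact (mul_eq_zero.mp h1).resolve_left hp0
  -- dividing by `u`
  let Lc : TrivMod G →+ D.cover := AddMonoidHom.mk' (fun z => ∑ g : V, z (g : G) • w g) fun z z' =>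
    by rw [← Finset.sum_add_distrib]; exact Finset.sum_congr rfl fun g _ => add_smul _ _ _
  have hLc : ∀ x, D.latt (Lc (E x)) = u • E x := fun x => funext fun g => by
    show (D.latt (∑ h : V, E x (h : G) • w h)) g = u * E x g
    rw [hev]
    congr 1
    have h1 : ∑ h : V, E x (h : G) = 0 := by
      rw [Fintype.sum_of_injective (Subtype.val : V → G) Subtype.val_injective _ (E x)
        (fun y hy => hEsupp x y fun h => hy ⟨⟨y, h⟩, rfl⟩) fun _ => rfl]
      exact hEaug x
    rw [h1, ite_self, sub_zero]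
    split_ifs with hg
    · rfl
    · exact (hEsupp x g hg).symm
  obtain ⟨a, b, hab⟩ := ((Nat.prime_iff_prime_int.mp (Fact.out : p.Prime)).coprime_iff_not_dvd.mpr hu).symm
  let P₀ : Free G N →+ Coh.Rel G N := AddMonoidHom.mk' (pRel G p hN) (pRel_add hN)
  let F₀ : Free G N →+ D.cover := a • Lc.comp E + b • R.comp P₀
  have hF₀ : ∀ x, D.latt (F₀ x) = E x := fun x => by
    show D.latt (a • Lc (E x) + b • R (pRel G p hN x)) = _
    rw [map_add, map_zsmul, map_zsmul, hLc, ← hpE, ← natCast_zsmul, smul_smul, smul_smul,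
      ← add_smul, hab, one_smul]
  have hF₀W : ∀ x, F₀ x ∈ Φ.range := fun x =>
    add_mem (zsmul_mem (sum_mem fun g _ => zsmul_mem (hwW g) _) _) (zsmul_mem (hRW _) _)
  -- an equivariant lift
  let o : G → G := fun g => Quotient.out ((g⁻¹ : G) : G ⧸ V)
  have ho : ∀ g, g * o g ∈ V := fun g => by
    obtain ⟨h, hh⟩ := QuotientGroup.mk_out_eq_mul V g⁻¹
    show g * Quotient.out ((g⁻¹ : G) : G ⧸ V) ∈ V
    rw [hh, mul_inv_cancel_left]
    exact h.2
  have hov : ∀ (v : V) (g : G), o ((v : G) * g) = o g := fun v g => by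
    show Quotient.out (((v * g)⁻¹ : G) : G ⧸ V) = _
    rw [mul_inv_rev, QuotientGroup.mk_mul_of_mem _ (inv_mem v.2)]
  let F' : Free G N →+ D.cover :=
    Free.lift fun g m => (g * o g) • F₀ (Free.of (o g)⁻¹ m)
  have hF'V : F' ∈ eqHom V (Free G N) D.cover := fun v x =>
    DFunLike.congr_fun (Free.hom_ext
      (f := F'.comp (DistribSMul.toAddMonoidHom (Free G N) (v : G)))
      (f' := (DistribSMul.toAddMonoidHom D.cover (v : G)).comp F') fun g m => by
        simp only [AddMonoidHom.comp_apply, DistribSMul.toAddMonoidHom_apply, Free.smul_of, F',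
          Free.lift_of, hov, mul_smul]) x
  have hF'W : ∀ x, F' x ∈ Φ.range := fun x => by
    induction x using Finsupp.induction_linear with
    | zero => exact (map_zero F').symm ▸ zero_mem _
    | add f g hf hg => exact (map_add F' f g).symm ▸ add_mem hf hg
    | single gm z =>
      have h1 : (Finsupp.single gm z : Free G N) = z • Free.of gm.1 gm.2 := by
        show Finsupp.single gm z = z • Finsupp.single (gm.1, gm.2) (1 : ℤ)
        rw [Finsupp.smul_single, smul_eq_mul, mul_one]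
      rw [h1, map_zsmul]
      simp only [F', Free.lift_of]
      exact zsmul_mem (hstab ⟨_, ho gm.1⟩ _ (hF₀W _)) _
  have hF' : ∀ x, D.latt (F' x) = E x := fun x =>
    DFunLike.congr_fun (Free.hom_ext (f := D.latt.comp F') (f' := E) fun g m => by
      simp only [AddMonoidHom.comp_apply, F', Free.lift_of]
      rw [D.latt_mem, hF₀, ← hEV ⟨_, ho g⟩, Free.smul_of]
      show E (Free.of (g * o g * (o g)⁻¹) m) = _
      rw [mul_inv_cancel_right]) x
  -- what is left is local
  choose f₀ hf₀L hf₀ using fun y : Coh.Rel G N => hker (R y - F' y.1)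
    (sub_mem (hRW y) (hF'W _)) (by rw [map_sub, hF']; exact sub_eq_zero.mpr (hE y).symm)
  have huniq : ∀ x ∈ L, ∀ y ∈ L, D.inclA (i x) = D.inclA (i y) → x = y := fun x hx y hy h =>
    sub_eq_zero.mp (hinj _ (sub_mem hx hy) (by rw [map_sub, D.inclA_injective h, sub_self]))
  let f : Coh.Rel G N →+ M := AddMonoidHom.mk' f₀ fun y y' =>
    huniq _ (hf₀L _) _ (add_mem (hf₀L y) (hf₀L y')) (by
      rw [map_add, map_add, hf₀, hf₀, hf₀, map_add, AddSubgroup.coe_add, map_add]; abel)
  have hf : f ∈ eqHom V (Coh.Rel G N) M := fun v y =>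
    huniq _ (hf₀L _) _ (hL v v.2 _ (hf₀L y)) (by
      show D.inclA (i (f₀ ((v : G) • y))) = D.inclA (i ((v : G) • f₀ y))
      rw [hi, D.inclA_mem]
      rw [hf₀, hf₀, smul_sub]
      exact congrArg₂ (· - ·) (hR v y) (hF'V v y.1))
  refine ⟨f, hf, k, hk, ?_⟩
  rw [Ext1.map_mk, Ext1.map_mk, ← sub_eq_zero, ← map_sub, Ext1.mk_eq_zero_iff]
  refine ⟨⟨-cotrace V F', neg_mem (cotrace_mem V hF'V)⟩, fun y => ?_⟩
  show -(cotrace V F' y.1) = D.inclA (i (cotrace V f y)) - htrace G k y
  have h1 : (D.inclA.comp i).comp f = R - F'.comp (Coh.Rel G N).subtype := AddMonoidHom.ext hf₀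
  have h2 := DFunLike.congr_fun ((cotrace_comp_left V (comp_mem_eqHom D.inclA_mem hi) f).symm.trans
    (congrArg (cotrace V) h1)) y
  rw [map_sub, cotrace_htrace] at h2
  refine Eq.trans ?_ (congrArg (· - htrace G k y) h2.symm)
  haveI : Fintype (G ⧸ V) := Fintype.ofFinite _
  rw [AddMonoidHom.sub_apply, sub_sub_cancel_left, cotrace_apply, cotrace_apply,
    AddMonoidHom.finsetSum_apply, AddMonoidHom.finsetSum_apply]
  rfl

end Vec

section LocalClass

variable [Fintype G] [Fact p.Prime] {ly : Layer lv} {N : Type} [AddCommGroup N]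
  [DistribMulAction G N] [Finite N] (C : CoverOn ly)

/-- A local class with a prescribed vector. -/
theorem exists_localClass (hN : ∀ m : N, p • m = 0) (A : Place) (hA : A.Over S) (V : Subgroup G)
    (hV : IsPGroup p V) (hVD : V ≤ lv.decGroup A)
    (hidx : (V.relIndex (lv.decGroup A)).Coprime p) (ψ : G → (N →+ ZMod p))
    (hψ : ∀ x, x ∉ V → ψ x = 0) (hsum : ∑ x : G, ψ x = 0)
    (htr : ∀ m : N, ∑ σ : G, ψ σ (σ • m) = 0) :
    ∃ e : Coh.Ext1 G N (lv.LocMod S), ∀ a : crossed G N,
      C.pairC hN (Coh.Ext1.map (lv.toCl S ly.places) (lv.toCl_mem S ly.places) e) a =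
        vecPair ψ a.1 := by
  classical
  letI : Fintype C.P := Fintype.ofFinite _
  set n := sylowDeg p G with hn
  have hp : p.Prime := Fact.out
  set m := n / Nat.card V with hmdef
  have hm : m * Nat.card V = n := by
    refine Nat.div_mul_cancel ?_
    obtain ⟨j, hj⟩ := IsPGroup.iff_card.mp hV
    rw [hj]
    exact Nat.pow_dvd_pow p
      ((hp.pow_dvd_iff_le_factorization Nat.card_pos.ne').mp (hj ▸ V.card_subgroup_dvd_card))
  have hidx' : (Nat.card (lv.decGroup A) / Nat.card V).Coprime p := by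
    have h : Nat.card V * V.relIndex (lv.decGroup A) = Nat.card (lv.decGroup A) := by
      rw [← Subgroup.relIndex_bot_left, ← Subgroup.relIndex_bot_left,
        Subgroup.relIndex_mul_relIndex _ _ _ bot_le hVD]
    rwa [← h, Nat.mul_div_cancel_left _ Nat.card_pos]
  obtain ⟨u, d, hu, hd, heq⟩ := C.local_class A hA V m hV hVD hidx' hm
  obtain ⟨β, hβ, hβsupp, hβinf, hβN⟩ := exists_norm_localPower ly A hA V m hV hVD hidx hm
  -- the class of `β` up to a coboundary of the generator
  set cβ := ly.cls ⟨β, hβ⟩ with hcβ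
  obtain ⟨f, -, hf⟩ := C.D.h1τ ⊥ IsPGroup.of_bot (cβ - d - u • C.D.b)
    (fun h hh => by rw [Subgroup.mem_bot.mp hh, one_smul]) (by
      have h1 : ∑ i ∈ Finset.range (sylowDeg p G), Coh.addPow C.D.τ i cβ =
          ly.cls ⟨_, ly.localPower_mem A m⟩ := by
        simp only [C.tau_eq, Layer.addPow_tau, hcβ, Layer.galSMul_cls]
        rw [← ly.cls_prod fun i => (⟨ly.t ^ i • β, smul_mem_ideles _ hβ⟩ : ideles ly.field)]
        refine congrArg ly.cls (Subtype.ext ?_)
        rw [SubmonoidClass.coe_finsetProd]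
        exact hβN
      simp only [map_sub, map_zsmul, Finset.sum_sub_distrib, ← Finset.smul_sum, C.D.norm_b, h1,
        heq]
      abel)
  rw [C.tau_eq] at hf
  -- the roots
  have hroot : ∀ g : V, ∃ y : PreIdele, y ∈ ideles ly.field ∧
      (∀ B : Place, ¬ lv.inOrbit A B → y.fin B = 1) ∧ y.inf = 1 ∧
      ly.t • y / y = ly.lift g • β / β := fun g => by
    refine exists_semilocal_root ly A _ (div_mem (smul_mem_ideles _ hβ) hβ) (fun B hB => ?_) ?_ ?_
    · show (ly.lift g • β).fin B / β.fin B = 1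
      rw [hβsupp B hB, Layer.smul_fin_eq_one (hβsupp _ fun h => hB
        ((Level.inOrbit_smul_dec (by rw [map_inv, ly.q_lift]; exact inv_mem (hVD g.2)) B).mp h)),
        div_one]
    · show (ly.lift g • β).inf / β.inf = 1
      rw [Layer.inf_smul_eq_one hβinf, hβinf, div_one]
    · simp only [smul_div', Finset.prod_div_distrib]
      rw [hβN, Finset.prod_congr rfl fun i _ =>
        (show ly.t ^ i • ly.lift g • β = ly.lift g • ly.t ^ i • β by
          rw [smul_smul, smul_smul]
          exact ly.smul_congr_field (by simp [ly.q_t]) (by rw [map_mul, map_mul, mul_comm]) hβ),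
        ← Finset.smul_prod', hβN, Layer.smul_localPower (by rw [ly.q_lift]; exact hVD g.2),
        div_self']
  choose y hy hysupp hyinf hyt using hroot
  have hcy : ∀ g : V, ly.tau (ly.cls ⟨y g, hy g⟩) - ly.cls ⟨y g, hy g⟩ = (g : G) • cβ - cβ :=
    fun g => by
    rw [sub_eq_iff_eq_add]
    show ly.cls ⟨ly.t • y g, _⟩ =
      ly.cls (⟨ly.lift g • β, smul_mem_ideles _ hβ⟩ / ⟨β, hβ⟩ * ⟨y g, hy g⟩)
    refine congrArg ly.cls (Subtype.ext ?_)
    exact div_eq_iff_eq_mul.mp (hyt g)
  let w : V → C.D.cover := fun g =>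
    ⟨(ly.cls ⟨y g, hy g⟩ - ((g : G) • f - f), u • (delta1 (g : G) - delta1 1)), by
      rw [CoverData.mem_cover]
      refine ⟨by simp [map_sub, map_zsmul, aug_delta1], ?_⟩
      show C.D.τ (ly.cls ⟨y g, hy g⟩ - ((g : G) • f - f)) -
        (ly.cls ⟨y g, hy g⟩ - ((g : G) • f - f)) = evalAt C.D.b (u • (delta1 (g : G) - delta1 1))
      rw [C.tau_eq, map_sub ly.tau, map_sub ly.tau, ly.tau_smul, map_zsmul, map_sub, evalAt_delta1,
        evalAt_delta1, one_smul, smul_sub u]
      have h1 := hcy g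
      have h2 : cβ = ly.tau f - f + d + u • C.D.b := by rw [← hf]; abel
      rw [h2, smul_add, smul_add, smul_sub (g : G), hd _ g.2, smul_comm (g : G) u] at h1
      rw [sub_eq_iff_eq_add] at h1
      rw [h1]
      abel⟩
  -- the local elements
  let L : AddSubgroup (lv.LocMod S) :=
    { carrier := {x | (∀ B : Place, ¬ lv.inOrbit A B → (lv.locVal x).fin B = 1) ∧
        (lv.locVal x).inf = 1}
      zero_mem' := ⟨fun _ _ => rfl, rfl⟩
      add_mem' := fun {x x'} hx hx' => ⟨fun B hB => by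
        rw [Level.locVal_add, fin_mul, hx.1 B hB, hx'.1 B hB, one_mul], funext fun ι => by
        rw [Level.locVal_add, PreIdele.inf_mul, hx.2, hx'.2]; exact one_mul _⟩
      neg_mem' := fun {x} hx => ⟨fun B hB => by
        show ((lv.locVal x)⁻¹).fin B = 1
        rw [fin_inv, hx.1 B hB, inv_one], funext fun ι => by
        show ((lv.locVal x)⁻¹).inf ι = 1
        rw [inf_inv, hx.2]; exact inv_one⟩ }
  have hL : ∀ g ∈ V, ∀ x ∈ L, g • x ∈ L := fun g hg x hx => by
    refine ⟨fun B hB => ?_, ?_⟩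
    · rw [lv.locVal_smul (ly.q_lift g)]
      exact Layer.smul_fin_eq_one (hx.1 _ fun h => hB
        ((Level.inOrbit_smul_dec (by rw [map_inv, ly.q_lift]; exact inv_mem (hVD hg)) B).mp h))
    · rw [lv.locVal_smul (ly.q_lift g)]; exact Layer.inf_smul_eq_one hx.2 _
  have hAT : A.Over ly.places := over_mono ly.subset_places hA
  let i : lv.LocMod S →+ C.D.classes := C.e.toAddMonoidHom.comp (lv.toCl S ly.places)
  have hi : i ∈ eqHom G (lv.LocMod S) C.D.classes :=
    comp_mem_eqHom C.e_mem (lv.toCl_mem S ly.places)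
  have hinj : ∀ x ∈ L, i x = 0 → x = 0 := fun x hx h0 => by
    have h1 : lv.toCl S ly.places x = 0 := C.e.injective (h0.trans (map_zero C.e).symm)
    rw [Level.toCl_apply, Level.classOf_eq_zero_iff] at h1
    obtain ⟨_, ⟨a, -, rfl⟩, v, hv, hav⟩ := Subgroup.mem_sup.mp h1
    have ha : a = 1 := eq_of_inf_eq (funext fun ι => by
      have h2 : (principalHom a * v).inf ι = (lv.locVal x).inf ι := by rw [hav]
      rw [PreIdele.inf_mul, hv.1.2.2, hx.2, Pi.one_apply, mul_one] at h2
      rw [h2, map_one]; rfl)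
    rw [ha, map_one, one_mul] at hav
    refine lv.locVal_injective (PreIdele.ext (funext fun B => ?_) ?_)
    · rw [lv.locVal_zero, fin_one]
      by_cases hB : lv.inOrbit A B
      · rw [← (show v = lv.locVal x from hav)]
        exact hv.1.2.1 B (Level.over_of_inOrbit hAT hB)
      · exact hx.1 B hB
    · rw [hx.2]; rfl
  have hz : ∀ g h : V, ∃ x ∈ L,
      w g + (g : G) • w h - w (g * h) = C.D.inclA (i x) := fun g h => by
    set z := y g * ly.lift g • y h / y (g * h) with hzdef
    have hzF : z ∈ ideles ly.field :=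
      div_mem (mul_mem (hy g) (smul_mem_ideles _ (hy h))) (hy _)
    have hzt : ly.t • z = z := by
      have e : ∀ g : V, ly.t • y g = ly.lift g • β / β * y g := fun g =>
        div_eq_iff_eq_mul.mp (hyt g)
      rw [hzdef, smul_div', smul_mul', smul_smul ly.t (ly.lift g),
        ly.smul_congr_field (σ := ly.t * ly.lift g) (τ := ly.lift g * ly.t)
          (by simp [ly.q_t]) (by rw [map_mul, map_mul, mul_comm]) (hy h),
        mul_smul, e, e, e, smul_mul', smul_div', smul_smul (ly.lift g) (ly.lift h),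
        ly.smul_congr_field (σ := ly.lift g * ly.lift h) (τ := ly.lift (g * h : V))
          (by simp [ly.q_lift]) (by simp [ly.psi_lift]) hβ]
      rw [mul_mul_mul_comm, mul_comm (ly.lift g • β / β), div_mul_div_cancel,
        mul_div_mul_left_eq_div]
    have hzsupp : ∀ B, ¬ lv.inOrbit A B → z.fin B = 1 := fun B hB => by
      show (y g).fin B * (ly.lift g • y h).fin B / (y (g * h)).fin B = 1
      rw [hysupp g B hB, hysupp _ B hB, Layer.smul_fin_eq_one (hysupp h _ fun hh => hB
        ((Level.inOrbit_smul_dec (by rw [map_inv, ly.q_lift]; exact inv_mem (hVD g.2)) B).mp hh)),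
        mul_one, div_one]
    have hzinf : z.inf = 1 := by
      show (y g).inf * (ly.lift g • y h).inf / (y (g * h)).inf = 1
      rw [hyinf, hyinf, Layer.inf_smul_eq_one (hyinf h), mul_one, div_one]
    have hzloc : z ∈ locIdeles S lv.field := ⟨ly.mem_ideles_level hzF hzt,
      fun B hB => hzsupp B fun h' => hB (Level.over_of_inOrbit hA h')⟩
    refine ⟨lv.locOf ⟨z, hzloc⟩, ⟨hzsupp, hzinf⟩, Subtype.ext (Prod.ext ?_ ?_)⟩
    · show ly.cls ⟨y g, hy g⟩ - ((g : G) • f - f) +
          (g : G) • (ly.cls ⟨y h, hy h⟩ - ((h : G) • f - f)) -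
          (ly.cls ⟨y (g * h), hy _⟩ - (((g * h : V) : G) • f - f)) = (C.e (lv.classOf _ _)).1
      rw [C.e_classOf, smul_sub, smul_sub, Subgroup.coe_mul, mul_smul]
      have h1 : ly.cls (ly.up ⟨z, hzloc.1⟩) = ly.cls ⟨y g, hy g⟩ + (g : G) • ly.cls ⟨y h, hy h⟩ -
          ly.cls ⟨y (g * h), hy _⟩ := rfl
      refine Eq.trans ?_ h1.symm
      abel
    · show u • (delta1 (g : G) - delta1 1) + (g : G) • u • (delta1 (h : G) - delta1 1) -
        u • (delta1 ((g * h : V) : G) - delta1 1) = 0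
      rw [smul_comm (g : G) u, ← smul_add, ← smul_sub, smul_sub (g : G), smul_delta1, smul_delta1,
        mul_one, Subgroup.coe_mul]
      convert smul_zero u using 2
      abel
  obtain ⟨f', hf', k, hk, hek⟩ := exists_cotrace_vec C.D hN i hi V L hL hinj u hu w (fun _ => rfl)
    hz ψ hψ hsum htr
  refine ⟨Ext1.mk ⟨cotrace V f', cotrace_mem V hf'⟩, fun a => ?_⟩
  rw [C.pairC_apply, pairing_eq C.D hN C.isCT' (k := k) ?_ a.2, hk]
  rw [ext1Map_comp]
  exact hek

end LocalClass

end FLTAgent.PoitouTate
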