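import Fermat.Prelude.Def_ExtEndgame_ProductionDatum
import Fermat.Agent.GalCommon.Basic

/-!
# The local Galois group fills the decomposition group

On a finite normal field every element of the decomposition group of `padicPlace r` agrees with an
element of the local Galois group: it fixes the elements of the field lying in `ℚ_r`, because these
are limits of rationals.
-/

set_option autoImplicit false
set_option linter.style.haveILetI false

noncomputable section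

open scoped Pointwise NNReal

namespace FLTAgent.PoitouTate

local notation "ℚ̄" => AlgebraicClosure ℚ
local notation "Γ" => (AlgebraicClosure ℚ ≃ₐ[ℚ] AlgebraicClosure ℚ)

variable (r : ℕ) [Fact r.Prime]

theorem apply_eq_of_padic {σ : Γ} (hσ : σ ∈ (padicPlace r).decompositionSubgroup ℚ) {x : ℚ̄}
    {c : ℚ_[r]} (hx : padicEmbedding r x = algebraMap ℚ_[r] (PadicAlgCl r) c) : σ x = x := by
  have hr : (r : ℝ≥0) ≠ 0 := Nat.cast_ne_zero.mpr (Fact.out : r.Prime).ne_zero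
  have hr' : (r : ℚ̄) ≠ 0 := Nat.cast_ne_zero.mpr (Fact.out : r.Prime).ne_zero
  have hnat : ‖padicEmbedding r (r : ℚ̄)‖₊ = (r : ℝ≥0)⁻¹ := by
    rw [map_natCast, ← map_natCast (algebraMap ℚ_[r] (PadicAlgCl r))]
    ext
    rw [coe_nnnorm, PadicAlgCl.norm_extends, Padic.norm_p]
    simp
  have hball : ∀ (n : ℕ) (y : ℚ̄),
      ‖padicEmbedding r y‖₊ ≤ ((r : ℝ≥0)⁻¹) ^ n ↔ y / (r : ℚ̄) ^ n ∈ padicPlace r := fun n y => by
    rw [mem_padicPlace_iff, map_div₀, map_pow, nnnorm_div, nnnorm_pow, hnat,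
      div_le_one (pow_pos (by positivity) n)]
  have hpres : ∀ (n : ℕ) (y : ℚ̄), y / (r : ℚ̄) ^ n ∈ padicPlace r →
      σ y / (r : ℚ̄) ^ n ∈ padicPlace r := fun n y hy => by
    have h := (GalCommon.map_mem_iff_of_mem_decomposition hσ).mpr hy
    rwa [map_div₀, map_pow, map_natCast] at h
  refine sub_eq_zero.mp ((padicEmbedding r).toRingHom.injective ?_)
  rw [map_zero]
  refine nnnorm_eq_zero.mp (le_antisymm (le_of_forall_gt_imp_ge_of_dense fun ε hε => ?_) zero_le)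
  obtain ⟨n, hn⟩ := exists_pow_lt_of_lt_one hε
    (inv_lt_one_of_one_lt₀ (show (1 : ℝ≥0) < r by exact_mod_cast (Fact.out : r.Prime).one_lt))
  obtain ⟨a, ha⟩ := Padic.rat_dense r c (show (0 : ℝ) < (((r : ℝ≥0)⁻¹) ^ n : ℝ≥0) by positivity)
  have hxa : (x - (a : ℚ̄)) / (r : ℚ̄) ^ n ∈ padicPlace r := (hball n _).mp (by
    rw [← NNReal.coe_le_coe, coe_nnnorm, map_sub, map_ratCast, hx,
      ← map_ratCast (algebraMap ℚ_[r] (PadicAlgCl r)) a, ← map_sub, PadicAlgCl.norm_extends]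
    exact ha.le)
  have h1 := (hball n _).mpr (hpres n _ hxa)
  have h2 := (hball n _).mpr hxa
  rw [map_sub σ, map_ratCast σ] at h1
  refine le_trans ?_ hn.le
  show ‖padicEmbedding r (σ x - x)‖₊ ≤ _
  rw [show σ x - x = (σ x - (a : ℚ̄)) - (x - (a : ℚ̄)) by ring, map_sub]
  refine le_trans ?_ (max_le h1 h2)
  rw [← NNReal.coe_le_coe, NNReal.coe_max, coe_nnnorm, coe_nnnorm, coe_nnnorm]
  generalize padicEmbedding r (σ x - (a : ℚ̄)) = u
  generalize padicEmbedding r (x - (a : ℚ̄)) = w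
  rw [sub_eq_add_neg]
  exact (IsUltrametricDist.norm_add_le_max u (-w)).trans_eq (by rw [norm_neg])

theorem exists_local_eqOn (F : IntermediateField ℚ ℚ̄) [FiniteDimensional ℚ F] [Normal ℚ F]
    {σ : Γ} (hσ : σ ∈ (padicPlace r).decompositionSubgroup ℚ) :
    ∃ τ : PadicAlgCl r ≃ₐ[ℚ_[r]] PadicAlgCl r, ∀ x ∈ F, localGaloisToGlobal r τ x = σ x := by
  haveI := GalCommon.normal_Qbar
  haveI : IsGalois ℚ F := ⟨⟩
  haveI : IsGalois ℚ_[r] (PadicAlgCl r) := inferInstance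
  let res : Γ →* (F ≃ₐ[ℚ] F) := AlgEquiv.restrictNormalHom F
  have hres : ∀ (g : Γ) (x : F), ((res g x : F) : ℚ̄) = g x := fun g x =>
    AlgEquiv.restrictNormal_commutes g F x
  let R : Subgroup (F ≃ₐ[ℚ] F) := (res.comp (localGaloisToGlobal r)).range
  have hR : res σ ∈ R := by
    rw [← IntermediateField.fixingSubgroup_fixedField R, IntermediateField.mem_fixingSubgroup_iff]
    intro x hx
    refine Subtype.ext ((hres σ x).trans ?_)
    have hfix : ∀ τ : PadicAlgCl r ≃ₐ[ℚ_[r]] PadicAlgCl r,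
        τ (padicEmbedding r (x : ℚ̄)) = padicEmbedding r (x : ℚ̄) := fun τ => by
      rw [← padicEmbedding_localGaloisToGlobal, ← hres]
      exact congrArg (fun y : F => padicEmbedding r (y : ℚ̄)) (hx ⟨_, τ, rfl⟩)
    obtain ⟨c, hc⟩ := (InfiniteGalois.mem_bot_iff_fixed (padicEmbedding r (x : ℚ̄))).mpr hfix
    exact apply_eq_of_padic r hσ hc.symm
  obtain ⟨τ, hτ⟩ := hR
  exact ⟨τ, fun x hx => by
    rw [← hres _ ⟨x, hx⟩, ← hres σ ⟨x, hx⟩]
    exact congrArg (fun e : F ≃ₐ[ℚ] F => ((e ⟨x, hx⟩ : F) : ℚ̄)) hτ⟩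

end FLTAgent.PoitouTate
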