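import Fermat.Agent.PoitouTate.ThetaBase
import Fermat.Agent.PoitouTate.Local
import Fermat.Agent.PoitouTate.Units

/-!
# The map from `Ext¹_G(N, C_T)` onto the dual of the locally trivial crossed homomorphisms

`exists_phi`: the pairing `pairC`, restricted to `shaCrossed`, has kernel `localClasses` and every
functional killing the coboundaries as a value.  The classes from the places of `S` and those
dying in `C_S` pair to zero; conversely a crossed homomorphism orthogonal to the local classes is
trivial on a Sylow subgroup of every decomposition group (`mem_shaCrossed_of_pairC`), and traces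
die in `C_S` by `NormsDivisible`.
-/

set_option autoImplicit false
set_option linter.style.haveILetI false
set_option linter.unusedSectionVars false

noncomputable section

namespace FLTAgent.PoitouTate

open FLTAgent.TW FLTAgent.TW.Coh

variable {S : Finset ℕ} {p : ℕ} [Fact p.Prime] {G : Type} [Group G] [Fintype G]
  {N : Type} [AddCommGroup N] [DistribMulAction G N]

theorem ext1Map_htrace {A B : Type} [AddCommGroup A] [DistribMulAction G A] [AddCommGroup B]
    [DistribMulAction G B] (j : A →+ B) (hj : j ∈ eqHom G A B) (g : Coh.Rel G N →+ A) :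
    Ext1.map j hj (Ext1.mk ⟨htrace G g, htrace_mem g⟩) =
      Ext1.mk ⟨htrace G (j.comp g), htrace_mem _⟩ :=
  congrArg Ext1.mk (Subtype.ext (htrace_comp_left hj g).symm)

/-- A functional on a subgroup of a group killed by `p` extends. -/
theorem exists_extension {Z Z' : Type} [AddCommGroup Z] [AddCommGroup Z'] (hZ : ∀ z : Z, p • z = 0)
    (i : Z' →+ Z) (hi : Function.Injective i) (l : Z' →+ ZMod p) :
    ∃ l' : Z →+ ZMod p, ∀ a, l' (i a) = l a := by
  obtain ⟨π, hπ, hπ'⟩ := exists_retraction hZ i.range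
  choose b hb using hπ
  refine ⟨AddMonoidHom.mk' (fun z => l (b z)) fun z z' => ?_, fun a => congrArg l (hi ?_)⟩
  · rw [← map_add l]
    exact congrArg l (hi (by rw [map_add i, hb, hb, hb, map_add π]))
  · exact (hb _).trans (hπ' _ ⟨a, rfl⟩)

/-- A pairing restricted to a subgroup of one side: the kernel and the image. -/
theorem exists_restrict_pairing {X Z Z' : Type} [AddCommGroup X] [AddCommGroup Z] [AddCommGroup Z']
    [Finite Z] (hZ : ∀ z : Z, p • z = 0) (β : X →+ Z →+ ZMod p) (inc : Z' →+ Z)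
    (hinc : Function.Injective inc) (K : AddSubgroup X)
    (h1 : ∀ z, (∀ x ∈ K, β x z = 0) → ∃ z', inc z' = z)
    (h2 : ∀ x, (∀ z, β x z = 0) → x ∈ K) (h3 : ∀ x ∈ K, ∀ z', β x (inc z') = 0) :
    ∃ Φ : X →+ (Z' →+ ZMod p), Φ.ker = K ∧
      (∀ l : Z' →+ ZMod p, (∀ z', (∀ x, β x (inc z') = 0) → l z' = 0) → ∃ x, Φ x = l) ∧
      ∀ x z', Φ x z' = β x (inc z') := by
  refine ⟨AddMonoidHom.mk' (fun x => (β x).comp inc) fun x y => ?_,
    le_antisymm (fun x hx => ?_) (fun x hx => ?_), fun l hl => ?_, fun _ _ => rfl⟩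
  · rw [map_add, AddMonoidHom.add_comp]
  · obtain ⟨x', hx', hxx'⟩ := exists_mem_pairing_eq hZ β K (β x) fun z hz => by
      obtain ⟨z', rfl⟩ := h1 z hz
      exact DFunLike.congr_fun (AddMonoidHom.mem_ker.mp hx) z'
    rw [← sub_add_cancel x x']
    exact add_mem (h2 _ fun z => by rw [map_sub, hxx', sub_self, AddMonoidHom.zero_apply]) hx'
  · exact AddMonoidHom.mem_ker.mpr (AddMonoidHom.ext fun z' => h3 x hx z')
  · obtain ⟨l', hl'⟩ := exists_extension hZ inc hinc l
    obtain ⟨x, -, hx⟩ := exists_mem_pairing_eq hZ β ⊤ l' fun z hz => by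
      obtain ⟨z', rfl⟩ := h1 z fun x _ => hz x trivial
      rw [hl']
      exact hl _ fun x => hz x trivial
    exact ⟨x, AddMonoidHom.ext fun z' => (DFunLike.congr_fun hx (inc z')).trans (hl' z')⟩

/-- The inclusion into the crossed homomorphisms. -/
def shaIncl (N : Type) [AddCommGroup N] [DistribMulAction G N] (lv : Level S p G) :
    shaCrossed N lv →+ crossed G N :=
  AddMonoidHom.mk' (fun a => ⟨a.1, a.2.1⟩) fun _ _ => rfl

theorem shaIncl_apply (lv : Level S p G) (a : shaCrossed N lv) :
    (shaIncl N lv a).1 = a.1 := rfl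

theorem shaIncl_injective (lv : Level S p G) : Function.Injective (shaIncl N lv) := fun _ _ h =>
  Subtype.ext (congrArg (fun z : crossed G N => z.1) h :)

/-- The trace classes die in `C_S`. -/
theorem changeT_trace_eq_zero [Finite N] {lv : Level S p G} (hN : ∀ m : N, p • m = 0)
    (hnorm : NormsDivisible N lv) {T : Finset ℕ} (hT : S ⊆ T) (g : Coh.Rel G N →+ lv.Cl T)
    (e : Ext1 G N (lv.Cl T)) (he : e = Ext1.mk ⟨htrace G g, htrace_mem g⟩) :
    Ext1.map (lv.changeT hT) (lv.changeT_mem hT) e = 0 := by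
  subst he
  rw [ext1Map_htrace (lv.changeT hT) (lv.changeT_mem hT) g]
  obtain ⟨H, hH, hd⟩ := hnorm
  letI : Fintype H := Fintype.ofFinite _
  exact mk_htrace_eq_zero_of_divisible hN hH hd _

/-- What all local classes kill is trivial on the decomposition groups. -/
theorem mem_shaCrossed_of_pairC [Finite N] {lv : Level S p G} {ly : Layer lv} (C : CoverOn ly)
    (hN : ∀ m : N, p • m = 0) (a : crossed G N)
    (h : ∀ e ∈ localClasses N lv ly.subset_places, C.pairC hN e a = 0) :
    a.1 ∈ shaCrossed N lv := by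
  classical
  refine ⟨a.2, fun A hA => ?_⟩
  obtain ⟨V, hVD, hV, hidx⟩ := exists_sylow_le p (lv.decGroup A)
  refine TrivialOn.of_coprime hN hVD hidx a.2 ?_
  haveI : Fintype V := Fintype.ofFinite _
  have hq : IsCrossed V fun v : V => a.1 v := fun v w => a.2 v w
  obtain ⟨b, hb⟩ := exists_coboundary_of_vecPair (G := V) hN (fun v : V => a.1 v) hq
    fun ψ hsum htr => by
      let ψ' : G → (N →+ ZMod p) := fun x => if hx : x ∈ V then ψ ⟨x, hx⟩ else 0
      have hout : ∀ x, x ∉ V → ψ' x = 0 := fun x hx => dif_neg hx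
      have hsumV : ∀ F : G → ZMod p, (∀ x ∉ V, F x = 0) → ∑ x, F x = ∑ v : V, F v := fun F hF => by
        rw [← Finset.sum_subset (Finset.subset_univ (Finset.univ.filter fun x => x ∈ V))
          fun x _ hx => hF x (by simpa using hx)]
        exact Finset.sum_subtype _ (fun x => by simp) F
      have hψ' : ∀ v : V, ψ' v = ψ v := fun v => by simp [ψ', v.2]
      obtain ⟨e, he⟩ := exists_localClass C hN A hA V hV hVD hidx ψ' hout
        (AddMonoidHom.ext fun m => by
          rw [AddMonoidHom.finsetSum_apply, hsumV (fun x => ψ' x m) fun x hx => by simp [hout x hx]]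
          simp only [hψ', ← AddMonoidHom.finsetSum_apply, hsum])
        (fun m => by
          rw [hsumV (fun x => ψ' x (x • m)) fun x hx => by simp [hout x hx]]
          simp only [hψ']
          exact htr m)
      have h1 := h _ (AddSubgroup.mem_sup_left ⟨e, rfl⟩)
      rw [he] at h1
      unfold vecPair at h1 ⊢
      rw [hsumV (fun x => ψ' x (a.1 x)) fun x hx => by simp [hout x hx]] at h1
      simpa only [hψ'] using h1
  exact ⟨b, fun g hg => hb ⟨g, hg⟩⟩

theorem cotrace_top {Y W : Type} [AddCommGroup Y] [DistribMulAction G Y] [AddCommGroup W]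
    [DistribMulAction G W] {f : Y →+ W} (hf : f ∈ eqHom G Y W) : cotrace (⊤ : Subgroup G) f = f := by
  haveI : Fintype (G ⧸ (⊤ : Subgroup G)) := Fintype.ofFinite _
  rw [cotrace_apply]
  simp only [hconj_eq_self hf]
  rw [Finset.sum_const, Finset.card_univ, ← Nat.card_eq_fintype_card]
  exact (congrArg (· • f) (Subgroup.index_top (G := G))).trans (one_nsmul f)

/-- Coboundaries pair to zero. -/
theorem pairC_coboundary [Finite N] {lv : Level S p G} {ly : Layer lv} (C : CoverOn ly)
    (hN : ∀ m : N, p • m = 0) (e : Ext1 G N (lv.Cl ly.places)) (a : crossed G N) (b : N)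
    (hb : ∀ g, a.1 g = g • b - b) : C.pairC hN e a = 0 := by
  induction e using Ext1.induction with
  | _ f =>
    have hf : f.1 ∈ eqHom (⊤ : Subgroup G) (Coh.Rel G N) (lv.Cl ly.places) := fun v y =>
      f.2 (v : G) y
    have h := C.pairC_cotrace hN ⊤ hf a ⟨b, fun g _ => hb g⟩
    rwa [show (⟨cotrace ⊤ f.1, cotrace_mem ⊤ hf⟩ : eqHom G (Coh.Rel G N) (lv.Cl ly.places)) = f
      from Subtype.ext (cotrace_top f.2)] at h

/-- The pairing gives a map with kernel `localClasses` onto the functionals on `shaCrossed` which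
kill the coboundaries. -/
theorem exists_phi [Finite N] (lv : Level S p G) (hp2 : p ≠ 2) (ly : Layer lv) (C : CoverOn ly)
    (hN : ∀ m : N, p • m = 0) (hnorm : NormsDivisible N lv) :
    ∃ Φ : Coh.Ext1 G N (lv.Cl ly.places) →+ (shaCrossed N lv →+ ZMod p),
      Φ.ker = localClasses N lv ly.subset_places ∧
      (∀ l : shaCrossed N lv →+ ZMod p,
        (∀ (a : shaCrossed N lv) (b : N), (∀ g, a.1 g = g • b - b) → l a = 0) → ∃ e, Φ e = l) ∧
      ∀ e (a : shaCrossed N lv) (b : N), (∀ g, a.1 g = g • b - b) → Φ e a = 0 := by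
  classical
  haveI : Finite (crossed G N) := Subtype.finite
  have h2 : ∀ e, (∀ a, C.pairC hN e a = 0) → e ∈ localClasses N lv ly.subset_places := fun e he => by
    obtain ⟨g, hg⟩ := C.exists_trace_of_pairC hN e he
    exact AddSubgroup.mem_sup_right (AddMonoidHom.mem_ker.mpr
      (changeT_trace_eq_zero hN hnorm ly.subset_places g e hg))
  have h3 : ∀ e ∈ localClasses N lv ly.subset_places, ∀ a,
      C.pairC hN e (shaIncl N lv a) = 0 := fun e he a => by
    obtain ⟨x, hx, y, hy, rfl⟩ := AddSubgroup.mem_sup.mp he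
    obtain ⟨x, rfl⟩ := hx
    rw [map_add, AddMonoidHom.add_apply, C.pairC_toCl hN lv.prime hp2 x _ a.2.2,
      pairC_ker_changeT ly C hN y hy (shaIncl N lv a), add_zero]
  obtain ⟨Φ, hK, hl, hΦ⟩ := exists_restrict_pairing (p := p) (Z := crossed G N)
    (fun z => Subtype.ext (funext fun x => hN _)) (C.pairC hN) (shaIncl N lv)
    (shaIncl_injective lv) (localClasses N lv ly.subset_places)
    (fun z hz => ⟨⟨z.1, mem_shaCrossed_of_pairC C hN z hz⟩, Subtype.ext rfl⟩) h2 h3
  refine ⟨Φ, hK, fun l h => hl l fun a ha => ?_, fun e a b hb => (hΦ e a).trans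
    (pairC_coboundary C hN e _ b fun g => (congrFun (shaIncl_apply lv a) g).trans (hb g))⟩
  obtain ⟨b, hb⟩ := C.exists_coboundary_of_pairC hN (shaIncl N lv a) ha
  exact h a b fun g => (congrFun (shaIncl_apply lv a).symm g).trans (hb g)

end FLTAgent.PoitouTate
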