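import Fermat.Agent.PoitouTate.Connect.Surj
import Fermat.Agent.PoitouTate.Kummer
import Fermat.Agent.PoitouTate.Cover
import Fermat.Agent.PoitouTate.LayerExists
import Fermat.Agent.PoitouTate.Theta

/-!
# The pairing of `sha₁` of the dual with `sha₂`

`exists_sha_pairing`: for a finite module `M` unramified outside `S ∋ p`, `p` odd, the groups
`sha₁ S (M^∨(1))` and `sha₂ S M` are in perfect pairing.  On a level on which `M` is defined and
which contains the Kummer extensions of such a level, both are images of maps whose kernels are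
compared: `theta` maps `Ext¹_G(DualMod M, C_T)` onto `sha₂` with kernel the local classes, and
`exists_phi` maps it onto the functionals on the locally trivial crossed homomorphisms.
-/

set_option autoImplicit false
set_option linter.style.haveILetI false
set_option linter.unusedSectionVars false

noncomputable section

open CategoryTheory groupCohomology ExtCitation
open scoped Pointwise

namespace FLTAgent.PoitouTate

open FLTAgent.TW

local notation "ℚ̄" => AlgebraicClosure ℚ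
local notation "Γ" => (AlgebraicClosure ℚ ≃ₐ[ℚ] AlgebraicClosure ℚ)

theorem exists_hom_ne_zero_aux {p : ℕ} [Fact p.Prime] {V : Type} [AddCommGroup V]
    [Module (ZMod p) V] {v : V} (hv : v ≠ 0) : ∃ l : V →+ ZMod p, l v ≠ 0 := by
  let b := Module.Basis.ofVectorSpace (ZMod p) V
  have hne : b.repr v ≠ 0 := fun h => hv (b.repr.map_eq_zero_iff.mp h)
  obtain ⟨j, hj⟩ := Finsupp.ne_iff.mp hne
  exact ⟨(b.coord j).toAddMonoidHom, hj⟩

/-- Functionals separate the elements of a group killed by `p`. -/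
theorem exists_hom_ne_zero {p : ℕ} [Fact p.Prime] {V : Type} [AddCommGroup V]
    (hV : ∀ v : V, p • v = 0) {v : V} (hv : v ≠ 0) : ∃ l : V →+ ZMod p, l v ≠ 0 :=
  @exists_hom_ne_zero_aux p _ V _ (AddCommGroup.zmodModule hV) v hv

/-- A map `Φ` from `E` to functionals on `A` with the kernel of a surjection `θ : E → Y` and with
image the functionals killing the kernel of a surjection `π : A → X` pairs `X` and `Y` perfectly. -/
theorem exists_pairing {p : ℕ} [Fact p.Prime] {E A X Y : Type} [AddCommGroup E] [AddCommGroup A]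
    [AddCommGroup X] [AddCommGroup Y] (hA : ∀ a : A, p • a = 0)
    (π : A →+ X) (hπ : Function.Surjective π) (θ : E →+ Y) (hθ : Function.Surjective θ)
    (Φ : E →+ A →+ ZMod p) (hker : Φ.ker = θ.ker) (hkill : ∀ e, π.ker ≤ (Φ e).ker)
    (hatt : ∀ l : A →+ ZMod p, π.ker ≤ l.ker → ∃ e, Φ e = l) :
    ∃ B : X →+ Y →+ ZMod p,
      (∀ x, (∀ y, B x y = 0) → x = 0) ∧ (∀ y, (∀ x, B x y = 0) → y = 0) := by
  choose sπ hsπ using hπ
  choose sθ hsθ using hθ
  have wd : ∀ e a, Φ e a = Φ (sθ (θ e)) (sπ (π a)) := fun e a => by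
    have h1 : e - sθ (θ e) ∈ Φ.ker := hker ▸ (by rw [AddMonoidHom.mem_ker, map_sub, hsθ, sub_self])
    have h2 : a - sπ (π a) ∈ π.ker := by rw [AddMonoidHom.mem_ker, map_sub, hsπ, sub_self]
    rw [AddMonoidHom.mem_ker, map_sub, sub_eq_zero] at h1
    have h3 := AddMonoidHom.mem_ker.mp (hkill e h2)
    rw [map_sub, sub_eq_zero] at h3
    rw [h3, h1]
  refine ⟨AddMonoidHom.mk' (fun x => AddMonoidHom.mk' (fun y => Φ (sθ y) (sπ x)) fun y y' => ?_)
    fun x x' => AddMonoidHom.ext fun y => ?_, fun x hx => ?_, fun y hy => ?_⟩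
  · rw [← AddMonoidHom.add_apply, ← map_add, wd (sθ y + sθ y') (sπ x), map_add θ, hsθ, hsθ, hsπ]
  · show Φ (sθ y) (sπ (x + x')) = Φ (sθ y) (sπ x) + Φ (sθ y) (sπ x')
    rw [← map_add, wd (sθ y) (sπ x + sπ x'), map_add π, hsπ, hsπ, hsθ]
  · by_contra h0
    have hQ : ∀ q : A ⧸ π.ker, p • q = 0 := fun q => by
      obtain ⟨a, rfl⟩ := QuotientAddGroup.mk'_surjective π.ker q
      rw [← map_nsmul, hA, map_zero]
    have hne : QuotientAddGroup.mk' π.ker (sπ x) ≠ 0 := fun h => h0 (by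
      have := (QuotientAddGroup.eq_zero_iff _).mp h
      rwa [AddMonoidHom.mem_ker, hsπ] at this)
    obtain ⟨l, hj⟩ := exists_hom_ne_zero hQ hne
    obtain ⟨e, he⟩ := hatt (l.comp (QuotientAddGroup.mk' π.ker)) fun a ha => by
      rw [AddMonoidHom.mem_ker, AddMonoidHom.comp_apply, QuotientAddGroup.mk'_apply,
        (QuotientAddGroup.eq_zero_iff a).mpr ha, map_zero]
    refine hj ?_
    have h1 := hx (θ e)
    rw [AddMonoidHom.mk'_apply, AddMonoidHom.mk'_apply] at h1
    rw [← hsπ x, ← wd e (sπ x), he] at h1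
    exact h1
  · have h1 : sθ y ∈ Φ.ker := AddMonoidHom.mem_ker.mpr (AddMonoidHom.ext fun a => by
      have h2 := hy (π a)
      rw [AddMonoidHom.mk'_apply, AddMonoidHom.mk'_apply] at h2
      rw [wd (sθ y) a, hsθ]
      exact h2)
    rw [hker, AddMonoidHom.mem_ker, hsθ] at h1
    exact h1

/-- `exists_pairing` as a bilinear map. -/
theorem exists_linear_pairing {p : ℕ} [Fact p.Prime] {E A X Y : Type} [AddCommGroup E]
    [AddCommGroup A] [AddCommGroup X] [AddCommGroup Y] [Module (ZMod p) X] [Module (ZMod p) Y]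
    (hA : ∀ a : A, p • a = 0) (π : A →+ X) (hπ : Function.Surjective π) (θ : E →+ Y)
    (hθ : Function.Surjective θ) (Φ : E →+ A →+ ZMod p) (hker : Φ.ker = θ.ker)
    (hkill : ∀ e, π.ker ≤ (Φ e).ker) (hatt : ∀ l : A →+ ZMod p, π.ker ≤ l.ker → ∃ e, Φ e = l) :
    ∃ B : X →ₗ[ZMod p] Y →ₗ[ZMod p] ZMod p,
      (∀ x, (∀ y, B x y = 0) → x = 0) ∧ (∀ y, (∀ x, B x y = 0) → y = 0) := by
  obtain ⟨B, h1, h2⟩ := exists_pairing hA π hπ θ hθ Φ hker hkill hatt
  let BL : X →+ (Y →ₗ[ZMod p] ZMod p) :=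
    AddMonoidHom.mk' (fun x => AddMonoidHom.toZModLinearMap p (B x)) fun x x' =>
      LinearMap.ext fun y => by
        show B (x + x') y = B x y + B x' y
        rw [map_add, AddMonoidHom.add_apply]
  exact ⟨AddMonoidHom.toZModLinearMap p BL, h1, h2⟩

variable {p : ℕ} [Fact p.Prime] {S : Finset Nat.Primes} {M : Rep.{0} (ZMod p) Γ}

/-- A level on which the coefficient module is defined. -/
theorem exists_coeff_level [FiniteDimensional (ZMod p) M] (hpS : pPrime p ∈ S)
    (hsm : ∀ m : M, ∃ F : IntermediateField ℚ ℚ̄, FiniteDimensional ℚ F ∧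
      ∀ s ∈ F.fixingSubgroup, M.ρ s m = m)
    (hMur : ∀ q : Nat.Primes, q ∉ S → ∀ A : ValuationSubring ℚ̄,
      A.LiesOverPrime (q : ℕ) → ∀ g ∈ A.inertiaSubgroupIn ℚ, M.ρ g = 1) :
    ∃ (G : Type) (_ : Group G) (lv : Level (natSet S) p G), ActsThrough M lv := by
  classical
  haveI : NeZero p := ⟨(Fact.out : p.Prime).ne_zero⟩
  haveI := Module.finite_of_finite (ZMod p) (M := M)
  choose F hF hF' using hsm
  set μ : Set ℚ̄ := {z | z ^ p ^ 2 = 1} with hμ
  have hμfin : μ.Finite := by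
    refine ((Polynomial.X ^ p ^ 2 - 1 : Polynomial ℚ̄).roots.toFinset.finite_toSet).subset
      fun z hz => ?_
    have hne : (Polynomial.X ^ p ^ 2 - 1 : Polynomial ℚ̄) ≠ 0 :=
      Polynomial.X_pow_sub_C_ne_zero (pow_pos (Fact.out : p.Prime).pos 2) 1
    rw [Finset.mem_coe, Multiset.mem_toFinset, Polynomial.mem_roots hne]
    simp [Polynomial.IsRoot, show z ^ p ^ 2 = 1 from hz]
  let K₀ : Subgroup Γ :=
    { carrier := {σ | M.ρ σ = 1 ∧ ∀ z ∈ μ, σ z = z}
      one_mem' := ⟨map_one _, fun _ _ => rfl⟩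
      mul_mem' := fun {a b} ha hb => ⟨by rw [map_mul, ha.1, hb.1, one_mul], fun z hz => by
        rw [AlgEquiv.mul_apply, hb.2 z hz, ha.2 z hz]⟩
      inv_mem' := fun {a} ha => ⟨by
        have := map_mul M.ρ a a⁻¹
        rw [mul_inv_cancel, map_one, ha.1, one_mul] at this
        exact this.symm, fun z hz => by
        conv_lhs => rw [← ha.2 z hz]
        rw [← AlgEquiv.mul_apply, inv_mul_cancel, AlgEquiv.one_apply]⟩ }
  haveI : K₀.Normal := ⟨fun a ha b => ⟨by
    rw [map_mul, map_mul, ha.1, mul_one, ← map_mul, mul_inv_cancel, map_one], fun z hz => by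
    have hz' : b⁻¹ z ∈ μ := show (b⁻¹ z) ^ p ^ 2 = 1 by rw [← map_pow, show z ^ p ^ 2 = 1 from hz,
      map_one]
    rw [AlgEquiv.mul_apply, AlgEquiv.mul_apply, ha.2 _ hz', ← AlgEquiv.mul_apply, mul_inv_cancel,
      AlgEquiv.one_apply]⟩⟩
  haveI := hμfin.to_subtype
  haveI := finite_adjoin (fun z : μ => (z : ℚ̄))
  haveI := hF
  haveI : FiniteDimensional ℚ (⨆ m : M, F m : IntermediateField ℚ ℚ̄) :=
    IntermediateField.finiteDimensional_iSup_of_finite
  have hopen : IsOpen (K₀ : Set Γ) := by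
    refine Subgroup.isOpen_mono (H₁ := ((⨆ m : M, F m) ⊔
      IntermediateField.adjoin ℚ (Set.range fun z : μ => (z : ℚ̄))).fixingSubgroup)
      (fun σ hσ => ⟨LinearMap.ext fun m => hF' m σ (IntermediateField.fixingSubgroup_le
        ((le_iSup F m).trans le_sup_left) hσ), fun z hz => apply_fix
        (le_sup_right (a := ⨆ m : M, F m) (IntermediateField.subset_adjoin ℚ _ (Set.mem_range.mpr ⟨⟨z, hz⟩, rfl⟩))) hσ⟩)
      ?_
    haveI := IntermediateField.finiteDimensional_sup (⨆ m : M, F m)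
      (IntermediateField.adjoin ℚ (Set.range fun z : μ => (z : ℚ̄)))
    exact IntermediateField.fixingSubgroup_isOpen _
  have hq : ∀ σ, QuotientGroup.mk' K₀ σ = 1 ↔ σ ∈ K₀ := fun σ => QuotientGroup.eq_one_iff σ
  refine ⟨Γ ⧸ K₀, inferInstance,
    { q := QuotientGroup.mk' K₀
      surj := QuotientGroup.mk'_surjective K₀
      isOpen_ker := by rw [QuotientGroup.ker_mk']; exact hopen
      mem := mem_natSet.mpr hpS
      prime := prime_of_mem_natSet
      unramified := fun A hA σ hσ => (hq σ).mpr ⟨?_, fun z hz => ?_⟩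
      zeta := fun σ hσ z hz => ((hq σ).mp hσ).2 z hz }, ⟨fun σ hσ => ((hq σ).mp hσ).1⟩⟩
  · obtain ⟨r, hr, hA'⟩ := A.2
    exact hMur ⟨r, hr⟩ (fun h => hA ⟨r, mem_natSet.mpr h, hr, hA'⟩) A.1 hA' σ hσ
  · refine GalCommon.inertia_apply_of_pow_eq_one A.prime_char A.liesOver_char (fun hdvd => ?_) hσ hz
    have he : A.char = p :=
      (Nat.prime_dvd_prime_iff_eq A.prime_char (Fact.out : p.Prime)).mp
        (A.prime_char.dvd_of_dvd_pow hdvd)
    exact hA (A.over_iff.mpr (he ▸ mem_natSet.mpr hpS))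

/-- Level cocycles vanish on a level containing the Kummer extensions of the coefficient level. -/
theorem vanish_of_kummerClosed [FiniteDimensional (ZMod p) M] {G₁ : Type} [Group G₁]
    (lv₁ : Level (natSet S) p G₁) [ActsThrough M lv₁] {G : Type} [Group G]
    (lv : Level (natSet S) p G) (f : G →* G₁) (hf : f.comp lv.q = lv₁.q)
    (hK : ∀ y : ℚ̄, y ^ p ∈ lv₁.field →
      (∀ A : Place, ¬ A.Over (natSet S) → ∀ s ∈ A.1.inertiaSubgroupIn ℚ, s y = y) →
      ∀ s, lv.q s = 1 → s y = y)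
    (c : cocycles₁ (M.dualTwist (cycloChar p))) (hc : IsLevelConstantS₁ S c) (σ : Γ)
    (hσ : lv.q σ = 1) : c σ = 0 := by
  obtain ⟨F, hF, hcF⟩ := hc
  obtain ⟨L, hL1, hFL, hL⟩ := exists_setting_of_unramified lv₁.setting hF
  haveI := setting_normal hL
  haveI := hL.finite
  have hq₁ : ∀ s, lv.q s = 1 → lv₁.q s = 1 := fun s hs => by
    rw [← hf, MonoidHom.comp_apply, hs, map_one]
  refine LinearMap.ext fun m => zetaAdd_injective ?_
  let χ : Γ → (ℚ̄)ˣ := fun s =>
    Additive.toMul (zetaAdd p ((c s : Module.Dual (ZMod p) M) m))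
  have hcadd : ∀ s ∈ lv₁.field.fixingSubgroup, ∀ t, c (s * t) = c s + c t := fun s hs t => by
    rw [(mem_cocycles₁_iff c).mp c.2, dualTwist_apply_eq_self M lv₁ (lv₁.mem_fix_field.mp hs),
      add_comm]
  have hμL : ∀ a : ZMod p, ((Additive.toMul (zetaAdd p a) : (ℚ̄)ˣ) : ℚ̄) ∈ lv₁.field := fun a =>
    zetaAdd_mem_field lv₁ a
  obtain ⟨b, hbL, hb⟩ := exists_ninety lv₁.field.fixingSubgroup L χ
    (fun s hs t _ => by
      show Additive.toMul (zetaAdd p _) = Additive.toMul (zetaAdd p _) * s • χ t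
      rw [hcadd s hs t, LinearMap.add_apply, map_add, toMul_add,
        smul_fix (hμL _) hs])
    (fun s _ t _ h => by
      have hs : t⁻¹ * s ∈ L.fixingSubgroup := by
        rw [IntermediateField.mem_fixingSubgroup_iff]
        intro x hx
        rw [AlgEquiv.mul_apply, h x hx, ← AlgEquiv.mul_apply, inv_mul_cancel, AlgEquiv.one_apply]
      show Additive.toMul (zetaAdd p _) = Additive.toMul (zetaAdd p _)
      rw [← hcF t _ (IntermediateField.fixingSubgroup_le hFL hs), mul_inv_cancel_left])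
    (fun s _ => hL1 (hμL _)) fun s _ x hx => mem_of_normal s hx
  have hsb : ∀ s ∈ lv₁.field.fixingSubgroup, s (b : ℚ̄) = (χ s : ℚ̄) * b := fun s hs => by
    rw [← Units.val_mul, ← div_eq_iff_eq_mul.mp (hb s hs)]
    rfl
  have hχp : ∀ s, χ s ^ p = 1 := fun s => by
    show (Additive.toMul (zetaAdd p _)) ^ p = 1
    rw [← toMul_nsmul, nsmul_zetaAdd, toMul_zero]
  have hfix := hK (b : ℚ̄) (mem_of_forall_fixed fun s hs => by
      rw [map_pow, hsb s hs, mul_pow, ← Units.val_pow_eq_pow_val, hχp, Units.val_one, one_mul])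
    (fun A hA s hs => apply_fix hbL (hL.unramified A hA s hs)) σ hσ
  rw [hsb σ (lv₁.mem_fix_field.mpr (hq₁ σ hσ)), mul_eq_right₀ b.ne_zero, Units.val_eq_one] at hfix
  rw [LinearMap.zero_apply, map_zero]
  exact Additive.toMul.injective hfix

set_option maxHeartbeats 800000 in
/-- The nondegenerate pairing of `sha₁` of the dual with `sha₂`. -/
theorem exists_sha_pairing [FiniteDimensional (ZMod p) M] (hp2 : p ≠ 2) (hpS : pPrime p ∈ S)
    (hsm : ∀ m : M, ∃ F : IntermediateField ℚ ℚ̄, FiniteDimensional ℚ F ∧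
      ∀ s ∈ F.fixingSubgroup, M.ρ s m = m)
    (hMur : ∀ q : Nat.Primes, q ∉ S → ∀ A : ValuationSubring ℚ̄,
      A.LiesOverPrime (q : ℕ) → ∀ g ∈ A.inertiaSubgroupIn ℚ, M.ρ g = 1) :
    ∃ B : sha₁ S (M.dualTwist (cycloChar p)) →ₗ[ZMod p] sha₂ S M →ₗ[ZMod p] ZMod p,
      (∀ y, (∀ x, B y x = 0) → y = 0) ∧ (∀ x, (∀ y, B y x = 0) → x = 0) := by
  classical
  obtain ⟨G₁, _, lv₁, _⟩ := exists_coeff_level (M := M) hpS hsm hMur
  obtain ⟨G, _, _, lv, f, hf, hK, hnd⟩ := exists_level lv₁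
  haveI : ActsThrough M lv := ⟨fun σ hσ => ActsThrough.eq_one (M := M) (lv := lv₁) σ (by
    rw [← hf, MonoidHom.comp_apply, hσ, map_one])⟩
  letI : DistribMulAction G (DualMod M) := dualAction M lv
  have hact : ∀ (σ : Γ) (x : DualMod M),
      lv.q σ • x = DualMod.of ((M.dualTwist (cycloChar p)).ρ σ (DualMod.val x)) :=
    dualAction_spec lv
  haveI := DualMod.finite M
  have hnorm : NormsDivisible (DualMod M) lv := ⟨f.ker, fun h hh x => by
    obtain ⟨σ, rfl⟩ := lv.surj h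
    rw [hact]
    exact dualTwist_apply_eq_self M lv₁ (by rw [← hf]; exact MonoidHom.mem_ker.mp hh) _, hnd⟩
  obtain ⟨ly⟩ := exists_layer_level hp2 lv
  obtain ⟨C⟩ := exists_coverOn ly
  obtain ⟨Φ, hker, hatt, hkill⟩ := exists_phi lv hp2 ly C (DualMod.nsmul_eq_zero M) hnorm
  let π : shaCrossed (DualMod M) lv →+ sha₁ S (M.dualTwist (cycloChar p)) :=
    AddMonoidHom.mk' (fun a => ⟨sha1Map lv hact a, sha1Map_mem lv hact a hp2⟩)
      fun a a' => Subtype.ext (map_add _ a a')
  have hπker : ∀ a, a ∈ π.ker ↔ ∃ m : DualMod M, ∀ g, a.1 g = g • m - m := fun a =>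
    AddMonoidHom.mem_ker.trans (Subtype.ext_iff.trans (sha1Map_eq_zero_iff lv hact a))
  have hsurj : Function.Surjective π := fun x => by
    obtain ⟨a, ha⟩ := exists_sha1Map_eq lv hact
      (fun c hc σ hσ => vanish_of_kummerClosed lv₁ lv f hf hK c hc σ hσ) x.2
    exact ⟨a, Subtype.ext ha⟩
  exact exists_linear_pairing (p := p)
    (fun a => Subtype.ext (funext fun g => DualMod.nsmul_eq_zero M _)) π hsurj
    (theta lv hact ly.subset_places hp2)
    (theta_surjective lv hact ly.subset_places ly.prime_places hp2) Φ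
    (hker.trans (ker_theta lv hact ly.subset_places hp2).symm)
    (fun e a ha => AddMonoidHom.mem_ker.mpr (by
      obtain ⟨m, hm⟩ := (hπker a).mp ha
      exact hkill e a m hm))
    fun l hl => hatt l fun a b hab => AddMonoidHom.mem_ker.mp (hl ((hπker a).mpr ⟨b, hab⟩))

end FLTAgent.PoitouTate
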