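import Fermat.Agent.PoitouTate.Alg

/-!
# Traces from subgroups and the pairing with classes coming from a subgroup

Over a `p`-subgroup `V` every equivariant map of a lattice into a cohomologically trivial module is
a trace.  Hence a class induced from `V` pairs to zero with the crossed homomorphisms which are
coboundaries on `V`.
-/

set_option autoImplicit false
set_option linter.unusedSectionVars false
set_option linter.style.haveILetI false

noncomputable section

namespace FLTAgent.PoitouTate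

open FLTAgent.TW FLTAgent.TW.Coh

section Induced

variable {Q : Type} [Group Q] [Fintype Q] {Y W : Type} [AddCommGroup Y] [DistribMulAction Q Y]
  [AddCommGroup W] [DistribMulAction Q W]

variable (Y) in
/-- Functions on `Q` invariant under `V` on the right. -/
def indMod (V : Subgroup Q) : AddSubgroup (Q → Y) where
  carrier := {φ | ∀ x : Q, ∀ v ∈ V, φ (x * v) = φ x}
  zero_mem' _ _ _ := rfl
  add_mem' {φ φ'} h h' x v hv := by rw [Pi.add_apply, Pi.add_apply, h x v hv, h' x v hv]
  neg_mem' {φ} h x v hv := by rw [Pi.neg_apply, Pi.neg_apply, h x v hv]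

variable {V : Subgroup Q}

instance indModAction : DistribMulAction Q (indMod Y V) where
  smul g φ := ⟨fun x => g • φ.1 (g⁻¹ * x), fun x v hv => by
    show g • φ.1 (g⁻¹ * (x * v)) = g • φ.1 (g⁻¹ * x)
    rw [← mul_assoc, φ.2 _ v hv]⟩
  one_smul φ := Subtype.ext (funext fun x => by
    show (1 : Q) • φ.1 (1⁻¹ * x) = φ.1 x
    simp)
  mul_smul g h φ := Subtype.ext (funext fun x => by
    show (g * h) • φ.1 ((g * h)⁻¹ * x) = g • h • φ.1 (h⁻¹ * (g⁻¹ * x))
    rw [mul_smul, mul_inv_rev, mul_assoc])
  smul_zero g := Subtype.ext (funext fun _ => smul_zero g)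
  smul_add g φ φ' := Subtype.ext (funext fun _ => smul_add g _ _)

theorem indMod_smul_apply (g : Q) (φ : indMod Y V) (x : Q) :
    (g • φ).1 x = g • φ.1 (g⁻¹ * x) := rfl

/-- Over a subgroup of a `p`-group with trivial cohomology in degrees `0` and `1`, every
equivariant map of a lattice is a trace. -/
theorem exists_trace_subgroup {p : ℕ} [Fact p.Prime] [Module.Free ℤ Y] [Module.Finite ℤ Y]
    [Fintype V] (hQ : IsPGroup p Q) (h1 : H1Zero Q W) (h0 : TraceSurj Q W) {f : Y →+ W}
    (hf : f ∈ eqHom V Y W) : ∃ k : Y →+ W, htrace V k = f := by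
  classical
  haveI : Module.Free ℤ (indMod Y V) := free_addSubgroup _
  have hwd : ∀ (φ : indMod Y V) (x : Q), ∀ v ∈ V,
      (x * v) • f ((x * v)⁻¹ • φ.1 (x * v)) = x • f (x⁻¹ • φ.1 x) := fun φ x v hv => by
    have h2 := hf (⟨v, hv⟩⁻¹ : V) (x⁻¹ • φ.1 x)
    change f (v⁻¹ • x⁻¹ • φ.1 x) = v⁻¹ • f (x⁻¹ • φ.1 x) at h2
    rw [φ.2 x v hv, mul_smul, mul_inv_rev, mul_smul, h2, smul_inv_smul]
  let F : indMod Y V →+ W := AddMonoidHom.mk'
    (fun φ => ∑ c : Q ⧸ V, Quotient.out c • f ((Quotient.out c)⁻¹ • φ.1 (Quotient.out c)))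
    fun φ φ' => by simp [smul_add, Finset.sum_add_distrib]
  have hF : F ∈ eqHom Q (indMod Y V) W := fun g φ => by
    show ∑ c : Q ⧸ V, _ = g • ∑ c : Q ⧸ V, _
    rw [Finset.smul_sum]
    refine (Fintype.sum_equiv (MulAction.toPerm g) _ _ fun c => ?_).symm
    rw [← mul_smul]
    set x := Quotient.out c
    obtain ⟨v, hv⟩ : ∃ v : V, Quotient.out (g • c) = g * x * v := by
      have hc : g • c = ((g * x : Q) : Q ⧸ V) := by
        conv_lhs => rw [← QuotientGroup.out_eq' c]
        rfl
      rw [hc]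
      exact QuotientGroup.mk_out_eq_mul V (g * x)
    show _ = Quotient.out (g • c) • f ((Quotient.out (g • c))⁻¹ • (g • φ).1 (Quotient.out (g • c)))
    rw [hv, hwd (g • φ) (g * x) v v.2, indMod_smul_apply, inv_mul_cancel_left, mul_inv_rev,
      mul_smul x⁻¹, inv_smul_smul]
  obtain ⟨g, hg⟩ := exists_trace_eq (Y := indMod Y V) hQ h1 h0 hF
  let δ : Y →+ indMod Y V := AddMonoidHom.mk'
    (fun y => ⟨fun x => if x ∈ V then y else 0, fun x v hv => by
      simp [Subgroup.mul_mem_cancel_right V hv]⟩)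
    fun y y' => Subtype.ext (funext fun x => by
      show (if x ∈ V then y + y' else 0) = (if x ∈ V then y else 0) + if x ∈ V then y' else 0
      split <;> simp)
  have hδ : ∀ (v : V) (y : Y), δ ((v : Q) • y) = (v : Q) • δ y := fun v y =>
    Subtype.ext (funext fun x => by
      show (if x ∈ V then (v : Q) • y else 0) = (v : Q) • (if (v : Q)⁻¹ * x ∈ V then y else 0)
      rw [smul_ite, smul_zero]
      simp [Subgroup.mul_mem_cancel_left V (inv_mem v.2)])
  have hFδ : ∀ y, F (δ y) = f y := fun y => by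
    show ∑ c : Q ⧸ V, Quotient.out c • f ((Quotient.out c)⁻¹ • (δ y).1 (Quotient.out c)) = f y
    rw [Finset.sum_eq_single ((1 : Q) : Q ⧸ V) (fun c _ hc => ?_) (by simp)]
    · obtain ⟨v, hv⟩ := QuotientGroup.mk_out_eq_mul V (1 : Q)
      have := hwd (δ y) 1 v v.2
      rw [one_mul] at this hv
      rw [hv, this, inv_one, one_smul, one_smul]
      show f (if (1 : Q) ∈ V then y else 0) = f y
      rw [if_pos (one_mem V)]
    · have : (δ y).1 (Quotient.out c) = 0 := if_neg fun h => hc (by
        rw [← QuotientGroup.out_eq' c]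
        exact (QuotientGroup.eq.mpr (by simpa using h)))
      rw [this, smul_zero, map_zero, smul_zero]
  refine ⟨AddMonoidHom.mk' (fun z => ∑ c : Q ⧸ V,
    (Quotient.out c)⁻¹ • g (Quotient.out c • δ z)) fun z z' => by
      simp [smul_add, Finset.sum_add_distrib], AddMonoidHom.ext fun y => ?_⟩
  rw [← hFδ y, ← hg, htrace_apply, htrace_apply, AddMonoidHom.finsetSum_apply,
    AddMonoidHom.finsetSum_apply]
  simp only [hconj_apply, AddMonoidHom.mk'_apply, Finset.smul_sum]
  rw [← Fintype.sum_prod_type']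
  refine Fintype.sum_bijective
    (fun x : V × (Q ⧸ V) => (x.1 : Q) * (Quotient.out x.2)⁻¹) ?_ _ _ fun x => ?_
  · refine (Fintype.bijective_iff_injective_and_card _).mpr ⟨fun x y h => ?_, ?_⟩
    · have h' : Quotient.out x.2 * (x.1 : Q)⁻¹ = Quotient.out y.2 * (y.1 : Q)⁻¹ := by
        simpa using congrArg (·⁻¹) h
      have h1 : x.2 = y.2 := by
        have h2 := congrArg (fun z : Q => (z : Q ⧸ V)) h'
        simpa [QuotientGroup.mk_mul_of_mem _ (inv_mem (Subtype.prop _))] using h2
      refine Prod.ext (Subtype.ext ?_) h1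
      simpa [h1] using h
    · rw [Fintype.card_prod, mul_comm, ← Nat.card_eq_fintype_card, ← Nat.card_eq_fintype_card,
        ← Nat.card_eq_fintype_card]
      exact (Subgroup.card_eq_card_quotient_mul_card_subgroup V).symm
  · show (x.1 : Q) • (Quotient.out x.2)⁻¹ • g (Quotient.out x.2 • δ ((x.1⁻¹ : V) • y)) = _
    rw [mul_smul, mul_inv_rev, inv_inv, mul_smul (Quotient.out x.2), ← InvMemClass.coe_inv, ← hδ]
    rfl

end Induced

variable {G : Type} [Group G] [Fintype G] {p n : ℕ} [Fact p.Prime]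

section Trace

variable {Y W : Type} [AddCommGroup Y] [DistribMulAction G Y] [AddCommGroup W]
  [DistribMulAction G W] [Module.Free ℤ Y] [Module.Finite ℤ Y]

/-- Over every `p`-subgroup equivariant maps of a lattice into `W` are traces. -/
theorem exists_trace_pSubgroup {P : Subgroup G} [Fintype P] (hW : IsCT p P W) (V : Subgroup G)
    [Fintype V] (hV : IsPGroup p V) {f : Y →+ W} (hf : f ∈ eqHom V Y W) :
    ∃ k : Y →+ W, htrace V k = f := by
  classical
  -- conjugate `V` into `P`
  obtain ⟨R, hVR⟩ := hV.exists_le_sylow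
  have hPcard : Nat.card P = p ^ (Nat.card G).factorization p := by
    obtain ⟨k, hk⟩ := IsPGroup.iff_card.mp hW.isPGroup
    rw [hk]
    congr 1
    have h := P.card_mul_index
    rw [hk] at h
    rw [← h, Nat.factorization_mul (pow_ne_zero _ (Fact.out : p.Prime).ne_zero) P.index_ne_zero_of_finite,
      Finsupp.add_apply, (Fact.out : p.Prime).factorization_pow, Finsupp.single_eq_same,
      Nat.factorization_eq_zero_of_not_dvd fun h => (Fact.out : p.Prime).ne_one
        (Nat.dvd_one.mp (hW.coprime ▸ Nat.dvd_gcd h dvd_rfl)), add_zero]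
  let P' : Sylow p G := Sylow.ofCard P hPcard
  obtain ⟨g, hg⟩ := MulAction.exists_smul_eq G R P'
  have hmem : ∀ v ∈ V, g * v * g⁻¹ ∈ P := fun v hv => by
    have h2 : MulAut.conj g v ∈ ((g • R : Sylow p G) : Subgroup G) :=
      Subgroup.smul_mem_pointwise_smul v (MulAut.conj g) _ (hVR hv)
    rw [hg] at h2
    exact h2
  -- the conjugate subgroup inside `P`
  let U : Subgroup P := (V.map (MulAut.conj g).toMonoidHom).subgroupOf P
  have hU : ∀ u : P, u ∈ U ↔ g⁻¹ * (u : G) * g ∈ V := fun u => by
    rw [Subgroup.mem_subgroupOf, Subgroup.mem_map]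
    refine ⟨?_, fun h => ⟨_, h, by simp [mul_assoc]⟩⟩
    rintro ⟨v, hv, e⟩
    rw [← e]
    simpa [mul_assoc] using hv
  letI : DistribMulAction P Y := inferInstance
  haveI : Fintype U := Fintype.ofFinite _
  have hf' : hconj g f ∈ eqHom U Y W := fun u y => by
    show g • f (g⁻¹ • (((u : P) : G) • y)) = ((u : P) : G) • g • f (g⁻¹ • y)
    have h2 := hf ⟨_, (hU u).mp u.2⟩ (g⁻¹ • y)
    change f ((g⁻¹ * ((u : P) : G) * g) • g⁻¹ • y) = (g⁻¹ * ((u : P) : G) * g) • f (g⁻¹ • y) at h2
    rw [← mul_smul, mul_inv_cancel_right, mul_smul] at h2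
    rw [h2, ← mul_smul, ← mul_assoc, mul_inv_cancel_left, mul_smul]
  obtain ⟨k, hk⟩ := exists_trace_subgroup (V := U) hW.isPGroup hW.h1 hW.h0 hf'
  refine ⟨hconj g⁻¹ k, ?_⟩
  have e : hconj g⁻¹ (htrace U k) = htrace V (hconj g⁻¹ k) := by
    rw [htrace_apply, htrace_apply, map_sum]
    refine Fintype.sum_bijective
      (fun u : U => (⟨_, (hU u).mp u.2⟩ : V)) ⟨fun u u' h => ?_, fun v => ?_⟩ _ _ fun u => ?_
    · have h2 := congrArg Subtype.val h
      exact Subtype.ext (Subtype.ext (mul_left_cancel (mul_right_cancel h2)))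
    · refine ⟨⟨⟨g * v * g⁻¹, hmem _ v.2⟩, (hU _).mpr (by simp [mul_assoc])⟩, Subtype.ext ?_⟩
      simp [mul_assoc]
    · show hconj g⁻¹ (hconj (((u : P) : G)) k) = hconj (g⁻¹ * ((u : P) : G) * g) (hconj g⁻¹ k)
      rw [← hconj_mul, ← hconj_mul, mul_assoc _ g, mul_inv_cancel, mul_one]
  rw [← e, hk, ← hconj_mul, inv_mul_cancel, hconj_one]

end Trace

/-! ### Induced maps -/

section Cotrace

variable {Y W : Type} [AddCommGroup Y] [DistribMulAction G Y] [AddCommGroup W]
  [DistribMulAction G W] (V : Subgroup G)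

/-- The sum of the conjugates over the cosets of `V`. -/
def cotrace : (Y →+ W) →+ (Y →+ W) :=
  haveI : Fintype (G ⧸ V) := Fintype.ofFinite _
  ∑ c : G ⧸ V, hconj (Quotient.out c)

theorem cotrace_apply [Fintype (G ⧸ V)] (f : Y →+ W) :
    cotrace V f = ∑ c : G ⧸ V, hconj (Quotient.out c) f := by
  rw [cotrace, AddMonoidHom.finsetSum_apply]
  congr 1
  exact congrArg (@Finset.univ _) (Subsingleton.elim _ _)

theorem cotrace_htrace [Fintype V] (f : Y →+ W) : cotrace V (htrace V f) = htrace G f := by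
  classical
  haveI : Fintype (G ⧸ V) := Fintype.ofFinite _
  rw [cotrace_apply]
  simp only [htrace_apply, map_sum]
  rw [← Fintype.sum_prod_type']
  refine Fintype.sum_bijective (fun x : (G ⧸ V) × V => Quotient.out x.1 * (x.2 : G)) ?_ _ _
    fun x => (hconj_mul _ _ _).symm
  refine (Fintype.bijective_iff_injective_and_card _).mpr ⟨fun x y h => ?_, ?_⟩
  · have h1 : x.1 = y.1 := by
      have h2 := congrArg (fun z : G => (z : G ⧸ V)) h
      simpa [QuotientGroup.mk_mul_of_mem] using h2
    refine Prod.ext h1 (Subtype.ext ?_)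
    simpa [h1] using h
  · rw [Fintype.card_prod, ← Nat.card_eq_fintype_card, ← Nat.card_eq_fintype_card,
      ← Nat.card_eq_fintype_card]
    exact (Subgroup.card_eq_card_quotient_mul_card_subgroup V).symm

theorem cotrace_mem {f : Y →+ W} (hf : f ∈ eqHom V Y W) : cotrace V f ∈ eqHom G Y W := by
  haveI : Fintype (G ⧸ V) := Fintype.ofFinite _
  refine mem_eqHom_of_hconj fun g => ?_
  rw [cotrace_apply, map_sum]
  refine Fintype.sum_equiv (MulAction.toPerm g) _ _ fun c => ?_
  obtain ⟨v, hv⟩ : ∃ v : V, Quotient.out (g • c) = g * Quotient.out c * v := by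
    have hc : g • c = ((g * Quotient.out c : G) : G ⧸ V) := by
      conv_lhs => rw [← QuotientGroup.out_eq' c]
      rfl
    rw [hc]
    exact QuotientGroup.mk_out_eq_mul V _
  show hconj g (hconj (Quotient.out c) f) = hconj (Quotient.out (g • c)) f
  rw [hv, hconj_mul (g * Quotient.out c), hconj_mul g]
  congr 2
  exact (hconj_eq_self hf v).symm

theorem cotrace_comp_left {B : Type} [AddCommGroup B] [DistribMulAction G B] {j : W →+ B}
    (hj : j ∈ eqHom G W B) (f : Y →+ W) : cotrace V (j.comp f) = j.comp (cotrace V f) := by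
  haveI : Fintype (G ⧸ V) := Fintype.ofFinite _
  rw [cotrace_apply, cotrace_apply]
  refine AddMonoidHom.ext fun y => ?_
  simp [AddMonoidHom.finsetSum_apply, hconj_comp, hconj_eq_self hj]

end Cotrace

/-! ### The pairing with induced classes -/

variable {B : Type} [AddCommGroup B] [DistribMulAction G B] (D : CoverData G p n B)
variable {N : Type} [AddCommGroup N] [DistribMulAction G N] (hN : ∀ m : N, p • m = 0)

/-- A class induced from `V` kills the crossed homomorphisms which are coboundaries on `V`. -/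
theorem pairing_cotrace [Finite N] {P : Subgroup G} [Fintype P] (hW : IsCT p P D.cover)
    (V : Subgroup G) (hV : IsPGroup p V) {f : Coh.Rel G N →+ D.classes}
    (hf : f ∈ eqHom V (Coh.Rel G N) D.classes) {q : G → N} (hq : IsCrossed G q)
    (htriv : ∃ b : N, ∀ v ∈ V, q v = v • b - b) :
    pairing D hN hW (Ext1.mk ⟨cotrace V f, cotrace_mem V hf⟩) q = 0 := by
  classical
  haveI : Fintype V := Fintype.ofFinite _
  haveI : Module.Free ℤ (Coh.Rel G N) := free_addSubgroup _
  haveI : Module.Finite ℤ (Coh.Rel G N) :=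
    Module.Finite.equiv (M := AddSubgroup.toIntSubmodule (Coh.Rel G N)) (N := Coh.Rel G N)
      (AddEquiv.refl (Coh.Rel G N) :
        (AddSubgroup.toIntSubmodule (Coh.Rel G N)) ≃+ Coh.Rel G N).toIntLinearEquiv
  obtain ⟨k, hk⟩ := exists_trace_pSubgroup hW V hV (f := D.inclA.comp f)
    (comp_mem_eqHom (fun v x => D.inclA_mem (v : G) x) hf)
  have hG : Ext1.map D.inclA D.inclA_mem (Ext1.mk ⟨cotrace V f, cotrace_mem V hf⟩) =
      Ext1.mk ⟨htrace G k, htrace_mem k⟩ := by
    rw [Ext1.map_mk]
    refine congrArg Ext1.mk (Subtype.ext ?_)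
    show D.inclA.comp (cotrace V f) = htrace G k
    rw [← cotrace_comp_left V D.inclA_mem, ← hk, cotrace_htrace]
  obtain ⟨b, hb⟩ := htriv
  have hbd : vecPair (latVec D hN k) (fun x => x • b - b) = 0 := by
    unfold vecPair
    simp only [map_sub, Finset.sum_sub_distrib, ← AddMonoidHom.finsetSum_apply, latVec_sum,
      sum_latVec_smul D hN hG, AddMonoidHom.zero_apply, sub_zero]
  rw [pairing_eq D hN hW hG hq]
  let q' : G → N := fun x => q x - (x • b - b)
  have hsplit : vecPair (latVec D hN k) q = vecPair (latVec D hN k) q' := by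
    rw [show q = q' + fun x => x • b - b from funext fun x => (sub_add_cancel _ _).symm,
      vecPair_add_right, hbd, add_zero]
  have hq' : ∀ v ∈ V, ∀ r, q' (v * r) = v • q' r := fun v hv r => by
    simp only [q', hq v r, hb v hv, mul_smul, smul_sub]
    abel
  -- the vector of the trace over `V`
  have hzero : ∀ (r : G) (m : N), ∑ v : V, latVec D hN k ((v : G) * r) ((v : G) • m) = 0 := by
    intro r m
    have h0 : latVec D hN (htrace V k) r m = 0 := by
      rw [hk, latVec_apply]
      show ((((0 : TrivMod G)) r : ℤ) : ZMod p) = 0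
      exact Int.cast_zero
    rw [htrace_apply, latVec_sum_index, Finset.sum_apply, AddMonoidHom.finsetSum_apply] at h0
    refine Eq.trans ?_ h0
    refine Fintype.sum_equiv (Equiv.inv V) _ _ fun v => ?_
    show _ = latVec D hN (hconj ((v : G)⁻¹) k) r m
    rw [latVec_hconj]
    show _ = latVec D hN k (((v : G)⁻¹)⁻¹ * r) (((v : G)⁻¹)⁻¹ • m)
    rw [inv_inv]
  rw [hsplit]
  haveI : Fintype (G ⧸ V) := Fintype.ofFinite _
  calc vecPair (latVec D hN k) q'
      = ∑ c : G ⧸ V, ∑ v : V,
          latVec D hN k ((v : G) * (Quotient.out c)⁻¹) ((v : G) • q' (Quotient.out c)⁻¹) := by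
        rw [← Fintype.sum_prod_type']
        refine (Fintype.sum_bijective
          (fun x : (G ⧸ V) × V => (x.2 : G) * (Quotient.out x.1)⁻¹) ?_ _ _ fun x => ?_).symm
        · refine (Fintype.bijective_iff_injective_and_card _).mpr ⟨fun x y h => ?_, ?_⟩
          · have h' : Quotient.out x.1 * (x.2 : G)⁻¹ = Quotient.out y.1 * (y.2 : G)⁻¹ := by
              simpa using congrArg (·⁻¹) h
            have h1 : x.1 = y.1 := by
              have h2 := congrArg (fun z : G => (z : G ⧸ V)) h'
              simpa [QuotientGroup.mk_mul_of_mem _ (inv_mem (Subtype.prop _))] using h2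
            refine Prod.ext h1 (Subtype.ext ?_)
            simpa [h1] using h
          · rw [Fintype.card_prod, ← Nat.card_eq_fintype_card, ← Nat.card_eq_fintype_card,
              ← Nat.card_eq_fintype_card]
            exact (Subgroup.card_eq_card_quotient_mul_card_subgroup V).symm
        · exact congrArg _ (hq' _ x.2.2 _).symm
    _ = 0 := Finset.sum_eq_zero fun c _ => hzero _ _

end FLTAgent.PoitouTate
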