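import Fermat.Agent.PoitouTate.Interface
import Fermat.Agent.PoitouTate.Subgroup

/-!
# Equivariant maps into the local components are induced from decomposition groups

`eq_sum_cotrace`: an equivariant map into the components at `T ∪ ∞` is the sum of the maps induced
from the decomposition groups of one place over each prime of `T` and of its infinite part, and
for odd `p` twice the infinite part is a trace (`two_nsmul_infinitePart`), the field of the level
having no real embedding.  Also the behaviour of `TrivialOn` under inclusion, conjugation and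
subgroups of index prime to `p`.
-/

set_option autoImplicit false
set_option linter.style.haveILetI false
set_option linter.unusedSectionVars false

noncomputable section

open scoped Pointwise

namespace FLTAgent.PoitouTate

open FLTAgent.TW FLTAgent.TW.Coh PreIdele

local notation "ℚ̄" => AlgebraicClosure ℚ
local notation "Γ" => (AlgebraicClosure ℚ ≃ₐ[ℚ] AlgebraicClosure ℚ)

variable {G : Type} [Group G]

theorem TrivialOn.mono {N : Type} [AddCommGroup N] [DistribMulAction G N] {V W : Subgroup G}
    (h : V ≤ W) {a : G → N} (ha : TrivialOn W a) : TrivialOn V a :=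
  let ⟨m, hm⟩ := ha; ⟨m, fun g hg => hm g (h hg)⟩

/-- Triviality on a subgroup passes to its conjugates. -/
theorem TrivialOn.conj {N : Type} [AddCommGroup N] [DistribMulAction G N] {V W : Subgroup G}
    (s : G) (h : ∀ w ∈ W, s⁻¹ * w * s ∈ V) {a : G → N} (ha : IsCrossed G a) (hV : TrivialOn V a) :
    TrivialOn W a := by
  obtain ⟨m, hm⟩ := hV
  refine ⟨s • m - a s, fun w hw => ?_⟩
  have h1 : a w + w • a s = a s + s • ((s⁻¹ * w * s) • m - m) := by
    rw [← hm _ (h w hw), ← ha, ← ha, ← mul_assoc, ← mul_assoc, mul_inv_cancel, one_mul]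
  rw [smul_sub s, ← mul_smul, ← mul_assoc, ← mul_assoc, mul_inv_cancel, one_mul, mul_smul] at h1
  rw [smul_sub, eq_sub_of_add_eq h1]
  abel

/-- Triviality on a subgroup of index prime to `p` suffices. -/
theorem TrivialOn.of_coprime {N : Type} [AddCommGroup N] [DistribMulAction G N] [Finite G]
    {p : ℕ} [Fact p.Prime] (hN : ∀ m : N, p • m = 0) {V W : Subgroup G} (hVW : V ≤ W)
    (hidx : (V.relIndex W).Coprime p) {a : G → N} (ha : IsCrossed G a) (hV : TrivialOn V a) :
    TrivialOn W a := by
  classical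
  obtain ⟨m, hm⟩ := hV
  let a' : G → N := fun g => a g - (g • m - m)
  have ha' : ∀ g h, a' (g * h) = a' g + g • a' h := fun g h => by
    simp only [a', ha g h, mul_smul, smul_sub]; abel
  have hz : ∀ v ∈ V, a' v = 0 := fun v hv => sub_eq_zero.mpr (hm v hv)
  let V' : Subgroup W := V.subgroupOf W
  haveI : Fintype (W ⧸ V') := Fintype.ofFinite _
  let s : N := ∑ c : W ⧸ V', a' ((Quotient.out c : W) : G)
  have key : ∀ w ∈ W, w • s = s - (V.relIndex W) • a' w := fun w hw => by
    have h1 : w • s = ∑ c : W ⧸ V', (a' (w * ((Quotient.out c : W) : G)) - a' w) := by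
      rw [Finset.smul_sum]
      exact Finset.sum_congr rfl fun c _ => by rw [ha', add_sub_cancel_left]
    rw [h1, Finset.sum_sub_distrib, Finset.sum_const, Finset.card_univ]
    congr 1
    · refine Fintype.sum_equiv (MulAction.toPerm (⟨w, hw⟩ : W)) _ _ fun c => ?_
      obtain ⟨v, hv⟩ : ∃ v : V', Quotient.out ((⟨w, hw⟩ : W) • c) = ⟨w, hw⟩ * Quotient.out c * v := by
        have hc : (⟨w, hw⟩ : W) • c = ((⟨w, hw⟩ * Quotient.out c : W) : W ⧸ V') := by
          conv_lhs => rw [← QuotientGroup.out_eq' c]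
          rfl
        rw [hc]
        exact QuotientGroup.mk_out_eq_mul V' _
      show _ = a' (Quotient.out ((⟨w, hw⟩ : W) • c) : W)
      rw [hv]
      show _ = a' (w * ((Quotient.out c : W) : G) * ((v : W) : G))
      rw [ha' (w * _), hz _ (Subgroup.mem_subgroupOf.mp v.2), smul_zero, add_zero]
    · rw [Subgroup.relIndex, Subgroup.index, Nat.card_eq_fintype_card]
  obtain ⟨u, -, hu⟩ := Nat.exists_mul_mod_eq_one_of_coprime hidx (Fact.out : p.Prime).one_lt
  refine ⟨m - u • s, fun w hw => ?_⟩
  have h1 : (V.relIndex W * u) • a' w = a' w := by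
    rw [← Nat.mod_add_div (V.relIndex W * u) p, hu, add_nsmul, one_nsmul, mul_nsmul, hN,
      nsmul_zero, add_zero]
  have h2 : u • (w • s) = u • s - a' w := by
    rw [key w hw, nsmul_sub, smul_smul, mul_comm, h1]
  rw [smul_sub, smul_comm w u s, h2]
  show a w = _
  simp only [a']
  abel

namespace Level

variable {S T : Finset ℕ} {p : ℕ} (lv : Level S p G)

theorem inOrbit_smul_iff {A : Place} {σ : Γ} :
    lv.inOrbit A (σ • A) ↔ lv.q σ ∈ lv.decGroup A := by
  constructor
  · rintro ⟨τ, hτ, h⟩
    refine lv.mem_decGroup.mpr ⟨τ⁻¹ * σ, ?_, ?_⟩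
    · rw [mul_smul, ← h, inv_smul_smul]
    · rw [map_mul, map_inv, lv.mem_fix_field.mp hτ, inv_one, one_mul]
  · intro hσ
    obtain ⟨σ', hσ', he⟩ := lv.mem_decGroup.mp hσ
    refine ⟨σ * σ'⁻¹, lv.mem_fix_field.mpr (by rw [map_mul, map_inv, he, mul_inv_cancel]), ?_⟩
    rw [mul_smul]
    congr 1
    exact inv_smul_eq_iff.mpr hσ'.symm

theorem decGroup_smul (σ : Γ) (A : Place) :
    ∀ w ∈ lv.decGroup (σ • A), (lv.q σ)⁻¹ * w * lv.q σ ∈ lv.decGroup A := fun w hw => by
  obtain ⟨τ, hτ, rfl⟩ := lv.mem_decGroup.mp hw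
  refine lv.mem_decGroup.mpr ⟨σ⁻¹ * τ * σ, ?_, by rw [map_mul, map_mul, map_inv]⟩
  rw [mul_smul, mul_smul, hτ, inv_smul_smul]

theorem locVal_sum {ι : Type} (s : Finset ι) (x : ι → lv.LocMod T) :
    lv.locVal (∑ i ∈ s, x i) = ∏ i ∈ s, lv.locVal (x i) := by
  classical
  induction s using Finset.induction with
  | empty => exact lv.locVal_zero
  | @insert a s ha ih => rw [Finset.sum_insert ha, Finset.prod_insert ha, locVal_add, ih]

/-- The finite components as a monoid homomorphism. -/
def finHom (B : Place) : PreIdele →* ℚ̄ˣ where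
  toFun φ := φ.fin B
  map_one' := rfl
  map_mul' _ _ := rfl

/-- The infinite components as a monoid homomorphism. -/
def infHom (ι : Emb) : PreIdele →* ℂˣ where
  toFun φ := φ.inf ι
  map_one' := rfl
  map_mul' _ _ := rfl

/-- The infinite part of the local components. -/
def infinitePart : lv.LocMod T →+ lv.LocMod T :=
  AddMonoidHom.mk' (fun x => lv.locOf ⟨restrIdele (fun _ => False) (fun _ => True) (lv.locVal x),
    ⟨restr_mem_ideles (lv.locVal_mem x).1 (fun _ _ _ => Iff.rfl) (fun _ _ _ => Iff.rfl)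
      (fun _ => Iff.rfl), fun _ _ => restr_fin_of_neg not_false⟩⟩) fun x y =>
    lv.locVal_injective (PreIdele.ext (funext fun B => by
      show (restrIdele _ _ (lv.locVal (x + y))).fin B =
        (restrIdele _ _ (lv.locVal x)).fin B * (restrIdele _ _ (lv.locVal y)).fin B
      rw [restr_fin_of_neg not_false, restr_fin_of_neg not_false, restr_fin_of_neg not_false,
        one_mul])
      (funext fun ι => by
      show (restrIdele _ _ (lv.locVal (x + y))).inf ι =
        (restrIdele _ _ (lv.locVal x)).inf ι * (restrIdele _ _ (lv.locVal y)).inf ι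
      rw [restr_inf_of_pos trivial, restr_inf_of_pos trivial, restr_inf_of_pos trivial]
      rfl))

theorem locVal_infinitePart_fin (x : lv.LocMod T) (B : Place) :
    (lv.locVal (lv.infinitePart x)).fin B = 1 := restr_fin_of_neg not_false

theorem locVal_infinitePart_inf (x : lv.LocMod T) (ι : Emb) :
    (lv.locVal (lv.infinitePart x)).inf ι = (lv.locVal x).inf ι := restr_inf_of_pos trivial

theorem fin_smul_locVal (σ : Γ) (x : lv.LocMod T) (B : Place) :
    (lv.locVal (lv.q σ • x)).fin B = Units.map (σ : ℚ̄ →* ℚ̄) ((lv.locVal x).fin (σ⁻¹ • B)) := by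
  rw [lv.locVal_smul rfl]
  rfl

theorem inf_smul_locVal (σ : Γ) (x : lv.LocMod T) (ι : Emb) :
    (lv.locVal (lv.q σ • x)).inf ι = (lv.locVal x).inf (ι.twist σ) := by
  rw [lv.locVal_smul rfl]
  rfl

theorem smul_placeProj {A : Place} {g : G} (hg : g ∈ lv.decGroup A) (x : lv.LocMod T) :
    lv.placeProj A (g • x) = g • lv.placeProj A x := by
  obtain ⟨σ, hσ, rfl⟩ := lv.mem_decGroup.mp hg
  have horb : ∀ B, lv.inOrbit A B ↔ lv.inOrbit A (σ⁻¹ • B) := fun B => by
    constructor
    · rintro ⟨τ, hτ, rfl⟩
      refine ⟨σ⁻¹ * τ * σ, lv.mem_fix_field.mpr (by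
        rw [map_mul, map_mul, lv.mem_fix_field.mp hτ, map_inv, mul_one, inv_mul_cancel]), ?_⟩
      rw [mul_smul, mul_smul, hσ]
    · rintro ⟨τ, hτ, h⟩
      refine ⟨σ * τ * σ⁻¹, lv.mem_fix_field.mpr (by
        rw [map_mul, map_mul, lv.mem_fix_field.mp hτ, map_inv, mul_one, mul_inv_cancel]), ?_⟩
      rw [mul_smul, mul_smul, inv_smul_eq_iff.mpr hσ.symm, h, smul_inv_smul]
  refine lv.locVal_injective (PreIdele.ext (funext fun B => ?_) (funext fun ι => ?_))
  · rw [fin_smul_locVal, locVal_placeProj, locVal_placeProj, orbitRestr, orbitRestr]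
    by_cases h : lv.inOrbit A B
    · rw [restr_fin_of_pos h, restr_fin_of_pos ((horb B).mp h), fin_smul_locVal]
    · rw [restr_fin_of_neg h, restr_fin_of_neg (fun h' => h ((horb B).mpr h')), map_one]
  · rw [inf_smul_locVal, locVal_placeProj, locVal_placeProj, orbitRestr, orbitRestr,
      restr_inf_of_neg not_false, restr_inf_of_neg not_false]

variable {Y : Type} [AddCommGroup Y] [DistribMulAction G Y]

theorem placeProj_comp_mem (A : Place) {f : Y →+ lv.LocMod T}
    (hf : f ∈ eqHom G Y (lv.LocMod T)) :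
    (lv.placeProj A).comp f ∈ eqHom (lv.decGroup A) Y (lv.LocMod T) := fun g y => by
  show lv.placeProj A (f ((g : G) • y)) = (g : G) • lv.placeProj A (f y)
  rw [hf, lv.smul_placeProj g.2]

/-- An equivariant map into the local components is the sum of the maps induced from the
decomposition groups and of its infinite part. -/
theorem eq_sum_cotrace [Fintype G] (hT : ∀ r ∈ T, r.Prime) (Aof : T → Place)
    (hA : ∀ r : T, (Aof r).1.LiesOverPrime r) {f : Y →+ lv.LocMod T}
    (hf : f ∈ eqHom G Y (lv.LocMod T)) :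
    f = ∑ r : T, cotrace (lv.decGroup (Aof r)) ((lv.placeProj (Aof r)).comp f) +
      lv.infinitePart.comp f := by
  classical
  refine AddMonoidHom.ext fun y => lv.locVal_injective ?_
  rw [AddMonoidHom.add_apply, locVal_add, AddMonoidHom.finsetSum_apply, locVal_sum]
  haveI : ∀ r : T, Fintype (G ⧸ lv.decGroup (Aof r)) := fun r => Fintype.ofFinite _
  simp only [cotrace_apply, AddMonoidHom.finsetSum_apply, locVal_sum, hconj_apply,
    AddMonoidHom.comp_apply]
  -- the terms
  have hterm : ∀ (r : T) (c : G ⧸ lv.decGroup (Aof r)) (B : Place),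
      (lv.locVal (Quotient.out c • lv.placeProj (Aof r) (f ((Quotient.out c)⁻¹ • y)))).fin B =
        if lv.inOrbit (Aof r) ((lv.lift (Quotient.out c))⁻¹ • B) then (lv.locVal (f y)).fin B
        else 1 := fun r c B => by
    conv_lhs => rw [← lv.q_lift (Quotient.out c)]
    rw [fin_smul_locVal, locVal_placeProj, orbitRestr]
    split
    · rename_i h
      have hq : lv.q (lv.lift (Quotient.out c))⁻¹ = (Quotient.out c)⁻¹ := by rw [map_inv, q_lift]
      rw [restr_fin_of_pos h, hf, q_lift, ← hq, fin_smul_locVal, inv_inv, smul_inv_smul]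
      ext
      simp
    · rename_i h
      rw [restr_fin_of_neg h, map_one]
  refine PreIdele.ext (funext fun B => ?_) (funext fun ι => ?_)
  · show _ = finHom B (_ * _)
    rw [map_mul, show finHom B (lv.locVal (lv.infinitePart (f y))) = 1 from
      lv.locVal_infinitePart_fin _ B, mul_one, map_prod]
    simp only [map_prod]
    show _ = ∏ r : T, ∏ c : G ⧸ lv.decGroup (Aof r),
      (lv.locVal (Quotient.out c • lv.placeProj (Aof r) (f ((Quotient.out c)⁻¹ • y)))).fin B
    simp only [hterm]
    by_cases hB : B.Over T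
    · obtain ⟨r, hrT, hr, hBr⟩ := hB
      obtain ⟨σ, hσ⟩ := GalCommon.exists_smul_eq_of_liesOverPrime hr (hA ⟨r, hrT⟩) hBr
      have hσ' : σ • Aof ⟨r, hrT⟩ = B := Subtype.ext hσ
      have hoff : ∀ (r' : T), r' ≠ ⟨r, hrT⟩ → ∀ c : G ⧸ lv.decGroup (Aof r'),
          ¬ lv.inOrbit (Aof r') ((lv.lift (Quotient.out c))⁻¹ • B) := fun r' hne c ⟨τ, _, hτ⟩ => by
        have h1 : ((τ • Aof r') : Place).1.LiesOverPrime r' := GalCommon.liesOverPrime_smul (hA r')
        rw [hτ] at h1
        have h2 := GalCommon.liesOverPrime_smul (σ := lv.lift (Quotient.out c)) h1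
        rw [← Place.coe_smul, smul_inv_smul] at h2
        exact hne (Subtype.ext
          ((Place.char_eq B (hT _ r'.2) h2).symm.trans (Place.char_eq B hr hBr)))
      rw [Finset.prod_eq_single (⟨r, hrT⟩ : T) (fun r' _ hne => Finset.prod_eq_one fun c _ =>
          if_neg (hoff r' hne c)) (by simp),
        Finset.prod_eq_single ((lv.q σ : G) : G ⧸ lv.decGroup (Aof ⟨r, hrT⟩))
          (fun c _ hne => if_neg fun hin => hne ?_) (by simp), if_pos ?_]
      · obtain ⟨v, hv⟩ := QuotientGroup.mk_out_eq_mul (lv.decGroup (Aof ⟨r, hrT⟩)) (lv.q σ)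
        rw [hv, ← hσ', ← mul_smul, lv.inOrbit_smul_iff, map_mul, map_inv, q_lift]
        rw [mul_inv_rev, inv_mul_cancel_right]
        exact inv_mem v.2
      · rw [← hσ', ← mul_smul, lv.inOrbit_smul_iff, map_mul, map_inv, q_lift] at hin
        rw [← QuotientGroup.out_eq' c]
        exact QuotientGroup.eq.mpr hin
    · rw [(lv.locVal_mem (f y)).2 B hB]
      exact (Finset.prod_eq_one fun r _ => Finset.prod_eq_one fun c _ => ite_self _).symm
  · show _ = infHom ι (_ * _)
    rw [map_mul, show infHom ι (lv.locVal (lv.infinitePart (f y))) = (lv.locVal (f y)).inf ι from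
      lv.locVal_infinitePart_inf _ ι, map_prod]
    simp only [map_prod]
    have h1 : ∀ (r : T) (c : G ⧸ lv.decGroup (Aof r)),
        infHom ι (lv.locVal (Quotient.out c • lv.placeProj (Aof r) (f ((Quotient.out c)⁻¹ • y)))) = 1 :=
      fun r c => by
      simp only [infHom, MonoidHom.coe_mk, OneHom.coe_mk]
      conv_lhs => rw [← lv.q_lift (Quotient.out c)]
      rw [inf_smul_locVal, locVal_placeProj, orbitRestr, restr_inf_of_neg not_false]
    simp [h1]

/-- Twice the infinite part is a trace. -/
theorem two_nsmul_infinitePart [Fintype G] [Fact p.Prime] (hp2 : p ≠ 2) {f : Y →+ lv.LocMod T}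
    (hf : f ∈ eqHom G Y (lv.LocMod T)) :
    ∃ k : Y →+ lv.LocMod T, htrace G k = 2 • lv.infinitePart.comp f := by
  classical
  obtain ⟨ι₀⟩ := exists_emb
  have hreal := isEmpty_realEmb hp2 lv.containsMuP
  let W : Emb → Prop := fun ι => ι.res lv.field = ι₀.res lv.field ∨
    ι.res lv.field = (starRingEnd ℂ).comp (ι₀.res lv.field)
  have hWfix : ∀ σ ∈ lv.field.fixingSubgroup, ∀ ι, W (ι.twist σ) ↔ W ι := fun σ hσ ι => by
    have e : (ι.twist σ).res lv.field = ι.res lv.field := RingHom.ext fun x => by
      show ι (σ (x : ℚ̄)) = ι x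
      rw [(IntermediateField.mem_fixingSubgroup_iff _ σ).mp hσ _ x.2]
    simp only [W, e]
  have hWconj : ∀ ι, W ι.conj ↔ W ι := fun ι => by
    have hcc : ∀ u v : lv.field →+* ℂ, (starRingEnd ℂ).comp u = v ↔ u = (starRingEnd ℂ).comp v :=
      fun u v => ⟨fun h => by rw [← h]; ext x; simp, fun h => by rw [h]; ext x; simp⟩
    show _ ∨ _ ↔ _ ∨ _
    rw [res_conj, hcc, hcc]
    have : (starRingEnd ℂ).comp ((starRingEnd ℂ).comp (ι₀.res lv.field)) = ι₀.res lv.field := by
      ext x; simp
    rw [this, or_comm]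
  let θ : lv.LocMod T →+ lv.LocMod T :=
    AddMonoidHom.mk' (fun x => lv.locOf ⟨restrIdele (fun _ => False) W (lv.locVal x),
      ⟨restr_mem_ideles (lv.locVal_mem x).1 (fun _ _ _ => Iff.rfl) hWfix hWconj,
        fun _ _ => restr_fin_of_neg not_false⟩⟩) fun x y =>
      lv.locVal_injective (PreIdele.ext (funext fun B => by
        show (restrIdele _ _ (lv.locVal (x + y))).fin B =
          (restrIdele _ _ (lv.locVal x)).fin B * (restrIdele _ _ (lv.locVal y)).fin B
        rw [restr_fin_of_neg not_false, restr_fin_of_neg not_false, restr_fin_of_neg not_false,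
          one_mul])
        (funext fun ι => by
        show (restrIdele _ _ (lv.locVal (x + y))).inf ι =
          (restrIdele _ _ (lv.locVal x)).inf ι * (restrIdele _ _ (lv.locVal y)).inf ι
        by_cases h : W ι
        · rw [restr_inf_of_pos h, restr_inf_of_pos h, restr_inf_of_pos h]; rfl
        · rw [restr_inf_of_neg h, restr_inf_of_neg h, restr_inf_of_neg h, one_mul]))
  refine ⟨θ.comp f, AddMonoidHom.ext fun y => lv.locVal_injective ?_⟩
  rw [htrace_apply, AddMonoidHom.finsetSum_apply, locVal_sum, two_nsmul, AddMonoidHom.add_apply,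
    locVal_add]
  simp only [hconj_apply, AddMonoidHom.comp_apply]
  refine PreIdele.ext (funext fun B => ?_) (funext fun ι => ?_)
  · show finHom B (∏ g : G, _) = _
    rw [map_prod, fin_mul, locVal_infinitePart_fin, one_mul]
    refine Finset.prod_eq_one fun g _ => ?_
    simp only [finHom, MonoidHom.coe_mk, OneHom.coe_mk]
    conv_lhs => rw [← lv.q_lift g]
    rw [fin_smul_locVal]
    show Units.map _ ((restrIdele (fun _ => False) W _).fin _) = 1
    rw [restr_fin_of_neg not_false, map_one]
  · show infHom ι (∏ g : G, _) = _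
    rw [map_prod, PreIdele.inf_mul, locVal_infinitePart_inf]
    have h1 : ∀ g : G, infHom ι (lv.locVal (g • θ (f (g⁻¹ • y)))) =
        if W (ι.twist (lv.lift g)) then (lv.locVal (f y)).inf ι else 1 := fun g => by
      simp only [infHom, MonoidHom.coe_mk, OneHom.coe_mk]
      conv_lhs => rw [← lv.q_lift g]
      rw [inf_smul_locVal]
      show (restrIdele (fun _ => False) W _).inf _ = _
      split
      · rename_i h
        rw [restr_inf_of_pos h, hf, q_lift, ← lv.q_lift g, ← map_inv, inf_smul_locVal,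
          Emb.twist_mul, q_lift, mul_inv_cancel, Emb.twist_one]
      · rename_i h
        rw [restr_inf_of_neg h]
    simp only [h1]
    -- exactly two group elements contribute
    have hex : ∀ u : Emb, ∃ g : G, (ι.twist (lv.lift g)).res lv.field = u.res lv.field := fun u => by
      obtain ⟨σ, -, hσ⟩ := exists_smul_of_res_eq
        (show ι.res (⊥ : IntermediateField ℚ ℚ̄) = u.res ⊥ from RingHom.ext fun x => by
          obtain ⟨r, hr⟩ := IntermediateField.mem_bot.mp x.2
          show ι (x : ℚ̄) = u x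
          rw [← hr]
          exact DFunLike.congr_fun (Subsingleton.elim (ι.comp (algebraMap ℚ ℚ̄))
            (u.comp (algebraMap ℚ ℚ̄))) r)
      refine ⟨lv.q σ, ?_⟩
      rw [hσ]
      refine RingHom.ext fun x => ?_
      show ι (lv.lift (lv.q σ) (x : ℚ̄)) = ι (σ (x : ℚ̄))
      congr 1
      have h : σ⁻¹ * lv.lift (lv.q σ) ∈ lv.field.fixingSubgroup :=
        lv.mem_fix_field.mpr (by rw [map_mul, q_lift, map_inv, inv_mul_cancel])
      have h2 := congrArg σ ((IntermediateField.mem_fixingSubgroup_iff _ _).mp h _ x.2)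
      rwa [← AlgEquiv.mul_apply, mul_inv_cancel_left] at h2
    have huniq : ∀ g g' : G,
        (ι.twist (lv.lift g)).res lv.field = (ι.twist (lv.lift g')).res lv.field → g = g' :=
      fun g g' h => by
      obtain ⟨σ, hσ, he⟩ := exists_smul_of_res_eq h
      have h3 := Emb.twist_injective ι (he.trans (ι.twist_mul (lv.lift g) σ))
      rw [← lv.q_lift g', h3, map_mul, q_lift, lv.mem_fix_field.mp hσ, mul_one]
    obtain ⟨g₁, hg₁⟩ := hex ι₀
    obtain ⟨g₂, hg₂⟩ := hex ι₀.conj
    rw [res_conj] at hg₂
    have hne : g₁ ≠ g₂ := fun h => hreal.elim ⟨ι₀.res lv.field, by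
      rw [← hg₂, ← h, hg₁]⟩
    have hset : (Finset.univ.filter fun g : G => W (ι.twist (lv.lift g))) = {g₁, g₂} := by
      ext g
      simp only [Finset.mem_filter, Finset.mem_univ, true_and, Finset.mem_insert,
        Finset.mem_singleton]
      constructor
      · rintro (h | h)
        · exact Or.inl (huniq _ _ (h.trans hg₁.symm))
        · exact Or.inr (huniq _ _ (h.trans hg₂.symm))
      · rintro (rfl | rfl)
        · exact Or.inl hg₁
        · exact Or.inr hg₂
    rw [← Finset.prod_filter, hset, Finset.prod_pair hne]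

end Level

end FLTAgent.PoitouTate
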