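import Fermat.Prelude.Def_GroupCohomology_ContinuousUnramified
import Fermat.Agent.PoitouTate.Interface
import Fermat.Agent.PoitouTate.LocalImage

/-!
# The coefficient module at a level, and `sha₁` as crossed homomorphisms of the level

`DualMod` is `M* = Hom(M, μ_p)` with the action of the group of the level.  If every cocycle that is
level-constant at a field unramified outside `S` factors through the level, inflation maps the
crossed homomorphisms which are trivial on all decomposition groups over `S` onto `sha₁`, with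
kernel the coboundaries.
-/

set_option autoImplicit false
set_option linter.style.haveILetI false
set_option linter.unusedSectionVars false

noncomputable section

open CategoryTheory groupCohomology ExtCitation
open scoped Pointwise

namespace FLTAgent.PoitouTate

open FLTAgent.TW

local notation "ℚ̄" => AlgebraicClosure ℚ
local notation "Γ" => (AlgebraicClosure ℚ ≃ₐ[ℚ] AlgebraicClosure ℚ)

/-- The natural numbers underlying a set of primes. -/
def natSet (S : Finset Nat.Primes) : Finset ℕ := S.map ⟨Subtype.val, Subtype.val_injective⟩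

theorem mem_natSet {S : Finset Nat.Primes} {q : Nat.Primes} : (q : ℕ) ∈ natSet S ↔ q ∈ S :=
  ⟨fun h => by
    obtain ⟨r, hr, he⟩ := Finset.mem_map.mp h
    exact Subtype.ext he ▸ hr, fun h => Finset.mem_map_of_mem _ h⟩

theorem prime_of_mem_natSet {S : Finset Nat.Primes} : ∀ r ∈ natSet S, r.Prime := fun r hr => by
  obtain ⟨q, -, rfl⟩ := Finset.mem_map.mp hr
  exact q.2

theorem exists_coe_of_mem_natSet {S : Finset Nat.Primes} {r : ℕ} (h : r ∈ natSet S) :
    ∃ q : Nat.Primes, q ∈ S ∧ (q : ℕ) = r := Finset.mem_map.mp h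

variable {p : ℕ} [Fact p.Prime] {S : Finset Nat.Primes}

/-! ### The cyclotomic character -/

theorem cycloChar_spec (σ : Γ) {z : ℚ̄} (hz : z ^ p = 1) :
    σ z = z ^ ((cycloChar p σ : ZMod p)).val := by
  haveI : NeZero p := ⟨(Fact.out : p.Prime).ne_zero⟩
  have hz0 : z ≠ 0 := fun h => by simp [h, NeZero.ne p] at hz
  exact congrArg id (modularCyclotomicCharacter.spec ℚ̄ (card_rootsOfUnity_eq_self p)
    (σ : ℚ̄ ≃+* ℚ̄) (t := Units.mk0 z hz0) (by
      rw [mem_rootsOfUnity]; exact Units.ext (by simpa using hz)))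

theorem cycloChar_eq_one (σ : Γ) (h : ∀ z : ℚ̄, z ^ p = 1 → σ z = z) : cycloChar p σ = 1 := by
  haveI : NeZero p := ⟨(Fact.out : p.Prime).ne_zero⟩
  refine Units.ext ((modularCyclotomicCharacter.unique ℚ̄ (card_rootsOfUnity_eq_self p)
    (σ : ℚ̄ ≃+* ℚ̄) (c := (1 : ZMod p)) fun t ht => ?_).symm)
  haveI : Fact (1 < p) := ⟨(Fact.out : p.Prime).one_lt⟩
  rw [ZMod.val_one, pow_one]
  refine h t ?_
  rw [mem_rootsOfUnity] at ht
  rw [← Units.val_pow_eq_pow_val, ht, Units.val_one]

variable (M : Rep.{0} (ZMod p) Γ) {G : Type} [Group G] (lv : Level (natSet S) p G)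

/-- The Galois action on the coefficients factors through the level. -/
class ActsThrough : Prop where
  eq_one : ∀ σ : Γ, lv.q σ = 1 → M.ρ σ = 1

variable [ActsThrough M lv]

omit [ActsThrough M lv] in
theorem cycloChar_eq_one_of_q {σ : Γ} (h : lv.q σ = 1) : cycloChar p σ = 1 :=
  cycloChar_eq_one σ fun z hz => lv.zeta σ h z (by rw [pow_two, pow_mul, hz, one_pow])

theorem dualTwist_apply_eq_self {σ : Γ} (h : lv.q σ = 1) (f : M.dualTwist (cycloChar p)) :
    (M.dualTwist (cycloChar p)).ρ σ f = f := by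
  rw [Rep.dualTwist_ρ_apply, cycloChar_eq_one_of_q lv h, Units.val_one, one_smul,
    ActsThrough.eq_one (M := M) (lv := lv) σ⁻¹ (by rw [map_inv, h, inv_one])]
  rfl

theorem dualTwist_congr {σ τ : Γ} (h : lv.q σ = lv.q τ) (f : M.dualTwist (cycloChar p)) :
    (M.dualTwist (cycloChar p)).ρ σ f = (M.dualTwist (cycloChar p)).ρ τ f := by
  conv_lhs => rw [← mul_inv_cancel_left τ σ, map_mul, Module.End.mul_apply,
    dualTwist_apply_eq_self M lv (σ := τ⁻¹ * σ) (by rw [map_mul, map_inv, h, inv_mul_cancel])]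

/-- `Hom(M, μ_p)` as a module of the level. -/
def DualMod : Type := (M.dualTwist (cycloChar p) : Type)

instance : AddCommGroup (DualMod M) :=
  inferInstanceAs (AddCommGroup (M.dualTwist (cycloChar p) : Type))

instance : Module (ZMod p) (DualMod M) :=
  inferInstanceAs (Module (ZMod p) (M.dualTwist (cycloChar p) : Type))

omit [ActsThrough M lv] in
theorem DualMod.nsmul_eq_zero (f : DualMod M) : p • f = 0 := by
  rw [← Nat.cast_smul_eq_nsmul (ZMod p), ZMod.natCast_self, zero_smul]

omit [ActsThrough M lv] in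
theorem DualMod.finite [FiniteDimensional (ZMod p) M] : Finite (DualMod M) :=
  haveI : FiniteDimensional (ZMod p) (DualMod M) :=
    inferInstanceAs (FiniteDimensional (ZMod p) (Module.Dual (ZMod p) M))
  Module.finite_of_finite (ZMod p)

variable {M}

omit [ActsThrough M lv] in
/-- The element of `DualMod` of a functional. -/
def DualMod.of (f : M.dualTwist (cycloChar p)) : DualMod M := f

omit [ActsThrough M lv] in
/-- The functional of an element of `DualMod`. -/
def DualMod.val (f : DualMod M) : M.dualTwist (cycloChar p) := f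

variable (M) in
/-- The action of the level on the dual module. -/
@[reducible]
def dualAction : DistribMulAction G (DualMod M) where
  smul g f := DualMod.of ((M.dualTwist (cycloChar p)).ρ (lv.lift g) (DualMod.val f))
  one_smul f := dualTwist_apply_eq_self M lv (lv.q_lift 1) (DualMod.val f)
  mul_smul g h f := by
    show (M.dualTwist (cycloChar p)).ρ (lv.lift (g * h)) (DualMod.val f) = _
    rw [dualTwist_congr M lv (τ := lv.lift g * lv.lift h)
      (by rw [map_mul, lv.q_lift, lv.q_lift, lv.q_lift]), map_mul]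
    rfl
  smul_zero g := ((M.dualTwist (cycloChar p)).ρ (lv.lift g)).map_zero
  smul_add g f f' := ((M.dualTwist (cycloChar p)).ρ (lv.lift g)).map_add (DualMod.val f) (DualMod.val f')

/-! ### `sha₁` -/

theorem dualAction_spec (σ : Γ) (f : DualMod M) :
    (dualAction M lv).toSMul.smul (lv.q σ) f =
      DualMod.of ((M.dualTwist (cycloChar p)).ρ σ (DualMod.val f)) :=
  dualTwist_congr M lv (lv.q_lift _) (DualMod.val f)

section Crossed

variable [DistribMulAction G (DualMod M)]
  (hact : ∀ (σ : Γ) (f : DualMod M),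
    lv.q σ • f = DualMod.of ((M.dualTwist (cycloChar p)).ρ σ (DualMod.val f)))


omit [ActsThrough M lv] in
theorem trivialOn_conj {a : G → DualMod M} (ha : Coh.IsCrossed G a) {A : Place}
    (h : TrivialOn (lv.decGroup A) a) (σ : Γ) : TrivialOn (lv.decGroup (σ • A)) a := by
  obtain ⟨m, hm⟩ := h
  set x := lv.q σ
  refine ⟨x • m - a x, ?_⟩
  rintro g ⟨τ, hτ, rfl⟩
  have hdec : lv.q (σ⁻¹ * τ * σ) ∈ lv.decGroup A := ⟨_, by
    rw [SetLike.mem_coe, MulAction.mem_stabilizer_iff, mul_smul, mul_smul,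
      MulAction.mem_stabilizer_iff.mp hτ, inv_smul_smul], rfl⟩
  have e1 : lv.q τ * x = x * lv.q (σ⁻¹ * τ * σ) := by
    simp only [x, ← map_mul]; congr 1; group
  have e2 := congrArg a e1
  rw [ha, ha, hm _ hdec, smul_sub, ← mul_smul, ← e1, mul_smul] at e2
  rw [smul_sub, eq_sub_of_add_eq e2]
  abel

/-- Inflation of a crossed homomorphism. -/
def inflate : crossed G (DualMod M) →+ cocycles₁ (M.dualTwist (cycloChar p)) :=
  AddMonoidHom.mk' (fun a => ⟨fun σ => DualMod.val (a.1 (lv.q σ)), (mem_cocycles₁_iff _).mpr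
    fun σ τ => by
      show DualMod.val (a.1 (lv.q (σ * τ))) = _
      rw [map_mul, a.2 (lv.q σ) (lv.q τ), hact, add_comm]
      rfl⟩) fun a b => Subtype.ext rfl

theorem inflate_apply (a : crossed G (DualMod M)) (σ : Γ) :
    inflate lv hact a σ = DualMod.val (a.1 (lv.q σ)) := rfl

/-- The class in `H¹` of an element of `shaCrossed`. -/
def sha1Map : shaCrossed (DualMod M) lv →+ H1 (M.dualTwist (cycloChar p)) :=
  (H1π _).hom.toAddMonoidHom.comp
    ((inflate lv hact).comp (AddSubgroup.inclusion fun _ h => h.1))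

theorem isLevelConstantS₁_inflate (a : crossed G (DualMod M)) :
    IsLevelConstantS₁ S (inflate lv hact a) :=
  ⟨lv.field, ⟨lv.finite_field, fun q hq A hA σ hσ => lv.mem_fix_field.mpr
    (lv.unramified ⟨A, q, q.2, hA⟩ (fun h => hq (mem_natSet.mp
      (Place.char_eq (⟨A, q, q.2, hA⟩ : Place) q.2 hA ▸ (Place.over_iff _).mp h))) σ hσ)⟩,
    fun g s hs => by rw [inflate_apply, inflate_apply, map_mul, lv.mem_fix_field.mp hs, mul_one]⟩

omit [ActsThrough M lv] in
theorem locRes_eq_zero_iff {H : Type} [Group H] (f : H →* Γ)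
    (c : cocycles₁ (M.dualTwist (cycloChar p))) :
    (map f (𝟙 (Rep.res f (M.dualTwist (cycloChar p)))) 1).hom ((H1π _).hom c) = 0 ↔
      ∃ m, ∀ h : H, (M.dualTwist (cycloChar p)).ρ (f h) m - m = c (f h) := by
  rw [← ModuleCat.comp_apply, H1π_comp_map, ModuleCat.comp_apply, H1π_eq_zero_iff]
  refine ⟨fun ⟨m, hm⟩ => ⟨m, fun h => ?_⟩, fun ⟨m, hm⟩ => ⟨m, funext fun h => ?_⟩⟩
  · have := congrFun hm h
    rw [d₀₁_hom_apply] at this
    exact this
  · rw [d₀₁_hom_apply]
    exact hm h

/-- The class is locally trivial everywhere. -/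
theorem sha1Map_mem (a : shaCrossed (DualMod M) lv) (hp2 : p ≠ 2) :
    sha1Map lv hact a ∈ sha₁ S (M.dualTwist (cycloChar p)) := by
  set c := inflate lv hact ⟨a.1, a.2.1⟩ with hc
  refine Submodule.mem_inf.mpr ⟨(mem_continuousH1S_iff S _ _).mpr
    ⟨c, isLevelConstantS₁_inflate lv hact _, rfl⟩, LinearMap.mem_ker.mpr (funext fun v => ?_)⟩
  rw [locTotal_apply]
  refine (locRes_eq_zero_iff (extArithLoc S v) c).mpr ?_
  rcases v with _ | ⟨q, hq⟩
  · -- infinity: the group has order at most two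
    have hcc := (mem_cocycles₁_iff c).mp c.2 complexConjugation complexConjugation
    rw [complexConjugation_mul_self, cocycles₁_map_one] at hcc
    have h2 : (2 : ZMod p) ≠ 0 := by
      intro h
      have := (ZMod.natCast_eq_zero_iff 2 p).mp (by exact_mod_cast h)
      exact hp2 ((Nat.prime_dvd_prime_iff_eq (Fact.out : p.Prime) Nat.prime_two).mp this)
    refine ⟨-(2 : ZMod p)⁻¹ • c complexConjugation, fun h => ?_⟩
    rename' h => h'
    let h : archimedeanDecomposition := h'
    obtain ⟨i, hi⟩ := Subgroup.mem_zpowers_iff.mp h.2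
    show (M.dualTwist (cycloChar p)).ρ (h : Γ) _ - _ = c (h : Γ)
    rcases Int.even_or_odd i with ⟨j, hj⟩ | ⟨j, hj⟩
    · rw [← hi, hj, ← two_mul, zpow_mul, zpow_two, complexConjugation_mul_self, one_zpow,
        cocycles₁_map_one, map_one]
      exact sub_self _
    · rw [← hi, hj, zpow_add, zpow_mul, zpow_two, complexConjugation_mul_self, one_zpow, one_mul,
        zpow_one, map_smul, eq_neg_of_add_eq_zero_left hcc.symm, smul_neg, ← neg_smul, neg_neg,
        ← sub_smul, sub_neg_eq_add, ← two_mul, mul_inv_cancel₀ h2, one_smul]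
  · haveI : Fact (q : ℕ).Prime := ⟨q.2⟩
    have hA : (padicPlace (q : ℕ)).LiesOverPrime (q : ℕ) := liesOverPrime_padicPlace q
    obtain ⟨m, hm⟩ := a.2.2 ⟨_, (q : ℕ), q.2, hA⟩ ⟨(q : ℕ), mem_natSet.mpr hq, q.2, hA⟩
    refine ⟨DualMod.val m, fun h => ?_⟩
    have h1 := hm _ ⟨primeLocalToGlobal q h, Subtype.ext (MulAction.mem_stabilizer_iff.mp
      (localGaloisToGlobal_mem_decompositionSubgroup (q : ℕ) h)), rfl⟩
    rw [hact] at h1
    exact h1.symm
where
  liesOverPrime_padicPlace (q : Nat.Primes) [Fact (q : ℕ).Prime] :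
      (padicPlace (q : ℕ)).LiesOverPrime (q : ℕ) := by
    rw [ValuationSubring.LiesOverPrime, ValuationSubring.mem_nonunits_iff_or]
    refine Or.inr fun h1 => ?_
    rw [mem_padicPlace_iff, map_inv₀, map_natCast,
      ← map_natCast (algebraMap ℚ_[(q : ℕ)] (PadicAlgCl (q : ℕ))), ← map_inv₀, ← NNReal.coe_le_coe,
      coe_nnnorm, PadicAlgCl.norm_extends, norm_inv, Padic.norm_p, inv_inv] at h1
    exact absurd h1 (not_le.mpr (by exact_mod_cast q.2.one_lt))

/-- The kernel consists of the coboundaries. -/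
theorem sha1Map_eq_zero_iff (a : shaCrossed (DualMod M) lv) :
    sha1Map lv hact a = 0 ↔ ∃ m : DualMod M, ∀ g, a.1 g = g • m - m := by
  show (H1π _).hom (inflate lv hact _) = 0 ↔ _
  rw [H1π_eq_zero_iff]
  refine ⟨fun ⟨m, hm⟩ => ⟨DualMod.of m, fun g => ?_⟩, fun ⟨m, hm⟩ => ⟨DualMod.val m, funext fun σ => ?_⟩⟩
  · obtain ⟨σ, rfl⟩ := lv.surj g
    have := congrFun hm σ
    rw [d₀₁_hom_apply] at this
    rw [hact]
    exact this.symm
  · rw [d₀₁_hom_apply]
    show _ = DualMod.val (a.1 (lv.q σ))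
    rw [hm, hact]
    rfl

/-- Every class in `sha₁` comes from the level. -/
theorem exists_sha1Map_eq
    (hfull : ∀ c : cocycles₁ (M.dualTwist (cycloChar p)), IsLevelConstantS₁ S c →
      ∀ σ, lv.q σ = 1 → c σ = 0)
    {x : H1 (M.dualTwist (cycloChar p))} (hx : x ∈ sha₁ S (M.dualTwist (cycloChar p))) :
    ∃ a : shaCrossed (DualMod M) lv, sha1Map lv hact a = x := by
  obtain ⟨hx1, hx2⟩ := Submodule.mem_inf.mp hx
  obtain ⟨c, hc, rfl⟩ := (mem_continuousH1S_iff S _ x).mp hx1
  have hcongr : ∀ σ τ, lv.q σ = lv.q τ → c σ = c τ := fun σ τ h => by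
    have hs : lv.q (τ⁻¹ * σ) = 1 := by rw [map_mul, map_inv, h, inv_mul_cancel]
    conv_lhs => rw [← mul_inv_cancel_left τ σ, (mem_cocycles₁_iff c).mp c.2, hfull c hc _ hs,
      map_zero, zero_add]
  let a : G → DualMod M := fun g => DualMod.of (c (lv.lift g))
  have ha : ∀ σ, a (lv.q σ) = DualMod.of (c σ) := fun σ => hcongr _ _ (lv.q_lift _)
  have hcr : Coh.IsCrossed G a := fun g h => by
    obtain ⟨σ, rfl⟩ := lv.surj g
    obtain ⟨τ, rfl⟩ := lv.surj h
    rw [← map_mul, ha, ha, ha, hact, (mem_cocycles₁_iff c).mp c.2, add_comm]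
    rfl
  refine ⟨⟨a, hcr, fun A hA => ?_⟩, congrArg (H1π (M.dualTwist (cycloChar p))).hom
    (Subtype.ext (funext fun σ => ha σ) : inflate lv hact ⟨a, hcr⟩ = c)⟩
  obtain ⟨r, hr, hrp, hAr⟩ := hA
  obtain ⟨q, hq, rfl⟩ := exists_coe_of_mem_natSet hr
  haveI : Fact (q : ℕ).Prime := ⟨q.2⟩
  have hA₀ := sha1Map_mem.liesOverPrime_padicPlace q
  obtain ⟨σ, hσ⟩ := GalCommon.exists_smul_eq_of_liesOverPrime q.2 hA₀ hAr
  let A₀ : Place := ⟨padicPlace (q : ℕ), (q : ℕ), q.2, hA₀⟩
  obtain rfl : σ • A₀ = A := Subtype.ext hσ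
  refine trivialOn_conj lv hcr ?_ σ
  have hall : ∀ v : extArithIndex S, ∃ m, ∀ h : extArithLocalGroups S v,
      (M.dualTwist (cycloChar p)).ρ (extArithLoc S v h) m - m = c (extArithLoc S v h) := fun v =>
    (locRes_eq_zero_iff (extArithLoc S v) c).mp (congrFun (LinearMap.mem_ker.mp hx2) v)
  obtain ⟨m, hm⟩ := hall (Sum.inr ⟨q, hq⟩)
  refine ⟨DualMod.of m, ?_⟩
  rintro g ⟨τ, hτ, rfl⟩
  haveI := lv.finite_field
  obtain ⟨t, ht⟩ := exists_local_eqOn (q : ℕ) lv.field
    (σ := τ) (MulAction.mem_stabilizer_iff.mpr (congrArg (fun B : Place => B.1) (MulAction.mem_stabilizer_iff.mp hτ : τ • A₀ = A₀)))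
  have he : lv.q (localGaloisToGlobal (q : ℕ) t) = lv.q τ := by
    rw [← _root_.inv_mul_eq_one, ← map_inv, ← map_mul, ← lv.mem_fix_field,
      IntermediateField.mem_fixingSubgroup_iff]
    intro y hy
    show (localGaloisToGlobal (q : ℕ) t)⁻¹ (τ y) = y
    rw [← ht y hy, ← AlgEquiv.mul_apply, inv_mul_cancel, AlgEquiv.one_apply]
  rw [← he, ha, hact]
  exact (hm t).symm

end Crossed

end FLTAgent.PoitouTate
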