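import Fermat.Agent.PoitouTate.Orbit
import Fermat.Agent.PoitouTate.Divisible

/-!
# The pairing with the classes of the level, and the classes coming from `T ∪ ∞`

`CoverOn.pairC` transports the pairing of `Alg` to `Ext¹_G(N, C_T)` of the level.  Its kernels are
coboundaries (`exists_coboundary_of_pairC`) and traces (`exists_trace_of_pairC`); by the
decomposition of `Orbit`, classes from the components at `T ∪ ∞` pair to zero with whatever is
trivial on the decomposition groups above `T` (`pairC_toCl`).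
-/

set_option autoImplicit false
set_option linter.style.haveILetI false
set_option linter.unusedSectionVars false

noncomputable section

namespace FLTAgent.PoitouTate

open FLTAgent.TW FLTAgent.TW.Coh

theorem ext1Map_comp {G N A B C : Type} [Group G] [AddCommGroup N] [DistribMulAction G N]
    [AddCommGroup A] [DistribMulAction G A] [AddCommGroup B] [DistribMulAction G B]
    [AddCommGroup C] [DistribMulAction G C] (i : A →+ B) (hi : i ∈ eqHom G A B) (j : B →+ C)
    (hj : j ∈ eqHom G B C) (e : Ext1 G N A) :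
    Ext1.map j hj (Ext1.map i hi e) = Ext1.map (j.comp i) (comp_mem_eqHom hj hi) e := by
  induction e using Ext1.induction with
  | _ f => rfl

/-- A relation of maps on relations gives one of classes. -/
theorem mk_nsmul_eq_sum {G N A : Type} [Group G] [AddCommGroup N] [DistribMulAction G N]
    [AddCommGroup A] [DistribMulAction G A] {ι : Type} [Fintype ι] (m : ℕ)
    (F T : eqHom G (Coh.Rel G N) A) (H : ι → eqHom G (Coh.Rel G N) A)
    (h : m • F.1 = m • ∑ i, (H i).1 + T.1) :
    m • Ext1.mk F = m • ∑ i, Ext1.mk (H i) + Ext1.mk T := by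
  rw [← map_sum, ← map_nsmul, ← map_nsmul, ← map_add]
  refine congrArg Ext1.mk (Subtype.ext ?_)
  rw [AddSubgroup.coe_nsmul, AddSubgroup.coe_add, AddSubgroup.coe_nsmul, AddSubgroup.val_finsetSum,
    h]

section Cotrace

variable {G : Type} [Group G] [Fintype G] {Y W : Type} [AddCommGroup Y] [DistribMulAction G Y]
  [AddCommGroup W] [DistribMulAction G W]

/-- From a subgroup of finite index to a larger one. -/
theorem cotrace_eq_relIndex_nsmul {V D : Subgroup G} (hVD : V ≤ D) {f : Y →+ W}
    (hf : f ∈ eqHom D Y W) : cotrace V f = V.relIndex D • cotrace D f := by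
  classical
  haveI : Fintype (G ⧸ V) := Fintype.ofFinite _
  haveI : Fintype (G ⧸ D) := Fintype.ofFinite _
  haveI : Fintype (D ⧸ V.subgroupOf D) := Fintype.ofFinite _
  rw [cotrace_apply, cotrace_apply, Finset.smul_sum]
  have hd : ∀ c : G ⧸ V, hconj (Quotient.out c) f =
      hconj (Quotient.out (Subgroup.quotientEquivProdOfLE hVD c).1) f := fun c => by
    set c' := (Subgroup.quotientEquivProdOfLE hVD c).1 with hc'
    have h1 : ((Quotient.out c : G) : G ⧸ D) = c' := by
      rw [hc']
      conv_rhs => rw [← QuotientGroup.out_eq' c]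
      rfl
    obtain ⟨v, hv⟩ : ∃ v : D, Quotient.out c' = Quotient.out c * v := by
      rw [← h1]; exact QuotientGroup.mk_out_eq_mul D _
    rw [hv, hconj_mul]
    exact congrArg _ (hconj_eq_self hf v).symm
  simp only [hd]
  rw [Fintype.sum_equiv (Subgroup.quotientEquivProdOfLE hVD) _
    (fun x : (G ⧸ D) × (D ⧸ V.subgroupOf D) => hconj (Quotient.out x.1) f) fun c => rfl,
    Fintype.sum_prod_type]
  refine Finset.sum_congr rfl fun c _ => ?_
  show ∑ _y : D ⧸ V.subgroupOf D, hconj (Quotient.out c) f = _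
  rw [Finset.sum_const, Finset.card_univ]
  congr 1
  rw [Subgroup.relIndex, Subgroup.index, Nat.card_eq_fintype_card]

/-- A Sylow subgroup of a subgroup. -/
theorem exists_sylow_le (p : ℕ) [Fact p.Prime] (D : Subgroup G) :
    ∃ V : Subgroup G, V ≤ D ∧ IsPGroup p V ∧ (V.relIndex D).Coprime p := by
  obtain ⟨R⟩ := (inferInstance : Nonempty (Sylow p D))
  refine ⟨(R : Subgroup D).map D.subtype, Subgroup.map_subtype_le _, R.isPGroup'.map _, ?_⟩
  rw [Subgroup.relIndex, ← Subgroup.comap_subtype,
    Subgroup.comap_map_eq_self_of_injective D.subtype_injective]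
  exact ((Fact.out : p.Prime).coprime_iff_not_dvd.mpr R.not_dvd_index).symm

end Cotrace

variable {S : Finset ℕ} {p : ℕ} [Fact p.Prime] {G : Type} [Group G] [Fintype G]
  {N : Type} [AddCommGroup N] [DistribMulAction G N]

theorem coboundary_mem_shaCrossed (lv : Level S p G) (b : N) :
    (fun g : G => g • b - b) ∈ shaCrossed N lv :=
  ⟨fun g h => by simp only [mul_smul, smul_sub]; abel, fun _ _ => ⟨b, fun _ _ => rfl⟩⟩

/-- A nonzero multiple prime to `p` decides vanishing in `ZMod p`. -/
theorem eq_zero_of_coprime_nsmul {k : ℕ} (hk : k.Coprime p) {x : ZMod p} (h : k • x = 0) :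
    x = 0 := by
  rw [nsmul_eq_mul] at h
  refine (mul_eq_zero.mp h).resolve_left fun h0 => ?_
  rw [ZMod.natCast_eq_zero_iff] at h0
  exact (Fact.out : p.Prime).ne_one (Nat.dvd_one.mp (hk ▸ Nat.dvd_gcd h0 dvd_rfl))

namespace CoverOn

variable {lv : Level S p G} {ly : Layer lv} (C : CoverOn ly)

theorem isCT' [Fintype C.P] : IsCT p C.P C.D.cover := by
  convert C.isCT

theorem e_mem : C.e.toAddMonoidHom ∈ eqHom G (lv.Cl ly.places) C.D.classes := C.e_smul

variable [Finite N] (hN : ∀ m : N, p • m = 0)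

/-- The pairing of `Ext¹_G(N, C_T)` with the crossed homomorphisms. -/
def pairC : Ext1 G N (lv.Cl ly.places) →+ crossed G N →+ ZMod p :=
  letI : Fintype C.P := Fintype.ofFinite _
  AddMonoidHom.mk'
    (fun e => AddMonoidHom.mk'
      (fun a => pairing C.D hN (P := C.P) C.isCT' (Ext1.map C.e.toAddMonoidHom C.e_mem e) a.1)
      fun a b => pairing_add_right C.D hN (P := C.P) C.isCT' _ a.1 b.1)
    fun e e' => AddMonoidHom.ext fun a => by
      show pairing C.D hN (P := C.P) C.isCT' (Ext1.map C.e.toAddMonoidHom C.e_mem (e + e')) a.1 = _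
      rw [map_add]
      exact pairing_add C.D hN (P := C.P) C.isCT' _ _ a.2

theorem pairC_apply [Fintype C.P] (e : Ext1 G N (lv.Cl ly.places)) (a : crossed G N) :
    C.pairC hN e a = pairing C.D hN C.isCT' (Ext1.map C.e.toAddMonoidHom C.e_mem e) a.1 := by
  refine Eq.trans ?_ (show pairing C.D hN (P := C.P) C.isCT'
    (Ext1.map C.e.toAddMonoidHom C.e_mem e) a.1 = _ from rfl)
  rfl

/-- Traces of the classes pair to zero. -/
theorem pairC_trace (g : Coh.Rel G N →+ lv.Cl ly.places) (a : crossed G N) :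
    C.pairC hN (Ext1.mk ⟨htrace G g, htrace_mem g⟩) a = 0 := by
  letI : Fintype C.P := Fintype.ofFinite _
  rw [C.pairC_apply]
  have h : Ext1.map C.e.toAddMonoidHom C.e_mem (Ext1.mk ⟨htrace G g, htrace_mem g⟩) =
      Ext1.mk ⟨htrace G (C.e.toAddMonoidHom.comp g), htrace_mem _⟩ :=
    congrArg Ext1.mk (Subtype.ext (htrace_comp_left C.e_mem g).symm)
  rw [h]
  exact pairing_trace_classes C.D hN C.isCT' _ a.2

/-- A class induced from a subgroup kills what is trivial there. -/
theorem pairC_cotrace (D : Subgroup G) {f : Coh.Rel G N →+ lv.Cl ly.places}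
    (hf : f ∈ eqHom D (Coh.Rel G N) (lv.Cl ly.places)) (a : crossed G N) (ha : TrivialOn D a.1) :
    C.pairC hN (Ext1.mk ⟨cotrace D f, cotrace_mem D hf⟩) a = 0 := by
  letI : Fintype C.P := Fintype.ofFinite _
  obtain ⟨V, hVD, hV, hidx⟩ := exists_sylow_le p D
  refine eq_zero_of_coprime_nsmul hidx ?_
  rw [← AddMonoidHom.nsmul_apply, ← map_nsmul, ← map_nsmul, C.pairC_apply]
  have hV' : C.e.toAddMonoidHom.comp f ∈ eqHom V (Coh.Rel G N) C.D.classes := fun v y => by
    show C.e (f ((v : G) • y)) = (v : G) • C.e (f y)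
    rw [show f ((v : G) • y) = (v : G) • f y from hf ⟨v, hVD v.2⟩ y, C.e_smul]
  have h : Ext1.map C.e.toAddMonoidHom C.e_mem
      (Ext1.mk (V.relIndex D • ⟨cotrace D f, cotrace_mem D hf⟩)) =
        Ext1.mk ⟨cotrace V (C.e.toAddMonoidHom.comp f), cotrace_mem V hV'⟩ := by
    refine congrArg Ext1.mk (Subtype.ext ?_)
    show C.e.toAddMonoidHom.comp (V.relIndex D • cotrace D f) = cotrace V _
    rw [← cotrace_eq_relIndex_nsmul hVD hf, cotrace_comp_left V C.e_mem]
  rw [h]
  exact pairing_cotrace C.D hN C.isCT' V hV hV' a.2 (TrivialOn.mono hVD ha)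

/-- A crossed homomorphism killed by all the classes is a coboundary. -/
theorem exists_coboundary_of_pairC (a : crossed G N) (h : ∀ e, C.pairC hN e a = 0) :
    ∃ b : N, ∀ x, a.1 x = x • b - b := by
  letI : Fintype C.P := Fintype.ofFinite _
  have hs : ∀ (g : G) (x : C.D.classes),
      C.e.symm.toAddMonoidHom (g • x) = g • C.e.symm.toAddMonoidHom x := fun g x =>
    C.e.injective (by
      rw [C.e_smul]
      show C.e (C.e.symm (g • x)) = g • C.e (C.e.symm x)
      rw [AddEquiv.apply_symm_apply, AddEquiv.apply_symm_apply])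
  refine exists_coboundary_of_pairing C.D hN C.isCT' a.1 a.2 fun e' => ?_
  have h1 := h (Ext1.map C.e.symm.toAddMonoidHom hs e')
  rw [C.pairC_apply, ext1Map_comp] at h1
  have h2 : Ext1.map (C.e.toAddMonoidHom.comp C.e.symm.toAddMonoidHom)
      (comp_mem_eqHom C.e_mem hs) e' = e' := by
    induction e' using Ext1.induction with
    | _ f => exact congrArg Ext1.mk (Subtype.ext (AddMonoidHom.ext fun y =>
        C.e.apply_symm_apply _))
  rwa [h2] at h1

/-- A class killing all crossed homomorphisms is a trace. -/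
theorem exists_trace_of_pairC (e : Ext1 G N (lv.Cl ly.places))
    (h : ∀ a, C.pairC hN e a = 0) :
    ∃ g : Coh.Rel G N →+ lv.Cl ly.places, e = Ext1.mk ⟨htrace G g, htrace_mem g⟩ := by
  letI : Fintype C.P := Fintype.ofFinite _
  have hs : ∀ (g : G) (x : C.D.classes),
      C.e.symm.toAddMonoidHom (g • x) = g • C.e.symm.toAddMonoidHom x := fun g x =>
    C.e.injective (by
      rw [C.e_smul]
      show C.e (C.e.symm (g • x)) = g • C.e (C.e.symm x)
      rw [AddEquiv.apply_symm_apply, AddEquiv.apply_symm_apply])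
  obtain ⟨g, hg⟩ := exists_trace_of_pairing C.D hN C.isCT'
    (Ext1.map C.e.toAddMonoidHom C.e_mem e) fun q hq =>
      (C.pairC_apply hN e ⟨q, hq⟩).symm.trans (h ⟨q, hq⟩)
  refine ⟨C.e.symm.toAddMonoidHom.comp g, ?_⟩
  have h2 : Ext1.map C.e.symm.toAddMonoidHom hs (Ext1.map C.e.toAddMonoidHom C.e_mem e) = e := by
    rw [ext1Map_comp]
    induction e using Ext1.induction with
    | _ f => exact congrArg Ext1.mk (Subtype.ext (AddMonoidHom.ext fun y =>
        C.e.symm_apply_apply _))
  rw [← h2, hg, Ext1.map_mk]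
  exact congrArg Ext1.mk (Subtype.ext (htrace_comp_left hs g).symm)

/-- The classes from `T ∪ ∞` kill what is trivial on the decomposition groups above `T`. -/
theorem pairC_toCl {T : Finset ℕ} (hT : ∀ r ∈ T, r.Prime) (hp2 : p ≠ 2)
    (e : Ext1 G N (lv.LocMod T)) (a : crossed G N)
    (ha : ∀ A : Place, A.Over T → TrivialOn (lv.decGroup A) a.1) :
    C.pairC hN (Ext1.map (lv.toCl T ly.places) (lv.toCl_mem T ly.places) e) a = 0 := by
  classical
  induction e using Ext1.induction with
  | _ f =>
    have hex : ∀ r : T, ∃ A : Place, A.1.LiesOverPrime r := fun r => by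
      obtain ⟨A, hA⟩ := GalCommon.exists_liesOverPrime (hT _ r.2)
      exact ⟨⟨A, r, hT _ r.2, hA⟩, hA⟩
    choose Aof hA using hex
    set j := lv.toCl T ly.places with hj
    have hloc : ∀ r : T, j.comp ((lv.placeProj (Aof r)).comp f.1) ∈
        eqHom (lv.decGroup (Aof r)) (Coh.Rel G N) (lv.Cl ly.places) := fun r =>
      comp_mem_eqHom (fun v x => lv.toCl_mem T ly.places (v : G) x)
        (lv.placeProj_comp_mem (Aof r) f.2)
    obtain ⟨k, hk⟩ := lv.two_nsmul_infinitePart hp2 f.2
    have hfun : 2 • j.comp f.1 =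
        2 • ∑ r : T, cotrace (lv.decGroup (Aof r)) (j.comp ((lv.placeProj (Aof r)).comp f.1)) +
          htrace G (j.comp k) := by
      have hjm : j ∈ eqHom G (lv.LocMod T) (lv.Cl ly.places) := lv.toCl_mem T ly.places
      simp only [cotrace_comp_left _ hjm]
      rw [htrace_comp_left hjm, hk]
      conv_lhs => rw [lv.eq_sum_cotrace hT Aof hA f.2]
      refine AddMonoidHom.ext fun y => ?_
      simp only [AddMonoidHom.nsmul_apply, AddMonoidHom.add_apply, AddMonoidHom.comp_apply,
        AddMonoidHom.finsetSum_apply, map_add, map_sum, map_nsmul, nsmul_add]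
    have h2 : (2 : ℕ).Coprime p :=
      (Nat.coprime_primes Nat.prime_two (Fact.out : p.Prime)).mpr (Ne.symm hp2)
    refine eq_zero_of_coprime_nsmul h2 ?_
    have hmk := mk_nsmul_eq_sum 2
      (⟨j.comp f.1, comp_mem_eqHom (lv.toCl_mem T ly.places) f.2⟩ :
        eqHom G (Coh.Rel G N) (lv.Cl ly.places))
      ⟨htrace G (j.comp k), htrace_mem _⟩
      (fun r : T => ⟨cotrace _ _, cotrace_mem _ (hloc r)⟩) hfun
    rw [← AddMonoidHom.nsmul_apply, ← map_nsmul, Ext1.map_mk, hmk, map_add, AddMonoidHom.add_apply,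
      C.pairC_trace, add_zero, map_nsmul, AddMonoidHom.nsmul_apply, map_sum,
      AddMonoidHom.finsetSum_apply]
    refine (congrArg (2 • ·) (Finset.sum_eq_zero fun r _ => ?_)).trans (nsmul_zero 2)
    exact C.pairC_cotrace hN _ (hloc r) a (ha _ ⟨_, r.2, hT _ r.2, hA r⟩)

end CoverOn

end FLTAgent.PoitouTate
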