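import Fermat.Agent.TW.Idele.Roots
import Fermat.Agent.TW.Idele.PlaceField
import Fermat.Agent.TW.Idele.ClassField.AuxPrime
import Fermat.Agent.LocP.Place
import Fermat.Agent.TW.Idele.ClassField.PlaceNorm

/-!
# Unramified layers of decomposition groups

For subgroups `D' ≤ D` of the decomposition group of a place with the inertia of `D` inside `D'`,
`FrobGen` records a Frobenius power in `D` generating `D` over `D'`.
-/

set_option autoImplicit false
set_option linter.style.haveILetI false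
set_option linter.unusedSectionVars false

noncomputable section

open scoped Pointwise

namespace FLTAgent.PoitouTate

open FLTAgent.TW

local notation "ℚ̄" => AlgebraicClosure ℚ
local notation "Γ" => (AlgebraicClosure ℚ ≃ₐ[ℚ] AlgebraicClosure ℚ)

/-- A power of Frobenius in `D` generating `D` over `D'`. -/
structure FrobGen (A : Place) (D D' : Subgroup Γ) where
  /-- The generator. -/
  s : Γ
  /-- The residue degree of the base. -/
  f : ℕ
  /-- The degree. -/
  d : ℕ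
  f_pos : 0 < f
  d_pos : 0 < d
  mem : s ∈ D
  pow_mem : s ^ d ∈ D'
  min : ∀ j < d, s ^ j ∈ D' → j = 0
  rep : ∀ σ ∈ D, ∃ j < d, (s ^ j)⁻¹ * σ ∈ D'
  frob : ∀ z : ℚ̄, A.1.valuation z ≤ 1 →
    LocP.res A.1 (s z) = LocP.res A.1 z ^ A.char ^ f
  fix_root : ∀ σ ∈ D', ∀ ω : ℚ̄, ω ^ ((A.char ^ f) ^ d - 1) = 1 → σ ω = ω

variable {A : Place} {D D' : Subgroup Γ}

theorem mem_decomposition_of_smul {σ : Γ} (h : σ • A = A) : σ ∈ A.1.decompositionSubgroup ℚ :=
  MulAction.mem_stabilizer_iff.mpr (congrArg Subtype.val h)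

theorem res_frobenius_pow {φ : Γ} (hφ : A.1.IsFrobeniusAt φ A.char) (k : ℕ) {z : ℚ̄}
    (hz : A.1.valuation z ≤ 1) :
    LocP.res A.1 ((φ ^ k) z) = LocP.res A.1 z ^ A.char ^ k := by
  induction k with
  | zero => simp
  | succ k ih =>
    have hk : φ ^ k ∈ A.1.decompositionSubgroup ℚ := _root_.pow_mem hφ.mem_decompositionSubgroup k
    have hzk : A.1.valuation ((φ ^ k) z) ≤ 1 := by rwa [LocP.val_map hk]
    have h1 : A.1.valuation (φ ((φ ^ k) z) - (φ ^ k) z ^ A.char) < 1 := A.1.mem_nonunits_iff.mp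
      ((GalCommon.isFrobeniusAt_iff.mp hφ).2 _ ((A.1.valuation_le_one_iff _).mp hzk))
    rw [← LocP.res_eq_iff (by rwa [LocP.val_map hφ.mem_decompositionSubgroup])
      (by rw [map_pow]; exact pow_le_one₀ zero_le hzk), LocP.res_pow hzk, ih] at h1
    rw [pow_succ' φ k, AlgEquiv.mul_apply, h1, ← pow_mul, ← pow_succ]

theorem frobenius_pow_apply_root {φ : Γ} (hφ : A.1.IsFrobeniusAt φ A.char) (k : ℕ) {M : ℕ}
    (hM : ¬ A.char ∣ M) {ω : ℚ̄} (hω : ω ^ M = 1) : (φ ^ k) ω = ω ^ A.char ^ k := by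
  induction k with
  | zero => simp
  | succ k ih =>
    rw [pow_succ' φ k, AlgEquiv.mul_apply, ih, map_pow,
      GalCommon.frobenius_apply_of_pow_eq_one A.prime_char A.liesOver_char hM hφ hω, ← pow_mul,
      ← pow_succ']

theorem pow_pow_eq_self {M Q : ℕ} (hQ : 1 ≤ Q) (hM : Q - 1 = M) {ω : ℚ̄} (hω : ω ^ M = 1) (c : ℕ) :
    ω ^ Q ^ c = ω := by
  induction c with
  | zero => simp
  | succ c ih =>
    rw [pow_succ, pow_mul, ih]
    conv_lhs => rw [← Nat.sub_add_cancel hQ, hM, pow_succ, hω, one_mul]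

/-- The generator exists. -/
theorem exists_frobGen (hD : ∀ σ ∈ D, σ • A = A) (N : IntermediateField ℚ ℚ̄)
    [FiniteDimensional ℚ N] (hN : ∀ σ ∈ N.fixingSubgroup, σ • A = A → σ ∈ D') (hle : D' ≤ D)
    (hI : ∀ ι ∈ A.1.inertiaSubgroupIn ℚ, ι ∈ D → ι ∈ D') : Nonempty (FrobGen A D D') := by
  classical
  haveI : Fact A.char.Prime := ⟨A.prime_char⟩
  set I := A.1.inertiaSubgroupIn ℚ with hIdef
  obtain ⟨φ, hφ⟩ := GalCommon.exists_isFrobeniusAt A.prime_char A.liesOver_char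
  have hφD := hφ.mem_decompositionSubgroup
  have hdecA : ∀ σ ∈ A.1.decompositionSubgroup ℚ, σ • A = A := fun σ hσ =>
    Subtype.ext (MulAction.mem_stabilizer_iff.mp hσ)
  have hpow : ∃ i, 0 < i ∧ ∃ ι ∈ I, φ ^ i * ι ∈ D := by
    obtain ⟨i, hi, hi'⟩ := exists_pow_mem_fixing N φ
    exact ⟨i, hi, 1, one_mem _, hle (by
      rw [mul_one]; exact hN _ hi' (hdecA _ (_root_.pow_mem hφD i)))⟩
  set f := Nat.find hpow with hfdef
  obtain ⟨hf, ι₀, hι₀, hs⟩ := Nat.find_spec hpow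
  set s := φ ^ f * ι₀ with hsdef
  have hspow : ∀ j, ∃ ι ∈ I, s ^ j = φ ^ (f * j) * ι := by
    intro j
    induction j with
    | zero => exact ⟨1, one_mem _, by simp⟩
    | succ j ih =>
      obtain ⟨ι, hι, h⟩ := ih
      refine ⟨(φ ^ f)⁻¹ * ι * φ ^ f * ι₀, mul_mem ?_ hι₀, ?_⟩
      · have := LocP.conj_mem_inertia (inv_mem (_root_.pow_mem hφD f)) hι
        rwa [inv_inv] at this
      · rw [pow_succ s j, h, hsdef, Nat.mul_succ, pow_add]
        group
  -- every element is a power of `s` modulo `D'`, compatibly with a chosen finite field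
  have hdec : ∀ σ ∈ D, ∀ x : ℚ̄, ∃ j, (s ^ j)⁻¹ * σ ∈ D' ∧ ∃ ι ∈ I, σ x = (φ ^ (f * j) * ι) x := by
    intro σ hσ x
    haveI : FiniteDimensional ℚ (IntermediateField.adjoin ℚ {x}) :=
      IntermediateField.adjoin.finiteDimensional (EllP.qbarIsAlgebraic.isAlgebraic x).isIntegral
    set N' := N ⊔ IntermediateField.adjoin ℚ {x} with hN'
    obtain ⟨i, ι, hι, hx⟩ := LocP.exists_eq_frob_pow_mul A.liesOver_char hφ
      (mem_decomposition_of_smul (hD σ hσ)) N'
    have hn : (φ ^ i * ι)⁻¹ * σ ∈ D' :=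
      hN _ (IntermediateField.fixingSubgroup_le le_sup_left (show _ ∈ N'.fixingSubgroup from
        (IntermediateField.mem_fixingSubgroup_iff _ _).mpr fun y hy => by
          rw [AlgEquiv.mul_apply, hx y hy, ← AlgEquiv.mul_apply, inv_mul_cancel,
            AlgEquiv.one_apply]))
        (hdecA _ (mul_mem (inv_mem (mul_mem (_root_.pow_mem hφD i)
          (LocP.inertia_le_decomposition hι))) (mem_decomposition_of_smul (hD σ hσ))))
    have hiD : φ ^ i * ι ∈ D := by
      have h := mul_mem hσ (inv_mem (hle hn))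
      rwa [mul_inv_rev, inv_inv, mul_inv_cancel_left] at h
    obtain ⟨j, rfl⟩ : f ∣ i := by
      obtain ⟨ι', hι', hj⟩ := hspow (i / f)
      by_contra hnd
      have hrem : i % f ≠ 0 := fun h => hnd (Nat.dvd_of_mod_eq_zero h)
      refine (Nat.find_min hpow (Nat.mod_lt i hf)) ⟨Nat.pos_of_ne_zero hrem,
        (φ ^ (i % f))⁻¹ * ι'⁻¹ * φ ^ (i % f) * ι, ?_, ?_⟩
      · have := LocP.conj_mem_inertia (inv_mem (_root_.pow_mem hφD (i % f))) (inv_mem hι')
        rw [inv_inv] at this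
        exact mul_mem this hι
      · have h := mul_mem (inv_mem (pow_mem hs (i / f))) hiD
        rw [show (φ ^ Nat.find hpow * ι₀) ^ (i / f) = s ^ (i / f) from rfl, hj] at h
        convert h using 1
        conv_rhs => rw [show φ ^ i = φ ^ (f * (i / f)) * φ ^ (i % f) by
          rw [← pow_add, Nat.div_add_mod]]
        simp only [← hfdef]
        group
    obtain ⟨ι', hι', hj⟩ := hspow j
    have hmid : (s ^ j)⁻¹ * (φ ^ (f * j) * ι) ∈ D' := by
      refine hI _ ?_ (mul_mem (inv_mem (pow_mem hs j)) hiD)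
      rw [hj, mul_inv_rev, mul_assoc, inv_mul_cancel_left]
      exact mul_mem (inv_mem hι') hι
    refine ⟨j, ?_, ι, hι, hx x ?_⟩
    · have h := mul_mem hmid hn
      rwa [mul_assoc, mul_inv_cancel_left] at h
    · exact le_sup_right (a := N) (IntermediateField.mem_adjoin_simple_self ℚ x)
  have hdex : ∃ d, 0 < d ∧ s ^ d ∈ D' := by
    obtain ⟨i, hi, hi'⟩ := exists_pow_mem_fixing N s
    exact ⟨i, hi, hN _ hi' (hD _ (pow_mem hs i))⟩
  set d := Nat.find hdex with hddef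
  obtain ⟨hd, hsd⟩ := Nat.find_spec hdex
  have hmin : ∀ j < d, s ^ j ∈ D' → j = 0 := fun j hj h => by
    by_contra h0
    exact Nat.find_min hdex hj ⟨Nat.pos_of_ne_zero h0, h⟩
  have hmod : ∀ j, (s ^ (j % d))⁻¹ * s ^ j ∈ D' := fun j => by
    conv => arg 2; arg 2; rw [← Nat.mod_add_div j d, pow_add, pow_mul]
    rw [inv_mul_cancel_left]
    exact pow_mem hsd _
  refine ⟨⟨s, f, d, hf, hd, hs, hsd, hmin, fun σ hσ => ?_, fun z hz => ?_, fun σ hσ ω hω => ?_⟩⟩
  · obtain ⟨j, hj, -⟩ := hdec σ hσ 0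
    refine ⟨j % d, Nat.mod_lt _ hd, ?_⟩
    have h := mul_mem (hmod j) hj
    rwa [mul_assoc, mul_inv_cancel_left] at h
  · have hz' : A.1.valuation (ι₀ z) ≤ 1 := by
      rwa [LocP.val_map (LocP.inertia_le_decomposition hι₀)]
    rw [AlgEquiv.mul_apply, res_frobenius_pow hφ _ hz']
    congr 1
    rw [LocP.res_eq_iff hz' hz]
    exact LocP.val_map_sub_lt hι₀ hz
  · obtain ⟨j, hj, ι, hι, hx⟩ := hdec σ (hle hσ) ω
    have hjD : s ^ j ∈ D' := by
      have h := mul_mem hσ (inv_mem hj)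
      rwa [mul_inv_rev, inv_inv, mul_inv_cancel_left] at h
    obtain ⟨c, rfl⟩ : d ∣ j := by
      refine Nat.dvd_of_mod_eq_zero (hmin _ (Nat.mod_lt _ hd) ?_)
      have h := mul_mem hjD (inv_mem (hmod j))
      rwa [mul_inv_rev, inv_inv, mul_inv_cancel_left] at h
    set Q := (A.char ^ f) ^ d with hQdef
    have hQ1 : 1 ≤ Q := Nat.one_le_pow _ _ (pow_pos A.prime_char.pos _)
    have hQr : A.char ∣ Q :=
      (dvd_pow_self A.char hf.ne').trans (dvd_pow_self _ hd.ne')
    have hrM : ¬ A.char ∣ Q - 1 := fun h => by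
      have h2 := Nat.dvd_sub hQr h
      rw [show Q - (Q - 1) = 1 by omega] at h2
      exact A.prime_char.one_lt.ne' (Nat.dvd_one.mp h2)
    rw [hx, AlgEquiv.mul_apply, GalCommon.inertia_apply_of_pow_eq_one A.prime_char A.liesOver_char
      hrM hι hω, frobenius_pow_apply_root hφ _ hrM hω, pow_mul, pow_mul, ← hQdef]
    exact pow_pow_eq_self hQ1 rfl hω c

end FLTAgent.PoitouTate
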